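import Fermat.Agent.Jacobian.ConstExt
import Fermat.Agent.FFBasic.CurveOver
import Fermat.Agent.FFBasic.AffineRing
import Fermat.Agent.FFRiemannRoch.LinearSystems

/-!
# Riemann–Roch spaces under extension of the constants, in any characteristic

Extending an algebraically closed field of constants does not change Riemann–Roch spaces
(`spanMap_eq`) nor the genus (`genusFF_eq`), hence `pic0Map` is injective (`pic0Map_injective`).
-/

set_option autoImplicit false

noncomputable section

open AlgebraicCurve Polynomial IntermediateField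
open FLTAgent.FFBasic (IsFunctionField filt mem_filt mem_filt_of_le mem_filt_iff_of_ne)
open FLTAgent.FFRiemannRoch (ell divOf divOf_apply)

namespace FLTAgent.Jacobian.ConstExt

variable {K₀ K F₀ F : Type*} [Field K₀] [Field K] [Field F₀] [Field F]
  [Algebra K₀ K] [Algebra K₀ F₀] [Algebra K F] [Algebra F₀ F] [Algebra K₀ F]
  [IsScalarTower K₀ K F] [IsScalarTower K₀ F₀ F] [IsConstExtension K₀ K F₀ F]

local notation "ι" => algebraMap F₀ F

variable (K₀ K F₀ F) in
/-- The ring generated by the constants and the smaller function field. -/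
def compositeRing : Subalgebra K F := Algebra.adjoin K (Set.range ι)

theorem toSubmodule_compositeRing :
    Subalgebra.toSubmodule (compositeRing (K := K) F₀ F) = Submodule.span K (Set.range ι) := by
  refine Algebra.adjoin_eq_span_of_subset _ ?_
  intro x hx
  refine Submodule.subset_span ?_
  induction hx using Submonoid.closure_induction with
  | mem x hx => exact hx
  | one => exact ⟨1, map_one _⟩
  | mul x y _ _ hx hy =>
    obtain ⟨a, rfl⟩ := hx
    obtain ⟨a', rfl⟩ := hy
    exact ⟨a * a', map_mul _ _ _⟩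

theorem map_mem_compositeRing (u : F₀) : ι u ∈ compositeRing (K := K) F₀ F :=
  Algebra.subset_adjoin ⟨u, rfl⟩

variable [IsFunctionField K₀ F₀] [IsFunctionField K F] [IsAlgClosed K₀] [IsAlgClosed K]

/-- A rational function regular wherever its variable is regular is a polynomial. -/
theorem exists_eq_aeval_of_regular {z t : F} (hz : Transcendental K z) (ht : t ∈ K⟮z⟯)
    (hreg : t ∈ FFBasic.affineRing K z) : ∃ p : K[X], t = aeval z p := by
  obtain ⟨p, q, hpq⟩ := (mem_adjoin_simple_iff K t).mp ht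
  rcases eq_or_ne (aeval z q) 0 with h0 | h0
  · exact ⟨0, by rw [hpq, h0, div_zero, map_zero]⟩
  obtain ⟨p', q', d, hrel, rfl, rfl⟩ : ∃ (p' q' d : K[X]), IsCoprime p' q' ∧
      p = p' * d ∧ q = q' * d := by
    have hq : q ≠ 0 := fun h => h0 (by rw [h, map_zero])
    obtain ⟨p', q', d, hrel, hp', hq'⟩ := UniqueFactorizationMonoid.exists_reduced_factors' p q hq
    exact ⟨p', q', d, hrel.isCoprime, by rw [← hp', mul_comm], by rw [← hq', mul_comm]⟩
  rw [map_mul] at h0
  rw [map_mul, map_mul, mul_div_mul_right _ _ (right_ne_zero_of_mul h0)] at hpq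
  by_cases hdeg : q'.degree = 0
  · refine ⟨C (q'.coeff 0)⁻¹ * p', ?_⟩
    rw [hpq, eq_C_of_degree_eq_zero hdeg, map_mul, aeval_C, aeval_C, coeff_C_zero, map_inv₀,
      div_eq_inv_mul]
  obtain ⟨c, hc⟩ := IsAlgClosed.exists_root q' hdeg
  have hzc : Transcendental K (z - algebraMap K F c) := fun ha => hz (by
    simpa using ha.add (isAlgebraic_algebraMap c))
  obtain ⟨Q, hQ⟩ : ∃ Q : Place K F, 0 < Q.ord (z - algebraMap K F c) := by
    by_contra hne
    push Not at hne
    have := FFBasic.sum_ord_mul_deg_zeros hzc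
    rw [Finset.sum_eq_zero fun v hv => ?_] at this
    · have := IsFunctionField.finiteDimensional_adjoin hzc
      have h := Module.finrank_pos (R := K⟮z - algebraMap K F c⟯) (M := F)
      omega
    · simp only [Set.Finite.mem_toFinset] at hv
      exact absurd hv (not_lt.mpr (hne v))
  have hzQ : z ∈ Q.toValuationSubring := by
    have : z = (z - algebraMap K F c) + algebraMap K F c := by ring
    rw [this]
    exact add_mem (FFBasic.mem_of_ord_nonneg _ hQ.le) (Q.algebraMap_mem' c)
  have hpoly : ∀ r : K[X], aeval z r ∈ Q.toValuationSubring :=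
    FFBasic.aeval_mem Q.algebraMap_mem' hzQ
  have htQ : t ∈ Q.toValuationSubring :=
    (FFBasic.mem_affineRing.mp hreg) Q (FFBasic.ord_nonneg_of_mem _ hzQ)
  obtain ⟨q'', hq''⟩ := dvd_iff_isRoot.mpr hc
  have hzc1 : z - algebraMap K F c ∈ filt Q 1 := mem_filt_of_le hQ
  have hq1 : aeval z q' ∈ filt Q 1 := by
    rw [hq'', map_mul, map_sub, aeval_X, aeval_C]
    simpa using FFBasic.mul_mem_filt hzc1 (FFBasic.mem_filt_zero.mpr (hpoly q''))
  have hp1 : aeval z p' ∈ filt Q 1 := by
    rw [show aeval z p' = aeval z q' * t by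
      rw [hpq, mul_div_cancel₀ _ (left_ne_zero_of_mul h0)]]
    simpa using FFBasic.mul_mem_filt hq1 (FFBasic.mem_filt_zero.mpr htQ)
  obtain ⟨a, b, hab⟩ := hrel
  have h1 := congrArg (aeval z) hab
  rw [map_add, map_mul, map_mul, map_one] at h1
  have h2 : (1 : F) ∈ filt Q 1 := h1 ▸ add_mem
    (by simpa using FFBasic.mul_mem_filt (FFBasic.mem_filt_zero.mpr (hpoly a)) hp1)
    (by simpa using FFBasic.mul_mem_filt (FFBasic.mem_filt_zero.mpr (hpoly b)) hq1)
  have := FFBasic.le_ord_of_mem_filt h2 one_ne_zero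
  rw [Q.ord_one] at this
  omega

/-- The trace of a function without poles at the generic places is rational over the smaller
field. -/
theorem trace_mem_compositeRing {x : F₀} (hx : Transcendental K₀ x) [FiniteDimensional K⟮ι x⟯ F]
    {y : F} (hy : ∀ Q : Place K F, IsGeneric (K := K) F₀ Q → y ∈ Q.toValuationSubring) :
    (Algebra.trace K⟮ι x⟯ F y : F) ∈ compositeRing (K := K) F₀ F := by
  classical
  have hxK := transcendental_map K F hx
  set T : Finset (Place K F) :=
    ((FFBasic.finite_setOf_ord_ne_zero (K := K) y).toFinset).filter fun Q => 0 ≤ Q.ord (ι x)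
  have hT : ∀ Q ∈ T, ∃ d : F₀, d ≠ 0 ∧ ι d * y ∈ Q.toValuationSubring ∧
      ∃ p : K₀[X], d = aeval x p := by
    intro Q hQ
    rcases exists_extPlace_eq_or_isGeneric (K₀ := K₀) (F₀ := F₀) Q with ⟨P, rfl⟩ | hgen
    swap
    · exact ⟨1, one_ne_zero, by rw [map_one, one_mul]; exact hy Q hgen, 1, by rw [map_one]⟩
    rw [Finset.mem_filter, ord_extPlace] at hQ
    have hxP : x ∈ P.toValuationSubring := FFBasic.mem_of_ord_nonneg _ hQ.2
    have hne : x - algebraMap K₀ F₀ (Jacobian.val P x) ≠ 0 := fun h => hx (by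
      rw [sub_eq_zero] at h; rw [h]; exact isAlgebraic_algebraMap _)
    have hpos := Jacobian.ord_sub_val_pos hxP hne
    set N := (-(extPlace K F P).ord y).toNat
    refine ⟨(x - algebraMap K₀ F₀ (Jacobian.val P x)) ^ N, pow_ne_zero _ hne, ?_,
      (X - C (Jacobian.val P x)) ^ N, by simp⟩
    rcases eq_or_ne y 0 with rfl | hy0
    · rw [mul_zero]; exact zero_mem _
    refine FFBasic.mem_of_ord_nonneg _ ?_
    rw [Place.ord_mul _ ((_root_.map_ne_zero _).mpr (pow_ne_zero _ hne)) hy0, map_pow,
      FFBasic.ord_pow, ord_extPlace]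
    have : (N : ℤ) ≤ N * P.ord (x - algebraMap K₀ F₀ (Jacobian.val P x)) :=
      le_mul_of_one_le_right (by positivity) hpos
    omega
  choose! d hd0 hdy p hdp using hT
  set D := ∏ Q ∈ T, d Q
  have hD0 : D ≠ 0 := Finset.prod_ne_zero_iff.mpr hd0
  have hdreg : ∀ (Q : Place K F), 0 ≤ Q.ord (ι x) → ∀ R ∈ T, ι (d R) ∈ Q.toValuationSubring := by
    intro Q hQ R hR
    rw [hdp R hR, ← aeval_algebraMap_apply, aeval_eq_sum_range]
    refine sum_mem fun i _ => ?_
    rw [Algebra.smul_def, IsScalarTower.algebraMap_apply K₀ K F]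
    exact mul_mem (Q.algebraMap_mem' _) (pow_mem (FFBasic.mem_of_ord_nonneg _ hQ) i)
  have haff : ι D * y ∈ FFBasic.affineRing K (ι x) := by
    rw [FFBasic.mem_affineRing]
    intro Q hQ
    by_cases hQT : Q ∈ T
    · rw [show D = d Q * ∏ R ∈ T.erase Q, d R from (Finset.mul_prod_erase T d hQT).symm, map_mul,
        mul_comm (ι (d Q)), mul_assoc, map_prod]
      exact mul_mem (prod_mem fun R hR => hdreg Q hQ R (Finset.mem_of_mem_erase hR)) (hdy Q hQT)
    · rw [map_prod]
      refine mul_mem (prod_mem fun R hR => hdreg Q hQ R hR) ?_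
      refine FFBasic.mem_of_ord_nonneg _ ?_
      by_contra hneg
      exact hQT (Finset.mem_filter.mpr ⟨by simpa using (not_le.mp hneg).ne, hQ⟩)
  have hint := FFBasic.mem_affineRing_iff_isIntegral.mp haff
  set A := Algebra.adjoin K ({ι x} : Set F)
  have hle : A ≤ K⟮ι x⟯.toSubalgebra := algebra_adjoin_le_adjoin K _
  let : Algebra A K⟮ι x⟯ := (Subalgebra.inclusion hle).toRingHom.toAlgebra
  have : IsScalarTower A K⟮ι x⟯ F := IsScalarTower.of_algebraMap_eq fun _ => rfl
  have htr : IsIntegral A (Algebra.trace K⟮ι x⟯ F (ι D * y)) :=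
    Algebra.isIntegral_trace hint
  have htr' := htr.map (IsScalarTower.toAlgHom A K⟮ι x⟯ F)
  rw [← FFBasic.mem_affineRing_iff_isIntegral] at htr'
  obtain ⟨P, hP⟩ := exists_eq_aeval_of_regular hxK (Algebra.trace K⟮ι x⟯ F (ι D * y)).2 htr'
  obtain ⟨e, he⟩ : ∃ e : K⟮ι x⟯, (e : F) = ι D := by
    refine ⟨⟨ι D, ?_⟩, rfl⟩
    rw [map_prod]
    refine prod_mem fun R hR => ?_
    rw [hdp R hR, ← aeval_algebraMap_apply, ← aeval_map_algebraMap K]
    exact FFBasic.aeval_mem_adjoin_simple _ _
  have hmul : ι D * (Algebra.trace K⟮ι x⟯ F y : F) = aeval (ι x) P := by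
    rw [← hP]
    show _ = ((Algebra.trace K⟮ι x⟯ F (ι D * y)) : F)
    rw [show ι D * y = e • y by rw [Algebra.smul_def, ← he]; rfl, map_smul, smul_eq_mul, ← he]
    rfl
  rw [show (Algebra.trace K⟮ι x⟯ F y : F) = ι D⁻¹ * aeval (ι x) P by
    rw [← hmul, ← mul_assoc, ← map_mul, inv_mul_cancel₀ hD0, map_one, one_mul]]
  refine mul_mem (map_mem_compositeRing _) ?_
  have hxm : ι x ∈ compositeRing (K := K) F₀ F := map_mem_compositeRing x
  exact Algebra.adjoin_le (Set.singleton_subset_iff.mpr hxm)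
    (Polynomial.aeval_mem_adjoin_singleton K (ι x))

variable (K₀) in
include K₀ in
/-- A function without poles at the generic places comes from the tensor product. -/
theorem mem_compositeRing_of_generic {f : F}
    (hf : ∀ Q : Place K F, IsGeneric (K := K) F₀ Q → f ∈ Q.toValuationSubring) :
    f ∈ compositeRing (K := K) F₀ F := by
  classical
  obtain ⟨x, hx, hsep⟩ := FFBasic.exists_separating (K := K₀) (F := F₀)
  have := IsFunctionField.finiteDimensional_adjoin hx
  obtain ⟨hfd, hrank⟩ := finrank_adjoin_map K F hx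
  set b := Module.finBasis K₀⟮x⟯ F₀
  let σ : K₀⟮x⟯ → K⟮ι x⟯ := fun r => ⟨ι r, map_mem_adjoin_simple K F x r⟩
  have hspan := top_le_span_map_basis K F b
  let B : Module.Basis (Fin (Module.finrank K₀⟮x⟯ F₀)) K⟮ι x⟯ F :=
    basisOfTopLeSpanOfCardEqFinrank _ hspan (by rw [Fintype.card_fin, hrank])
  have hB : ∀ i, B i = ι (b i) := fun i => by simp [B]
  have htrace : ∀ u : F₀, Algebra.trace K⟮ι x⟯ F (ι u) = σ (Algebra.trace K₀⟮x⟯ F₀ u) := by
    intro u
    rw [Algebra.trace_eq_matrix_trace B, Algebra.trace_eq_matrix_trace b,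
      Matrix.trace, Matrix.trace]
    refine Subtype.ext ?_
    show _ = ι ((∑ i, (Algebra.leftMulMatrix b u).diag i : K₀⟮x⟯) : F₀)
    rw [AddSubmonoidClass.coe_finsetSum, AddSubmonoidClass.coe_finsetSum, map_sum]
    refine Finset.sum_congr rfl fun i _ => ?_
    rw [Matrix.diag_apply, Matrix.diag_apply, Algebra.leftMulMatrix_eq_repr_mul,
      Algebra.leftMulMatrix_eq_repr_mul]
    have hrep : B.repr (ι u * B i) = Finsupp.equivFunOnFinite.symm fun j =>
      σ (b.repr (u * b i) j) := by
      apply B.repr.symm.injective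
      rw [LinearEquiv.symm_apply_apply, Module.Basis.repr_symm_apply,
        Finsupp.linearCombination_apply,
        Finsupp.sum_fintype _ _ (fun i => zero_smul _ (B i)), hB, ← map_mul]
      conv_lhs => rw [← b.sum_repr (u * b i), map_sum]
      refine Finset.sum_congr rfl fun j _ => ?_
      rw [hB]
      rw [IntermediateField.smul_def, IntermediateField.smul_def, smul_eq_mul, smul_eq_mul, map_mul]
      rfl
    rw [hrep]
    rfl
  set T := Algebra.traceMatrix K₀⟮x⟯ b
  have hdet : T.det ≠ 0 := by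
    simpa only [T, Algebra.traceMatrix_of_basis] using det_traceForm_ne_zero b
  have hTB : ∀ j, Algebra.trace K⟮ι x⟯ F (f * B j) = ∑ i, B.repr f i * σ (T i j) := by
    intro j
    conv_lhs => rw [← B.sum_repr f, Finset.sum_mul, map_sum]
    refine Finset.sum_congr rfl fun i _ => ?_
    rw [smul_mul_assoc, map_smul, smul_eq_mul, hB, hB, ← map_mul, htrace]
    rfl
  have hgood : ∀ j, (Algebra.trace K⟮ι x⟯ F (f * B j) : F) ∈ compositeRing (K := K) F₀ F := by
    intro j
    refine trace_mem_compositeRing hx fun Q hQ => mul_mem (hf Q hQ) ?_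
    rw [hB]
    exact FFBasic.mem_of_ord_nonneg _ (hQ (b j)).ge
  have hcoef : ∀ k, (B.repr f k : F) =
      ∑ j, (Algebra.trace K⟮ι x⟯ F (f * B j) : F) * ι (T⁻¹ j k : F₀) := by
    intro k
    have h1 : ∀ i, ∑ j, ι (T i j : F₀) * ι (T⁻¹ j k : F₀) = if i = k then 1 else 0 := by
      intro i
      have := congrArg (fun r : K₀⟮x⟯ => ι (r : F₀))
        (congrFun (congrFun (Matrix.mul_nonsing_inv T (Ne.isUnit hdet)) i) k)
      simp only [Matrix.mul_apply, Matrix.one_apply, AddSubmonoidClass.coe_finsetSum, map_sum,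
        MulMemClass.coe_mul, map_mul] at this
      rw [this]
      split_ifs <;> simp
    simp only [hTB, AddSubmonoidClass.coe_finsetSum, MulMemClass.coe_mul, Finset.sum_mul]
    rw [Finset.sum_comm]
    simp only [σ, mul_assoc, ← Finset.mul_sum, h1, mul_ite, mul_one, mul_zero, Finset.sum_ite_eq',
      Finset.mem_univ, if_true]
  rw [← B.sum_repr f]
  refine sum_mem fun k _ => ?_
  rw [IntermediateField.smul_def, smul_eq_mul, hB, hcoef]
  exact mul_mem (sum_mem fun j _ => mul_mem (hgood j) (map_mem_compositeRing _))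
    (map_mem_compositeRing _)

variable (K F) in
/-- `L(D)` after extension of constants is spanned by `L(D)`. -/
theorem spanMap_eq (D : Divisor K₀ F₀) :
    Submodule.span K (ι '' (riemannRochSpace D : Set F₀)) = riemannRochSpace (mapDiv K F D) := by
  classical
  refine le_antisymm (Submodule.span_le.mpr ?_) fun f hf => ?_
  · rintro _ ⟨u, hu, rfl⟩
    refine mem_riemannRochSpace_iff.2 fun Q => ?_
    rcases exists_extPlace_eq_or_isGeneric (K₀ := K₀) (F₀ := F₀) Q with ⟨P, rfl⟩ | hQ
    · rw [mapDiv_apply_extPlace, ord_extPlace]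
      exact (mem_riemannRochSpace_iff.1 hu P).imp (fun h => by rw [h, map_zero]) id
    · right
      rw [mapDiv_apply_of_isGeneric _ hQ, hQ u, neg_zero]
  have hgen : f ∈ compositeRing (K := K) F₀ F := mem_compositeRing_of_generic K₀ fun Q hQ => by
    rcases mem_riemannRochSpace_iff.1 hf Q with h | h
    · rw [h]; exact zero_mem _
    · rw [mapDiv_apply_of_isGeneric _ hQ, neg_zero] at h
      exact FFBasic.mem_of_ord_nonneg _ h
  rw [← Subalgebra.mem_toSubmodule, toSubmodule_compositeRing] at hgen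
  refine mem_span_riemannRochSpace hgen fun P => ?_
  rcases (mem_riemannRochSpace_iff.1 hf) (extPlace K F P) with h | h
  · rw [h]; exact zero_mem _
  · rw [mapDiv_apply_extPlace] at h
    exact mem_filt_of_le h

variable (K F) in
theorem ell_mapDiv (D : Divisor K₀ F₀) : ell K F (mapDiv K F D) = ell K₀ F₀ D := by
  rw [ell, ← spanMap_eq, finrank_span_map]
  rfl

variable (K₀ K F₀ F) in
/-- The genus does not change. -/
theorem genusFF_eq : genusFF K F = genusFF K₀ F₀ := by
  obtain ⟨P⟩ := FFBasic.nonempty_place (K := K₀) (F := F₀)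
  set n : ℤ := 2 * (genusFF K₀ F₀ : ℤ) + 2 * genusFF K F
  set D : Divisor K₀ F₀ := Finsupp.single P n
  have hdeg : Divisor.degree D = n := by
    simp [D, Divisor.degree_single, FFBasic.place_deg_eq_one]
  have h0 := FFRiemannRoch.ell_eq_of_lt (D := D) (by rw [hdeg]; omega)
  have h1 := FFRiemannRoch.ell_eq_of_lt (D := mapDiv K F D) (by rw [degree_mapDiv, hdeg]; omega)
  rw [degree_mapDiv, ell_mapDiv] at h1
  omega

/-- Classes are not lost. -/
theorem pic0Map_injective : Function.Injective (pic0Map (K₀ := K₀) (F₀ := F₀) K F) := by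
  rw [injective_iff_map_eq_zero]
  intro x hx
  obtain ⟨⟨D, hD⟩, rfl⟩ := Pic0.mk_surjective x
  rw [pic0Map_mk, Pic0.mk, QuotientAddGroup.eq_zero_iff, AddSubgroup.mem_addSubgroupOf] at hx
  rw [Divisor.mem_degZero] at hD
  rw [Pic0.mk, QuotientAddGroup.eq_zero_iff, AddSubgroup.mem_addSubgroupOf,
    FFRiemannRoch.mem_principal_iff_ell_pos hD, ← ell_mapDiv (K := K) (F := F),
    ← FFRiemannRoch.mem_principal_iff_ell_pos (by rw [degree_mapDiv, hD])]
  exact hx

end FLTAgent.Jacobian.ConstExt
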