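import Fermat.Agent.Jacobian.ConstExt
import Mathlib.RingTheory.Jacobson.Ring
import Mathlib.RingTheory.TensorProduct.Free
import Mathlib.RingTheory.Flat.Basic

/-!
# Existence of extensions of constants

Over an algebraically closed `K₀` the ring `K ⊗ F₀` is a domain (`isDomain_tensorProduct`);
its fraction field is an extension of constants of a function field `F₀` (`exists_constExt`).
-/

set_option autoImplicit false

noncomputable section

open AlgebraicCurve TensorProduct
open FLTAgent.FFBasic (IsFunctionField)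

namespace FLTAgent.Jacobian

namespace ConstExt

/-- A finitely generated subalgebra of a field has a point in an algebraically closed base
field. -/
theorem exists_algHom_base {K₀ K : Type*} [Field K₀] [Field K] [Algebra K₀ K] [IsAlgClosed K₀]
    {A : Subalgebra K₀ K} (hA : A.FG) : Nonempty (A →ₐ[K₀] K₀) := by
  have : Algebra.FiniteType K₀ A := (Subalgebra.fg_iff_finiteType A).mp hA
  obtain ⟨m, hm⟩ := Ideal.exists_maximal A
  let : Field (A ⧸ m) := Ideal.Quotient.field m
  have : Algebra.FiniteType K₀ (A ⧸ m) :=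
    Algebra.FiniteType.of_surjective (Ideal.Quotient.mkₐ K₀ m) (Ideal.Quotient.mkₐ_surjective K₀ m)
  have := finite_of_finite_type_of_isJacobsonRing K₀ (A ⧸ m)
  have hbij : Function.Bijective (algebraMap K₀ (A ⧸ m)) :=
    IsAlgClosed.algebraMap_bijective_of_isIntegral
  exact ⟨((AlgEquiv.ofBijective (Algebra.ofId K₀ (A ⧸ m)) hbij).symm.toAlgHom).comp
    (Ideal.Quotient.mkₐ K₀ m)⟩

/-- Over an algebraically closed field the tensor product of two field extensions is a domain. -/
theorem isDomain_tensorProduct (K₀ K F₀ : Type*) [Field K₀] [Field K] [Field F₀] [Algebra K₀ K]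
    [Algebra K₀ F₀] [IsAlgClosed K₀] : IsDomain (K ⊗[K₀] F₀) := by
  classical
  set b := Module.Free.chooseBasis K₀ F₀
  set B := b.baseChange K
  have : Nontrivial (K ⊗[K₀] F₀) :=
    ⟨⟨B b.index_nonempty.some, 0, B.ne_zero _⟩⟩
  refine @NoZeroDivisors.to_isDomain _ _ ‹_› ⟨fun {p q} hpq => ?_⟩
  by_contra! hne
  obtain ⟨i₀, hi₀⟩ : ∃ i, B.repr p i ≠ 0 := by
    by_contra! h
    exact hne.1 (B.repr.map_eq_zero_iff.mp (Finsupp.ext h))
  obtain ⟨j₀, hj₀⟩ : ∃ i, B.repr q i ≠ 0 := by
    by_contra! h
    exact hne.2 (B.repr.map_eq_zero_iff.mp (Finsupp.ext h))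
  set c := B.repr p i₀ * B.repr q j₀
  set S : Finset K := insert c⁻¹
    ((B.repr p).support.image (B.repr p) ∪ (B.repr q).support.image (B.repr q))
  set A : Subalgebra K₀ K := Algebra.adjoin K₀ (S : Set K)
  obtain ⟨φ⟩ := exists_algHom_base (A := A) (Subalgebra.fg_adjoin_finset S)
  have hmem : ∀ x ∈ S, x ∈ A := fun x hx => Algebra.subset_adjoin hx
  have hp : ∀ i, B.repr p i ∈ A := fun i => by
    by_cases hi : i ∈ (B.repr p).support
    · exact hmem _
        (Finset.mem_insert_of_mem (Finset.mem_union_left _ (Finset.mem_image_of_mem _ hi)))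
    · rw [Finsupp.notMem_support_iff.mp hi]; exact zero_mem _
  have hq : ∀ i, B.repr q i ∈ A := fun i => by
    by_cases hi : i ∈ (B.repr q).support
    · exact hmem _
        (Finset.mem_insert_of_mem (Finset.mem_union_right _ (Finset.mem_image_of_mem _ hi)))
    · rw [Finsupp.notMem_support_iff.mp hi]; exact zero_mem _
  -- the models over `A`
  set incl : A ⊗[K₀] F₀ →ₐ[K₀] K ⊗[K₀] F₀ :=
    Algebra.TensorProduct.map A.val (AlgHom.id K₀ F₀)
  have hincl : Function.Injective incl := by
    have h := Module.Flat.rTensor_preserves_injective_linearMap (M := F₀) A.val.toLinearMap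
      Subtype.val_injective
    exact h
  set P : A ⊗[K₀] F₀ := ∑ i ∈ (B.repr p).support, (⟨B.repr p i, hp i⟩ : A) ⊗ₜ b i
  set Q : A ⊗[K₀] F₀ := ∑ i ∈ (B.repr q).support, (⟨B.repr q i, hq i⟩ : A) ⊗ₜ b i
  have hterm : ∀ (x : K) (i), x ⊗ₜ[K₀] b i = x • B i := fun x i => by
    rw [Module.Basis.baseChange_apply, TensorProduct.smul_tmul', smul_eq_mul, mul_one]
  have hP : incl P = p := by
    conv_rhs => rw [← B.linearCombination_repr p, Finsupp.linearCombination_apply, Finsupp.sum]
    rw [map_sum]
    exact Finset.sum_congr rfl fun i _ => by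
      rw [Algebra.TensorProduct.map_tmul]; exact hterm _ i
  have hQ : incl Q = q := by
    conv_rhs => rw [← B.linearCombination_repr q, Finsupp.linearCombination_apply, Finsupp.sum]
    rw [map_sum]
    exact Finset.sum_congr rfl fun i _ => by
      rw [Algebra.TensorProduct.map_tmul]; exact hterm _ i
  have hPQ : P * Q = 0 := hincl (by rw [map_mul, hP, hQ, hpq, map_zero])
  -- specialise
  set Φ : A ⊗[K₀] F₀ →ₐ[K₀] F₀ :=
    Algebra.TensorProduct.lift ((Algebra.ofId K₀ F₀).comp φ) (AlgHom.id K₀ F₀)
      fun _ _ => Commute.all _ _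
  have key : ∀ (r : K ⊗[K₀] F₀) (hr : ∀ i, B.repr r i ∈ A) (k),
      φ ⟨B.repr r k, hr k⟩ ≠ 0 →
      Φ (∑ i ∈ (B.repr r).support, (⟨B.repr r i, hr i⟩ : A) ⊗ₜ b i) ≠ 0 := by
    intro r hr k hk h
    rw [map_sum] at h
    have h' : ∑ i ∈ (B.repr r).support, φ ⟨B.repr r i, hr i⟩ • b i = 0 := by
      rw [← h]
      exact Finset.sum_congr rfl fun i _ => by
        rw [Algebra.TensorProduct.lift_tmul, Algebra.smul_def]; rfl
    refine hk ?_
    by_cases hks : k ∈ (B.repr r).support
    · exact linearIndependent_iff'.mp b.linearIndependent _ _ h' k hks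
    · rw [show (⟨B.repr r k, hr k⟩ : A) = 0 from Subtype.ext (Finsupp.notMem_support_iff.mp hks),
        map_zero]
  have hc : φ ⟨B.repr p i₀, hp i₀⟩ * φ ⟨B.repr q j₀, hq j₀⟩ ≠ 0 := by
    intro h
    have h1 : (⟨B.repr p i₀, hp i₀⟩ : A) * ⟨B.repr q j₀, hq j₀⟩
        * ⟨c⁻¹, hmem _ (Finset.mem_insert_self _ _)⟩ = 1 :=
      Subtype.ext (mul_inv_cancel₀ (mul_ne_zero hi₀ hj₀))
    have h2 := congrArg φ h1
    rw [map_mul, map_mul, h, zero_mul, map_one] at h2
    exact zero_ne_one h2
  have h1 := key p hp i₀ (left_ne_zero_of_mul hc)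
  have h2 := key q hq j₀ (right_ne_zero_of_mul hc)
  exact mul_ne_zero h1 h2 (by rw [← map_mul]; show Φ (P * Q) = 0; rw [hPQ, map_zero])

universe u v

/-- Existence of the extension of constants. -/
theorem exists_constExt (K₀ : Type*) (K : Type u) (F₀ : Type v) [Field K₀] [Field K] [Field F₀]
    [Algebra K₀ K] [Algebra K₀ F₀] [IsAlgClosed K₀] [IsFunctionField K₀ F₀] :
    ∃ (F : Type (max u v)) (_ : Field F) (_ : Algebra K F) (_ : Algebra F₀ F) (_ : Algebra K₀ F)
      (_ : IsScalarTower K₀ K F) (_ : IsScalarTower K₀ F₀ F),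
      IsConstExtension K₀ K F₀ F ∧ IsFunctionField K F := by
  classical
  have := isDomain_tensorProduct K₀ K F₀
  let T := K ⊗[K₀] F₀
  let F := FractionRing T
  let r : F₀ →ₐ[K₀] T := Algebra.TensorProduct.includeRight
  let : Algebra F₀ F := ((algebraMap T F).comp r.toRingHom).toAlgebra
  have : IsScalarTower K₀ F₀ F := IsScalarTower.of_algebraMap_eq fun x => by
    rw [IsScalarTower.algebraMap_apply K₀ T F]
    show _ = algebraMap T F (r (algebraMap K₀ F₀ x))
    rw [r.commutes]
  have hconst : IsConstExtension K₀ K F₀ F := by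
    refine ⟨fun {n} u hu => ?_, ?_⟩
    · have hB := (((Module.Basis.sumExtend hu).baseChange K).linearIndependent.comp Sum.inl
        Sum.inl_injective).map' (IsScalarTower.toAlgHom K T F).toLinearMap
          (LinearMap.ker_eq_bot.mpr (IsFractionRing.injective T F))
      rw [show (fun i => algebraMap F₀ F (u i)) = (⇑(IsScalarTower.toAlgHom K T F).toLinearMap ∘
        ⇑(Module.Basis.baseChange K (Module.Basis.sumExtend hu)) ∘ Sum.inl) from ?_]
      · exact hB
      funext i
      simp [Module.Basis.sumExtend, RingHom.algebraMap_toAlgebra, r]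
      rfl
    · refine eq_top_iff.mpr fun z _ => ?_
      obtain ⟨x, y, -, rfl⟩ := IsFractionRing.div_surjective (A := T) z
      have hT : ∀ x : T,
          algebraMap T F x ∈ IntermediateField.adjoin K (Set.range (algebraMap F₀ F)) := by
        intro x
        induction x using TensorProduct.induction_on with
        | zero => rw [map_zero]; exact zero_mem _
        | add a b ha hb => rw [map_add]; exact add_mem ha hb
        | tmul c u =>
          have : c ⊗ₜ[K₀] u = algebraMap K T c * r u := by
            simp [r, T, Algebra.TensorProduct.algebraMap_apply]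
          rw [this, map_mul, ← IsScalarTower.algebraMap_apply]
          exact mul_mem (IntermediateField.algebraMap_mem _ c)
            (IntermediateField.subset_adjoin _ _ ⟨u, rfl⟩)
      exact div_mem (hT x) (hT y)
  exact ⟨F, inferInstance, inferInstance, inferInstance, inferInstance,
    inferInstance, inferInstance,
    hconst, isFunctionField_of_constExt (K₀ := K₀) (F₀ := F₀) K F⟩

end ConstExt

end FLTAgent.Jacobian
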