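import Fermat.Agent.Jacobian.ConstExt

/-!
# Extending the constants: automorphisms

An automorphism of `K` over `K₀` extends to `F` fixing `F₀` (`exists_semilinear`) and acts on
places (`placeMap`). A finite set of places stable under all of them has no generic member
(`exists_extPlace_eq_of_finite_stable`).
-/

set_option autoImplicit false
set_option linter.unusedSectionVars false

noncomputable section

open AlgebraicCurve TensorProduct
open FLTAgent.FFBasic (IsFunctionField)

namespace FLTAgent.Jacobian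

namespace ConstExt

/-- An element outside an algebraically closed subfield is transcendental over it. -/
theorem mem_range_of_isAlgebraic {K₀ K : Type*} [Field K₀] [Field K] [Algebra K₀ K]
    [IsAlgClosed K₀] {a : K} (ha : IsAlgebraic K₀ a) : a ∈ Set.range (algebraMap K₀ K) :=
  minpoly.mem_range_of_degree_eq_one K₀ a
    (IsAlgClosed.degree_eq_one_of_irreducible K₀ (minpoly.irreducible ha.isIntegral))

/-- A transcendental element can be translated by an automorphism. -/
theorem exists_algEquiv_add {K₀ K : Type*} [Field K₀] [Field K] [Algebra K₀ K] [IsAlgClosed K]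
    {a : K} (ha : Transcendental K₀ a) (k : K₀) :
    ∃ σ : K ≃ₐ[K₀] K, σ a = a + algebraMap K₀ K k := by
  classical
  have hs : AlgebraicIndepOn K₀ id ({a} : Set K) := algebraicIndependent_unique_type_iff.mpr ha
  obtain ⟨s, has, hs'⟩ := exists_isTranscendenceBasis_superset hs
  set v : s → K := Subtype.val
  set A := Algebra.adjoin K₀ (Set.range v)
  set i₀ : s := ⟨a, has rfl⟩
  let shift : MvPolynomial s K₀ ≃ₐ[K₀] MvPolynomial s K₀ := AlgEquiv.ofAlgHom
    (MvPolynomial.aeval fun i => MvPolynomial.X i + if i = i₀ then MvPolynomial.C k else 0)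
    (MvPolynomial.aeval fun i => MvPolynomial.X i - if i = i₀ then MvPolynomial.C k else 0)
    (MvPolynomial.algHom_ext fun i => by by_cases h : i = i₀ <;> simp [h])
    (MvPolynomial.algHom_ext fun i => by by_cases h : i = i₀ <;> simp [h])
  let φ : A ≃ₐ[K₀] A := (hs'.1.aevalEquiv.symm.trans shift).trans hs'.1.aevalEquiv
  have : IsAlgClosure A K := ⟨inferInstance, hs'.isAlgebraic⟩
  let σ : K ≃+* K := IsAlgClosure.equivOfEquiv K K φ.toRingEquiv
  have hσ : ∀ x : A, σ x = (φ x : K) := fun x =>
    IsAlgClosure.equivOfEquiv_algebraMap K K φ.toRingEquiv x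
  refine ⟨AlgEquiv.ofRingEquiv (f := σ) fun c => ?_, ?_⟩
  · have h := hσ (algebraMap K₀ A c)
    rw [AlgEquiv.commutes] at h
    exact h
  · have hX : hs'.1.aevalEquiv.symm ⟨a, Algebra.subset_adjoin ⟨i₀, rfl⟩⟩ = MvPolynomial.X i₀ := by
      rw [AlgEquiv.symm_apply_eq]
      exact Subtype.ext (by simp [v, i₀])
    refine (hσ ⟨a, Algebra.subset_adjoin ⟨i₀, rfl⟩⟩).trans ?_
    simp only [φ, AlgEquiv.trans_apply, hX, shift, AlgEquiv.ofAlgHom_apply, MvPolynomial.aeval_X,
      if_pos]
    rw [map_add, Subalgebra.coe_add, AlgebraicIndependent.aevalEquiv_apply_coe,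
      AlgebraicIndependent.aevalEquiv_apply_coe, MvPolynomial.aeval_X, MvPolynomial.aeval_C]

variable {K₀ K F₀ F : Type*} [Field K₀] [Field K] [Field F₀] [Field F]
  [Algebra K₀ K] [Algebra K₀ F₀] [Algebra K F] [Algebra F₀ F] [Algebra K₀ F]
  [IsScalarTower K₀ K F] [IsScalarTower K₀ F₀ F] [IsConstExtension K₀ K F₀ F]

local notation "ι" => algebraMap F₀ F

variable (K₀ K F₀ F) in
/-- The canonical map from the tensor product. -/
def tensorHom : K ⊗[K₀] F₀ →ₐ[K] F :=
  Algebra.TensorProduct.lift (Algebra.ofId K F) (IsScalarTower.toAlgHom K₀ F₀ F)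
    fun _ _ => Commute.all _ _

theorem tensorHom_tmul (c : K) (u : F₀) :
    tensorHom K₀ K F₀ F (c ⊗ₜ u) = algebraMap K F c * ι u := by
  simp [tensorHom]

theorem tensorHom_injective : Function.Injective (tensorHom K₀ K F₀ F) := by
  set b := Module.Free.chooseBasis K₀ F₀
  have hi := linearIndependent_map (K := K) (F := F) b.linearIndependent
  have hcomp : (tensorHom K₀ K F₀ F).toLinearMap
      = Finsupp.linearCombination K (fun i => ι (b i)) ∘ₗ (b.baseChange K).repr.toLinearMap :=
    (b.baseChange K).ext fun i => by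
      rw [LinearMap.comp_apply, LinearEquiv.coe_toLinearMap, Module.Basis.repr_self,
        Finsupp.linearCombination_single, one_smul, AlgHom.toLinearMap_apply,
        Module.Basis.baseChange_apply, tensorHom_tmul, map_one, one_mul]
  intro x y h
  exact (b.baseChange K).repr.injective (hi ((LinearMap.congr_fun hcomp x).symm.trans
    (h.trans (LinearMap.congr_fun hcomp y))))

theorem exists_div_tensorHom (z : F) :
    ∃ x y, z = tensorHom K₀ K F₀ F x / tensorHom K₀ K F₀ F y := by
  have hz : z ∈ IntermediateField.adjoin K (Set.range ι) := by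
    rw [IsConstExtension.adjoin_eq_top (K₀ := K₀)]; exact IntermediateField.mem_top
  obtain ⟨r, hr, s, hs, rfl⟩ := IntermediateField.mem_adjoin_iff_div.mp hz
  have hle : Algebra.adjoin K (Set.range ι) ≤ (tensorHom K₀ K F₀ F).range :=
    Algebra.adjoin_le (by
      rintro _ ⟨u, rfl⟩
      refine ⟨1 ⊗ₜ u, ?_⟩
      show tensorHom K₀ K F₀ F (1 ⊗ₜ u) = _
      rw [tensorHom_tmul, map_one, one_mul])
  obtain ⟨x, rfl⟩ := hle hr
  obtain ⟨y, rfl⟩ := hle hs
  exact ⟨x, y, rfl⟩

variable (F₀ F) in
/-- An automorphism of the constants acts on `F` fixing `F₀`. -/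
theorem exists_semilinear (σ : K ≃ₐ[K₀] K) :
    ∃ S : F ≃+* F, (∀ u, S (ι u) = ι u) ∧
      ∀ c, S (algebraMap K F c) = algebraMap K F (σ c) := by
  let : Algebra (K ⊗[K₀] F₀) F := (tensorHom K₀ K F₀ F).toRingHom.toAlgebra
  have : FaithfulSMul (K ⊗[K₀] F₀) F :=
    (faithfulSMul_iff_algebraMap_injective _ _).mpr tensorHom_injective
  have : IsFractionRing (K ⊗[K₀] F₀) F := IsFractionRing.of_field _ _ exists_div_tensorHom
  let e : K ⊗[K₀] F₀ ≃ₐ[K₀] K ⊗[K₀] F₀ :=
    Algebra.TensorProduct.congr σ (AlgEquiv.refl : F₀ ≃ₐ[K₀] F₀)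
  refine ⟨IsFractionRing.ringEquivOfRingEquiv e.toRingEquiv, fun u => ?_, fun c => ?_⟩
  · have h := IsFractionRing.ringEquivOfRingEquiv_algebraMap (K := F) (L := F) e.toRingEquiv
      ((1 : K) ⊗ₜ[K₀] u)
    simpa [e, RingHom.algebraMap_toAlgebra, tensorHom_tmul] using h
  · have h := IsFractionRing.ringEquivOfRingEquiv_algebraMap (K := F) (L := F) e.toRingEquiv
      (c ⊗ₜ[K₀] (1 : F₀))
    simpa [e, RingHom.algebraMap_toAlgebra, tensorHom_tmul] using h

section Places

variable [IsFunctionField K F] (S : F ≃+* F) {σ : K ≃ₐ[K₀] K}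
  (hS : ∀ c, S (algebraMap K F c) = algebraMap K F (σ c))

/-- The image of a place. -/
def placeMap (Q : Place K F) : Place K F :=
  FFBasic.placeOfValuationSubring (Q.toValuationSubring.comap S.symm.toRingHom)
    (fun a => by
      rw [ValuationSubring.mem_comap]
      have : S.symm (algebraMap K F a) = algebraMap K F (σ.symm a) := by
        rw [RingEquiv.symm_apply_eq, hS, σ.apply_symm_apply]
      show S.symm (algebraMap K F a) ∈ _
      rw [this]
      exact Q.algebraMap_mem' _)
    (fun h => Q.ne_top' (by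
      refine SetLike.ext fun x => ⟨fun _ => ValuationSubring.mem_top x, fun _ => ?_⟩
      have : S x ∈ Q.toValuationSubring.comap S.symm.toRingHom := by
        rw [h]; exact ValuationSubring.mem_top _
      simpa [ValuationSubring.mem_comap] using this))

theorem mem_placeMap {Q : Place K F} {f : F} :
    S f ∈ (placeMap S hS Q).toValuationSubring ↔ f ∈ Q.toValuationSubring := by
  show S.symm (S f) ∈ Q.toValuationSubring ↔ _
  rw [S.symm_apply_apply]

theorem ord_placeMap (Q : Place K F) (f : F) : (placeMap S hS Q).ord (S f) = Q.ord f := by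
  rcases eq_or_ne f 0 with rfl | hf
  · simp
  obtain ⟨t, -, ht⟩ := FFBasic.exists_ord_eq Q 1
  have key : ∀ g : F, g ≠ 0 →
      (placeMap S hS Q).ord (S g) = Q.ord g * (placeMap S hS Q).ord (S t) := fun g hg =>
    ord_eq_mul_of_map (S : F →+* F) Q _ (fun u hu => (mem_placeMap S hS).mpr hu) ht hg
  set e := (placeMap S hS Q).ord (S t)
  have he : 0 ≤ e := FFBasic.ord_nonneg_of_mem _
    ((mem_placeMap S hS).mpr (FFBasic.mem_of_ord_nonneg _ (by omega)))
  obtain ⟨g, hg0, hg⟩ := FFBasic.exists_ord_eq (placeMap S hS Q) 1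
  have := key (S.symm g) (by simpa using hg0)
  rw [S.apply_symm_apply, hg] at this
  have he1 : e = 1 := Int.eq_one_of_dvd_one he ⟨Q.ord (S.symm g), by rw [this, mul_comm]⟩
  rw [key f hf, he1, mul_one]

theorem placeMap_injective : Function.Injective (placeMap S hS) := by
  intro Q Q' h
  refine Place.ext (SetLike.ext fun f => ?_)
  rw [← mem_placeMap S hS, ← mem_placeMap S hS (Q := Q'), h]

theorem placeMap_extPlace [IsFunctionField K₀ F₀] [IsAlgClosed K₀] [IsAlgClosed K]
    (hSι : ∀ u, S (ι u) = ι u) (P : Place K₀ F₀) :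
    placeMap S hS (extPlace K F P) = extPlace K F P := by
  have hord : ∀ u : F₀, (placeMap S hS (extPlace K F P)).ord (ι u) = P.ord u := fun u => by
    conv_lhs => rw [← hSι u]
    rw [ord_placeMap, ord_extPlace]
  rcases exists_extPlace_eq_or_isGeneric (K₀ := K₀) (F₀ := F₀) (placeMap S hS (extPlace K F P))
    with ⟨P', hP'⟩ | hgen
  · rw [← hP']
    have hPP : P' = P := FFBasic.place_ext_ord fun f hf => by
      rw [← hord, ← hP', ord_extPlace]; exact hf
    rw [hPP]
  · obtain ⟨t, -, ht⟩ := FFBasic.exists_ord_eq P 1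
    have := hgen t
    rw [hord, ht] at this
    omega

variable [IsCurveOver K F] [IsAlgClosed K] in
theorem val_placeMap {Q : Place K F} {f : F} (hf : f ∈ Q.toValuationSubring) :
    val (placeMap S hS Q) (S f) = σ (val Q f) := by
  rcases eq_or_ne (f - algebraMap K F (val Q f)) 0 with h | h
  · rw [sub_eq_zero] at h
    conv_lhs => rw [h]
    rw [hS, val_algebraMap]
  · have hmem : S (f - algebraMap K F (val Q f)) ∈ (placeMap S hS Q).toValuationSubring :=
      (mem_placeMap S hS).mpr (sub_mem hf (Q.algebraMap_mem' _))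
    have h0 : val (placeMap S hS Q) (S (f - algebraMap K F (val Q f))) = 0 := by
      rw [val_eq_zero_iff hmem ((map_ne_zero_iff _ S.injective).mpr h), ord_placeMap]
      exact ord_sub_val_pos hf h
    rw [map_sub, hS, val_sub ((mem_placeMap S hS).mpr hf) (Place.algebraMap_mem' _ _),
      val_algebraMap, sub_eq_zero] at h0
    exact h0

end Places

/-- A finite set of places stable under the automorphisms of the constants has no generic
member. -/
theorem exists_extPlace_eq_of_finite_stable [IsFunctionField K₀ F₀] [IsFunctionField K F]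
    [IsAlgClosed K₀] [IsAlgClosed K] [CharZero K] [IsCurveOver K F] {A : Set (Place K F)}
    (hfin : A.Finite)
    (hstab : ∀ (σ : K ≃ₐ[K₀] K) (S : F ≃+* F)
        (hS : ∀ c, S (algebraMap K F c) = algebraMap K F (σ c)),
      (∀ u, S (ι u) = ι u) → ∀ Q ∈ A, placeMap S hS Q ∈ A)
    {Q : Place K F} (hQ : Q ∈ A) : ∃ P : Place K₀ F₀, extPlace K F P = Q := by
  classical
  rcases exists_extPlace_eq_or_isGeneric (K₀ := K₀) (F₀ := F₀) Q with h | hgen
  · exact h
  exfalso
  obtain ⟨x, hx, -⟩ := IsFunctionField.exists_transcendental (K := K₀) (F := F₀)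
  have hmem : ι x ∈ Q.toValuationSubring := FFBasic.mem_of_ord_nonneg _ (hgen x).ge
  have ha : Transcendental K₀ (val Q (ι x)) := by
    intro halg
    obtain ⟨a₀, ha₀⟩ := mem_range_of_isAlgebraic halg
    have hne : x - algebraMap K₀ F₀ a₀ ≠ 0 := fun e => hx (by
      rw [sub_eq_zero] at e; rw [e]; exact isAlgebraic_algebraMap _)
    have h0 := hgen (x - algebraMap K₀ F₀ a₀)
    rw [map_sub, ← IsScalarTower.algebraMap_apply, IsScalarTower.algebraMap_apply K₀ K F,
      ha₀] at h0
    have := ord_sub_val_pos hmem (by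
      rw [← ha₀, ← IsScalarTower.algebraMap_apply, IsScalarTower.algebraMap_apply K₀ F₀ F,
        ← map_sub]
      exact (_root_.map_ne_zero _).mpr hne)
    omega
  have horb : ∀ k : ℕ, ∃ Q' ∈ A, val Q' (ι x) = val Q (ι x) + k := by
    intro k
    obtain ⟨σ, hσ⟩ := exists_algEquiv_add ha (k : K₀)
    obtain ⟨S, hSι, hSK⟩ := exists_semilinear F₀ F σ
    refine ⟨_, hstab σ S hSK hSι Q hQ, ?_⟩
    have h := val_placeMap S hSK hmem
    rw [hSι, hσ, map_natCast] at h
    exact h
  choose f hfA hfv using horb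
  have hinj : Function.Injective f := fun a b h => by
    have := congrArg (fun R => val R (ι x)) h
    simp only [hfv, add_right_inj, Nat.cast_inj] at this
    exact this
  exact Set.infinite_of_injective_forall_mem hinj hfA hfin

end ConstExt

end FLTAgent.Jacobian
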