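import Fermat.Agent.Jacobian.ConstExtGenus
import Fermat.Agent.Jacobian.ConstExtAut

/-!
# Descent of divisor classes

Effective representatives of least degree relative to a place `O` are unique
(`isMinimalRep_unique`) and respected by semilinear automorphisms (`isMinimalRep_divAction`).
`mem_range_of_nsmul_mem_range`: if a multiple of a class is defined over `K₀`, so is the class,
provided the torsion is finite; `surjective_torsion_map` is the case of torsion classes.
-/

set_option autoImplicit false
set_option linter.unusedSectionVars false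

noncomputable section

open AlgebraicCurve
open FLTAgent.FFBasic (IsFunctionField)
open FLTAgent.FFRiemannRoch (ell divOf divOf_apply degree_divOf)

namespace FLTAgent.Jacobian

section Classes

variable {K F : Type*} [Field K] [Field F] [Algebra K F] [IsFunctionField K F] [IsAlgClosed K]

/-- The class of `E - (deg E) O`. -/
def relClass (O : Place K F) (E : Divisor K F) : Pic0 K F :=
  Pic0.mk ⟨E - Finsupp.single O (Divisor.degree E), by
    rw [Divisor.mem_degZero, map_sub, Divisor.degree_single, FFBasic.place_deg_eq_one]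
    simp⟩

theorem relClass_eq_iff (O : Place K F) {E E' : Divisor K F}
    (h : Divisor.degree E = Divisor.degree E') :
    relClass O E = relClass O E' ↔ E - E' ∈ Divisor.principal (K := K) (F := F) := by
  rw [relClass, relClass, Pic0.mk, Pic0.mk, QuotientAddGroup.eq_iff_sub_mem,
    AddSubgroup.mem_addSubgroupOf, AddSubgroup.coe_sub]
  show E - _ - (E' - _) ∈ _ ↔ _
  rw [h, sub_sub_sub_cancel_right]

theorem exists_relClass_eq [IsCurveOver K F] (O : Place K F) (y : Pic0 K F) :
    ∃ E : Divisor K F, 0 ≤ E ∧ relClass O E = y := by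
  obtain ⟨⟨D, hD⟩, rfl⟩ := Pic0.mk_surjective y
  rw [Divisor.mem_degZero] at hD
  obtain ⟨E, hE, hdeg, hmem⟩ := FFRiemannRoch.exists_effective_sub_single O hD
  refine ⟨E, hE, ?_⟩
  rw [relClass, Pic0.mk, Pic0.mk, QuotientAddGroup.eq_iff_sub_mem, AddSubgroup.mem_addSubgroupOf,
    AddSubgroup.coe_sub]
  show E - _ - D ∈ _
  rw [hdeg, show E - Finsupp.single O (genusFF K F : ℤ) - D
    = -(D - (E - Finsupp.single O (genusFF K F : ℤ))) by abel]
  exact neg_mem hmem

/-- `E` is an effective divisor of least degree with class `y`. -/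
def IsMinimalRep (O : Place K F) (y : Pic0 K F) (E : Divisor K F) : Prop :=
  0 ≤ E ∧ relClass O E = y ∧
    ∀ E' : Divisor K F, 0 ≤ E' → relClass O E' = y → Divisor.degree E ≤ Divisor.degree E'

theorem exists_isMinimalRep [IsCurveOver K F] (O : Place K F) (y : Pic0 K F) :
    ∃ E, IsMinimalRep O y E := by
  classical
  have hex : ∃ m : ℕ, ∃ E : Divisor K F, 0 ≤ E ∧ relClass O E = y ∧ Divisor.degree E = m := by
    obtain ⟨E, hE, hy⟩ := exists_relClass_eq O y
    exact ⟨(Divisor.degree E).toNat, E, hE, hy,
      (Int.toNat_of_nonneg (FFRiemannRoch.degree_nonneg hE)).symm⟩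
  obtain ⟨E, hE, hy, hdeg⟩ := Nat.find_spec hex
  refine ⟨E, hE, hy, fun E' hE' hy' => ?_⟩
  have hd := FFRiemannRoch.degree_nonneg hE'
  have := Nat.find_min' hex ⟨E', hE', hy', (Int.toNat_of_nonneg hd).symm⟩
  omega

theorem isMinimalRep_unique [IsCurveOver K F] {O : Place K F} {y : Pic0 K F} {E E' : Divisor K F}
    (h : IsMinimalRep O y E) (h' : IsMinimalRep O y E') : E = E' := by
  have hdeg : Divisor.degree E = Divisor.degree E' :=
    le_antisymm (h.2.2 E' h'.1 h'.2.1) (h'.2.2 E h.1 h.2.1)
  by_contra hne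
  obtain ⟨f, hf, hfd⟩ := (relClass_eq_iff O hdeg).mp (h.2.1.trans h'.2.1.symm)
  have hdiv : divOf (K := K) f = E - E' :=
    Finsupp.ext fun Q => by rw [divOf_apply, hfd]
  have hfL : f ∈ riemannRochSpace E' := by
    rw [FFRiemannRoch.mem_riemannRochSpace_iff_divOf hf, hdiv, sub_add_cancel]; exact h.1
  have h1L : (1 : F) ∈ riemannRochSpace E' :=
    mem_riemannRochSpace_iff.2 fun Q => Or.inr (by
      have := h'.1 Q; simp only [Finsupp.coe_zero, Pi.zero_apply] at this; rw [Q.ord_one]; omega)
  have htwo : 2 ≤ ell K F E' := by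
    have hi : LinearIndependent K ![(⟨1, h1L⟩ : riemannRochSpace E'), ⟨f, hfL⟩] := by
      rw [LinearIndependent.pair_iff]
      intro s t hst
      have hst' : algebraMap K F s + algebraMap K F t * f = 0 := by
        simpa [Algebra.smul_def] using congrArg Subtype.val hst
      rcases eq_or_ne t 0 with rfl | ht
      · simpa using hst'
      · refine absurd ?_ hne
        have hc : f = algebraMap K F (-s / t) := by
          rw [map_div₀, map_neg, eq_div_iff (by simpa using ht)]
          linear_combination hst'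
        have : E - E' = 0 := by
          rw [← hdiv]
          exact Finsupp.ext fun Q => by rw [divOf_apply, hc, FFBasic.ord_algebraMap]; rfl
        exact sub_eq_zero.mp this
    simpa [ell] using hi.fintype_card_le_finrank
  have hstep := FFRiemannRoch.degree_sub_ell_mono (sub_le_self E'
    (FFRiemannRoch.single_nonneg O zero_le_one) : E' - Finsupp.single O 1 ≤ E')
  rw [map_sub, Divisor.degree_single, FFBasic.place_deg_eq_one] at hstep
  obtain ⟨f₃, hf₃, h3⟩ := FFRiemannRoch.ell_pos_iff.mp
    (show 0 < ell K F (E' - Finsupp.single O 1) by omega)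
  set E₃ := divOf f₃ + (E' - Finsupp.single O 1)
  have hd3 : Divisor.degree E₃ = Divisor.degree E' - 1 := by
    rw [map_add, map_sub, degree_divOf, Divisor.degree_single, FFBasic.place_deg_eq_one]
    simp
  have hy3 : relClass O E₃ = y := by
    rw [← h'.2.1, relClass, relClass, Pic0.mk, Pic0.mk, QuotientAddGroup.eq_iff_sub_mem,
      AddSubgroup.mem_addSubgroupOf, AddSubgroup.coe_sub]
    show E₃ - _ - (E' - _) ∈ _
    rw [hd3, Finsupp.single_sub,
      show E₃ - (Finsupp.single O (Divisor.degree E') - Finsupp.single O 1)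
      - (E' - Finsupp.single O (Divisor.degree E')) = divOf f₃ by simp only [E₃]; abel]
    exact FFRiemannRoch.divOf_mem_principal hf₃
  have := h'.2.2 E₃ h3 hy3
  omega

end Classes

namespace ConstExt

variable {K₀ K F₀ F : Type*} [Field K₀] [Field K] [Field F₀] [Field F]
  [Algebra K₀ K] [Algebra K₀ F₀] [Algebra K F] [Algebra F₀ F] [Algebra K₀ F]
  [IsScalarTower K₀ K F] [IsScalarTower K₀ F₀ F] [IsConstExtension K₀ K F₀ F]
  [IsFunctionField K₀ F₀] [IsFunctionField K F] [IsAlgClosed K₀] [IsAlgClosed K]
  [CharZero K₀] [CharZero K] [IsCurveOver K₀ F₀] [IsCurveOver K F]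

local notation "ι" => algebraMap F₀ F

section Action

variable (S : F ≃+* F) {σ : K ≃ₐ[K₀] K} (hS : ∀ c, S (algebraMap K F c) = algebraMap K F (σ c))

/-- The action on divisors. -/
def divAction : Divisor K F →+ Divisor K F := Finsupp.mapDomain.addMonoidHom (placeMap S hS)

include hS in
theorem symm_semilinear (c : K) : S.symm (algebraMap K F c) = algebraMap K F (σ.symm c) := by
  rw [RingEquiv.symm_apply_eq, hS, σ.apply_symm_apply]

theorem placeMap_placeMap_symm (Q : Place K F) :
    placeMap S hS (placeMap S.symm (symm_semilinear S hS) Q) = Q := by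
  refine Place.ext (SetLike.ext fun f => ?_)
  conv_lhs => rw [← S.apply_symm_apply f]
  rw [mem_placeMap, mem_placeMap]

theorem degree_divAction (D : Divisor K F) :
    Divisor.degree (divAction S hS D) = Divisor.degree D := by
  have : (Divisor.degree (K := K) (F := F)).comp (divAction S hS) = Divisor.degree :=
    Finsupp.addHom_ext fun P n => by simp [divAction, FFBasic.place_deg_eq_one]
  exact DFunLike.congr_fun this D

theorem divAction_apply (D : Divisor K F) (Q : Place K F) :
    divAction S hS D (placeMap S hS Q) = D Q :=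
  Finsupp.mapDomain_apply (placeMap_injective S hS) D Q

theorem divAction_nonneg {D : Divisor K F} (h : 0 ≤ D) : 0 ≤ divAction S hS D := fun Q => by
  rw [← placeMap_placeMap_symm S hS Q, divAction_apply]
  exact h _

theorem divAction_mem_principal {D : Divisor K F} (h : D ∈ Divisor.principal (K := K) (F := F)) :
    divAction S hS D ∈ Divisor.principal (K := K) (F := F) := by
  obtain ⟨f, hf, hD⟩ := h
  refine ⟨S f, (map_ne_zero_iff _ S.injective).mpr hf, fun Q => ?_⟩
  rw [← placeMap_placeMap_symm S hS Q, divAction_apply, ord_placeMap, hD]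

/-- The action on classes of degree zero. -/
def pic0Action : Pic0 K F →+ Pic0 K F :=
  QuotientAddGroup.map _ _
    (((divAction S hS).comp (Divisor.degZero (K := K) (F := F)).subtype).codRestrict
      (Divisor.degZero (K := K) (F := F)) fun D => by
        rw [Divisor.mem_degZero]
        exact (degree_divAction S hS D.1).trans D.2)
    (fun _ hD => divAction_mem_principal S hS hD)

theorem divAction_mapDiv (hSι : ∀ u, S (ι u) = ι u) (D : Divisor K₀ F₀) :
    divAction S hS (mapDiv K F D) = mapDiv K F D := by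
  show Finsupp.mapDomain _ (Finsupp.mapDomain _ D) = Finsupp.mapDomain _ D
  rw [← Finsupp.mapDomain_comp]
  congr 1
  exact funext fun P => placeMap_extPlace S hS hSι P

theorem pic0Action_pic0Map (hSι : ∀ u, S (ι u) = ι u) (x : Pic0 K₀ F₀) :
    pic0Action S hS (pic0Map K F x) = pic0Map K F x := by
  obtain ⟨D, rfl⟩ := Pic0.mk_surjective x
  rw [pic0Map_mk]
  refine congrArg Pic0.mk (Subtype.ext ?_)
  exact divAction_mapDiv S hS hSι D.1

theorem pic0Action_relClass {O : Place K F} (hO : placeMap S hS O = O) (E : Divisor K F) :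
    pic0Action S hS (relClass O E) = relClass O (divAction S hS E) := by
  refine congrArg Pic0.mk (Subtype.ext ?_)
  show divAction S hS (E - _) = _ - _
  rw [map_sub, degree_divAction]
  simp [divAction, hO]

theorem pic0Action_symm (y : Pic0 K F) :
    pic0Action S.symm (symm_semilinear S hS) (pic0Action S hS y) = y := by
  obtain ⟨D, rfl⟩ := Pic0.mk_surjective y
  refine congrArg Pic0.mk (Subtype.ext ?_)
  show Finsupp.mapDomain _ (Finsupp.mapDomain _ D.1) = D.1
  rw [← Finsupp.mapDomain_comp]
  conv_rhs => rw [← Finsupp.mapDomain_id (v := D.1)]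
  congr 1
  refine funext fun Q => Place.ext (SetLike.ext fun f => ?_)
  conv_lhs => rw [Function.comp_apply, ← S.symm_apply_apply f]
  rw [mem_placeMap, mem_placeMap]
  rfl

theorem isMinimalRep_divAction {O : Place K F} (hO : placeMap S hS O = O) {y : Pic0 K F}
    {E : Divisor K F} (h : IsMinimalRep O y E) :
    IsMinimalRep O (pic0Action S hS y) (divAction S hS E) := by
  have hO' : placeMap S.symm (symm_semilinear S hS) O = O := by
    refine placeMap_injective S hS ?_
    rw [placeMap_placeMap_symm, hO]
  refine ⟨divAction_nonneg S hS h.1, by rw [← pic0Action_relClass S hS hO, h.2.1],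
    fun E' hE' hy' => ?_⟩
  rw [degree_divAction, ← degree_divAction S.symm (symm_semilinear S hS) E']
  refine h.2.2 _ (divAction_nonneg _ _ hE') ?_
  rw [← pic0Action_relClass _ _ hO', hy', pic0Action_symm]

end Action

/-- If a multiple of a class is defined over `K₀`, so is the class. -/
theorem mem_range_of_nsmul_mem_range {n : ℕ} (hfin : {z : Pic0 K F | n • z = 0}.Finite)
    {y : Pic0 K F} (h : n • y ∈ (pic0Map (K₀ := K₀) (F₀ := F₀) K F).range) :
    y ∈ (pic0Map (K₀ := K₀) (F₀ := F₀) K F).range := by
  classical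
  obtain ⟨P₀⟩ := FFBasic.nonempty_place (K := K₀) (F := F₀)
  set O := extPlace K F P₀
  set Y : Set (Pic0 K F) := {y' | n • y' = n • y}
  have hY : Y.Finite := by
    refine (hfin.image (fun z => z + y)).subset fun y' hy' => ⟨y' - y, ?_, sub_add_cancel _ _⟩
    show n • (y' - y) = 0
    rw [nsmul_sub, hy', sub_self]
  choose rep hrep using exists_isMinimalRep O
  set A : Set (Place K F) := ⋃ y' ∈ Y, ↑(rep y').support
  have hA : A.Finite := hY.biUnion fun y' _ => Finset.finite_toSet _
  have hstab : ∀ (σ : K ≃ₐ[K₀] K) (S : F ≃+* F)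
      (hS : ∀ c, S (algebraMap K F c) = algebraMap K F (σ c)),
      (∀ u, S (ι u) = ι u) → ∀ Q ∈ A, placeMap S hS Q ∈ A := by
    intro σ S hS hSι Q hQ
    obtain ⟨y', hy', hQ'⟩ := Set.mem_iUnion₂.mp hQ
    refine Set.mem_iUnion₂.mpr ⟨pic0Action S hS y', ?_, ?_⟩
    · obtain ⟨x, hx⟩ := h
      show n • pic0Action S hS y' = n • y
      rw [← map_nsmul, show n • y' = n • y from hy', ← hx, pic0Action_pic0Map S hS hSι]
    · rw [isMinimalRep_unique (hrep _)
          (isMinimalRep_divAction S hS (placeMap_extPlace S hS hSι P₀) (hrep y')),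
        Finset.mem_coe, Finsupp.mem_support_iff, divAction_apply]
      exact Finsupp.mem_support_iff.mp hQ'
  have hsub : ↑(rep y).support ⊆ Set.range (extPlace (K₀ := K₀) (F₀ := F₀) K F) := fun Q hQ =>
    exists_extPlace_eq_of_finite_stable hA hstab (Set.mem_iUnion₂.mpr ⟨y, rfl, hQ⟩)
  set E₀ : Divisor K₀ F₀ := (rep y).comapDomain (extPlace K F) extPlace_injective.injOn
  have hE₀ : mapDiv K F E₀ = rep y :=
    Finsupp.mapDomain_comapDomain _ extPlace_injective _ hsub
  refine ⟨relClass P₀ E₀, ?_⟩
  rw [relClass, pic0Map_mk, ← (hrep y).2.1, relClass]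
  refine congrArg Pic0.mk (Subtype.ext ?_)
  show mapDiv K F (E₀ - _) = _ - _
  rw [map_sub, hE₀, ← degree_mapDiv (K := K) (F := F) E₀, hE₀]
  simp [mapDiv, O]

theorem surjective_torsion_map {n : ℕ} (hfin : {z : Pic0 K F | n • z = 0}.Finite)
    (z : Pic0 K F) (hz : n • z = 0) : ∃ x : Pic0 K₀ F₀, n • x = 0 ∧ pic0Map K F x = z := by
  obtain ⟨x, hx⟩ := mem_range_of_nsmul_mem_range (K₀ := K₀) (F₀ := F₀) hfin
    (by rw [hz]; exact zero_mem _)
  refine ⟨x, pic0Map_injective (K := K) (F := F) ?_, hx⟩
  rw [map_nsmul, hx, hz, map_zero]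

end ConstExt

end FLTAgent.Jacobian
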