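import Fermat.Agent.FFBasic.AffineRing
import Fermat.Agent.Jacobian.Descent
import Mathlib.FieldTheory.AlgebraicClosure
import Mathlib.Algebra.AlgebraicCard

/-!
# Small fields of definition

`exists_field_of_definition`: finitely many classes of degree zero come from a function field
over a countable algebraically closed subfield `defField S` of the constants.
-/

set_option autoImplicit false

noncomputable section

open AlgebraicCurve Polynomial IntermediateField
open FLTAgent.FFBasic (IsFunctionField)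

namespace FLTAgent.Jacobian

namespace ConstExt

section Adjoin

variable {K₀ K F : Type*} [Field K₀] [Field K] [Field F] [Algebra K₀ K] [Algebra K F]
  [Algebra K₀ F] [IsScalarTower K₀ K F]

theorem exists_sum_pow_eq {x y : F} {d : ℕ} (P : Fin (d + 1) → K₀[X])
    (hlast : aeval x (P (Fin.last d)) ≠ 0) (hP : ∑ j, aeval x (P j) * y ^ (j : ℕ) = 0)
    {u : F} (hu : u ∈ adjoin K₀ ({x, y} : Set F)) :
    ∃ a b : Fin d → K₀[X], (∀ j, aeval x (b j) ≠ 0) ∧
      u = ∑ j, aeval x (a j) / aeval x (b j) * y ^ (j : ℕ) := by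
  classical
  set E := K₀⟮x⟯
  have hm : ∀ q : K₀[X], aeval x q ∈ E := fun q => FFBasic.aeval_mem_adjoin_simple x q
  set e : K₀[X] → E := fun q => ⟨aeval x q, hm q⟩ with he
  set p : E[X] := ∑ j : Fin (d + 1), C (e (P j) / e (P (Fin.last d)) : E) * X ^ (j : ℕ)
  have hdeg : p = X ^ d + ∑ j : Fin d,
      C (e (P j.castSucc) / e (P (Fin.last d)) : E) * X ^ (j : ℕ) := by
    simp only [p, Fin.sum_univ_castSucc, Fin.val_castSucc, Fin.val_last]
    rw [div_self (fun h => hlast (congrArg Subtype.val h)), map_one, one_mul, add_comm]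
  have hlt : (∑ j : Fin d,
      C (e (P j.castSucc) / e (P (Fin.last d)) : E) * X ^ (j : ℕ)).degree
        < (d : WithBot ℕ) := by
    refine lt_of_le_of_lt (degree_sum_le _ _) ((Finset.sup_lt_iff (WithBot.bot_lt_coe d)).mpr
      fun j _ => lt_of_le_of_lt (degree_C_mul_X_pow_le _ _) (WithBot.coe_lt_coe.mpr j.2))
  have hmon : p.Monic := hdeg ▸ monic_X_pow_add hlt
  have hzero : aeval y p = 0 := by
    simp only [p, map_sum, map_mul, aeval_C, map_pow, aeval_X]
    calc ∑ j : Fin (d + 1), algebraMap E F (e (P j) / e (P (Fin.last d))) * y ^ (j : ℕ)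
        = (∑ j, aeval x (P j) * y ^ (j : ℕ)) / aeval x (P (Fin.last d)) := by
          rw [Finset.sum_div]
          exact Finset.sum_congr rfl fun j _ => by rw [map_div₀, div_mul_eq_mul_div]; rfl
      _ = 0 := by rw [hP, zero_div]
  have hint : IsIntegral E y := ⟨p, hmon, hzero⟩
  have hu' : u ∈ Algebra.adjoin E ({y} : Set F) := by
    rw [← adjoin_simple_adjoin_simple, mem_restrictScalars] at hu
    rwa [← adjoin_simple_toSubalgebra_of_isAlgebraic hint.isAlgebraic]
  obtain ⟨q, rfl⟩ := Algebra.adjoin_singleton_eq_range_aeval E y ▸ hu'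
  set r := q %ₘ p
  have hr : aeval y r = aeval y q := by
    conv_rhs => rw [← modByMonic_add_div q p]
    rw [map_add, map_mul, hzero, zero_mul, add_zero]
  have hrdeg : r.degree < (d : WithBot ℕ) := by
    refine lt_of_lt_of_le (degree_modByMonic_lt q hmon) ?_
    rw [hdeg, degree_add_eq_left_of_degree_lt (by rwa [degree_X_pow]), degree_X_pow]
  choose a b hab using fun j : Fin d =>
    (mem_adjoin_simple_iff K₀ ((r.coeff j : E) : F)).mp (r.coeff j).2
  refine ⟨fun j => if aeval x (b j) = 0 then 0 else a j,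
    fun j => if aeval x (b j) = 0 then 1 else b j, fun j => ?_, ?_⟩
  · simp only; split <;> simp [*]
  show aeval y q = _
  rw [← hr, aeval_eq_sum_range' (n := d) ?_, ← Fin.sum_univ_eq_sum_range
    (fun j => r.coeff j • y ^ j) d]
  · refine Finset.sum_congr rfl fun j _ => ?_
    rw [IntermediateField.smul_def, smul_eq_mul]
    congr 1
    by_cases h : aeval x (b j) = 0
    · simp [hab j, h]
    · simp [hab j, h]
  · rcases Nat.eq_zero_or_pos r.natDegree with h | h
    · rw [h]
      refine Nat.pos_of_ne_zero fun hd => hlast ?_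
      subst hd
      simpa using hP
    · exact (natDegree_lt_iff_degree_lt (fun e => by simp [e] at h)).mpr hrdeg

variable {x y : F} {d : ℕ} (P : Fin (d + 1) → K₀[X])

theorem isFunctionField_adjoin (hx : Transcendental K x)
    (hlast : aeval x (P (Fin.last d)) ≠ 0) (hP : ∑ j, aeval x (P j) * y ^ (j : ℕ) = 0) :
    IsFunctionField K₀ (adjoin K₀ ({x, y} : Set F)) := by
  set F₀ := adjoin K₀ ({x, y} : Set F)
  set x₀ : F₀ := ⟨x, subset_adjoin K₀ _ (Set.mem_insert _ _)⟩
  set y₀ : F₀ := ⟨y, subset_adjoin K₀ _ (Set.mem_insert_of_mem _ rfl)⟩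
  have hcoe : ∀ a : K₀[X], ((aeval x₀ a : F₀) : F) = aeval x a := fun a =>
    (aeval_algHom_apply F₀.val x₀ a).symm
  have hx₀ : Transcendental K₀ x₀ := fun h => hx
    ((h.algHom F₀.val).extendScalars (algebraMap K₀ K).injective)
  classical
  refine ⟨⟨x₀, hx₀, ⟨?_⟩⟩⟩
  refine ⟨(Finset.range d).image (fun j => y₀ ^ j), eq_top_iff.mpr fun u _ => ?_⟩
  obtain ⟨a, b, -, hu⟩ := exists_sum_pow_eq P hlast hP u.2
  have : u = ∑ j : Fin d, (⟨aeval x₀ (a j) / aeval x₀ (b j),
      div_mem (FFBasic.aeval_mem_adjoin_simple x₀ _)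
        (FFBasic.aeval_mem_adjoin_simple x₀ _)⟩ : K₀⟮x₀⟯) •
        y₀ ^ (j : ℕ) := by
    refine Subtype.ext ?_
    rw [hu, AddSubmonoidClass.coe_finsetSum]
    exact Finset.sum_congr rfl fun j _ => by
      rw [IntermediateField.smul_def, smul_eq_mul, IntermediateField.coe_mul,
        IntermediateField.coe_div, hcoe, hcoe]
      rfl
  rw [this]
  exact Submodule.sum_mem _ fun j _ => Submodule.smul_mem _ _ (Submodule.subset_span
    (Finset.mem_coe.mpr (Finset.mem_image.mpr ⟨j, Finset.mem_range.mpr j.2, rfl⟩)))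

theorem isConstExtension_adjoin (hx : Transcendental K x)
    (hind : ∀ p : Fin d → K[X], ∑ j, aeval x (p j) * y ^ (j : ℕ) = 0 → ∀ j, p j = 0)
    (hgen : adjoin K ({x, y} : Set F) = ⊤)
    (hlast : aeval x (P (Fin.last d)) ≠ 0) (hP : ∑ j, aeval x (P j) * y ^ (j : ℕ) = 0) :
    IsConstExtension K₀ K (adjoin K₀ ({x, y} : Set F)) F := by
  classical
  refine ⟨fun {n} u hu => ?_, ?_⟩
  · rw [Fintype.linearIndependent_iff]
    intro c hc i₀
    choose a b hb hab using fun i => exists_sum_pow_eq P hlast hP (u i).2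
    set N : Finset (Fin n × Fin d) := Finset.univ
    set B : K₀[X] := ∏ ij ∈ N, b ij.1 ij.2
    have hB : aeval x B ≠ 0 := by
      rw [map_prod]; exact Finset.prod_ne_zero_iff.mpr fun ij _ => hb ij.1 ij.2
    set G : Fin n → Fin d → K₀[X] := fun i j => a i j * ∏ kl ∈ N.erase (i, j), b kl.1 kl.2
    have hG : ∀ i, aeval x B * ((u i : F)) = ∑ j, aeval x (G i j) * y ^ (j : ℕ) := fun i => by
      rw [hab i, Finset.mul_sum]
      refine Finset.sum_congr rfl fun j _ => ?_
      simp only [B, G, ← Finset.mul_prod_erase N (fun ij => b ij.1 ij.2) (Finset.mem_univ (i, j)),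
        map_mul]
      field_simp [hb i j]
    have hzero := hind (fun j => ∑ i, C (c i) * (G i j).map (algebraMap K₀ K)) (by
      have := congrArg (fun z => aeval x B * z) hc
      simp only [mul_zero, Finset.mul_sum] at this
      rw [← this]
      simp only [map_sum, map_mul, aeval_C, aeval_map_algebraMap, Finset.sum_mul]
      rw [Finset.sum_comm]
      refine Finset.sum_congr rfl fun i _ => ?_
      rw [Algebra.smul_def, mul_left_comm, show (algebraMap _ F) (u i) = (u i : F) from rfl, hG i,
        Finset.mul_sum]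
      exact Finset.sum_congr rfl fun j _ => by ring)
    refine (Module.forall_dual_apply_eq_zero_iff K₀ (c i₀)).mp fun π => ?_
    have hπ : ∀ j, ∑ i, π (c i) • G i j = 0 := fun j => by
      ext m
      have h := congrArg (fun q : K[X] => π (q.coeff m)) (hzero j)
      simp only [finsetSum_coeff, coeff_C_mul, coeff_map, map_sum, coeff_zero, map_zero] at h
      simp only [finsetSum_coeff, coeff_smul, coeff_zero, smul_eq_mul]
      rw [← h]
      refine Finset.sum_congr rfl fun i _ => ?_
      rw [mul_comm (c i), ← Algebra.smul_def, map_smul, smul_eq_mul, mul_comm]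
    refine Fintype.linearIndependent_iff.mp hu (fun i => π (c i)) (Subtype.ext ?_) i₀
    rw [AddSubmonoidClass.coe_finsetSum, ZeroMemClass.coe_zero]
    refine (mul_eq_zero.mp (?_ : aeval x B * _ = 0)).resolve_left hB
    rw [Finset.mul_sum]
    have h2 : ∑ i, π (c i) • (∑ j, aeval x (G i j) * y ^ (j : ℕ)) = 0 := by
      simp only [Finset.smul_sum, ← smul_mul_assoc]
      rw [Finset.sum_comm]
      refine Finset.sum_eq_zero fun j _ => ?_
      rw [← Finset.sum_mul]
      simp only [← map_smul, ← map_sum, hπ j, map_zero, zero_mul]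
    rw [← h2]
    refine Finset.sum_congr rfl fun i _ => ?_
    rw [← hG i, IntermediateField.coe_smul, mul_smul_comm]
  · refine eq_top_iff.mpr (hgen ▸ adjoin.mono K _ _ ?_)
    rintro z (rfl | rfl)
    · exact ⟨⟨z, subset_adjoin K₀ _ (Set.mem_insert _ _)⟩, rfl⟩
    · exact ⟨⟨z, subset_adjoin K₀ _ (Set.mem_insert_of_mem _ rfl)⟩, rfl⟩

end Adjoin

variable {K F : Type*} [Field K] [Field F] [Algebra K F] [IsAlgClosed K] [CharZero K]

/-- The relative algebraic closure in `K` of a finitely generated subfield. -/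
def defField (S : Finset K) : IntermediateField ℚ K :=
  (algebraicClosure (adjoin ℚ (S : Set K)) K).restrictScalars ℚ

omit [IsAlgClosed K] in
theorem mem_defField {S : Finset K} {a : K} (h : a ∈ S) : a ∈ defField S :=
  (algebraicClosure (adjoin ℚ (S : Set K)) K).algebraMap_mem ⟨a, subset_adjoin ℚ _ h⟩

instance isAlgClosed_defField (S : Finset K) : IsAlgClosed (defField S) :=
  (IsAlgClosure.isAlgClosed (adjoin ℚ (S : Set K)) :
    IsAlgClosed (algebraicClosure (adjoin ℚ (S : Set K)) K))

instance countable_defField (S : Finset K) : Countable (defField S) := by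
  set L := adjoin ℚ (S : Set K)
  have : Countable (MvPolynomial (S : Set K) ℚ) := by
    rw [← Cardinal.mk_le_aleph0_iff]
    exact MvPolynomial.cardinalMk_le_max_lift.trans
      (max_le (max_le (Cardinal.lift_le_aleph0.mpr Cardinal.mk_le_aleph0)
        (Cardinal.lift_le_aleph0.mpr Cardinal.mk_le_aleph0)) le_rfl)
  have : Countable L := by
    let f : MvPolynomial (S : Set K) ℚ × MvPolynomial (S : Set K) ℚ → L := fun p =>
      ⟨MvPolynomial.aeval Subtype.val p.1 / MvPolynomial.aeval Subtype.val p.2,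
        mem_adjoin_iff ℚ _ |>.mpr ⟨p.1, p.2, rfl⟩⟩
    refine (Function.Surjective.countable (f := f) fun z => ?_)
    obtain ⟨r, s, h⟩ := (mem_adjoin_iff ℚ _).mp z.2
    exact ⟨(r, s), Subtype.ext h.symm⟩
  have h : Set.Countable {a : K | IsAlgebraic L a} := Algebraic.countable L K
  exact (h.mono (s₁ := (defField S : Set K)) fun a ha =>
    (mem_algebraicClosure_iff.mp ha :)).to_subtype

variable [IsFunctionField K F] [IsCurveOver K F]

/-- Finitely many classes are defined over a countable algebraically closed subfield. -/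
theorem exists_field_of_definition (T : Finset (Pic0 K F)) :
    ∃ (S : Finset K) (F₁ : IntermediateField (defField S) F) (_ : IsFunctionField (defField S) F₁)
      (_ : IsConstExtension (defField S) K F₁ F),
      ∀ z ∈ T, z ∈ (pic0Map (K₀ := defField S) (F₀ := F₁) K F).range := by
  classical
  obtain ⟨x, hx, hfin⟩ := IsFunctionField.exists_transcendental (K := K) (F := F)
  have : CharZero F := charZero_of_injective_algebraMap (algebraMap K F).injective
  obtain ⟨y, hy⟩ := Field.exists_primitive_element K⟮x⟯ F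
  have hyint : IsIntegral K⟮x⟯ y := IsIntegral.of_finite _ y
  set m := minpoly K⟮x⟯ y
  set d := m.natDegree
  choose r s hrs using fun j : Fin (d + 1) =>
    (mem_adjoin_simple_iff K ((m.coeff j : K⟮x⟯) : F)).mp (m.coeff j).2
  set r' : Fin (d + 1) → K[X] := fun j => if aeval x (s j) = 0 then 0 else r j
  set s' : Fin (d + 1) → K[X] := fun j => if aeval x (s j) = 0 then 1 else s j
  have hs' : ∀ j : Fin (d + 1), aeval x (s' j) ≠ 0 := fun j => by simp only [s']; split <;> simp [*]
  have hrs' : ∀ j : Fin (d + 1), ((m.coeff j : K⟮x⟯) : F) * aeval x (s' j) = aeval x (r' j) :=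
    fun j => by
    simp only [r', s']
    split
    · simp [hrs j, *]
    · rw [hrs j, div_mul_cancel₀ _ ‹_›]
  set P : Fin (d + 1) → K[X] := fun j => r' j * ∏ k ∈ Finset.univ.erase j, s' k
  have hPval : ∀ j : Fin (d + 1), aeval x (P j) = ((m.coeff j : K⟮x⟯) : F) * ∏ k, aeval x (s' k) :=
    fun j => by
    rw [← Finset.mul_prod_erase _ _ (Finset.mem_univ j), ← mul_assoc, hrs', map_mul, map_prod]
  have hsum : ∑ j, aeval x (P j) * y ^ (j : ℕ) = 0 := by
    simp only [hPval, mul_comm _ (∏ k, aeval x (s' k)), mul_assoc, ← Finset.mul_sum]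
    rw [mul_eq_zero]
    right
    have h := minpoly.aeval K⟮x⟯ y
    rw [aeval_eq_sum_range, Finset.sum_range] at h
    exact h
  have hlast : aeval x (P (Fin.last d)) ≠ 0 := by
    rw [hPval, Fin.val_last, (minpoly.monic hyint).coeff_natDegree]
    exact mul_ne_zero (by simp) (Finset.prod_ne_zero_iff.mpr fun k _ => hs' k)
  choose D hD using fun z : Pic0 K F => Pic0.mk_surjective z
  set Sc : Finset K := Finset.univ.biUnion fun j => (P j).coeffs
  set Sp : Finset K := T.biUnion fun z => (D z).1.support.image fun Q => val Q x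
  set S := Sc ∪ Sp
  have hlift : ∀ j, ∃ q : (defField S)[X], q.map (algebraMap (defField S) K) = P j := fun j => by
    refine (mem_lifts _).mp ((lifts_iff_coeff_lifts _).mpr fun i => ?_)
    rcases eq_or_ne ((P j).coeff i) 0 with h | h
    · exact ⟨0, by rw [h, map_zero]⟩
    · exact ⟨⟨_, mem_defField (Finset.mem_union_left _ (Finset.mem_biUnion.mpr
        ⟨j, Finset.mem_univ _, coeff_mem_coeffs h⟩))⟩, rfl⟩
  choose P₁ hP₁ using hlift
  have hP₁x : ∀ j, aeval x (P₁ j) = aeval x (P j) := fun j => by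
    rw [← hP₁ j, aeval_map_algebraMap]
  set F₁ := adjoin (defField S) ({x, y} : Set F)
  have hind : ∀ p : Fin d → K[X], ∑ j, aeval x (p j) * y ^ (j : ℕ) = 0 → ∀ j, p j = 0 := by
    intro p hp j
    have h := Fintype.linearIndependent_iff.mp (linearIndependent_pow (S := F) (K := K⟮x⟯) y)
      (fun j => ⟨aeval x (p j), FFBasic.aeval_mem_adjoin_simple x _⟩) (by
        simpa [IntermediateField.smul_def] using hp) j
    exact (transcendental_iff.mp hx) _ (congrArg Subtype.val h)
  have hgen : adjoin K ({x, y} : Set F) = ⊤ := by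
    rw [← adjoin_simple_adjoin_simple, hy, restrictScalars_top]
  have hFF : IsFunctionField (defField S) F₁ :=
    isFunctionField_adjoin P₁ hx (by rw [hP₁x]; exact hlast) (by simp only [hP₁x]; exact hsum)
  have hCE : IsConstExtension (defField S) K F₁ F :=
    isConstExtension_adjoin P₁ hx hind hgen (by rw [hP₁x]; exact hlast)
      (by simp only [hP₁x]; exact hsum)
  refine ⟨S, F₁, hFF, hCE, fun z hz => ?_⟩
  set x₁ : F₁ := ⟨x, subset_adjoin (defField S) _ (Set.mem_insert _ _)⟩
  have hx₁ : algebraMap F₁ F x₁ = x := rfl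
  have hQ : ∀ Q ∈ (D z).1.support,
      ∃ Q₁ : Place (defField S) F₁, extPlace K F Q₁ = Q := by
    intro Q hQ
    rcases exists_extPlace_eq_or_isGeneric (K₀ := defField S) (F₀ := F₁) Q with h | hgen
    · exact h
    exfalso
    have hmem : x ∈ Q.toValuationSubring := FFBasic.mem_of_ord_nonneg _ (hx₁ ▸ hgen x₁).ge
    set a : defField S := ⟨val Q x, mem_defField (Finset.mem_union_right _
      (Finset.mem_biUnion.mpr ⟨z, hz, Finset.mem_image_of_mem _ hQ⟩))⟩
    have hne : x - algebraMap K F (val Q x) ≠ 0 := fun e => hx (by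
      rw [sub_eq_zero] at e; rw [e]; exact isAlgebraic_algebraMap _)
    have h0 := hgen (x₁ - algebraMap (defField S) F₁ a)
    rw [map_sub, hx₁, ← IsScalarTower.algebraMap_apply,
      IsScalarTower.algebraMap_apply (defField S) K F] at h0
    exact (ord_sub_val_pos hmem hne).ne' h0
  set D₁ : Divisor (defField S) F₁ := (D z).1.comapDomain (extPlace K F) extPlace_injective.injOn
  have hD₁ : mapDiv K F D₁ = (D z).1 := Finsupp.mapDomain_comapDomain _ extPlace_injective _
    (fun Q hQ' => by obtain ⟨Q₁, h⟩ := hQ Q hQ'; exact ⟨Q₁, h⟩)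
  have hdeg : Divisor.degree D₁ = 0 := by
    rw [← degree_mapDiv (K := K) (F := F), hD₁]; exact (D z).2
  exact ⟨Pic0.mk ⟨D₁, hdeg⟩, by rw [pic0Map_mk, ← hD z]; exact congrArg Pic0.mk (Subtype.ext hD₁)⟩

end ConstExt

end FLTAgent.Jacobian
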