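import Fermat.Agent.Jacobian.Uniformization
import Fermat.Agent.Jacobian.ConstExtTensor
import Fermat.Agent.Jacobian.FieldOfDef
import Mathlib.FieldTheory.IsAlgClosed.Classification
import Mathlib.Analysis.Complex.Cardinality

/-!
# Torsion of `Pic0` in characteristic zero

Over any algebraically closed field of characteristic zero the divisor class group of degree
zero has `n ^ (2 g)` elements killed by `n` (`natCard_torsion`) and is divisible
(`exists_nsmul_eq`), by reduction to countable constants and then to `ℂ`.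
-/

set_option autoImplicit false

noncomputable section

open AlgebraicCurve Cardinal
open FLTAgent.FFBasic (IsFunctionField)

namespace FLTAgent.Jacobian

/-- Countable fields of characteristic zero embed into `ℂ`. -/
theorem exists_ringHom_complex (K₀ : Type*) [Field K₀] [CharZero K₀] [Countable K₀] :
    Nonempty (K₀ →+* ℂ) := by
  classical
  obtain ⟨s, hs⟩ := exists_isTranscendenceBasis ℤ K₀
  obtain ⟨t, ht⟩ := exists_isTranscendenceBasis ℤ ℂ
  have hC : ℵ₀ < #ℂ := by rw [Cardinal.mk_complex]; exact aleph0_lt_continuum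
  have htcard := IsAlgClosed.cardinal_eq_cardinal_transcendence_basis_of_aleph0_lt _ ht
    (le_of_eq mk_int) hC
  simp only [Cardinal.lift_id] at htcard
  have : Infinite t := Cardinal.infinite_iff.mpr (htcard ▸ hC.le)
  obtain ⟨e, he⟩ := exists_injective_nat s
  let w : s → ℂ := fun i => ((Infinite.natEmbedding t (e i) : t) : ℂ)
  have hw : AlgebraicIndependent ℤ w :=
    ht.1.comp _ ((Infinite.natEmbedding t).injective.comp he)
  set R := Algebra.adjoin ℤ (Set.range ((↑) : s → K₀))
  let φ : R →+* ℂ :=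
    (MvPolynomial.aeval w).toRingHom.comp hs.1.aevalEquiv.symm.toRingEquiv.toRingHom
  have hφ : Function.Injective φ :=
    (algebraicIndependent_iff_injective_aeval.mp hw).comp
      (f := hs.1.aevalEquiv.symm) hs.1.aevalEquiv.symm.injective
  let : Algebra R ℂ := φ.toAlgebra
  have : FaithfulSMul R ℂ := (faithfulSMul_iff_algebraMap_injective R ℂ).mpr hφ
  have : Algebra.IsAlgebraic R K₀ := hs.isAlgebraic
  exact ⟨(IsAlgClosed.lift (R := R) (S := K₀) (M := ℂ)).toRingHom⟩

section Countable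

variable (K₀ F₀ : Type*) [Field K₀] [Field F₀] [Algebra K₀ F₀] [IsAlgClosed K₀] [CharZero K₀]
  [Countable K₀] [IsFunctionField K₀ F₀]

theorem natCard_torsion_countable {n : ℕ} (hn : n ≠ 0) :
    Nat.card {x : Pic0 K₀ F₀ // n • x = 0} = n ^ (2 * genusFF K₀ F₀) := by
  obtain ⟨φ⟩ := exists_ringHom_complex K₀
  let : Algebra K₀ ℂ := φ.toAlgebra
  obtain ⟨F, _, _, _, _, _, _, _, _⟩ := ConstExt.exists_constExt K₀ ℂ F₀
  have hcard := natCard_torsion_complex (F := F) hn
  have : Finite {z : Pic0 ℂ F // n • z = 0} :=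
    Nat.finite_of_card_ne_zero (by rw [hcard]; positivity)
  have hfin : {z : Pic0 ℂ F | n • z = 0}.Finite := Set.finite_coe_iff.mp this
  rw [← ConstExt.genusFF_eq K₀ ℂ F₀ F, ← hcard]
  refine Nat.card_congr (Equiv.ofBijective
    (fun x => ⟨ConstExt.pic0Map (K₀ := K₀) (F₀ := F₀) ℂ F x.1,
      by rw [← map_nsmul, x.2, map_zero]⟩) ⟨fun a b h => ?_, fun z => ?_⟩)
  · exact Subtype.ext (ConstExt.pic0Map_injective (congrArg Subtype.val h))
  · obtain ⟨x, hx, hxz⟩ := ConstExt.surjective_torsion_map (K₀ := K₀) (F₀ := F₀) hfin z.1 z.2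
    exact ⟨⟨x, hx⟩, Subtype.ext hxz⟩

theorem exists_nsmul_eq_countable {n : ℕ} (hn : n ≠ 0) (x : Pic0 K₀ F₀) : ∃ y, n • y = x := by
  obtain ⟨φ⟩ := exists_ringHom_complex K₀
  let : Algebra K₀ ℂ := φ.toAlgebra
  obtain ⟨F, _, _, _, _, _, _, _, _⟩ := ConstExt.exists_constExt K₀ ℂ F₀
  have hcard := natCard_torsion_complex (F := F) hn
  have : Finite {z : Pic0 ℂ F // n • z = 0} :=
    Nat.finite_of_card_ne_zero (by rw [hcard]; positivity)
  have hfin : {z : Pic0 ℂ F | n • z = 0}.Finite := Set.finite_coe_iff.mp this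
  obtain ⟨y, hy⟩ := exists_nsmul_eq_complex hn (ConstExt.pic0Map (K₀ := K₀) (F₀ := F₀) ℂ F x)
  obtain ⟨y₀, rfl⟩ := ConstExt.mem_range_of_nsmul_mem_range (K₀ := K₀) (F₀ := F₀) hfin
    (y := y) ⟨x, hy.symm⟩
  exact ⟨y₀, ConstExt.pic0Map_injective (by rw [map_nsmul, hy])⟩

end Countable

section General

variable (K F : Type*) [Field K] [Field F] [Algebra K F] [IsAlgClosed K] [CharZero K]
  [IsFunctionField K F]

/-- The classes killed by `n` are finitely many. -/
theorem finite_torsion {n : ℕ} (hn : n ≠ 0) : {z : Pic0 K F | n • z = 0}.Finite := by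
  classical
  by_contra hinf
  obtain ⟨T, hT, hcard⟩ := Set.Infinite.exists_subset_card_eq hinf (n ^ (2 * genusFF K F) + 1)
  obtain ⟨S, F₁, _, _, hrange⟩ := ConstExt.exists_field_of_definition T
  have h := natCard_torsion_countable (ConstExt.defField S) F₁ hn
  have : Finite {x : Pic0 (ConstExt.defField S) F₁ // n • x = 0} :=
    Nat.finite_of_card_ne_zero (by rw [h]; positivity)
  choose x hx using hrange
  have hxn : ∀ z (hz : z ∈ T), n • x z hz = 0 := fun z hz =>
    ConstExt.pic0Map_injective (K := K) (F := F) (by rw [map_nsmul, hx, hT hz, map_zero])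
  have hle := Nat.card_le_card_of_injective
    (fun z : T => (⟨x z.1 z.2, hxn z.1 z.2⟩ : {x : Pic0 (ConstExt.defField S) F₁ // n • x = 0}))
    fun a b hab => Subtype.ext (by
      rw [← hx a.1 a.2, ← hx b.1 b.2]
      exact congrArg _ (congrArg Subtype.val hab))
  rw [h, ← ConstExt.genusFF_eq (ConstExt.defField S) K F₁ F, Nat.card_eq_fintype_card,
    Fintype.card_coe, hcard] at hle
  omega

/-- There are `n ^ (2 g)` classes killed by `n`. -/
theorem natCard_torsion {n : ℕ} (hn : n ≠ 0) :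
    Nat.card {x : Pic0 K F // n • x = 0} = n ^ (2 * genusFF K F) := by
  classical
  have hfin := finite_torsion K F hn
  obtain ⟨S, F₁, _, _, hrange⟩ := ConstExt.exists_field_of_definition hfin.toFinset
  rw [ConstExt.genusFF_eq (ConstExt.defField S) K F₁ F,
    ← natCard_torsion_countable (ConstExt.defField S) F₁ hn]
  refine (Nat.card_congr (Equiv.ofBijective
    (fun x => ⟨ConstExt.pic0Map (K₀ := ConstExt.defField S) (F₀ := F₁) K F x.1,
      by rw [← map_nsmul, x.2, map_zero]⟩) ⟨fun a b h => ?_, fun z => ?_⟩)).symm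
  · exact Subtype.ext (ConstExt.pic0Map_injective (congrArg Subtype.val h))
  · obtain ⟨x, hx⟩ := hrange z.1 (hfin.mem_toFinset.mpr z.2)
    exact ⟨⟨x, ConstExt.pic0Map_injective (K := K) (F := F) (by rw [map_nsmul, hx, z.2, map_zero])⟩,
      Subtype.ext hx⟩

/-- The torsion subgroup of exponent `ℓ ^ k` has `ℓ ^ (2 g k)` elements. -/
theorem natCard_torsion_pow {ℓ : ℕ} (hℓ : ℓ ≠ 0) (k : ℕ) :
    Nat.card (Pic0.torsion K F (ℓ ^ k)) = ℓ ^ (2 * genusFF K F * k) := by
  rw [pow_mul, pow_right_comm, ← natCard_torsion K F (pow_ne_zero k hℓ)]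
  exact Nat.card_congr (Equiv.subtypeEquivRight fun x => by
    rw [Pic0.mem_torsion, natCast_zsmul])

/-- The group of classes of degree zero is divisible. -/
theorem exists_nsmul_eq {n : ℕ} (hn : n ≠ 0) (x : Pic0 K F) : ∃ y, n • y = x := by
  classical
  obtain ⟨S, F₁, _, _, hrange⟩ := ConstExt.exists_field_of_definition {x}
  obtain ⟨x₁, hx₁⟩ := hrange x (Finset.mem_singleton_self x)
  obtain ⟨y₁, hy₁⟩ := exists_nsmul_eq_countable (ConstExt.defField S) F₁ hn x₁
  exact ⟨ConstExt.pic0Map K F y₁, by rw [← map_nsmul, hy₁, hx₁]⟩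

end General

end FLTAgent.Jacobian
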