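import Fermat.Agent.Jacobian.ChartDiff
import Fermat.Agent.FFDifferential.Canonical

/-!
# Local Abel–Jacobi integrals

For a chart `C`, `C.primitive ω` is `∫_0^z ω` and `C.aj z` the functional `ω ↦ ∫_0^z ω` on
holomorphic differentials. These are analytic, and `aj_transition` compares two charts with the
same centre.
-/

set_option autoImplicit false

noncomputable section

open Filter Topology Metric AlgebraicCurve
open FLTAgent.FFBasic (IsFunctionField)
open FLTAgent.FFDifferential (holomorphicDifferentials)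

namespace FLTAgent.Jacobian

variable {F : Type*} [Field F] [Algebra ℂ F] [IsCurveOver ℂ F] [IsFunctionField ℂ F]

namespace Chart

variable (C : Chart F)

theorem analyticAt_diff_hol (ω : holomorphicDifferentials ℂ F) {z : ℂ} (hz : z ∈ ball (0 : ℂ) C.r) :
    AnalyticAt ℂ (C.diff ω.1) z :=
  C.analyticAt_diff hz (ω.2 _)

theorem coef_hol_mem (ω : holomorphicDifferentials ℂ F) {z : ℂ} (hz : z ∈ ball (0 : ℂ) C.r) :
    C.coef ω.1 ∈ (C.σ z).toValuationSubring := (C.coef_mem_iff hz ω.1).mpr (ω.2 _)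

theorem exists_primitive (ω : holomorphicDifferentials ℂ F) :
    ∃ Ω : ℂ → ℂ, Ω 0 = 0 ∧ ∀ z ∈ ball (0 : ℂ) C.r, HasDerivAt Ω (C.diff ω.1 z) z :=
  (DifferentiableOn.isExactOn_ball fun _ hz =>
    (C.analyticAt_diff_hol ω hz).differentiableAt.differentiableWithinAt).with_val_at 0 0

/-- The integral `∫_0^z ω` in the chart. -/
def primitive (ω : holomorphicDifferentials ℂ F) : ℂ → ℂ := (C.exists_primitive ω).choose

theorem primitive_zero (ω : holomorphicDifferentials ℂ F) : C.primitive ω 0 = 0 :=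
  (C.exists_primitive ω).choose_spec.1

theorem hasDerivAt_primitive (ω : holomorphicDifferentials ℂ F) {z : ℂ}
    (hz : z ∈ ball (0 : ℂ) C.r) : HasDerivAt (C.primitive ω) (C.diff ω.1 z) z :=
  (C.exists_primitive ω).choose_spec.2 z hz

theorem analyticAt_primitive (ω : holomorphicDifferentials ℂ F) {z : ℂ}
    (hz : z ∈ ball (0 : ℂ) C.r) : AnalyticAt ℂ (C.primitive ω) z :=
  DifferentiableOn.analyticAt
    (fun _ hu => (C.hasDerivAt_primitive ω hu).differentiableAt.differentiableWithinAt)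
    (isOpen_ball.mem_nhds hz)

theorem eqOn_primitive {ω : holomorphicDifferentials ℂ F} {Ω : ℂ → ℂ} (h0 : Ω 0 = 0)
    (hd : ∀ z ∈ ball (0 : ℂ) C.r, HasDerivAt Ω (C.diff ω.1 z) z) {z : ℂ}
    (hz : z ∈ ball (0 : ℂ) C.r) : C.primitive ω z = Ω z :=
  IsOpen.eqOn_of_deriv_eq isOpen_ball (convex_ball 0 C.r).isPreconnected
    (fun _ hu => (C.hasDerivAt_primitive ω hu).differentiableAt.differentiableWithinAt)
    (fun _ hu => (hd _ hu).differentiableAt.differentiableWithinAt)
    (fun _ hu => (C.hasDerivAt_primitive ω hu).deriv.trans (hd _ hu).deriv.symm)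
    (mem_ball_self C.r_pos) (by rw [C.primitive_zero, h0]) hz

theorem diff_add_hol (ω η : holomorphicDifferentials ℂ F) {z : ℂ} (hz : z ∈ ball (0 : ℂ) C.r) :
    C.diff ((ω + η : holomorphicDifferentials ℂ F) : Ω[F⁄ℂ]) z = C.diff ω.1 z + C.diff η.1 z := by
  rw [Submodule.coe_add, diff, map_add, val_add (C.coef_hol_mem ω hz) (C.coef_hol_mem η hz)]
  rfl

theorem diff_smul_hol (a : ℂ) (ω : holomorphicDifferentials ℂ F) {z : ℂ}
    (hz : z ∈ ball (0 : ℂ) C.r) :
    C.diff ((a • ω : holomorphicDifferentials ℂ F) : Ω[F⁄ℂ]) z = a * C.diff ω.1 z := by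
  rw [SetLike.val_smul, ← algebraMap_smul F a, diff, map_smul, smul_eq_mul,
    val_mul ((C.σ z).algebraMap_mem' a) (C.coef_hol_mem ω hz), val_algebraMap]
  rfl

open Classical in
/-- The Abel–Jacobi integral `ω ↦ ∫_0^z ω`. -/
def aj (z : ℂ) : Module.Dual ℂ (holomorphicDifferentials ℂ F) where
  toFun ω := if z ∈ ball (0 : ℂ) C.r then C.primitive ω z else 0
  map_add' ω η := by
    split_ifs with h
    · exact C.eqOn_primitive (by simp [C.primitive_zero]) (fun u hu =>
        C.diff_add_hol ω η hu ▸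
          ((C.hasDerivAt_primitive ω hu).fun_add (C.hasDerivAt_primitive η hu))) h
    · simp
  map_smul' a ω := by
    split_ifs with h
    · refine C.eqOn_primitive (Ω := fun u => a • C.primitive ω u) (by simp [C.primitive_zero])
        (fun u hu => ?_) h
      rw [C.diff_smul_hol a ω hu]
      exact (C.hasDerivAt_primitive ω hu).const_mul a
    · simp

theorem aj_apply {z : ℂ} (hz : z ∈ ball (0 : ℂ) C.r) (ω : holomorphicDifferentials ℂ F) :
    C.aj z ω = C.primitive ω z := if_pos hz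

theorem aj_zero : C.aj 0 = 0 :=
  LinearMap.ext fun ω => by
    rw [C.aj_apply (mem_ball_self C.r_pos), C.primitive_zero, LinearMap.zero_apply]

theorem hasDerivAt_aj_apply {z : ℂ} (hz : z ∈ ball (0 : ℂ) C.r) (ω : holomorphicDifferentials ℂ F) :
    HasDerivAt (fun u => C.aj u ω) (C.diff ω.1 z) z :=
  (C.hasDerivAt_primitive ω hz).congr_of_eventuallyEq
    ((eventually_of_mem (isOpen_ball.mem_nhds hz) fun _ hu => C.aj_apply hu ω))

theorem analyticAt_aj_apply {z : ℂ} (hz : z ∈ ball (0 : ℂ) C.r) (ω : holomorphicDifferentials ℂ F) :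
    AnalyticAt ℂ (fun u => C.aj u ω) z :=
  (C.analyticAt_primitive ω hz).congr
    ((eventually_of_mem (isOpen_ball.mem_nhds hz) fun _ hu => (C.aj_apply hu ω).symm))

/-- Two charts with the same centre have the same Abel–Jacobi integrals. -/
theorem aj_transition (C' : Chart F) (h : C'.σ 0 = C.σ 0) :
    ∀ᶠ z in 𝓝 (0 : ℂ), C'.σ (val (C.σ z) C'.t) = C.σ z ∧
      C'.aj (val (C.σ z) C'.t) = C.aj z := by
  have h0 := mem_ball_self (x := (0 : ℂ)) C.r_pos
  have h0' := mem_ball_self (x := (0 : ℂ)) C'.r_pos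
  obtain ⟨han, hτ0, -, hev⟩ := C.transition h0 C' h0' h
  set τ : ℂ → ℂ := fun s => val (C.σ s) C'.t with hτ
  let b := Module.finBasis ℂ (holomorphicDifferentials ℂ F)
  have hω : ∀ ω : holomorphicDifferentials ℂ F,
      ∀ᶠ z in 𝓝 (0 : ℂ), C'.aj (τ z) ω = C.aj z ω := by
    intro ω
    have hd : ∀ᶠ s in 𝓝 (0 : ℂ), C'.diff ω.1 (τ s) * deriv τ s = C.diff ω.1 s := by
      refine (((C'.analyticAt_diff_hol ω h0').comp_of_eq han hτ0).mul han.deriv
        |>.frequently_eq_iff_eventually_eq (C.analyticAt_diff_hol ω h0)).mp ?_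
      exact ((C.diff_transition h0 C' h0' h ω.1).mono fun s hs => hs.symm).frequently
    obtain ⟨ε, hε, hball⟩ := Metric.eventually_nhds_iff_ball.mp
      ((hd.and han.eventually_analyticAt).and (hev.and (isOpen_ball.mem_nhds h0)))
    refine Metric.eventually_nhds_iff_ball.mpr ⟨ε, hε, fun z hz => ?_⟩
    refine IsOpen.eqOn_of_deriv_eq (f := fun u => C'.aj (τ u) ω) (g := fun u => C.aj u ω)
      isOpen_ball (convex_ball 0 ε).isPreconnected (fun u hu => ?_) (fun u hu => ?_)
      (fun u hu => ?_) (mem_ball_self hε) ?_ hz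
    · obtain ⟨⟨-, h2⟩, ⟨h3, -⟩, -⟩ := hball u hu
      exact ((C'.analyticAt_aj_apply h3 ω).comp (f := τ) h2).differentiableAt.differentiableWithinAt
    · exact (C.analyticAt_aj_apply (hball u hu).2.2 ω).differentiableAt.differentiableWithinAt
    · obtain ⟨⟨h1, h2⟩, ⟨h3, -⟩, h4⟩ := hball u hu
      exact (((C'.hasDerivAt_aj_apply h3 ω).comp u h2.differentiableAt.hasDerivAt).deriv.trans
        h1).trans (C.hasDerivAt_aj_apply h4 ω).deriv.symm
    · show C'.aj (τ 0) ω = C.aj 0 ω
      rw [show τ 0 = 0 from hτ0, C.aj_zero, C'.aj_zero]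
  filter_upwards [eventually_all.mpr fun i => hω (b i), hev] with z hz hz'
  exact ⟨hz'.2.symm, b.ext hz⟩

end Chart

end FLTAgent.Jacobian
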