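import Fermat.Agent.Jacobian.ChartDiff

/-!
# The residue theorem on the places over `ℂ`

`sum_resPlace_eq_zero`: the residues of a differential sum to zero, by pushing forward along a
nonconstant function (`fibreSum`). `sum_circleIntegral_eq_zero` is the version with a family of
disjoint discs containing all poles.
-/

set_option autoImplicit false

noncomputable section

open Filter Topology Metric AlgebraicCurve Function
open FLTAgent.FFBasic (IsFunctionField)

namespace FLTAgent.Jacobian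

variable {F : Type*} [Field F] [Algebra ℂ F] [IsCurveOver ℂ F] [IsFunctionField ℂ F]

omit [IsFunctionField ℂ F] in
theorem val_mul_of_unit {P : Place ℂ F} {u : F} (hu : u ∈ P.toValuationSubring) (hv : val P u ≠ 0)
    (f : F) : val P (f * u) = val P f * val P u := by
  by_cases hf : f ∈ P.toValuationSubring
  · exact val_mul hf hu
  · have : f * u ∉ P.toValuationSubring := fun h => hf (by
      have := mul_mem h (val_inv hu hv).1
      rwa [mul_inv_cancel_right₀ (fun e => hv (by rw [e, val_zero]))] at this)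
    rw [val_of_notMem this, val_of_notMem hf, zero_mul]

/-- Coordinates at a point of the fibre of `x` over `a` in which `x = a + u ^ e`. -/
theorem exists_fibreChart {x : F} (hx : Transcendental ℂ x) {a : ℂ} {P : Place ℂ F}
    (hxP : x ∈ P.toValuationSubring) (hxa : val P x = a) :
    ∃ (e : ℕ) (Φ : ℂ → Place ℂ F), e ≠ 0 ∧ Φ 0 = P ∧
      (∀ V ∈ 𝓝 (0 : ℂ), Φ '' V ∈ 𝓝 P) ∧ Tendsto Φ (𝓝 0) (𝓝 P) ∧
      (∃ ε > 0, Set.InjOn Φ (ball (0 : ℂ) ε)) ∧
      (∀ᶠ u in 𝓝 (0 : ℂ), x ∈ (Φ u).toValuationSubring ∧ val (Φ u) x = a + u ^ e) ∧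
      (∀ c : F, MeromorphicAt (fun u => val (Φ u) c) 0) ∧
      ∀ c : F, resPlace (c • KaehlerDifferential.D ℂ F x) P
        = resAt (fun u => val (Φ u) c * ((e : ℂ) * u ^ (e - 1))) 0 := by
  obtain ⟨C, rfl⟩ := exists_chart P
  have h0 := mem_ball_self (x := (0 : ℂ)) C.r_pos
  have hne : x - algebraMap ℂ F a ≠ 0 := fun e => hx (by
    rw [sub_eq_zero] at e; rw [e]; exact isAlgebraic_algebraMap _)
  have hpos : 0 < (C.σ 0).ord (x - algebraMap ℂ F a) := by
    rw [← val_eq_zero_iff (sub_mem hxP ((C.σ 0).algebraMap_mem' a)) hne,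
      val_sub hxP ((C.σ 0).algebraMap_mem' a), val_algebraMap, hxa, sub_self]
  obtain ⟨e, he⟩ : ∃ e : ℕ, (C.σ 0).ord (x - algebraMap ℂ F a) = e :=
    ⟨_, (Int.toNat_of_nonneg hpos.le).symm⟩
  have he0 : e ≠ 0 := fun h => by rw [he, h] at hpos; simp at hpos
  set f : ℂ → ℂ := fun s => val (C.σ s) x - a with hf
  have hfan : AnalyticAt ℂ f 0 := (C.analyticAt h0 hxP).sub analyticAt_const
  have hford : analyticOrderAt f 0 = (e : ℕ∞) := by
    have hev : (fun s => val (C.σ s) (x - algebraMap ℂ F a)) =ᶠ[𝓝[≠] 0] f := by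
      filter_upwards [C.eventually_mem h0 x] with s hs
      rw [val_sub hs ((C.σ s).algebraMap_mem' a), val_algebraMap]
    have hm := C.order _ hne 0 h0
    rw [meromorphicOrderAt_congr hev, hfan.meromorphicOrderAt_eq, he] at hm
    cases h : analyticOrderAt f 0 with
    | top => simp [h] at hm
    | coe n => simp [h] at hm; exact_mod_cast hm
  obtain ⟨ψ, hψ, hψ0, hψd, hψe⟩ := exists_normalForm he0 hfan hford
  have hψt : Tendsto ψ (𝓝 0) (𝓝 0) := by simpa [hψ0] using hψ.continuousAt.tendsto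
  have hmap : map ψ (𝓝 0) = 𝓝 0 := by
    have := hψ.hasStrictDerivAt.map_nhds_eq hψd
    rwa [hψ0] at this
  have hψball : ∀ᶠ u in 𝓝 (0 : ℂ), ψ u ∈ ball (0 : ℂ) C.r :=
    hψt.eventually (isOpen_ball.mem_nhds h0)
  have hxreg : ∀ᶠ s in 𝓝 (0 : ℂ), x ∈ (C.σ s).toValuationSubring :=
    (C.continuousAt h0).preimage_mem_nhds ((isOpen_setOf_mem x).mem_nhds hxP)
  refine ⟨e, fun u => C.σ (ψ u), he0, congrArg C.σ hψ0, ?_, ?_, ?_, ?_, ?_, ?_⟩
  · intro V hV
    rw [← Set.image_image C.σ ψ]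
    exact C.image_mem_nhds h0 (hmap ▸ image_mem_map hV)
  · exact (C.continuousAt h0).tendsto.comp hψt
  · obtain ⟨U, hU, hUinj⟩ : ∃ U ∈ 𝓝 (0 : ℂ), Set.InjOn ψ U := by
      have hS := hψ.hasStrictDerivAt.hasStrictFDerivAt_equiv hψd
      let E := hS.toOpenPartialHomeomorph ψ
      refine ⟨E.source, E.open_source.mem_nhds hS.mem_toOpenPartialHomeomorph_source, ?_⟩
      rw [← hS.toOpenPartialHomeomorph_coe]
      exact E.injOn
    obtain ⟨ε, hε, hεU⟩ := Metric.mem_nhds_iff.mp (inter_mem hU hψball)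
    exact ⟨ε, hε, fun u hu v hv h =>
      hUinj (hεU hu).1 (hεU hv).1 (C.injOn (hεU hu).2 (hεU hv).2 h)⟩
  · filter_upwards [hψe, hψt.eventually hxreg] with u h1 h2
    exact ⟨h2, by simp only [f] at h1; linear_combination h1⟩
  · intro c
    have := C.mero c 0 h0
    rw [← hψ0] at this
    exact this.comp_analyticAt hψ
  · intro c
    have hm : MeromorphicAt (C.diff (c • KaehlerDifferential.D ℂ F x)) (ψ 0) := by
      rw [hψ0]; exact C.meromorphicAt_diff _ h0
    rw [← C.resAt_diff_eq h0, ← hψ0, ← resAt_comp_mul_deriv hψ hψd hm, hψ0]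
    refine resAt_congr ?_
    have hψne : Tendsto ψ (𝓝[≠] 0) (𝓝[≠] 0) := by
      simpa [hψ0] using tendsto_nhdsNE_of_deriv_ne_zero hψ hψd
    filter_upwards [hψne.eventually (C.diff_smul h0 (η := KaehlerDifferential.D ℂ F x) c),
      hψne.eventually (C.eventually_deriv_eq x h0),
      eventually_nhdsWithin_of_eventually_nhds hψe.eventually_nhds,
      eventually_nhdsWithin_of_eventually_nhds hψ.eventually_analyticAt,
      hψne.eventually (C.mero x 0 h0).eventually_analyticAt] with u h1 h2 h3 h4 h5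
    rw [h1, ← h2, mul_assoc]
    congr 1
    have hcomp : HasDerivAt (fun v => val (C.σ (ψ v)) x)
        (deriv (fun s => val (C.σ s) x) (ψ u) * deriv ψ u) u :=
      HasDerivAt.comp (h₂ := fun s => val (C.σ s) x) u h5.differentiableAt.hasDerivAt
        h4.differentiableAt.hasDerivAt
    have hpow : HasDerivAt (fun v : ℂ => a + v ^ e) ((e : ℂ) * u ^ (e - 1)) u :=
      (hasDerivAt_pow e u).const_add a
    refine hcomp.unique (hpow.congr_of_eventuallyEq ?_)
    filter_upwards [h3] with v hv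
    simp only [f] at hv
    linear_combination hv

/-- The fibre of `x` over `a` is finite. -/
theorem finite_fibre {x : F} (hx : Transcendental ℂ x) (a : ℂ) :
    {P : Place ℂ F | valHat P x = OnePoint.some a}.Finite := by
  refine (FFBasic.finite_setOf_ord_pos (K := ℂ) (x - algebraMap ℂ F a)).subset fun P hP => ?_
  have hne : x - algebraMap ℂ F a ≠ 0 := fun e => hx (by
    rw [sub_eq_zero] at e; rw [e]; exact isAlgebraic_algebraMap _)
  rw [Set.mem_ofPred_eq, valHat_eq_coe_iff] at hP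
  show 0 < P.ord (x - algebraMap ℂ F a)
  rw [← val_eq_zero_iff (sub_mem hP.1 (P.algebraMap_mem' a)) hne,
    val_sub hP.1 (P.algebraMap_mem' a), val_algebraMap, hP.2, sub_self]

/-- The sum of the values of `c` over the fibre of `x` over `a`. -/
def fibreSum {x : F} (hx : Transcendental ℂ x) (c : F) (a : ℂ) : ℂ :=
  ∑ P ∈ (finite_fibre hx a).toFinset, val P c

theorem fibreSum_spec {x : F} (hx : Transcendental ℂ x) (c : F) (a : ℂ) :
    MeromorphicAt (fibreSum hx c) a ∧ resAt (fibreSum hx c) a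
      = ∑ P ∈ (finite_fibre hx a).toFinset, resPlace (c • KaehlerDifferential.D ℂ F x) P := by
  classical
  set S := (finite_fibre hx a).toFinset with hSdef
  have hS : ∀ P, P ∈ S ↔ x ∈ P.toValuationSubring ∧ val P x = a := fun P => by
    simp [hSdef, valHat_eq_coe_iff]
  have hdata := fun P : S => exists_fibreChart hx ((hS P).mp P.2).1 ((hS P).mp P.2).2
  choose e Φ he0 hΦ0 hΦnhds hΦt hΦinj hΦx hΦm hΦres using hdata
  obtain ⟨U, hU, hdisj⟩ := S.finite_toSet.t2_separation
  have hev : ∀ P : S, ∃ ε > 0, Set.InjOn (Φ P) (ball (0 : ℂ) ε) ∧ ∀ u ∈ ball (0 : ℂ) ε,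
      x ∈ (Φ P u).toValuationSubring ∧ val (Φ P u) x = a + u ^ e P ∧ Φ P u ∈ U P := by
    intro P
    obtain ⟨ε, hε, hinj⟩ := hΦinj P
    obtain ⟨ε', hε', h⟩ := Metric.eventually_nhds_iff.mp ((hΦx P).and
      ((hΦt P).eventually ((hU P).2.mem_nhds (hU P).1)))
    refine ⟨min ε ε', lt_min hε hε', hinj.mono (ball_subset_ball (min_le_left _ _)), fun u hu => ?_⟩
    have := h (lt_of_lt_of_le (mem_ball.mp hu) (min_le_right _ _))
    exact ⟨this.1.1, this.1.2, this.2⟩
  choose ε hε hεinj hεu using hev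
  -- places with `x` close to `a` lie in the charts
  have hnear : ∀ᶠ b in 𝓝 a, ∀ Q : Place ℂ F, valHat Q x = OnePoint.some b →
      ∃ P : S, Q ∈ Φ P '' ball 0 (ε P) := by
    have hmem : ∀ P : S, Φ P '' ball 0 (ε P) ∈ 𝓝 (P : Place ℂ F) := fun P =>
      hΦnhds P _ (ball_mem_nhds _ (hε P))
    choose W hW hWo hWP using fun P : S => _root_.mem_nhds_iff.mp (hmem P)
    set K : Set (Place ℂ F) := (⋃ P : S, W P)ᶜ with hK
    have hKc : IsCompact K := (isOpen_iUnion hWo).isClosed_compl.isCompact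
    have hclosed : IsClosed ((fun Q => valHat Q x) '' K) :=
      (hKc.image (continuous_valHat x)).isClosed
    have hnot : OnePoint.some a ∉ (fun Q => valHat Q x) '' K := by
      rintro ⟨Q, hQ, hQa⟩
      rw [valHat_eq_coe_iff] at hQa
      exact hQ (Set.mem_iUnion.mpr ⟨⟨Q, (hS Q).mpr hQa⟩, hWP ⟨Q, (hS Q).mpr hQa⟩⟩)
    filter_upwards [OnePoint.continuous_coe.continuousAt.preimage_mem_nhds
      (hclosed.isOpen_compl.mem_nhds hnot)] with b hb Q hQ
    by_contra hcon
    push Not at hcon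
    refine hb ⟨Q, fun hQW => ?_, hQ⟩
    obtain ⟨P, hP⟩ := Set.mem_iUnion.mp hQW
    exact hcon P (hW P hP)
  set h : S → ℂ → ℂ := fun P u => val (Φ P u) c with hh
  have hmain : (fun δ => fibreSum hx c (a + δ))
      =ᶠ[𝓝[≠] (0 : ℂ)] fun δ => ∑ P : S, rootSum (h P) (e P) δ := by
    have hshift : Tendsto (fun δ => a + δ) (𝓝 (0 : ℂ)) (𝓝 a) := by
      simpa using (continuous_const.add continuous_id).tendsto (0 : ℂ) (f := fun δ => a + δ)
    have hsmall : ∀ᶠ δ in 𝓝 (0 : ℂ), ∀ P : S, ‖δ‖ < ε P ^ e P := eventually_all.mpr fun P => by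
      filter_upwards [ball_mem_nhds (0 : ℂ) (pow_pos (hε P) (e P))] with δ hδ
      exact mem_ball_zero_iff.mp hδ
    filter_upwards [eventually_nhdsWithin_of_eventually_nhds (hshift.eventually hnear),
      eventually_nhdsWithin_of_eventually_nhds hsmall, self_mem_nhdsWithin] with δ hδ hδs hδ0
    let rt : (Σ P : S, Fin (e P)) → ℂ := fun p => rootOne (e p.1) ^ (p.2 : ℕ) * δ ^ ((e p.1 : ℂ)⁻¹)
    have hrt : ∀ p, rt p ^ e p.1 = δ := fun p => by
      simp [rt, mul_pow, rootOne_pow_pow (he0 p.1), Complex.cpow_nat_inv_pow δ (he0 p.1)]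
    have hrtb : ∀ p, rt p ∈ ball (0 : ℂ) (ε p.1) := fun p =>
      mem_ball_zero_iff.mpr (norm_root_lt (hε p.1).le (hrt p) (hδs p.1))
    have hs0 : ∀ P : S, δ ^ ((e P : ℂ)⁻¹) ≠ 0 := fun P h =>
      Set.mem_compl_singleton_iff.mp hδ0
        (by rw [← Complex.cpow_nat_inv_pow δ (he0 P), h, zero_pow (he0 P)])
    show ∑ Q ∈ (finite_fibre hx (a + δ)).toFinset, val Q c = _
    rw [show ∑ P : S, rootSum (h P) (e P) δ = ∑ p : (Σ P : S, Fin (e P)), val (Φ p.1 (rt p)) c by
      rw [Fintype.sum_sigma]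
      refine Finset.sum_congr rfl fun P _ => ?_
      rw [rootSum, Finset.sum_range]]
    refine (Finset.sum_bij (fun p _ => Φ p.1 (rt p)) ?_ ?_ ?_ fun p _ => rfl).symm
    · intro p _
      obtain ⟨h1, h2, -⟩ := hεu p.1 _ (hrtb p)
      simp [valHat_eq_coe_iff, h1, h2, hrt p]
    · rintro ⟨P, i⟩ _ ⟨P', i'⟩ _ hpp
      have h1 := (hεu P _ (hrtb ⟨P, i⟩)).2.2
      have h2 := (hεu P' _ (hrtb ⟨P', i'⟩)).2.2
      have hPP : P = P' := by
        by_contra hne
        refine Set.disjoint_left.mp (hdisj P.2 P'.2 fun h => hne (Subtype.ext h)) h1 ?_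
        simp only at hpp
        rwa [hpp]
      subst hPP
      have := hεinj P (hrtb ⟨P, i⟩) (hrtb ⟨P, i'⟩) hpp
      have hpow := mul_right_cancel₀ (hs0 P) this
      exact congrArg _ (Fin.ext ((isPrimitiveRoot_rootOne (he0 P)).pow_inj i.2 i'.2 hpow))
    · intro Q hQ
      rw [Set.Finite.mem_toFinset, Set.mem_ofPred_eq] at hQ
      obtain ⟨P, u, hu, rfl⟩ := hδ Q hQ
      obtain ⟨-, h2, -⟩ := hεu P u hu
      rw [valHat_eq_coe_iff, h2] at hQ
      have hue : u ^ e P = δ := add_left_cancel hQ.2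
      have hw : (u / δ ^ ((e P : ℂ)⁻¹)) ^ e P = 1 := by
        rw [div_pow, hue, Complex.cpow_nat_inv_pow δ (he0 P),
          div_self (Set.mem_compl_singleton_iff.mp hδ0)]
      have : NeZero (e P) := ⟨he0 P⟩
      obtain ⟨i, hi, hiw⟩ := (isPrimitiveRoot_rootOne (he0 P)).eq_pow_of_pow_eq_one hw
      refine ⟨⟨P, ⟨i, hi⟩⟩, Finset.mem_univ _, ?_⟩
      simp only [rt]
      rw [hiw, div_mul_cancel₀ _ (hs0 P)]
  have hspec := fun P : S => rootSum_meromorphic (he0 P) (hΦm P c)
  have hsum : MeromorphicAt (fun δ => ∑ P : S, rootSum (h P) (e P) δ) 0 :=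
    MeromorphicAt.fun_sum fun P _ => (hspec P).1
  have hshift0 : MeromorphicAt (fun δ => fibreSum hx c (a + δ)) 0 := hsum.congr hmain.symm
  have hA : MeromorphicAt (fibreSum hx c) a := by
    have h2 : MeromorphicAt (fun δ => fibreSum hx c (a + δ)) ((fun b => b - a) a) := by
      simpa only [sub_self] using hshift0
    have := h2.comp_analyticAt (g := fun b => b - a) (analyticAt_id.sub analyticAt_const)
    simpa [Function.comp_def] using this
  refine ⟨hA, ?_⟩
  have hψ : AnalyticAt ℂ (fun δ => a + δ) (0 : ℂ) := analyticAt_const.add analyticAt_id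
  have hd : deriv (fun δ : ℂ => a + δ) 0 = 1 := by simp
  have := resAt_comp_mul_deriv (h := fibreSum hx c) hψ (by rw [hd]; exact one_ne_zero)
    (by simpa using hA)
  simp only [add_zero] at this
  rw [← this, ← Finset.sum_coe_sort S]
  have hsimp : (fun s => fibreSum hx c (a + s) * deriv (fun δ : ℂ => a + δ) s)
      = fun s => fibreSum hx c (a + s) := by
    funext s; simp
  rw [hsimp, resAt_congr hmain, resAt_sum _ fun P _ => (hspec P).1]
  exact Finset.sum_congr rfl fun P _ => by rw [(hspec P).2, hΦres P c]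

theorem fibreSum_inv {x : F} (hx : Transcendental ℂ x) (hy : Transcendental ℂ x⁻¹) (c : F) {b : ℂ}
    (hb : b ≠ 0) :
    fibreSum hy (-(c * x ^ 2)) b = -(fibreSum hx c b⁻¹) / b ^ 2 := by
  have hset : (finite_fibre hy b).toFinset = (finite_fibre hx b⁻¹).toFinset := by
    ext P
    simp only [Set.Finite.mem_toFinset, Set.mem_ofPred_eq, valHat_eq_coe_iff]
    constructor
    · rintro ⟨h1, h2⟩
      obtain ⟨h3, h4⟩ := val_inv h1 (h2 ▸ hb)
      rw [inv_inv] at h3 h4
      exact ⟨h3, by rw [h4, h2]⟩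
    · rintro ⟨h1, h2⟩
      obtain ⟨h3, h4⟩ := val_inv h1 (h2 ▸ inv_ne_zero hb)
      exact ⟨h3, by rw [h4, h2, inv_inv]⟩
  unfold fibreSum
  rw [hset, neg_div, Finset.sum_div, ← Finset.sum_neg_distrib]
  refine Finset.sum_congr rfl fun P hP => ?_
  rw [Set.Finite.mem_toFinset, Set.mem_ofPred_eq, valHat_eq_coe_iff] at hP
  have hu : -(x ^ 2) ∈ P.toValuationSubring := neg_mem (pow_mem hP.1 2)
  have hv : val P (-(x ^ 2)) = -(b⁻¹) ^ 2 := by rw [val_neg (pow_mem hP.1 2), val_pow hP.1, hP.2]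
  rw [← mul_neg, val_mul_of_unit hu (by rw [hv]; simp [hb]), hv]
  field_simp

/-- The residue theorem. -/
theorem sum_resPlace_eq_zero (η : Ω[F⁄ℂ]) (T : Finset (Place ℂ F))
    (hT : ∀ P, resPlace η P ≠ 0 → P ∈ T) : ∑ P ∈ T, resPlace η P = 0 := by
  classical
  obtain ⟨C₀⟩ : Nonempty (Chart F) :=
    ⟨chartAtPlace (Classical.choice (FFBasic.nonempty_place (K := ℂ) (F := F)))⟩
  set x := C₀.t
  have hx : Transcendental ℂ x := FFBasic.transcendental_of_ord_ne_zero (C₀.σ 0) (by
    have := C₀.ord_t_sub (mem_ball_self C₀.r_pos)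
    rw [map_zero, sub_zero] at this
    show (C₀.σ 0).ord C₀.t ≠ 0
    rw [this]; exact one_ne_zero)
  have hy : Transcendental ℂ x⁻¹ := FFBasic.transcendental_inv hx
  have hx0 : x ≠ 0 := fun e => hx (e ▸ isAlgebraic_zero)
  set c := C₀.coef η
  have hη : η = c • KaehlerDifferential.D ℂ F x := (C₀.coef_smul_D η).symm
  have hη' : η = (-(c * x ^ 2)) • KaehlerDifferential.D ℂ F x⁻¹ := by
    rw [Derivation.leibniz_inv, smul_smul, hη]
    congr 1
    field_simp
  set G := fibreSum hx c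
  set G' := fibreSum hy (-(c * x ^ 2))
  have hGm : ∀ a, MeromorphicAt G a := fun a => (fibreSum_spec hx c a).1
  have hG'0 := fibreSum_spec hy (-(c * x ^ 2)) 0
  have hinf : G' =ᶠ[𝓝[≠] (0 : ℂ)] fun b => -(G b⁻¹) / b ^ 2 := by
    filter_upwards [self_mem_nhdsWithin] with b hb
    exact fibreSum_inv hx hy c hb
  -- `G` is analytic outside a finite set
  obtain ⟨R, hR, hRan⟩ : ∃ R > 0, ∀ a : ℂ, R < ‖a‖ → AnalyticAt ℂ G a := by
    have h := (hG'0.1.congr hinf).eventually_analyticAt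
    rw [eventually_nhdsWithin_iff, Metric.eventually_nhds_iff] at h
    obtain ⟨ε, hε, h⟩ := h
    refine ⟨ε⁻¹, inv_pos.mpr hε, fun a ha => ?_⟩
    have ha0 : a ≠ 0 := fun e => by
      rw [e, norm_zero] at ha; exact absurd ha (not_lt.mpr (inv_pos.mpr hε).le)
    have h' := h (y := a⁻¹) (by rw [dist_zero_right, norm_inv]; exact inv_lt_of_inv_lt₀ hε ha)
      (inv_ne_zero ha0)
    have hcomp : AnalyticAt ℂ (fun z => -(-(G z⁻¹⁻¹) / (z⁻¹) ^ 2) * (z⁻¹) ^ 2) a :=
      ((h'.fun_comp (analyticAt_id.inv ha0)).neg).mul ((analyticAt_id.inv ha0).pow 2)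
    refine hcomp.congr ?_
    filter_upwards [isOpen_ne.mem_nhds ha0] with z hz
    rw [inv_inv]
    field_simp
  have hfin : {a : ℂ | ¬ AnalyticAt ℂ G a}.Finite := by
    choose W hW hWo hWm using fun a : ℂ => _root_.eventually_nhds_iff.mp
      (eventually_nhdsWithin_iff.mp (hGm a).eventually_analyticAt)
    obtain ⟨t, ht⟩ := (isCompact_closedBall (0 : ℂ) R).elim_finite_subcover W hWo fun a _ =>
      Set.mem_iUnion.mpr ⟨a, hWm a⟩
    refine t.finite_toSet.subset fun a ha => ?_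
    have haR : a ∈ closedBall (0 : ℂ) R := mem_closedBall_zero_iff.mpr (not_lt.mp (mt (hRan a) ha))
    obtain ⟨b, hb, hab⟩ : ∃ b ∈ t, a ∈ W b := by simpa using ht haR
    by_contra hne
    exact ha (hW b a hab fun e => hne (Set.mem_singleton_iff.mp e ▸ hb))
  set A : Finset ℂ := hfin.toFinset ∪ T.image (fun P => val P x) with hA
  set Finf := (finite_fibre hy 0).toFinset
  set fib := fun a => (finite_fibre hx a).toFinset
  have hfinf : resAt G' 0 = ∑ P ∈ Finf, resPlace η P := by rw [hG'0.2, ← hη']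
  have hfib : ∀ a, resAt G a = ∑ P ∈ fib a, resPlace η P := fun a => by
    rw [(fibreSum_spec hx c a).2, ← hη]
  have htot : ∑ a ∈ A, resAt G a + resAt G' 0 = 0 := by
    rw [resAt_congr hinf, resAt_infty_eq A (fun s hs => by
      by_contra hns
      exact hs (Finset.mem_union_left _ (hfin.mem_toFinset.mpr hns))) fun w _ => hGm w,
      add_neg_cancel]
  have hpd : (↑A : Set ℂ).PairwiseDisjoint fib := fun a _ b _ hab =>
    Finset.disjoint_left.mpr fun P hPa hPb => hab (by
      simp only [fib, Set.Finite.mem_toFinset, Set.mem_ofPred_eq] at hPa hPb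
      exact OnePoint.coe_eq_coe.mp (hPa.symm.trans hPb))
  have hdisj : Disjoint (A.biUnion fib) Finf := by
    refine Finset.disjoint_left.mpr fun P hPa hPb => ?_
    obtain ⟨a, -, hPa⟩ := Finset.mem_biUnion.mp hPa
    simp only [fib, Finf, Set.Finite.mem_toFinset, Set.mem_ofPred_eq, valHat_eq_coe_iff] at hPa hPb
    have h1 := val_mul hPa.1 hPb.1
    rw [mul_inv_cancel₀ hx0, val_one, hPb.2, mul_zero] at h1
    exact one_ne_zero h1
  rw [Finset.sum_congr rfl fun a _ => hfib a, hfinf, ← Finset.sum_biUnion hpd,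
    ← Finset.sum_union hdisj] at htot
  have hsub : T ⊆ A.biUnion fib ∪ Finf := fun P hP => by
    by_cases hm : x ∈ P.toValuationSubring
    · exact Finset.mem_union_left _ (Finset.mem_biUnion.mpr
        ⟨val P x, Finset.mem_union_right _ (Finset.mem_image_of_mem _ hP), by
          simp [fib, valHat_eq_coe_iff, hm]⟩)
    · refine Finset.mem_union_right _ ?_
      have h := notMem_iff_ord_neg.mp hm
      have h1 : x⁻¹ ∈ P.toValuationSubring := FFBasic.mem_of_ord_nonneg _ (by rw [P.ord_inv]; omega)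
      simp only [Finf, Set.Finite.mem_toFinset, Set.mem_ofPred_eq, valHat_eq_coe_iff]
      exact ⟨h1, (val_eq_zero_iff h1 (inv_ne_zero hx0)).mpr (by rw [P.ord_inv]; omega)⟩
  rw [← htot]
  exact Finset.sum_subset hsub fun P _ hP => by
    by_contra hne
    exact hP (hT P hne)

/-- The residue theorem for a family of disjoint discs containing all poles. -/
theorem sum_circleIntegral_eq_zero {ι : Type*} [Fintype ι] (C : ι → Chart F) (ρ : ι → ℝ)
    (hρ : ∀ i, 0 < ρ i) (hρr : ∀ i, ρ i < (C i).r)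
    (hdisj : ∀ i j, i ≠ j →
      Disjoint ((C i).σ '' closedBall 0 (ρ i)) ((C j).σ '' closedBall 0 (ρ j)))
    (η : Ω[F⁄ℂ]) (hpole : ∀ P : Place ℂ F, P.ordDifferential η < 0 →
      ∃ i, ∃ s ∈ ball (0 : ℂ) (ρ i), (C i).σ s = P) :
    ∑ i, (∮ s in C(0, ρ i), (C i).diff η s) = 0 := by
  classical
  have hsub : ∀ i, closedBall (0 : ℂ) (ρ i) ⊆ ball 0 (C i).r := fun i =>
    closedBall_subset_ball (hρr i)
  set T := (finite_poles η).toFinset
  let idx : ∀ P ∈ T, ι := fun P hP => (hpole P ((finite_poles η).mem_toFinset.mp hP)).choose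
  let Tz : ι → Finset (Place ℂ F) := fun i =>
    T.filter fun P => P ∈ (C i).σ '' ball 0 (ρ i)
  let S : ι → Finset ℂ := fun i => (Tz i).image fun P => val P (C i).t
  have hSmem : ∀ i, ∀ P ∈ Tz i,
      val P (C i).t ∈ ball (0 : ℂ) (ρ i) ∧ (C i).σ (val P (C i).t) = P := by
    intro i P hP
    obtain ⟨s, hs, rfl⟩ := (Finset.mem_filter.mp hP).2
    rw [(C i).val_t (hsub i (ball_subset_closedBall hs))]
    exact ⟨hs, rfl⟩
  have key : ∀ i, (∮ s in C(0, ρ i), (C i).diff η s) = twoPiI * ∑ P ∈ Tz i, resPlace η P := by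
    intro i
    rw [circleIntegral_eq_sum_resAt (hρ i) (S i)]
    · congr 1
      rw [Finset.sum_image fun P hP Q hQ h => by rw [← (hSmem i P hP).2, h, (hSmem i Q hQ).2]]
      refine Finset.sum_congr rfl fun P hP => ?_
      rw [(C i).resAt_diff_eq (hsub i (ball_subset_closedBall (hSmem i P hP).1)), (hSmem i P hP).2]
    · intro w hw
      obtain ⟨P, hP, rfl⟩ := Finset.mem_image.mp hw
      exact (hSmem i P hP).1
    · intro s hs hsS
      refine (C i).analyticAt_diff (hsub i hs) ?_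
      by_contra hneg
      push Not at hneg
      obtain ⟨j, u, hu, huP⟩ := hpole _ hneg
      have hij : j = i := by
        by_contra hne
        exact Set.disjoint_left.mp (hdisj j i hne) ⟨u, ball_subset_closedBall hu, rfl⟩
          ⟨s, hs, huP.symm⟩
      subst hij
      have hus := (C j).injOn (hsub j (ball_subset_closedBall hu)) (hsub j hs) huP
      subst hus
      exact hsS (Finset.mem_image.mpr ⟨(C j).σ u, Finset.mem_filter.mpr
        ⟨(finite_poles η).mem_toFinset.mpr hneg, Set.mem_image_of_mem _ hu⟩,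
        (C j).val_t (hsub j hs)⟩)
    · intro w hw
      obtain ⟨P, hP, rfl⟩ := Finset.mem_image.mp hw
      exact (C i).meromorphicAt_diff η (hsub i (ball_subset_closedBall (hSmem i P hP).1))
  simp only [key, ← Finset.mul_sum]
  rw [← Finset.sum_biUnion]
  · rw [sum_resPlace_eq_zero η _ fun P hP => ?_, mul_zero]
    have hneg : P.ordDifferential η < 0 := by
      by_contra h
      exact hP (resPlace_eq_zero_of_regular (not_lt.mp h))
    obtain ⟨i, s, hs, hsP⟩ := hpole P hneg
    exact Finset.mem_biUnion.mpr ⟨i, Finset.mem_univ _, Finset.mem_filter.mpr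
      ⟨(finite_poles η).mem_toFinset.mpr hneg, s, hs, hsP⟩⟩
  · intro i _ j _ hij
    refine Finset.disjoint_left.mpr fun P hPi hPj => ?_
    exact Set.disjoint_left.mp (hdisj i j hij)
      (Set.image_mono ball_subset_closedBall (Finset.mem_filter.mp hPi).2)
      (Set.image_mono ball_subset_closedBall (Finset.mem_filter.mp hPj).2)

end FLTAgent.Jacobian
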