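import Fermat.Agent.Jacobian.LinEq
import Fermat.Agent.Jacobian.AbelJacobi
import Fermat.Agent.Jacobian.ResidueTheorem

/-!
# Abel's theorem, locally

`local_abel'`: in fixed charts, linearly equivalent configurations near a given one have the
same sums of Abel–Jacobi integrals. The analytic core `sum_aj_eq_of_small` uses the residue
theorem.
-/

set_option autoImplicit false

noncomputable section

open Filter Topology Metric AlgebraicCurve
open FLTAgent.FFBasic (IsFunctionField)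
open FLTAgent.FFDifferential (holomorphicDifferentials)
open FLTAgent.FFRiemannRoch (divOf divOf_apply divOf_mul degree_divOf ell)

namespace FLTAgent.Jacobian

variable {F : Type*} [Field F] [Algebra ℂ F] [IsCurveOver ℂ F] [IsFunctionField ℂ F]

theorem eq_of_mem_incidence (A : Divisor ℂ F) {ι : Type*} [Fintype ι]
    (hdeg : Divisor.degree A = Fintype.card ι) {E : ι → Place ℂ F}
    {v : sphere (0 : Fin (ell ℂ F A) → ℂ) 1} (h : (E, v) ∈ incidence A ι) :
    divOf (combo A v.1) + A = divT E := by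
  have h1 : divT E ≤ divOf (combo A v.1) + A := sub_nonneg.mp h
  exact (FFRiemannRoch.eq_of_le_of_degree_le h1 (by
    rw [map_add, degree_divOf, hdeg, degree_divT, zero_add])).symm

omit [IsCurveOver ℂ F] in
theorem eq_algebraMap_mul_of_divOf_eq {f g : F} (hf : f ≠ 0) (hg : g ≠ 0)
    (h : divOf (K := ℂ) f = divOf g) : ∃ c : ℂ, c ≠ 0 ∧ g = algebraMap ℂ F c * f := by
  have hq0 : g / f ≠ 0 := div_ne_zero hg hf
  have hmem : g / f ∈ riemannRochSpace (0 : Divisor ℂ F) := by
    rw [FFRiemannRoch.mem_riemannRochSpace_iff_divOf hq0, add_zero, div_eq_mul_inv,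
      divOf_mul hg (inv_ne_zero hf), FFRiemannRoch.divOf_inv, h, add_neg_cancel]
  obtain ⟨c, hc⟩ := FFRiemannRoch.eq_algebraMap_of_mem_riemannRochSpace_zero hmem
  refine ⟨c, fun e => hq0 (by rw [hc, e, map_zero]), ?_⟩
  rw [← hc, div_mul_cancel₀ _ hf]

theorem sum_divT_mul_eq {κ ι : Type*} [Fintype ι] [DecidableEq κ] (C : κ → Chart F) {r : ℝ}
    (hr : ∀ k, closedBall (0 : ℂ) r ⊆ ball 0 (C k).r)
    (hdisj : ∀ k l, k ≠ l → Disjoint ((C k).σ '' closedBall 0 r) ((C l).σ '' closedBall 0 r))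
    (l : ι → κ) {y : ι → ℂ} (hy : ∀ i, y i ∈ closedBall (0 : ℂ) r) (k : κ) (S : Finset ℂ)
    (hS : ∀ i, l i = k → y i ∈ S) (hSr : ∀ w ∈ S, w ∈ closedBall (0 : ℂ) r) (Ω : ℂ → ℂ) :
    ∑ w ∈ S, ((divT (fun i => (C (l i)).σ (y i)) ((C k).σ w) : ℤ) : ℂ) * Ω w
      = ∑ i ∈ Finset.univ.filter (fun i => l i = k), Ω (y i) := by
  classical
  rw [← Finset.sum_fiberwise_of_maps_to (g := y) (t := S)
    (fun i hi => hS i (Finset.mem_filter.mp hi).2)]
  refine Finset.sum_congr rfl fun w hw => ?_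
  have heq : (Finset.univ.filter fun i => (C (l i)).σ (y i) = (C k).σ w)
      = (Finset.univ.filter fun i => l i = k).filter fun i => y i = w := by
    ext i
    simp only [Finset.mem_filter, Finset.mem_univ, true_and]
    refine ⟨fun h => ?_, fun ⟨h1, h2⟩ => by rw [h1, h2]⟩
    have hk : l i = k := by
      by_contra hne
      exact Set.disjoint_left.mp (hdisj _ _ hne) ⟨y i, hy i, rfl⟩ ⟨w, hSr w hw, h.symm⟩
    exact ⟨hk, (C k).injOn (hr k (hy i)) (hr k (hSr w hw)) (by rwa [hk] at h)⟩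
  rw [divT_apply, heq, Int.cast_natCast,
    Finset.sum_congr rfl fun i hi => by rw [(Finset.mem_filter.mp hi).2],
    Finset.sum_const, nsmul_eq_mul]

/-- The divisor of a configuration in disjoint discs vanishes away from the configuration. -/
private theorem divT_σ_eq_zero {κ ι : Type*} [Fintype ι] (C : κ → Chart F) {r : ℝ}
    (hr : ∀ k, closedBall (0 : ℂ) r ⊆ ball 0 (C k).r)
    (hdisj : ∀ k l, k ≠ l → Disjoint ((C k).σ '' closedBall 0 r) ((C l).σ '' closedBall 0 r))
    (l : ι → κ) {y : ι → ℂ} (hy : ∀ i, y i ∈ closedBall (0 : ℂ) r) {k : κ} {s : ℂ}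
    (hs : s ∈ closedBall (0 : ℂ) r) (hne : ∀ i, l i = k → y i ≠ s) :
    divT (fun i => (C (l i)).σ (y i)) ((C k).σ s) = 0 := by
  classical
  rw [divT_apply, Nat.cast_eq_zero, Finset.card_eq_zero, Finset.filter_eq_empty_iff]
  intro i _ hi
  have hk : l i = k := by
    by_contra hne'
    exact Set.disjoint_left.mp (hdisj _ _ hne') ⟨y i, hy i, rfl⟩ ⟨s, hs, hi.symm⟩
  rw [hk] at hi
  exact hne i hk ((C k).injOn (hr k (hy i)) (hr k hs) hi)

/-- Sums of Abel–Jacobi integrals, sorted by chart. -/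
private theorem sum_aj_apply_eq_sum_fiber {κ ι : Type*} [Fintype κ] [Fintype ι] [DecidableEq κ]
    (C : κ → Chart F) (ω : holomorphicDifferentials ℂ F) (l : ι → κ) {y : ι → ℂ}
    (hy : ∀ i, y i ∈ ball (0 : ℂ) (C (l i)).r) :
    ∑ i, (C (l i)).aj (y i) ω
      = ∑ k, ∑ i ∈ Finset.univ.filter (fun i => l i = k), (C k).primitive ω (y i) := by
  rw [← Finset.sum_fiberwise (s := Finset.univ) l fun i => (C (l i)).aj (y i) ω]
  refine Finset.sum_congr rfl fun k _ => Finset.sum_congr rfl fun i hi => ?_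
  have hk := (Finset.mem_filter.mp hi).2
  rw [hk, (C k).aj_apply (hk ▸ hy i)]

omit [IsCurveOver ℂ F] in
/-- If `div (1 + u)` is a difference of configurations, the poles of `u` are in the negative one. -/
private theorem exists_eq_of_notMem_valuationSubring {ι : Type*} [Fintype ι]
    {E E' : ι → Place ℂ F} {u : F} (hdiv : divOf (K := ℂ) (1 + u) = divT E' - divT E)
    {P : Place ℂ F} (hP : u ∉ P.toValuationSubring) : ∃ i, E i = P := by
  classical
  have hhP : 1 + u ∉ P.toValuationSubring := fun hm => hP (by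
    have := sub_mem hm (one_mem P.toValuationSubring)
    rwa [add_sub_cancel_left] at this)
  have hneg := notMem_iff_ord_neg.mp hhP
  rw [← divOf_apply, hdiv, Finsupp.sub_apply, divT_apply, divT_apply] at hneg
  have hpos : 0 < (Finset.univ.filter fun i => E i = P).card := by omega
  obtain ⟨i, hi⟩ := Finset.card_pos.mp hpos
  exact ⟨i, (Finset.mem_filter.mp hi).2⟩

/-- Configurations inside disjoint discs avoid their boundary circles. -/
private theorem σ_ne_of_mem_sphere {κ ι : Type*} (C : κ → Chart F) {r : ℝ}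
    (hr : ∀ k, closedBall (0 : ℂ) r ⊆ ball 0 (C k).r)
    (hdisj : ∀ k l, k ≠ l → Disjoint ((C k).σ '' closedBall 0 r) ((C l).σ '' closedBall 0 r))
    (l : ι → κ) {y : ι → ℂ} (hy : ∀ i, y i ∈ ball (0 : ℂ) r) (i : ι) {k : κ} {s : ℂ}
    (hs : s ∈ sphere (0 : ℂ) r) : (C (l i)).σ (y i) ≠ (C k).σ s := by
  intro hi
  have hk : l i = k := by
    by_contra hne
    exact Set.disjoint_left.mp (hdisj _ _ hne) ⟨y i, ball_subset_closedBall (hy i), rfl⟩
      ⟨s, sphere_subset_closedBall hs, hi.symm⟩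
  rw [hk] at hi
  have := (C k).injOn (hr k (ball_subset_closedBall (hy i))) (hr k (sphere_subset_closedBall hs)) hi
  have h1 := hy i
  rw [this, mem_ball, mem_sphere.mp hs] at h1
  exact lt_irrefl r h1

/-- The argument principle for `h`, weighted by a primitive of `ω`. -/
private theorem circleIntegral_primitive_mul_logDeriv {κ ι : Type*} [Fintype ι] [DecidableEq κ]
    (C : κ → Chart F) {r : ℝ} (hr0 : 0 < r)
    (hr : ∀ k, closedBall (0 : ℂ) r ⊆ ball 0 (C k).r)
    (hdisj : ∀ k l, k ≠ l → Disjoint ((C k).σ '' closedBall 0 r) ((C l).σ '' closedBall 0 r))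
    (j j' : ι → κ) {z z' : ι → ℂ} (hz : ∀ i, z i ∈ ball (0 : ℂ) r)
    (hz' : ∀ i, z' i ∈ ball (0 : ℂ) r) {h : F} (hh : h ≠ 0)
    (hdiv : divOf (K := ℂ) h
      = divT (fun i => (C (j' i)).σ (z' i)) - divT (fun i => (C (j i)).σ (z i)))
    (ω : holomorphicDifferentials ℂ F) (k : κ) :
    (∮ s in C(0, r), (C k).primitive ω s * logDeriv (fun v => val ((C k).σ v) h) s) = twoPiI *
      (∑ i ∈ Finset.univ.filter (fun i => j' i = k), (C k).primitive ω (z' i)
        - ∑ i ∈ Finset.univ.filter (fun i => j i = k), (C k).primitive ω (z i)) := by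
  classical
  set S : Finset ℂ := (Finset.univ.filter fun i => j i = k).image z
    ∪ (Finset.univ.filter fun i => j' i = k).image z' with hS
  have hSball : ∀ w ∈ S, w ∈ ball (0 : ℂ) r := by
    intro w hw
    rcases Finset.mem_union.mp hw with hw | hw <;> obtain ⟨i, -, rfl⟩ := Finset.mem_image.mp hw
    exacts [hz i, hz' i]
  have hmemS : ∀ i, j i = k → z i ∈ S := fun i hi => Finset.mem_union_left _
    (Finset.mem_image_of_mem _ (Finset.mem_filter.mpr ⟨Finset.mem_univ _, hi⟩))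
  have hmemS' : ∀ i, j' i = k → z' i ∈ S := fun i hi => Finset.mem_union_right _
    (Finset.mem_image_of_mem _ (Finset.mem_filter.mpr ⟨Finset.mem_univ _, hi⟩))
  rw [circleIntegral_eq_sum_resAt hr0 S (fun w hw => hSball w hw)]
  · congr 1
    have : ∀ w ∈ S, resAt (fun s => (C k).primitive ω s *
          logDeriv (fun v => val ((C k).σ v) h) s) w
        = ((divT (fun i => (C (j' i)).σ (z' i)) ((C k).σ w) : ℤ) : ℂ) * (C k).primitive ω w
          - ((divT (fun i => (C (j i)).σ (z i)) ((C k).σ w) : ℤ) : ℂ) * (C k).primitive ω w := by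
      intro w hw
      have hwr := hr k (ball_subset_closedBall (hSball w hw))
      rw [resAt_mul_logDeriv ((C k).analyticAt_primitive ω hwr) ((C k).mero h w hwr)
        ((C k).order h hh w hwr), ← divOf_apply, hdiv, Finsupp.sub_apply, Int.cast_sub, sub_mul]
    rw [Finset.sum_congr rfl this, Finset.sum_sub_distrib,
      sum_divT_mul_eq C hr hdisj j' (fun i => ball_subset_closedBall (hz' i)) k S hmemS'
        (fun w hw => ball_subset_closedBall (hSball w hw)),
      sum_divT_mul_eq C hr hdisj j (fun i => ball_subset_closedBall (hz i)) k S hmemS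
        (fun w hw => ball_subset_closedBall (hSball w hw))]
  · intro s hs hsS
    have h0 : ((C k).σ s).ord h = 0 := by
      rw [← divOf_apply, hdiv, Finsupp.sub_apply,
        divT_σ_eq_zero C hr hdisj j' (fun i => ball_subset_closedBall (hz' i)) hs
          (fun i hi e => hsS (e ▸ hmemS' i hi)),
        divT_σ_eq_zero C hr hdisj j (fun i => ball_subset_closedBall (hz i)) hs
          (fun i hi e => hsS (e ▸ hmemS i hi)), sub_zero]
    have hm : h ∈ ((C k).σ s).toValuationSubring := FFBasic.mem_of_ord_nonneg _ h0.ge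
    have han := (C k).analyticAt (hr k hs) hm
    exact ((C k).analyticAt_primitive ω (hr k hs)).mul
      (han.deriv.div han ((val_ne_zero_iff hm hh).mpr h0))
  · intro w hw
    have hwr := hr k (ball_subset_closedBall (hSball w hw))
    exact ((C k).analyticAt_primitive ω hwr).meromorphicAt.mul ((C k).mero h w hwr).logDeriv

/-- The logarithmic derivative of the values of `1 + u` where `u` is regular. -/
private theorem logDeriv_val_one_add (C : Chart F) {u : F} {s : ℂ} (hs : s ∈ ball (0 : ℂ) C.r)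
    (hu : u ∈ (C.σ s).toValuationSubring) :
    logDeriv (fun v => val (C.σ v) (1 + u)) s
      = deriv (fun v => val (C.σ v) u) s / (1 + val (C.σ s) u) := by
  have hnear : (fun v => val (C.σ v) (1 + u)) =ᶠ[𝓝 s] fun v => 1 + val (C.σ v) u := by
    filter_upwards [(C.continuousAt hs).preimage_mem_nhds
      ((isOpen_setOf_mem u).mem_nhds hu)] with v hv
    rw [val_add (one_mem _) hv, val_one]
  rw [logDeriv_apply, hnear.deriv_eq, hnear.eq_of_nhds, deriv_const_add]

/-- Integration by parts: `(n + 1) ∮ Ω Uⁿ U'` is minus the integral of `uⁿ⁺¹ ω`. -/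
private theorem circleIntegral_primitive_mul_pow_mul_deriv (C : Chart F) {r : ℝ} (hr0 : 0 < r)
    (hr : closedBall (0 : ℂ) r ⊆ ball 0 C.r) {u : F}
    (hu : ∀ s ∈ sphere (0 : ℂ) r, u ∈ (C.σ s).toValuationSubring)
    (ω : holomorphicDifferentials ℂ F) (n : ℕ) :
    (∮ s in C(0, r),
        C.primitive ω s * val (C.σ s) u ^ n * deriv (fun v => val (C.σ v) u) s)
      = -((n + 1 : ℂ))⁻¹ * ∮ s in C(0, r), C.diff (u ^ (n + 1) • ω.1) s := by
  set U : ℂ → ℂ := fun v => val (C.σ v) u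
  have hsr : ∀ s ∈ sphere (0 : ℂ) r, s ∈ ball (0 : ℂ) C.r := fun s hs =>
    hr (sphere_subset_closedBall hs)
  have hUan : ∀ s ∈ sphere (0 : ℂ) r, AnalyticAt ℂ U s := fun s hs =>
    C.analyticAt (hsr s hs) (hu s hs)
  have hcU : ContinuousOn U (sphere (0 : ℂ) r) := fun s hs =>
    (hUan s hs).continuousAt.continuousWithinAt
  have hcU' : ContinuousOn (deriv U) (sphere (0 : ℂ) r) := fun s hs =>
    (hUan s hs).deriv.continuousAt.continuousWithinAt
  have hcΩ : ContinuousOn (C.primitive ω) (sphere (0 : ℂ) r) := fun s hs =>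
    (C.analyticAt_primitive ω (hsr s hs)).continuousAt.continuousWithinAt
  have hdω : ContinuousOn (C.diff ω.1) (sphere (0 : ℂ) r) := fun s hs =>
    (C.analyticAt_diff_hol ω (hsr s hs)).continuousAt.continuousWithinAt
  have hval : ∀ s ∈ sphere (0 : ℂ) r,
      C.diff (u ^ (n + 1) • ω.1) s = U s ^ (n + 1) * C.diff ω.1 s := by
    intro s hs
    rw [Chart.diff, map_smul, smul_eq_mul, val_mul (pow_mem (hu s hs) _)
      (C.coef_hol_mem ω (hsr s hs)), val_pow (hu s hs)]
    rfl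
  have hexact : (∮ s in C(0, r), ((n + 1 : ℂ) * (C.primitive ω s * U s ^ n * deriv U s)
      + U s ^ (n + 1) * C.diff ω.1 s)) = 0 := by
    refine circleIntegral.integral_eq_zero_of_hasDerivWithinAt
      (f := fun s => C.primitive ω s * U s ^ (n + 1)) hr0.le fun s hs => ?_
    have h2 := (C.hasDerivAt_primitive ω (hsr s hs)).fun_mul
      ((hUan s hs).differentiableAt.hasDerivAt.fun_pow (n + 1))
    refine (h2.congr_deriv ?_).hasDerivWithinAt
    rw [Nat.add_sub_cancel]
    push_cast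
    ring
  have hi1 : CircleIntegrable
      (fun s => (n + 1 : ℂ) * (C.primitive ω s * U s ^ n * deriv U s)) 0 r :=
    ContinuousOn.circleIntegrable hr0.le
      (continuousOn_const.mul ((hcΩ.mul (hcU.pow n)).mul hcU'))
  have hi2 : CircleIntegrable (fun s => U s ^ (n + 1) * C.diff ω.1 s) 0 r :=
    ContinuousOn.circleIntegrable hr0.le ((hcU.pow _).mul hdω)
  rw [circleIntegral.integral_add hi1 hi2, circleIntegral.integral_const_mul] at hexact
  rw [circleIntegral.integral_congr hr0.le hval]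
  have hn : (n + 1 : ℂ) ≠ 0 := Nat.cast_add_one_ne_zero n
  field_simp
  linear_combination hexact

/-- The integrals of `Ω Uⁿ U'` cancel when the poles of `u` lie inside the circles. -/
private theorem sum_circleIntegral_primitive_mul_pow_mul_deriv {κ : Type*} [Fintype κ]
    (C : κ → Chart F) {r : ℝ} (hr0 : 0 < r) (hr : ∀ k, r < (C k).r)
    (hdisj : ∀ k l, k ≠ l → Disjoint ((C k).σ '' closedBall 0 r) ((C l).σ '' closedBall 0 r))
    {u : F} (hu : ∀ k, ∀ s ∈ sphere (0 : ℂ) r, u ∈ ((C k).σ s).toValuationSubring)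
    (hpole : ∀ P : Place ℂ F, u ∉ P.toValuationSubring →
      ∃ k, ∃ s ∈ ball (0 : ℂ) r, (C k).σ s = P)
    (ω : holomorphicDifferentials ℂ F) (n : ℕ) :
    ∑ k, (∮ s in C(0, r), (C k).primitive ω s * val ((C k).σ s) u ^ n
      * deriv (fun v => val ((C k).σ v) u) s) = 0 := by
  rw [Finset.sum_congr rfl fun k _ => circleIntegral_primitive_mul_pow_mul_deriv (C k) hr0
    (closedBall_subset_ball (hr k)) (hu k) ω n, ← Finset.mul_sum,
    sum_circleIntegral_eq_zero C (fun _ => r) (fun _ => hr0) hr hdisj _ ?_, mul_zero]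
  intro P hP
  refine hpole P fun hm => ?_
  rcases eq_or_ne u 0 with rfl | hu0
  · simp at hP
  · rcases eq_or_ne ω.1 0 with hω | hω
    · rw [hω, smul_zero, FFDifferential.ordDifferential_zero] at hP
      exact lt_irrefl _ hP
    · rw [FFDifferential.ordDifferential_smul_eq P (pow_ne_zero _ hu0) hω, FFBasic.ord_pow] at hP
      have h1 := (FFRiemannRoch.ord_nonneg_iff P hu0).mpr hm
      have h2 := ω.2 P
      nlinarith

/-- If all `∑ ∮ f Uⁿ g` vanish and `‖U‖ ≤ 1 / 2`, then so does `∑ ∮ f g / (1 + U)`, by expanding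
the geometric series. -/
private theorem sum_circleIntegral_div_one_add_eq_zero {κ : Type*} [Fintype κ] {r : ℝ}
    (hr0 : 0 ≤ r) {f U g : κ → ℂ → ℂ} (hf : ∀ k, ContinuousOn (f k) (sphere 0 r))
    (hU : ∀ k, ContinuousOn (U k) (sphere 0 r)) (hg : ∀ k, ContinuousOn (g k) (sphere 0 r))
    (hsmall : ∀ k, ∀ s ∈ sphere (0 : ℂ) r, ‖U k s‖ ≤ 1 / 2)
    (hpow : ∀ n : ℕ, ∑ k, (∮ s in C(0, r), f k s * U k s ^ n * g k s) = 0) :
    ∑ k, (∮ s in C(0, r), f k s * (g k s / (1 + U k s))) = 0 := by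
  have hden : ∀ k, ∀ s ∈ sphere (0 : ℂ) r, 1 / 2 ≤ ‖1 + U k s‖ := fun k s hs => by
    have h2 := norm_sub_norm_le (1 : ℂ) (-U k s)
    rw [sub_neg_eq_add, norm_neg, norm_one] at h2
    linarith [hsmall k s hs]
  have hU1 : ∀ k, ∀ s ∈ sphere (0 : ℂ) r, 1 + U k s ≠ 0 := fun k s hs e => by
    have := hden k s hs
    rw [e, norm_zero] at this
    norm_num at this
  set R : κ → ℕ → ℂ → ℂ := fun k N s => f k s * g k s * (-U k s) ^ N / (1 + U k s)
  have hint : ∀ k N, CircleIntegrable (R k N) 0 r := fun k N =>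
    ContinuousOn.circleIntegrable hr0
      ((((hf k).mul (hg k)).mul ((hU k).neg.pow N)).div (continuousOn_const.add (hU k)) (hU1 k))
  have hinv : ∀ N, ∑ k, (∮ s in C(0, r), f k s * (g k s / (1 + U k s)))
      = ∑ k, ∮ s in C(0, r), R k N s := by
    intro N
    induction N with
    | zero => simp only [R, pow_zero, mul_one, ← mul_div_assoc]
    | succ N ih =>
      rw [ih]
      have hk : ∀ k, (∮ s in C(0, r), R k N s) = (∮ s in C(0, r), R k (N + 1) s)
          + (-1) ^ N * ∮ s in C(0, r), f k s * U k s ^ N * g k s := by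
        intro k
        have hi : CircleIntegrable (fun s => (-1) ^ N * (f k s * U k s ^ N * g k s)) 0 r :=
          ContinuousOn.circleIntegrable hr0
            (continuousOn_const.mul (((hf k).mul ((hU k).pow N)).mul (hg k)))
        rw [← circleIntegral.integral_const_mul,
          ← circleIntegral.integral_add (hint k (N + 1)) hi]
        refine circleIntegral.integral_congr hr0 fun s hs => ?_
        have := hU1 k s hs
        simp only [R]
        field_simp
        rw [neg_pow (U k s) N, pow_succ (-U k s), neg_pow (U k s) N]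
        ring
      rw [Finset.sum_congr rfl fun k _ => hk k, Finset.sum_add_distrib, ← Finset.mul_sum,
        hpow N, mul_zero, add_zero]
  have hM : ∀ k, ∃ M, ∀ s ∈ sphere (0 : ℂ) r, ‖f k s * g k s‖ ≤ M := fun k =>
    (isCompact_sphere (0 : ℂ) r).exists_bound_of_continuousOn ((hf k).mul (hg k))
  choose M hM using hM
  have hbnd : ∀ N, ‖∑ k, (∮ s in C(0, r), f k s * (g k s / (1 + U k s)))‖
      ≤ (∑ k, 2 * Real.pi * r * (M k * 2)) * (1 / 2) ^ N := by
    intro N
    rw [hinv N, Finset.sum_mul]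
    refine (norm_sum_le _ _).trans (Finset.sum_le_sum fun k _ => ?_)
    refine (circleIntegral.norm_integral_le_of_norm_le_const hr0
      (C := M k * 2 * (1 / 2) ^ N) fun s hs => ?_).trans (le_of_eq (by ring))
    simp only [R]
    rw [norm_div, norm_mul, norm_pow, norm_neg, div_le_iff₀ (by linarith [hden k s hs])]
    calc ‖f k s * g k s‖ * ‖U k s‖ ^ N
        ≤ M k * (1 / 2) ^ N := mul_le_mul (hM k s hs)
          (pow_le_pow_left₀ (norm_nonneg _) (hsmall k s hs) N)
          (pow_nonneg (norm_nonneg _) N) ((norm_nonneg _).trans (hM k s hs))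
      _ = M k * 2 * (1 / 2) ^ N * (1 / 2) := by ring
      _ ≤ M k * 2 * (1 / 2) ^ N * ‖1 + U k s‖ :=
        mul_le_mul_of_nonneg_left (hden k s hs) (mul_nonneg (mul_nonneg
          ((norm_nonneg _).trans (hM k s hs)) zero_le_two) (pow_nonneg (by norm_num) N))
  have hlim := (tendsto_pow_atTop_nhds_zero_of_lt_one (r := (1 / 2 : ℝ)) (by norm_num)
    (by norm_num)).const_mul (∑ k, 2 * Real.pi * r * (M k * 2))
  rw [mul_zero] at hlim
  exact norm_le_zero_iff.mp (ge_of_tendsto' hlim hbnd)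

/-- The analytic core: a function with the given divisor which is close to `1` on the circles
forces equal Abel–Jacobi sums. -/
theorem sum_aj_eq_of_small {κ ι : Type*} [Fintype κ] [Fintype ι] (C : κ → Chart F) {r : ℝ}
    (hr0 : 0 < r) (hr : ∀ k, r < (C k).r)
    (hdisj : ∀ k l, k ≠ l → Disjoint ((C k).σ '' closedBall 0 r) ((C l).σ '' closedBall 0 r))
    (j j' : ι → κ) {z z' : ι → ℂ} (hz : ∀ i, z i ∈ ball (0 : ℂ) r)
    (hz' : ∀ i, z' i ∈ ball (0 : ℂ) r) {u : F} (hh : 1 + u ≠ 0)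
    (hdiv : divOf (K := ℂ) (1 + u)
      = divT (fun i => (C (j' i)).σ (z' i)) - divT (fun i => (C (j i)).σ (z i)))
    (hsmall : ∀ k, ∀ s ∈ sphere (0 : ℂ) r, ‖val ((C k).σ s) u‖ ≤ 1 / 2) :
    ∑ i, (C (j i)).aj (z i) = ∑ i, (C (j' i)).aj (z' i) := by
  classical
  refine LinearMap.ext fun ω => ?_
  simp only [LinearMap.sum_apply]
  have hsub : ∀ k, closedBall (0 : ℂ) r ⊆ ball 0 (C k).r := fun k => closedBall_subset_ball (hr k)
  rw [sum_aj_apply_eq_sum_fiber C ω j fun i => hsub _ (ball_subset_closedBall (hz i)),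
    sum_aj_apply_eq_sum_fiber C ω j' fun i => hsub _ (ball_subset_closedBall (hz' i))]
  -- the poles of `u` are among the `z i`, so `u` is regular on the circles
  have hureg : ∀ k, ∀ s ∈ sphere (0 : ℂ) r, u ∈ ((C k).σ s).toValuationSubring := by
    intro k s hs
    by_contra hm
    obtain ⟨i, hi⟩ := exists_eq_of_notMem_valuationSubring hdiv hm
    exact σ_ne_of_mem_sphere C hsub hdisj j hz i hs hi
  have hUan : ∀ k, ∀ s ∈ sphere (0 : ℂ) r, AnalyticAt ℂ (fun v => val ((C k).σ v) u) s :=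
    fun k s hs => (C k).analyticAt (hsub k (sphere_subset_closedBall hs)) (hureg k s hs)
  -- the geometric series kills `∑ ∮ Ω U' / (1 + U)`
  have hB := sum_circleIntegral_div_one_add_eq_zero hr0.le
    (f := fun k => (C k).primitive ω) (U := fun k s => val ((C k).σ s) u)
    (g := fun k => deriv fun v => val ((C k).σ v) u)
    (fun k s hs => ((C k).analyticAt_primitive ω
      (hsub k (sphere_subset_closedBall hs))).continuousAt.continuousWithinAt)
    (fun k s hs => (hUan k s hs).continuousAt.continuousWithinAt)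
    (fun k s hs => (hUan k s hs).deriv.continuousAt.continuousWithinAt) hsmall
    (sum_circleIntegral_primitive_mul_pow_mul_deriv C hr0 hr hdisj hureg
      (fun P hP => (exists_eq_of_notMem_valuationSubring hdiv hP).elim
        fun i hi => ⟨j i, z i, hz i, hi⟩) ω)
  -- which is `∑ ∮ Ω logDeriv (1 + U)`, computed by the argument principle
  have hlog : ∀ k, (∮ s in C(0, r), (C k).primitive ω s *
        (deriv (fun v => val ((C k).σ v) u) s / (1 + val ((C k).σ s) u)))
      = ∮ s in C(0, r), (C k).primitive ω s * logDeriv (fun v => val ((C k).σ v) (1 + u)) s :=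
    fun k => circleIntegral.integral_congr hr0.le fun s hs => by
      rw [logDeriv_val_one_add (C k) (hsub k (sphere_subset_closedBall hs)) (hureg k s hs)]
  simp only [hlog, circleIntegral_primitive_mul_logDeriv C hr0 hsub hdisj j j' hz hz' hh hdiv ω,
    ← Finset.mul_sum, Finset.sum_sub_distrib, mul_eq_zero, twoPiI_ne_zero, false_or,
    sub_eq_zero] at hB
  exact hB.symm

/-- Charts with distinct centres have small disjoint discs, meeting a finite set at most there. -/
private theorem exists_separating_radius {κ : Type*} [Fintype κ] (C : κ → Chart F)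
    (hdist : Function.Injective fun k => (C k).σ 0) {bad : Set (Place ℂ F)} (hbad : bad.Finite) :
    ∃ r > 0, (∀ k, r < (C k).r) ∧
      (∀ k l, k ≠ l → Disjoint ((C k).σ '' closedBall 0 r) ((C l).σ '' closedBall 0 r)) ∧
        ∀ k, ∀ s ∈ closedBall (0 : ℂ) r, s ≠ 0 → (C k).σ s ∉ bad := by
  obtain ⟨V, hV, hVd⟩ := (Set.finite_range fun k => (C k).σ 0).t2_separation
  have hev : ∀ᶠ s in 𝓝 (0 : ℂ), ∀ k, s ∈ ball (0 : ℂ) (C k).r ∧
      (C k).σ s ∈ V ((C k).σ 0) ∧ (s ≠ 0 → (C k).σ s ∉ bad) := eventually_all.mpr fun k => by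
    have h0 := mem_ball_self (x := (0 : ℂ)) (C k).r_pos
    filter_upwards [isOpen_ball.mem_nhds h0,
      ((C k).continuousAt h0).preimage_mem_nhds ((hV _).2.mem_nhds (hV _).1),
      ((C k).continuousAt h0).preimage_mem_nhds
        ((hbad.sdiff (t := {(C k).σ 0})).isClosed.isOpen_compl.mem_nhds fun h => h.2 rfl)]
      with s h1 h2 h3
    exact ⟨h1, h2, fun hs hsb => h3 ⟨hsb, fun e => hs ((C k).injOn h1 h0 e)⟩⟩
  obtain ⟨ε, hε, h⟩ := Metric.eventually_nhds_iff.mp hev
  have hr : ∀ k, ∀ s ∈ closedBall (0 : ℂ) (ε / 2), s ∈ ball (0 : ℂ) (C k).r ∧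
      (C k).σ s ∈ V ((C k).σ 0) ∧ (s ≠ 0 → (C k).σ s ∉ bad) := fun k s hs =>
    h (lt_of_le_of_lt (mem_closedBall.mp hs) (by linarith)) k
  refine ⟨ε / 2, by linarith, fun k => ?_, fun k l hkl => ?_, fun k s hs => (hr k s hs).2.2⟩
  · have := (hr k (((ε / 2 : ℝ) : ℂ)) (by simp [abs_of_pos hε])).1
    simpa [abs_of_pos hε] using this
  · refine (hVd (Set.mem_range_self k) (Set.mem_range_self l) fun e => hkl (hdist e)).mono ?_ ?_
    · rintro _ ⟨s, hs, rfl⟩; exact (hr k s hs).2.1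
    · rintro _ ⟨s, hs, rfl⟩; exact (hr l s hs).2.1

/-- A limit of incident configurations is incident. -/
private theorem mem_incidence_of_tendsto (A : Divisor ℂ F) {T : Type*} {l : Filter T} [l.NeBot]
    {ι κ : Type*} [Fintype ι] [Fintype κ] {e : T → ι → Place ℂ F} {R : T → κ → Place ℂ F}
    {v : T → sphere (0 : Fin (ell ℂ F A) → ℂ) 1} {e₀ : ι → Place ℂ F} {R₀ : κ → Place ℂ F}
    {v₀ : sphere (0 : Fin (ell ℂ F A) → ℂ) 1} (he : ∀ i, Tendsto (fun p => e p i) l (𝓝 (e₀ i)))
    (hR : Tendsto R l (𝓝 R₀)) (hv : Tendsto v l (𝓝 v₀))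
    (h : ∀ᶠ p in l, (Sum.elim (e p) (R p), v p) ∈ incidence A (ι ⊕ κ)) :
    (Sum.elim e₀ R₀, v₀) ∈ incidence A (ι ⊕ κ) := by
  refine (isClosed_incidence A _).mem_of_tendsto (Tendsto.prodMk_nhds ?_ hv) h
  refine tendsto_pi_nhds.mpr fun x => ?_
  cases x with
  | inl i => exact he i
  | inr i => exact (tendsto_pi_nhds.mp hR) i

/-- The functions of `L(A)` are regular away from the support of `A`. -/
private theorem combo_mem_of_apply_eq_zero (A : Divisor ℂ F) {P : Place ℂ F} (hP : A P = 0)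
    (v : Fin (ell ℂ F A) → ℂ) : combo A v ∈ P.toValuationSubring := by
  rcases eq_or_ne (combo A v) 0 with e | e
  · rw [e]; exact zero_mem _
  have h := ((mem_riemannRochSpace_iff.1 (combo_mem A v)) P).resolve_left e
  rw [hP, neg_zero] at h
  exact FFBasic.mem_of_ord_nonneg _ h

/-- Values away from the support of `A` are additive in the coordinates. -/
private theorem val_combo_sub (A : Divisor ℂ F) {P : Place ℂ F} (hP : A P = 0)
    (a b : Fin (ell ℂ F A) → ℂ) :
    val P (combo A (a - b)) = val P (combo A a) - val P (combo A b) := by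
  rw [← val_sub (combo_mem_of_apply_eq_zero A hP a) (combo_mem_of_apply_eq_zero A hP b)]
  congr 1
  simp [combo, sub_smul]

/-- On circles avoiding the support of `A`, values are bounded by the coordinates. -/
private theorem exists_bound_val_combo {κ : Type*} [Fintype κ] (A : Divisor ℂ F) (C : κ → Chart F)
    {r : ℝ} (hr : ∀ k, closedBall (0 : ℂ) r ⊆ ball 0 (C k).r)
    (hA : ∀ k, ∀ s ∈ sphere (0 : ℂ) r, A ((C k).σ s) = 0) :
    ∃ B > 0, ∀ k, ∀ s ∈ sphere (0 : ℂ) r, ∀ v, ‖val ((C k).σ s) (combo A v)‖ ≤ ‖v‖ * B := by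
  have hmemb : ∀ k, ∀ s ∈ sphere (0 : ℂ) r, ∀ i,
      (basisL A i : F) ∈ ((C k).σ s).toValuationSubring := fun k s hs i => by
    have := combo_mem_of_apply_eq_zero A (hA k s hs) ((basisL A).equivFun (basisL A i))
    rwa [combo, LinearEquiv.symm_apply_apply] at this
  have hbj : ∀ k i, ∃ B : ℝ, ∀ s ∈ sphere (0 : ℂ) r,
      ‖val ((C k).σ s) (basisL A i : F)‖ ≤ B := fun k i =>
    (isCompact_sphere (0 : ℂ) r).exists_bound_of_continuousOn fun s hs =>
      ((C k).analyticAt (hr k (sphere_subset_closedBall hs))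
        (hmemb k s hs i)).continuousAt.continuousWithinAt
  choose B hB using hbj
  refine ⟨1 + ∑ k, ∑ i, |B k i|, by positivity, fun k s hs v => ?_⟩
  have hterm : ∀ i, algebraMap ℂ F (v i) * (basisL A i : F) ∈ ((C k).σ s).toValuationSubring :=
    fun i => mul_mem (((C k).σ s).algebraMap_mem' _) (hmemb k s hs i)
  have hsum : ∀ J : Finset (Fin (ell ℂ F A)),
      val ((C k).σ s) (∑ i ∈ J, algebraMap ℂ F (v i) * (basisL A i : F))
        = ∑ i ∈ J, v i * val ((C k).σ s) (basisL A i : F) := fun J => by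
    induction J using Finset.induction_on with
    | empty => simp
    | insert i J hi ih =>
      rw [Finset.sum_insert hi, Finset.sum_insert hi,
        val_add (hterm i) (sum_mem fun j _ => hterm j),
        ih, val_mul (((C k).σ s).algebraMap_mem' _) (hmemb k s hs i), val_algebraMap]
  rw [combo_eq_sum, hsum]
  refine (norm_sum_le _ _).trans ?_
  calc ∑ i, ‖v i * val ((C k).σ s) (basisL A i : F)‖ ≤ ∑ i, ‖v‖ * |B k i| := by
        refine Finset.sum_le_sum fun i _ => ?_
        rw [norm_mul]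
        exact mul_le_mul (norm_le_pi_norm v i) ((hB k i s hs).trans (le_abs_self _))
          (norm_nonneg _) (norm_nonneg _)
    _ ≤ ‖v‖ * (1 + ∑ k, ∑ i, |B k i|) := by
        rw [← Finset.mul_sum]
        refine mul_le_mul_of_nonneg_left ?_ (norm_nonneg _)
        have := Finset.single_le_sum (f := fun k => ∑ i, |B k i|)
          (fun k _ => Finset.sum_nonneg fun i _ => abs_nonneg _) (Finset.mem_univ k)
        linarith

/-- A function without poles or zeros on finitely many circles is bounded below there. -/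
private theorem exists_pos_le_norm_val {κ : Type*} [Fintype κ] (C : κ → Chart F) {r : ℝ}
    (hr0 : 0 < r) (hr : ∀ k, closedBall (0 : ℂ) r ⊆ ball 0 (C k).r) {f : F}
    (hmem : ∀ k, ∀ s ∈ sphere (0 : ℂ) r, f ∈ ((C k).σ s).toValuationSubring)
    (hne : ∀ k, ∀ s ∈ sphere (0 : ℂ) r, val ((C k).σ s) f ≠ 0) :
    ∃ ε > 0, ∀ k, ∀ s ∈ sphere (0 : ℂ) r, ε ≤ ‖val ((C k).σ s) f‖ := by
  have hmin : ∀ k, ∃ δ > 0, ∀ s ∈ sphere (0 : ℂ) r, δ ≤ ‖val ((C k).σ s) f‖ := fun k => by
    obtain ⟨s₀, hs₀, hmin⟩ := (isCompact_sphere (0 : ℂ) r).exists_isMinOn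
      (NormedSpace.sphere_nonempty.mpr hr0.le)
      (fun s hs => (((C k).analyticAt (hr k (sphere_subset_closedBall hs))
        (hmem k s hs)).continuousAt.continuousWithinAt).norm)
    exact ⟨_, norm_pos_iff.mpr (hne k s₀ hs₀), fun s hs => hmin hs⟩
  choose δ hδ hδb using hmin
  have hev : ∀ᶠ x in 𝓝[>] (0 : ℝ), ∀ k, x ≤ δ k := eventually_all.mpr fun k =>
    nhdsWithin_le_nhds (ge_mem_nhds (hδ k))
  obtain ⟨e, he, he'⟩ := (hev.and self_mem_nhdsWithin).exists
  exact ⟨e, he', fun k s hs => (he k).trans (hδb k s hs)⟩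

omit [IsFunctionField ℂ F] in
/-- If `f` is near `f₀` and `g` near `c f₀` at a place, then `g / (c f)` is near one there. -/
private theorem norm_val_div_sub_one_le {P : Place ℂ F} {f g f₀ : F} {c : ℂ} {ε : ℝ}
    (hf : f ∈ P.toValuationSubring) (hg : g ∈ P.toValuationSubring) (hc : c ≠ 0) (hε : 0 < ε)
    (h₀ : ε ≤ ‖val P f₀‖) (h₁ : ‖val P f - val P f₀‖ ≤ ε / 8)
    (h₂ : ‖val P g - c * val P f₀‖ ≤ ‖c‖ * ε / 8) :
    ‖val P (g / (algebraMap ℂ F c * f) - 1)‖ ≤ 1 / 2 := by
  have hcn := norm_pos_iff.mpr hc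
  have hfbig : ε / 2 ≤ ‖val P f‖ := by
    have := norm_sub_norm_le (val P f₀) (val P f)
    rw [norm_sub_rev] at this
    linarith
  have hfv : val P f ≠ 0 := fun e => by rw [e, norm_zero] at hfbig; linarith
  have hden : val P (algebraMap ℂ F c * f) = c * val P f := by
    rw [val_mul (P.algebraMap_mem' c) hf, val_algebraMap]
  have hdm := mul_mem (P.algebraMap_mem' c) hf
  obtain ⟨i1, i2⟩ := val_inv hdm (by rw [hden]; exact mul_ne_zero hc hfv)
  rw [div_eq_mul_inv, val_sub (mul_mem hg i1) (one_mem _), val_mul hg i1, i2, hden,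
    val_one, ← div_eq_mul_inv, div_sub_one (mul_ne_zero hc hfv), norm_div,
    div_le_iff₀ (norm_pos_iff.mpr (mul_ne_zero hc hfv))]
  calc ‖val P g - c * val P f‖
      = ‖(val P g - c * val P f₀) - c * (val P f - val P f₀)‖ := by ring_nf
    _ ≤ ‖c‖ * ε / 8 + ‖c‖ * (ε / 8) := by
        refine (norm_sub_le _ _).trans (add_le_add h₂ ?_)
        rw [norm_mul]
        exact mul_le_mul_of_nonneg_left h₁ (norm_nonneg _)
    _ ≤ 1 / 2 * ‖c * val P f‖ := by
        rw [norm_mul]; nlinarith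

omit [IsCurveOver ℂ F] in
/-- The divisor of `g / (c f)`. -/
private theorem divOf_div_algebraMap_mul {f g : F} {c : ℂ} (hf : f ≠ 0) (hg : g ≠ 0)
    (hc : c ≠ 0) : divOf (K := ℂ) (g / (algebraMap ℂ F c * f)) = divOf g - divOf f := by
  have hcF : algebraMap ℂ F c ≠ 0 := by simpa using hc
  have ec : divOf (K := ℂ) (algebraMap ℂ F c) = 0 :=
    Finsupp.ext fun P => by rw [divOf_apply, FFBasic.ord_algebraMap]; rfl
  rw [div_eq_mul_inv, divOf_mul hg (inv_ne_zero (mul_ne_zero hcF hf)), FFRiemannRoch.divOf_inv,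
    divOf_mul hcF hf, ec, zero_add, sub_eq_add_neg]

/-- A function with the divisor of a limit configuration has no zero on circles avoiding it. -/
private theorem val_ne_zero_of_divOf_eq {κ ι ν : Type*} [Fintype ι] [Fintype ν] (C : κ → Chart F)
    {r : ℝ} (hr0 : 0 < r) (hr : ∀ k, closedBall (0 : ℂ) r ⊆ ball 0 (C k).r)
    (hdisj : ∀ k l, k ≠ l → Disjoint ((C k).σ '' closedBall 0 r) ((C l).σ '' closedBall 0 r))
    (j : ι → κ) {R : ν → Place ℂ F} {A : Divisor ℂ F}
    (hout : ∀ k, ∀ s ∈ sphere (0 : ℂ) r, (C k).σ s ∉ Set.range R ∧ A ((C k).σ s) = 0)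
    {f : F} (hf0 : f ≠ 0) (hdiv : divOf (K := ℂ) f + A = divT (fun i => (C (j i)).σ 0) + divT R)
    (k : κ) {s : ℂ} (hs : s ∈ sphere (0 : ℂ) r) (hf : f ∈ ((C k).σ s).toValuationSubring) :
    val ((C k).σ s) f ≠ 0 := by
  classical
  have e1 : divT (fun i => (C (j i)).σ 0) ((C k).σ s) = 0 := divT_σ_eq_zero C hr hdisj j
    (fun _ => mem_closedBall_self hr0.le) (sphere_subset_closedBall hs)
    fun _ _ => (ne_of_mem_sphere hs hr0.ne').symm
  have e2 : divT R ((C k).σ s) = 0 := by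
    rw [divT_apply, Nat.cast_eq_zero, Finset.card_eq_zero, Finset.filter_eq_empty_iff]
    exact fun i _ hi => (hout k s hs).1 ⟨i, hi⟩
  rw [val_ne_zero_iff hf hf0, ← divOf_apply, eq_sub_of_add_eq hdiv,
    Finsupp.sub_apply, Finsupp.add_apply, (hout k s hs).2, e1, e2]
  simp

/-- Configurations differing by `div (g / f)`, for `f ≈ f₀` and `g ≈ c f₀`, have equal sums. -/
private theorem sum_aj_eq_of_close {κ ι : Type*} [Fintype κ] [Fintype ι] (C : κ → Chart F) {r : ℝ}
    (hr0 : 0 < r) (hr : ∀ k, r < (C k).r)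
    (hdisj : ∀ k l, k ≠ l → Disjoint ((C k).σ '' closedBall 0 r) ((C l).σ '' closedBall 0 r))
    (j j' : ι → κ) {z z' : ι → ℂ} (hz : ∀ i, z i ∈ ball (0 : ℂ) r)
    (hz' : ∀ i, z' i ∈ ball (0 : ℂ) r) {f g f₀ : F} {c : ℂ} {ε : ℝ} (hf0 : f ≠ 0) (hg0 : g ≠ 0)
    (hc : c ≠ 0) (hε : 0 < ε) (hdiv : divOf (K := ℂ) g - divOf f
      = divT (fun i => (C (j' i)).σ (z' i)) - divT (fun i => (C (j i)).σ (z i)))
    (hclose : ∀ k, ∀ s ∈ sphere (0 : ℂ) r, f ∈ ((C k).σ s).toValuationSubring ∧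
      g ∈ ((C k).σ s).toValuationSubring ∧ ε ≤ ‖val ((C k).σ s) f₀‖ ∧
      ‖val ((C k).σ s) f - val ((C k).σ s) f₀‖ ≤ ε / 8 ∧
      ‖val ((C k).σ s) g - c * val ((C k).σ s) f₀‖ ≤ ‖c‖ * ε / 8) :
    ∑ i, (C (j i)).aj (z i) = ∑ i, (C (j' i)).aj (z' i) := by
  refine sum_aj_eq_of_small C hr0 hr hdisj j j' hz hz'
    (u := g / (algebraMap ℂ F c * f) - 1) ?_ ?_ fun k s hs => ?_
  · rw [add_sub_cancel]
    exact div_ne_zero hg0 (mul_ne_zero (by simpa using hc) hf0)
  · rw [add_sub_cancel, divOf_div_algebraMap_mul hf0 hg0 hc, hdiv]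
  · obtain ⟨hf, hg, h₀, h₁, h₂⟩ := hclose k s hs
    exact norm_val_div_sub_one_le hf hg hc hε h₀ h₁ h₂

/-- Local form of Abel's theorem. -/
theorem local_abel {κ ι : Type*} [Fintype κ] [Fintype ι] (C : κ → Chart F)
    (hdist : Function.Injective fun k => (C k).σ 0) (j j' : ι → κ)
    (hsame : divT (fun i => (C (j i)).σ 0) = divT (fun i => (C (j' i)).σ 0)) :
    ∀ᶠ p in 𝓝 (0 : (ι → ℂ) × (ι → ℂ)),
      LinEquivalent (divT fun i => (C (j i)).σ (p.1 i)) (divT fun i => (C (j' i)).σ (p.2 i)) →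
        ∑ i, (C (j i)).aj (p.1 i) = ∑ i, (C (j' i)).aj (p.2 i) := by
  classical
  obtain ⟨O⟩ := FFBasic.nonempty_place (K := ℂ) (F := F)
  set A := Finsupp.single O ((Fintype.card ι : ℤ) + Fintype.card (Fin (genusFF ℂ F))) with hA
  have hdegA : Divisor.degree A = Fintype.card (ι ⊕ Fin (genusFF ℂ F)) := by
    simp [A, IsCurveOver.deg_eq_one_of_isAlgClosed]
  set E : (ι → ℂ) → ι → Place ℂ F := fun x i => (C (j i)).σ (x i) with hE
  set E' : (ι → ℂ) → ι → Place ℂ F := fun x i => (C (j' i)).σ (x i) with hE'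
  have hspec : ∀ p : (ι → ℂ) × (ι → ℂ), LinEquivalent (divT (E p.1)) (divT (E' p.2)) →
      ∃ (R : Fin (genusFF ℂ F) → Place ℂ F) (v w : sphere (0 : Fin (ell ℂ F A) → ℂ) 1),
        (Sum.elim (E p.1) R, v) ∈ incidence A (ι ⊕ Fin (genusFF ℂ F)) ∧
          (Sum.elim (E' p.2) R, w) ∈ incidence A (ι ⊕ Fin (genusFF ℂ F)) := fun p =>
    (linEquivalent_divT_iff (κ := Fin (genusFF ℂ F)) O (Fintype.card_fin _) _ _).mp
  obtain ⟨R₀, v₀, -, -, -⟩ := hspec 0 (by
    show divT (E 0) - divT (E' 0) ∈ Divisor.principal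
    rw [show divT (E 0) = divT (E' 0) from hsame, sub_self]; exact zero_mem _)
  have : Nonempty (sphere (0 : Fin (ell ℂ F A) → ℂ) 1) := ⟨v₀⟩
  have : Nonempty (Fin (genusFF ℂ F) → Place ℂ F) := ⟨R₀⟩
  choose! R v w hX using hspec
  refine Filter.mem_iff_ultrafilter.mpr fun 𝒰 h𝒰 => ?_
  rcases 𝒰.mem_or_compl_mem {p | LinEquivalent (divT (E p.1)) (divT (E' p.2))} with hlin | hlin
  swap
  · exact mem_of_superset hlin fun p hp h => absurd h hp
  -- limits of the configurations and functions along the ultrafilter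
  obtain ⟨⟨Rs, vs, ws⟩, -, hlim⟩ :=
    isCompact_univ.ultrafilter_le_nhds (𝒰.map fun p => (R p, v p, w p)) (by simp)
  rw [Ultrafilter.coe_map, ← Tendsto, nhds_prod_eq, tendsto_prod_iff', nhds_prod_eq,
    tendsto_prod_iff'] at hlim
  obtain ⟨hR, hv, hw⟩ := hlim
  have hp1 := tendsto_pi_nhds.mp ((continuous_fst.tendsto 0).mono_left h𝒰)
  have hp2 := tendsto_pi_nhds.mp ((continuous_snd.tendsto 0).mono_left h𝒰)
  have hσ0 : ∀ k, ContinuousAt (C k).σ 0 := fun k =>
    (C k).continuousAt (mem_ball_self (C k).r_pos)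
  have hdfs := eq_of_mem_incidence A hdegA (mem_incidence_of_tendsto A
    (l := (𝒰 : Filter ((ι → ℂ) × (ι → ℂ)))) (e := fun p => E p.1)
    (e₀ := E 0) (fun i => (hσ0 _).tendsto.comp (hp1 i)) hR hv
    (mem_of_superset hlin fun p hp => (hX p hp).1))
  have hdgs := eq_of_mem_incidence A hdegA (mem_incidence_of_tendsto A
    (l := (𝒰 : Filter ((ι → ℂ) × (ι → ℂ)))) (e := fun p => E' p.2)
    (e₀ := E' 0) (fun i => (hσ0 _).tendsto.comp (hp2 i)) hR hw
    (mem_of_superset hlin fun p hp => (hX p hp).2))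
  rw [divT_sumElim] at hdfs hdgs
  have hfs0 : combo A vs.1 ≠ 0 := combo_ne_zero A (ne_zero_of_mem_sphere' A vs)
  obtain ⟨c, hc, hgc⟩ := eq_algebraMap_mul_of_divOf_eq hfs0
    (combo_ne_zero A (ne_zero_of_mem_sphere' A ws)) (add_right_cancel
    (b := A) (by rw [hdfs, hdgs, show divT (E 0) = divT (E' 0) from hsame]))
  -- circles avoiding `A` and the limit configuration
  obtain ⟨r, hr0, hrlt, hdisj, hbad⟩ := exists_separating_radius C hdist
    ((Set.finite_range Rs).union A.support.finite_toSet)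
  have hrsub : ∀ k, closedBall (0 : ℂ) r ⊆ ball 0 (C k).r := fun k =>
    closedBall_subset_ball (hrlt k)
  have hout : ∀ k, ∀ s ∈ sphere (0 : ℂ) r, (C k).σ s ∉ Set.range Rs ∧ A ((C k).σ s) = 0 :=
    fun k s hs => by
      have h := hbad k s (sphere_subset_closedBall hs) (ne_of_mem_sphere hs hr0.ne')
      exact ⟨fun h' => h (Or.inl h'), Finsupp.notMem_support_iff.mp fun h' => h (Or.inr h')⟩
  have hreg := fun k s hs => combo_mem_of_apply_eq_zero A (hout k s hs).2
  obtain ⟨B, hB0, hB⟩ := exists_bound_val_combo A C hrsub fun k s hs => (hout k s hs).2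
  obtain ⟨ε, hε, hεb⟩ := exists_pos_le_norm_val C hr0 hrsub (fun k s hs => hreg k s hs vs.1)
    fun k s hs =>
      val_ne_zero_of_divOf_eq C hr0 hrsub hdisj j hout hfs0 hdfs k hs (hreg k s hs _)
  -- the hypotheses of `sum_aj_eq_of_close` hold eventually
  show ∀ᶠ p in (𝒰 : Filter ((ι → ℂ) × (ι → ℂ))), _
  have hnear := fun {δ : ℝ} (hδ : 0 < δ)
      {x : (ι → ℂ) × (ι → ℂ) → sphere (0 : Fin (ell ℂ F A) → ℂ) 1} {x₀}
      (h : Tendsto x (𝒰 : Filter _) (𝓝 x₀)) =>
    (tendsto_iff_norm_sub_tendsto_zero.mp ((continuous_subtype_val.tendsto _).comp h)).eventually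
      (eventually_lt_nhds hδ)
  filter_upwards [hnear (δ := ε / (8 * B)) (by positivity) hv,
    hnear (δ := ‖c‖ * ε / (8 * B)) (by have := norm_pos_iff.mpr hc; positivity) hw,
    eventually_all.mpr fun i => ((hp1 i).eventually (ball_mem_nhds _ hr0)).and
      ((hp2 i).eventually (ball_mem_nhds _ hr0)), hlin] with p h1 h2 h3 h4 _
  have e1 := eq_of_mem_incidence A hdegA (hX p h4).1
  have e2 := eq_of_mem_incidence A hdegA (hX p h4).2
  rw [divT_sumElim] at e1 e2
  refine sum_aj_eq_of_close C hr0 hrlt hdisj j j' (fun i => (h3 i).1) (fun i => (h3 i).2)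
    (combo_ne_zero A (ne_zero_of_mem_sphere' A (v p)))
    (combo_ne_zero A (ne_zero_of_mem_sphere' A (w p))) hc hε (f₀ := combo A vs.1) ?_
    fun k s hs => ⟨hreg k s hs _, hreg k s hs _, hεb k s hs, ?_⟩
  · rw [eq_sub_of_add_eq e1, eq_sub_of_add_eq e2]
    simp only [E, E']
    abel
  · have hvf := hB k s hs ((v p).1 - vs.1)
    have hvg := hB k s hs ((w p).1 - ws.1)
    rw [val_combo_sub A (hout k s hs).2] at hvf hvg
    rw [hgc, val_mul (((C k).σ s).algebraMap_mem' c) (hreg k s hs vs.1), val_algebraMap] at hvg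
    simp only [Function.comp_apply, lt_div_iff₀ (show (0 : ℝ) < 8 * B by positivity)] at h1 h2
    exact ⟨hvf.trans (by linarith), hvg.trans (by linarith)⟩

/-- Local form of Abel's theorem, for charts with arbitrary centres. -/
theorem local_abel' {κ ι : Type*} [Fintype κ] [Fintype ι] (C : κ → Chart F) (j j' : ι → κ)
    (hsame : divT (fun i => (C (j i)).σ 0) = divT (fun i => (C (j' i)).σ 0)) :
    ∀ᶠ p in 𝓝 (0 : (ι → ℂ) × (ι → ℂ)),
      LinEquivalent (divT fun i => (C (j i)).σ (p.1 i)) (divT fun i => (C (j' i)).σ (p.2 i)) →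
        ∑ i, (C (j i)).aj (p.1 i) = ∑ i, (C (j' i)).aj (p.2 i) := by
  classical
  set c : κ → Place ℂ F := fun k => (C k).σ 0 with hc
  set f : κ → Set.range c := Set.rangeFactorization c
  set rep : Set.range c → κ := fun P => P.2.choose
  set C₀ : Set.range c → Chart F := fun P => C (rep P)
  have hC₀ : ∀ P : Set.range c, (C₀ P).σ 0 = P.1 := fun P => P.2.choose_spec
  set τ : κ → ℂ → ℂ := fun k z => val ((C k).σ z) (C₀ (f k)).t
  have hτ0 : ∀ k, ContinuousAt (τ k) 0 ∧ τ k 0 = 0 := fun k => by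
    obtain ⟨h1, h2, -, -⟩ := (C k).transition (mem_ball_self (C k).r_pos) (C₀ (f k))
      (mem_ball_self (C₀ (f k)).r_pos) (hC₀ (f k))
    exact ⟨h1.continuousAt, h2⟩
  set m : (ι → ℂ) × (ι → ℂ) → (ι → ℂ) × (ι → ℂ) :=
    fun p => (fun i => τ (j i) (p.1 i), fun i => τ (j' i) (p.2 i))
  have hm : Tendsto m (𝓝 0) (𝓝 0) := by
    have hco : ∀ (i : ι) (k : κ), Tendsto (fun x : ι → ℂ => τ k (x i)) (𝓝 0) (𝓝 0) := fun i k => by
      have := (hτ0 k).1.tendsto.comp ((continuous_apply i).tendsto (0 : ι → ℂ))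
      rwa [(hτ0 k).2] at this
    exact Tendsto.prodMk_nhds
      (tendsto_pi_nhds.mpr fun i => (hco i _).comp (continuous_fst.tendsto 0))
      (tendsto_pi_nhds.mpr fun i => (hco i _).comp (continuous_snd.tendsto 0))
  have hloc := hm.eventually (local_abel C₀ (fun P Q h => Subtype.ext (by
    rw [← hC₀ P, ← hC₀ Q]; exact h)) (f ∘ j) (f ∘ j') (by
      simp only [Function.comp_apply, hC₀]
      exact hsame))
  have htr : ∀ k, ∀ᶠ z in 𝓝 (0 : ℂ), (C₀ (f k)).σ (τ k z) = (C k).σ z ∧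
      (C₀ (f k)).aj (τ k z) = (C k).aj z := fun k => (C k).aj_transition _ (hC₀ (f k))
  have h1 : ∀ᶠ p in 𝓝 (0 : (ι → ℂ) × (ι → ℂ)), ∀ i,
      ((C₀ (f (j i))).σ (τ (j i) (p.1 i)) = (C (j i)).σ (p.1 i) ∧
        (C₀ (f (j i))).aj (τ (j i) (p.1 i)) = (C (j i)).aj (p.1 i)) ∧
      ((C₀ (f (j' i))).σ (τ (j' i) (p.2 i)) = (C (j' i)).σ (p.2 i) ∧
        (C₀ (f (j' i))).aj (τ (j' i) (p.2 i)) = (C (j' i)).aj (p.2 i)) :=
    eventually_all.mpr fun i =>
      (((continuous_apply i).comp continuous_fst).tendsto' (0 : (ι → ℂ) × (ι → ℂ)) 0 rfl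
        |>.eventually (htr (j i))).and
      (((continuous_apply i).comp continuous_snd).tendsto' (0 : (ι → ℂ) × (ι → ℂ)) 0 rfl
        |>.eventually (htr (j' i)))
  filter_upwards [h1, hloc] with p hp hl hlin
  simp only [m, Function.comp_apply] at hl
  simp only [fun i => (hp i).1.1, fun i => (hp i).2.1] at hl
  have := hl hlin
  simpa only [fun i => (hp i).1.2, fun i => (hp i).2.2] using this

end FLTAgent.Jacobian
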