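import Fermat.Agent.Jacobian.Residue
import Mathlib.Algebra.Polynomial.Bivariate

/-!
# Arcs on plane curves over `ℂ`

`exists_arc`: the analytic arc through a simple point of `χ = 0`, from the implicit function
theorem. `exists_mul_eq_add` is the division of a polynomial vanishing at such a point.
-/

set_option autoImplicit false

noncomputable section

open Filter Topology Metric Polynomial Complex
open scoped Polynomial.Bivariate

namespace FLTAgent.Jacobian

/-- Derivative of a bivariate polynomial in its first variable. -/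
def dX {R : Type*} [CommSemiring R] (p : R[X][Y]) : R[X][Y] :=
  p.sum fun n c => Polynomial.monomial n (derivative c)

theorem dX_monomial {R : Type*} [CommSemiring R] (n : ℕ) (c : R[X]) :
    dX (Polynomial.monomial n c) = Polynomial.monomial n (derivative c) :=
  sum_monomial_index c _ (by simp)

theorem dX_add {R : Type*} [CommSemiring R] (p q : R[X][Y]) : dX (p + q) = dX p + dX q :=
  sum_add_index p q _ (by simp) (by simp)

theorem evalEval_monomial' {R : Type*} [CommSemiring R] (x y : R) (n : ℕ) (c : R[X]) :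
    (Polynomial.monomial n c).evalEval x y = c.eval x * y ^ n := by
  simp [evalEval]

theorem evalEval_derivative_monomial {R : Type*} [CommSemiring R] (x y : R) (n : ℕ) (c : R[X]) :
    (derivative (Polynomial.monomial n c)).evalEval x y = c.eval x * n * y ^ (n - 1) := by
  rw [derivative_monomial, evalEval_monomial']
  simp

theorem hasDerivAt_evalEval (p : ℂ[X][Y]) {φ : ℂ → ℂ} {φ' s : ℂ} (h : HasDerivAt φ φ' s) :
    HasDerivAt (fun z => p.evalEval z (φ z))
      ((dX p).evalEval s (φ s) + (derivative p).evalEval s (φ s) * φ') s := by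
  induction p using Polynomial.induction_on' with
  | add p q hp hq =>
    have he : (fun z => (p + q).evalEval z (φ z))
        = fun z => p.evalEval z (φ z) + q.evalEval z (φ z) := funext fun z => evalEval_add _ _ _ _
    rw [he, dX_add, derivative_add, evalEval_add, evalEval_add]
    exact (hp.add hq).congr_deriv (by ring)
  | monomial n c =>
    simp only [evalEval_monomial', dX_monomial, evalEval_derivative_monomial]
    exact ((c.hasDerivAt s).mul (h.pow n)).congr_deriv (by simp only [Pi.pow_apply]; ring)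

theorem continuous_evalEval (p : ℂ[X][Y]) : Continuous fun v : ℂ × ℂ => p.evalEval v.1 v.2 := by
  induction p using Polynomial.induction_on' with
  | add p q hp hq => simp only [evalEval_add]; exact hp.add hq
  | monomial n c =>
    simp only [evalEval_monomial']
    exact (c.continuous.comp continuous_fst).mul (continuous_snd.pow n)

theorem analyticAt_evalEval (p : ℂ[X][Y]) {φ : ℂ → ℂ} {s : ℂ} (h : AnalyticAt ℂ φ s) :
    AnalyticAt ℂ (fun z => p.evalEval z (φ z)) s := by
  induction p using Polynomial.induction_on' with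
  | add p q hp hq => simp only [evalEval_add]; exact hp.add hq
  | monomial n c =>
    simp only [evalEval_monomial']
    exact (AnalyticAt.mul (by simpa using (analyticAt_id (𝕜 := ℂ) (z := s)).aeval_polynomial c)
      (h.pow n))

theorem exists_local_implicit {χ : ℂ[X][Y]} {a b : ℂ} (h0 : χ.evalEval a b = 0)
    (hd : (derivative χ).evalEval a b ≠ 0) :
    ∃ φ : ℂ → ℂ, φ a = b ∧ Tendsto φ (𝓝 a) (𝓝 b) ∧
      (∀ᶠ s in 𝓝 a, χ.evalEval s (φ s) = 0) ∧ DifferentiableAt ℂ φ a ∧
      ∀ᶠ v in 𝓝 (a, b), χ.evalEval v.1 v.2 = 0 → φ v.1 = v.2 := by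
  have d1 : ∀ v : ℂ × ℂ, HasFDerivAt (fun z => χ.evalEval z v.2)
      ((dX χ).evalEval v.1 v.2 • (1 : ℂ →L[ℂ] ℂ)) v.1 := fun v => by
    have := hasDerivAt_evalEval χ (φ := fun _ => v.2) (hasDerivAt_const v.1 v.2)
    rw [mul_zero, add_zero] at this
    refine this.hasFDerivAt.congr_fderiv ?_
    ext
    simp
  have d2 : ∀ v : ℂ × ℂ, HasFDerivAt (fun z => χ.evalEval v.1 z)
      ((derivative χ).evalEval v.1 v.2 • (1 : ℂ →L[ℂ] ℂ)) v.2 := fun v => by
    have h1 := ((χ.map (evalRingHom v.1)).hasDerivAt v.2)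
    simp only [derivative_map, map_evalRingHom_eval] at h1
    refine h1.hasFDerivAt.congr_fderiv ?_
    ext
    simp
  have c1 : ContinuousAt ↿(fun x y => (dX χ).evalEval x y • (1 : ℂ →L[ℂ] ℂ)) (a, b) :=
    ((continuous_evalEval (dX χ)).smul continuous_const).continuousAt
  have c2 : ContinuousAt ↿(fun x y => (derivative χ).evalEval x y • (1 : ℂ →L[ℂ] ℂ)) (a, b) :=
    ((continuous_evalEval (derivative χ)).smul continuous_const).continuousAt
  have hinv : ((derivative χ).evalEval a b • (1 : ℂ →L[ℂ] ℂ)).IsInvertible := by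
    refine ⟨ContinuousLinearEquiv.unitsEquivAut ℂ (Units.mk0 _ hd), ?_⟩
    ext
    simp
  have df1 : ∀ᶠ v : ℂ × ℂ in 𝓝 (a, b), HasFDerivAt (fun z => χ.evalEval z v.2)
      ((dX χ).evalEval v.1 v.2 • (1 : ℂ →L[ℂ] ℂ)) v.1 := Eventually.of_forall d1
  have df2 : ∀ᶠ v : ℂ × ℂ in 𝓝 (a, b), HasFDerivAt (fun z => χ.evalEval v.1 z)
      ((derivative χ).evalEval v.1 v.2 • (1 : ℂ →L[ℂ] ℂ)) v.2 := Eventually.of_forall d2
  set φ := implicitFunctionOfBivariate (f := fun x y => χ.evalEval x y)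
    (f₁ := fun x y => (dX χ).evalEval x y • (1 : ℂ →L[ℂ] ℂ))
    (f₂ := fun x y => (derivative χ).evalEval x y • (1 : ℂ →L[ℂ] ℂ)) df1 df2 c1 c2 hinv with hφ
  have huniq : ∀ᶠ v in 𝓝 (a, b), χ.evalEval v.1 v.2 = χ.evalEval a b ↔ φ v.1 = v.2 :=
    eventually_apply_eq_iff_implicitFunctionOfBivariate (f := fun x y => χ.evalEval x y)
      (f₁ := fun x y => (dX χ).evalEval x y • (1 : ℂ →L[ℂ] ℂ))
      (f₂ := fun x y => (derivative χ).evalEval x y • (1 : ℂ →L[ℂ] ℂ))  df1 df2 c1 c2 hinv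
  refine ⟨φ, huniq.self_of_nhds.mp rfl,
    tendsto_implicitFunctionOfBivariate (f := fun x y => χ.evalEval x y)
      (f₁ := fun x y => (dX χ).evalEval x y • (1 : ℂ →L[ℂ] ℂ))
      (f₂ := fun x y => (derivative χ).evalEval x y • (1 : ℂ →L[ℂ] ℂ))  df1 df2 c1 c2 hinv,
    ?_, (hasStrictFDerivAt_implicitFunctionOfBivariate (f := fun x y => χ.evalEval x y)
      (f₁ := fun x y => (dX χ).evalEval x y • (1 : ℂ →L[ℂ] ℂ))
      (f₂ := fun x y => (derivative χ).evalEval x y • (1 : ℂ →L[ℂ] ℂ))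
      df1 df2 c1 c2 hinv).hasFDerivAt.differentiableAt,
    ?_⟩
  · filter_upwards [eventually_apply_implicitFunctionOfBivariate (f := fun x y => χ.evalEval x y)
      (f₁ := fun x y => (dX χ).evalEval x y • (1 : ℂ →L[ℂ] ℂ))
      (f₂ := fun x y => (derivative χ).evalEval x y • (1 : ℂ →L[ℂ] ℂ))  df1 df2 c1 c2 hinv]
    with s hs
    exact hs.trans h0
  · filter_upwards [huniq] with v hv hv0
    exact hv.mp (hv0.trans h0.symm)

/-- The analytic arc through a simple point of the plane curve `χ = 0`. -/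
theorem exists_arc {χ : ℂ[X][Y]} {a b : ℂ} (h0 : χ.evalEval a b = 0)
    (hd : (derivative χ).evalEval a b ≠ 0) :
    ∃ r > 0, ∃ δ > 0, ∃ φ : ℂ → ℂ, φ a = b ∧ ∀ s ∈ ball a r,
      φ s ∈ ball b δ ∧ χ.evalEval s (φ s) = 0 ∧ (derivative χ).evalEval s (φ s) ≠ 0 ∧
        AnalyticAt ℂ φ s ∧ ∀ y ∈ ball b δ, χ.evalEval s y = 0 → y = φ s := by
  obtain ⟨φ, hφa, hφt, hφ0, -, hφu⟩ := exists_local_implicit h0 hd
  have hbox : ∀ᶠ v in 𝓝 (a, b), (χ.evalEval v.1 v.2 = 0 → φ v.1 = v.2) ∧
      (derivative χ).evalEval v.1 v.2 ≠ 0 :=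
    hφu.and ((continuous_evalEval (derivative χ)).continuousAt.eventually_ne hd)
  obtain ⟨ε, hε, hbox⟩ := Metric.eventually_nhds_iff.mp hbox
  have hboxmem : ∀ s y, s ∈ ball a ε → y ∈ ball b ε →
      (χ.evalEval s y = 0 → φ s = y) ∧ (derivative χ).evalEval s y ≠ 0 := fun s y hs hy =>
    hbox (y := (s, y)) (by
      rw [Prod.dist_eq]
      exact max_lt (mem_ball.mp hs) (mem_ball.mp hy))
  obtain ⟨r, hr, hr'⟩ := Metric.eventually_nhds_iff.mp
    ((hφt.eventually (ball_mem_nhds b hε)).and hφ0)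
  refine ⟨min r ε, lt_min hr hε, ε, hε, φ, hφa, ?_⟩
  have base : ∀ s ∈ ball a (min r ε), φ s ∈ ball b ε ∧ χ.evalEval s (φ s) = 0 ∧
      (derivative χ).evalEval s (φ s) ≠ 0 ∧ s ∈ ball a ε := fun s hs => by
    have h1 := hr' (lt_of_lt_of_le (mem_ball.mp hs) (min_le_left _ _))
    have hsε : s ∈ ball a ε := ball_subset_ball (min_le_right _ _) hs
    exact ⟨h1.1, h1.2, (hboxmem s _ hsε h1.1).2, hsε⟩
  have hdiff : DifferentiableOn ℂ φ (ball a (min r ε)) := by
    intro s hs
    obtain ⟨hb, hz, hne, -⟩ := base s hs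
    obtain ⟨ψ, hψs, hψt, hψ0, hψd, -⟩ := exists_local_implicit hz hne
    refine DifferentiableAt.differentiableWithinAt (hψd.congr_of_eventuallyEq ?_)
    filter_upwards [hψ0, hψt.eventually (isOpen_ball.mem_nhds hb), isOpen_ball.mem_nhds hs]
      with z hz1 hz2 hz3
    exact (hboxmem z _ (base z hz3).2.2.2 hz2).1 hz1
  intro s hs
  obtain ⟨h1, h2, h3, h4⟩ := base s hs
  exact ⟨h1, h2, h3, hdiff.analyticAt (isOpen_ball.mem_nhds hs),
    fun y hy hy0 => ((hboxmem s y h4 hy).1 hy0).symm⟩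

/-- Division at a simple point. -/
theorem exists_mul_eq_add {χ : ℂ[X][Y]} {a b : ℂ} (h0 : χ.evalEval a b = 0)
    {p : ℂ[X][Y]} (hp : p.evalEval a b = 0) :
    ∃ u p₁ p' : ℂ[X][Y], u.evalEval a b = (derivative χ).evalEval a b ∧
      u * p = χ * p₁ + Polynomial.C (Polynomial.X - Polynomial.C a) * p' := by
  have split : ∀ g : ℂ[X][Y], g.evalEval a b = 0 → ∃ g₁ : ℂ[X][Y], ∃ w : ℂ[X],
      g = (Polynomial.X - Polynomial.C (Polynomial.C b)) * g₁
        + Polynomial.C ((Polynomial.X - Polynomial.C a) * w) := by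
    intro g hg
    obtain ⟨g₁, hg₁⟩ : Polynomial.X - Polynomial.C (Polynomial.C b) ∣
        g - Polynomial.C (g.eval (Polynomial.C b)) := X_sub_C_dvd_sub_C_eval
    have hroot : (g.eval (Polynomial.C b)).IsRoot a := hg
    obtain ⟨w, hw⟩ := dvd_iff_isRoot.mpr hroot
    exact ⟨g₁, w, by rw [← hg₁, ← hw]; ring⟩
  obtain ⟨u, w₀, hχ⟩ := split χ h0
  obtain ⟨p₁, w₁, hp'⟩ := split p hp
  refine ⟨u, p₁, u * Polynomial.C w₁ - Polynomial.C w₀ * p₁, ?_, ?_⟩
  · rw [hχ]
    simp [derivative_mul]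
  · rw [hp', hχ, Polynomial.C_mul, Polynomial.C_mul]
    ring

end FLTAgent.Jacobian
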