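import Fermat.Agent.Jacobian.PlaneModel
import Fermat.Agent.Jacobian.PlaneCurve

/-!
# Holomorphic charts on the places over `ℂ`

A `Chart F` is a disc of places `σ s` with local coordinate `t`. `exists_chart` gives one
centred at any place, from the arc through a simple point of a plane model; `chartAtPlace` is a
choice of one.
-/

set_option autoImplicit false

noncomputable section

open Filter Topology Metric AlgebraicCurve Polynomial
open FLTAgent.FFBasic (IsFunctionField)
open scoped Polynomial.Bivariate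

namespace FLTAgent.Jacobian

variable (F : Type*) [Field F] [Algebra ℂ F] [IsCurveOver ℂ F] [IsFunctionField ℂ F]

/-- A holomorphic chart: the places `σ s`, `‖s‖ < r`, with local coordinate `t`. -/
structure Chart where
  t : F
  σ : ℂ → Place ℂ F
  r : ℝ
  r_pos : 0 < r
  t_mem : ∀ s ∈ ball (0 : ℂ) r, t ∈ (σ s).toValuationSubring ∧ val (σ s) t = s
  mero : ∀ f : F, MeromorphicOn (fun s => val (σ s) f) (ball 0 r)
  order : ∀ f : F, f ≠ 0 → ∀ s ∈ ball (0 : ℂ) r,
    meromorphicOrderAt (fun z => val (σ z) f) s = ((σ s).ord f : ℤ)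
  nbhd : ∀ s ∈ ball (0 : ℂ) r, ∃ g : F, g ∈ (σ s).toValuationSubring ∧ ∃ δ > (0 : ℝ),
    ∀ P : Place ℂ F, t ∈ P.toValuationSubring → g ∈ P.toValuationSubring →
      ‖val P t - s‖ < δ → ‖val P g - val (σ s) g‖ < δ → P = σ (val P t)
  D_t_ne : KaehlerDifferential.D ℂ F t ≠ 0
  deriv_eq : ∀ g c : F, KaehlerDifferential.D ℂ F g = c • KaehlerDifferential.D ℂ F t →
    ∀ z ∈ ball (0 : ℂ) r, ∀ᶠ s in 𝓝[≠] z,
      deriv (fun w => val (σ w) g) s = val (σ s) c

variable {F}

theorem eventually_eval_ne_zero {q : ℂ[X]} (hq : q ≠ 0) (z : ℂ) :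
    ∀ᶠ s in 𝓝[≠] z, q.eval s ≠ 0 :=
  (nhdsNE_le_cofinite z) (finite_setOfPred_isRoot hq).compl_mem_cofinite

omit [IsCurveOver ℂ F] [IsFunctionField ℂ F] in
theorem D_aevalAeval (t y : F) (p : ℂ[X][Y]) :
    KaehlerDifferential.D ℂ F (aevalAeval t y p)
      = aevalAeval t y (dX p) • KaehlerDifferential.D ℂ F t
        + aevalAeval t y (derivative p) • KaehlerDifferential.D ℂ F y := by
  induction p using Polynomial.induction_on' with
  | add p q hp hq =>
    simp only [map_add, dX_add, hp, hq, add_smul]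
    abel
  | monomial n c =>
    rw [dX_monomial, derivative_monomial, aevalAeval_monomial, aevalAeval_monomial,
      aevalAeval_monomial, Derivation.leibniz, Derivation.leibniz_pow, Derivation.map_aeval]
    simp only [← Nat.cast_smul_eq_nsmul F, smul_smul, map_mul, map_natCast]
    module

/-- An arc on a plane model. -/
structure Arc (M : PlaneModel ℂ F) where
  φ : ℂ → ℂ
  a : ℂ
  root : ∀ᶠ s in 𝓝 a, M.chi.evalEval s (φ s) = 0
  simple : (derivative M.chi).evalEval a (φ a) ≠ 0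
  analytic : AnalyticAt ℂ φ a

namespace Arc

variable {M : PlaneModel ℂ F} (A : Arc M)

omit [IsCurveOver ℂ F] [IsFunctionField ℂ F] in
/-- A polynomial relation between `t` and `y` holds along the arc. -/
theorem eventually_eq_zero {p : ℂ[X][Y]} (h : aevalAeval M.t M.y p = 0) :
    ∀ᶠ s in 𝓝 A.a, p.evalEval s (A.φ s) = 0 := by
  obtain ⟨q, hq, r, hr⟩ := M.ker p h
  refine ((analyticAt_evalEval p A.analytic).frequently_eq_iff_eventually_eq analyticAt_const).mp ?_
  refine Eventually.frequently ?_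
  filter_upwards [eventually_eval_ne_zero hq A.a,
    eventually_nhdsWithin_of_eventually_nhds A.root] with s hs hs0
  have h2 := congrArg (Polynomial.evalEval s (A.φ s)) hr
  rw [evalEval_mul, evalEval_mul, evalEval_C, hs0, zero_mul, mul_eq_zero] at h2
  exact h2.resolve_left hs

omit [IsFunctionField ℂ F] in
theorem ord_order (P : Place ℂ F) (ht : M.t ∈ P.toValuationSubring)
    (hy : M.y ∈ P.toValuationSubring) (hta : val P M.t = A.a) (hya : val P M.y = A.φ A.a)
    (p : ℂ[X][Y]) (hp : aevalAeval M.t M.y p ≠ 0) :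
    ∃ (n : ℕ) (g : ℂ → ℂ), AnalyticAt ℂ g A.a ∧ g A.a ≠ 0 ∧
      (∀ᶠ s in 𝓝 A.a, p.evalEval s (A.φ s) = (s - A.a) ^ n * g s) ∧
      P.ord (aevalAeval M.t M.y p) = n * P.ord (M.t - algebraMap ℂ F A.a) := by
  induction hd : (P.ord (aevalAeval M.t M.y p)).toNat using Nat.strong_induction_on
    generalizing p with
  | _ d ih =>
    obtain ⟨hmem, hval⟩ := aevalAeval_mem ht hy p
    rw [hta, hya] at hval
    by_cases h0 : p.evalEval A.a (A.φ A.a) = 0
    · obtain ⟨u, p₁, p', hu, heq⟩ := exists_mul_eq_add A.root.self_of_nhds h0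
      obtain ⟨humem, huval⟩ := aevalAeval_mem ht hy u
      rw [hta, hya, hu] at huval
      have hu0 : aevalAeval M.t M.y u ≠ 0 := fun e => A.simple (by rw [← huval, e, val_zero])
      have huord : P.ord (aevalAeval M.t M.y u) = 0 :=
        (val_ne_zero_iff humem hu0).mp (by rw [huval]; exact A.simple)
      have hev : aevalAeval M.t M.y u * aevalAeval M.t M.y p
          = (M.t - algebraMap ℂ F A.a) * aevalAeval M.t M.y p' := by
        have := congrArg (aevalAeval M.t M.y) heq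
        rw [map_mul, map_add, map_mul, M.root, zero_mul, zero_add, map_mul, aevalAeval_C',
          map_sub, aeval_X, aeval_C] at this
        exact this
      have hp' : aevalAeval M.t M.y p' ≠ 0 := fun e => by
        rw [e, mul_zero] at hev
        exact mul_ne_zero hu0 hp hev
      have hta0 : M.t - algebraMap ℂ F A.a ≠ 0 := fun e => by
        rw [e, zero_mul] at hev
        exact mul_ne_zero hu0 hp hev
      have htapos : 0 < P.ord (M.t - algebraMap ℂ F A.a) := by
        rw [← val_eq_zero_iff (sub_mem ht (P.algebraMap_mem' _)) hta0,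
          val_sub ht (P.algebraMap_mem' _), hta, val_algebraMap, sub_self]
      have hord := congrArg P.ord hev
      rw [P.ord_mul hu0 hp, huord, zero_add, P.ord_mul hta0 hp'] at hord
      have hp'nn := (FFRiemannRoch.ord_nonneg_iff P hp').mpr (aevalAeval_mem ht hy p').1
      have hlt : (P.ord (aevalAeval M.t M.y p')).toNat < d := by omega
      obtain ⟨n, g, hg, hg0, hgeq, hn⟩ := ih _ hlt p' hp' rfl
      have hune : u.evalEval A.a (A.φ A.a) ≠ 0 := by rw [hu]; exact A.simple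
      have hua := analyticAt_evalEval u A.analytic
      refine ⟨n + 1, fun s => g s / u.evalEval s (A.φ s), hg.div hua hune,
        div_ne_zero hg0 hune, ?_, by rw [hord, hn]; push_cast; ring⟩
      filter_upwards [A.root, hgeq, hua.continuousAt.eventually_ne hune] with s hs1 hs2 hs3
      have h2 := congrArg (Polynomial.evalEval s (A.φ s)) heq
      rw [evalEval_mul, evalEval_add, evalEval_mul, evalEval_mul, hs1, zero_mul, zero_add,
        evalEval_C, eval_sub, eval_X, eval_C, hs2] at h2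
      field_simp
      rw [mul_comm, h2]
      ring
    · refine ⟨0, fun s => p.evalEval s (A.φ s), analyticAt_evalEval p A.analytic, h0,
        Eventually.of_forall fun s => by simp, ?_⟩
      rw [(val_ne_zero_iff hmem hp).mp (by rw [hval]; exact h0)]
      simp

omit [IsFunctionField ℂ F] in
theorem ord_t_eq_one (P : Place ℂ F) (ht : M.t ∈ P.toValuationSubring)
    (hy : M.y ∈ P.toValuationSubring) (hta : val P M.t = A.a) (hya : val P M.y = A.φ A.a) :
    P.ord (M.t - algebraMap ℂ F A.a) = 1 := by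
  have hta0 : M.t - algebraMap ℂ F A.a ≠ 0 := fun e => M.transc (by
    rw [sub_eq_zero] at e
    rw [e]
    exact isAlgebraic_algebraMap _)
  have hpos : 0 < P.ord (M.t - algebraMap ℂ F A.a) := by
    rw [← val_eq_zero_iff (sub_mem ht (P.algebraMap_mem' _)) hta0,
      val_sub ht (P.algebraMap_mem' _), hta, val_algebraMap, sub_self]
  obtain ⟨π, hπ0, hπ⟩ := FFBasic.exists_ord_eq P 1
  obtain ⟨p, q, hq, hpq⟩ := M.gen π
  have hq0 := aeval_ne_zero_of_transcendental M.transc hq
  obtain ⟨n, g, -, -, -, hn⟩ := A.ord_order P ht hy hta hya p (hpq ▸ mul_ne_zero hπ0 hq0)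
  obtain ⟨m, g', -, -, -, hm⟩ := A.ord_order P ht hy hta hya (Polynomial.C q)
    (by rw [aevalAeval_C']; exact hq0)
  rw [← hpq, P.ord_mul hπ0 hq0, hπ] at hn
  rw [aevalAeval_C'] at hm
  rw [hm] at hn
  refine le_antisymm (Int.le_of_dvd one_pos ⟨(n : ℤ) - m, ?_⟩) hpos
  linear_combination hn

theorem existsUnique_place : ∃! P : Place ℂ F, M.t ∈ P.toValuationSubring ∧
    M.y ∈ P.toValuationSubring ∧ val P M.t = A.a ∧ val P M.y = A.φ A.a := by
  refine existsUnique_of_exists_of_unique ?_ ?_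
  · set b := A.φ A.a
    set R : Subring F := (aevalAeval M.t M.y : ℂ[X][Y] →ₐ[ℂ] F).range.toSubring
    have hKR : ∀ c : ℂ, algebraMap ℂ F c ∈ R := fun c =>
      (aevalAeval M.t M.y : ℂ[X][Y] →ₐ[ℂ] F).range.algebraMap_mem c
    have htR : M.t ∈ R := ⟨Polynomial.C Polynomial.X, by simp⟩
    have hyR : M.y ∈ R := ⟨Polynomial.X, by simp⟩
    set x₁ : R := ⟨M.t - algebraMap ℂ F A.a, sub_mem htR (hKR _)⟩
    set x₂ : R := ⟨M.y - algebraMap ℂ F b, sub_mem hyR (hKR _)⟩
    have hI : (Ideal.span {x₁, x₂} : Ideal R) ≠ ⊤ := by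
      rw [Ne, Ideal.eq_top_iff_one, Ideal.mem_span_pair]
      rintro ⟨⟨c₁, p₁, rfl⟩, ⟨c₂, p₂, rfl⟩, hc⟩
      have hc' : aevalAeval M.t M.y p₁ * (M.t - algebraMap ℂ F A.a)
          + aevalAeval M.t M.y p₂ * (M.y - algebraMap ℂ F b) = 1 := congrArg Subtype.val hc
      have hz : aevalAeval M.t M.y
          (p₁ * Polynomial.C (Polynomial.X - Polynomial.C A.a)
            + p₂ * (Polynomial.X - Polynomial.C (Polynomial.C b)) - 1) = 0 := by
        simp only [map_sub, map_add, map_mul, map_one, aevalAeval_C', aevalAeval_Y', aeval_X,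
          aeval_C]
        rw [hc', sub_self]
      have := (A.eventually_eq_zero hz).self_of_nhds
      simp only [evalEval_sub, evalEval_add, evalEval_mul, evalEval_C, eval_sub, eval_X, eval_C,
        evalEval_X, evalEval_one, b, sub_self, mul_zero, add_zero, zero_sub] at this
      exact one_ne_zero (neg_eq_zero.mp this)
    obtain ⟨V, hV, hVn⟩ := Ideal.image_subset_nonunits_valuationSubring _ hI
    have hKV : ∀ c : ℂ, algebraMap ℂ F c ∈ V := fun c => hV (hKR c)
    have hn₁ : M.t - algebraMap ℂ F A.a ∈ V.nonunits :=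
      hVn ⟨x₁, Ideal.subset_span (Set.mem_insert _ _), rfl⟩
    have hn₂ : M.y - algebraMap ℂ F b ∈ V.nonunits :=
      hVn ⟨x₂, Ideal.subset_span (Set.mem_insert_of_mem _ rfl), rfl⟩
    have hne : V ≠ ⊤ := fun e => by
      have hta0 : M.t - algebraMap ℂ F A.a ≠ 0 := fun e => M.transc (by
        rw [sub_eq_zero] at e
        rw [e]
        exact isAlgebraic_algebraMap _)
      have h1 := FFBasic.mul_mem_nonunits hn₁
        (b := (M.t - algebraMap ℂ F A.a)⁻¹) (e ▸ ValuationSubring.mem_top _)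
      rw [mul_inv_cancel₀ hta0] at h1
      exact FFBasic.not_mem_nonunits_one V h1
    set P := FFBasic.placeOfValuationSubring V hKV hne
    have hval : ∀ f ∈ V.nonunits, val P f = 0 := by
      intro f hf
      by_contra h
      have hinv := (val_inv (P := P) (f := f) (FFBasic.nonunits_subset hf) h).1
      have h1 := FFBasic.mul_mem_nonunits hf (b := f⁻¹) hinv
      rw [mul_inv_cancel₀ (fun e => h (by rw [e, val_zero]))] at h1
      exact FFBasic.not_mem_nonunits_one V h1
    refine ⟨P, hV htR, hV hyR, ?_, ?_⟩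
    · have := hval _ hn₁
      rwa [val_sub (hV htR) (hKV _), val_algebraMap, sub_eq_zero] at this
    · have := hval _ hn₂
      rwa [val_sub (hV hyR) (hKV _), val_algebraMap, sub_eq_zero] at this
  · rintro P₁ P₂ ⟨h1, h2, h3, h4⟩ ⟨k1, k2, k3, k4⟩
    refine FFBasic.place_ext_ord fun f hf => ?_
    rcases eq_or_ne f 0 with rfl | hf0
    · simp
    obtain ⟨p, q, hq, hpq⟩ := M.gen f
    have hq0 := aeval_ne_zero_of_transcendental M.transc hq
    have hp0 : aevalAeval M.t M.y p ≠ 0 := hpq ▸ mul_ne_zero hf0 hq0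
    have hq0' : aevalAeval M.t M.y (Polynomial.C q) ≠ 0 := by rw [aevalAeval_C']; exact hq0
    have key : ∀ p : ℂ[X][Y], aevalAeval M.t M.y p ≠ 0 →
        P₁.ord (aevalAeval M.t M.y p) = P₂.ord (aevalAeval M.t M.y p) := by
      intro p hp
      obtain ⟨n, g, hg, hg0, hgeq, hn⟩ := A.ord_order P₁ h1 h2 h3 h4 p hp
      obtain ⟨m, g', hg', hg'0, hgeq', hm⟩ := A.ord_order P₂ k1 k2 k3 k4 p hp
      rw [A.ord_t_eq_one P₁ h1 h2 h3 h4, mul_one] at hn
      rw [A.ord_t_eq_one P₂ k1 k2 k3 k4, mul_one] at hm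
      rw [hn, hm]
      have hA := analyticAt_evalEval p A.analytic
      have e1 := (hA.analyticOrderAt_eq_natCast (n := n)).mpr ⟨g, hg, hg0, hgeq.mono fun s hs => by
        simpa using hs⟩
      have e2 := (hA.analyticOrderAt_eq_natCast (n := m)).mpr
        ⟨g', hg', hg'0, hgeq'.mono fun s hs => by
        simpa using hs⟩
      rw [e1] at e2
      exact_mod_cast e2
    have e1 := key p hp0
    have e2 := key _ hq0'
    rw [← hpq, P₁.ord_mul hf0 hq0, P₂.ord_mul hf0 hq0] at e1
    rw [aevalAeval_C'] at e2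
    omega

omit [IsFunctionField ℂ F] in
/-- The order of a quotient along the arc is the order of its element at the place. -/
theorem meromorphicOrderAt_div_eq_ord (P : Place ℂ F) (ht : M.t ∈ P.toValuationSubring)
    (hy : M.y ∈ P.toValuationSubring) (hta : val P M.t = A.a) (hya : val P M.y = A.φ A.a)
    {f : F} (hf : f ≠ 0) {p : ℂ[X][Y]} {q : ℂ[X]} (hq : q ≠ 0)
    (hpq : f * aeval M.t q = aevalAeval M.t M.y p) :
    meromorphicOrderAt (fun z => p.evalEval z (A.φ z) / q.eval z) A.a = (P.ord f : ℤ) := by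
  have hq0 := aeval_ne_zero_of_transcendental M.transc hq
  have key : ∀ p : ℂ[X][Y], aevalAeval M.t M.y p ≠ 0 →
      meromorphicOrderAt (fun z => p.evalEval z (A.φ z)) A.a
        = (P.ord (aevalAeval M.t M.y p) : ℤ) := by
    intro p hp
    obtain ⟨n, g, hg, hg0, hgeq, hn⟩ := A.ord_order P ht hy hta hya p hp
    rw [A.ord_t_eq_one P ht hy hta hya, mul_one] at hn
    rw [hn, meromorphicOrderAt_eq_int_iff (analyticAt_evalEval p A.analytic).meromorphicAt]
    exact ⟨g, hg, hg0, eventually_nhdsWithin_of_eventually_nhds (hgeq.mono fun z hz => by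
      simpa using hz)⟩
  have kp := key p (hpq ▸ mul_ne_zero hf hq0)
  have kq := key (Polynomial.C q) (by rw [aevalAeval_C']; exact hq0)
  simp only [evalEval_C, aevalAeval_C'] at kq
  rw [← hpq, P.ord_mul hf hq0] at kp
  change meromorphicOrderAt ((fun z => p.evalEval z (A.φ z)) / fun z => q.eval z) A.a = _
  rw [meromorphicOrderAt_div (analyticAt_evalEval p A.analytic).meromorphicAt
    (by simpa using ((analyticAt_id (𝕜 := ℂ) (z := A.a)).aeval_polynomial q).meromorphicAt),
    kp, kq]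
  norm_cast
  ring

end Arc

variable {M : PlaneModel ℂ F}

private theorem analyticAt_polynomial_eval (q : ℂ[X]) (z : ℂ) :
    AnalyticAt ℂ (fun s => q.eval s) z := by
  simpa using (analyticAt_id (𝕜 := ℂ) (z := z)).aeval_polynomial q

/-- The unique places over the points of an arc. -/
private theorem exists_places_along (Q : Place ℂ F) {φ : ℂ → ℂ} {r : ℝ}
    (hA : ∀ s ∈ ball (0 : ℂ) r, ∃ A : Arc M, A.φ = φ ∧ A.a = s) :
    ∃ σ : ℂ → Place ℂ F, (∀ s ∈ ball (0 : ℂ) r, M.t ∈ (σ s).toValuationSubring ∧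
        M.y ∈ (σ s).toValuationSubring ∧ val (σ s) M.t = s ∧ val (σ s) M.y = φ s) ∧
      ∀ s ∈ ball (0 : ℂ) r, ∀ P : Place ℂ F, M.t ∈ P.toValuationSubring →
        M.y ∈ P.toValuationSubring → val P M.t = s → val P M.y = φ s → P = σ s := by
  classical
  refine ⟨fun s => if h : s ∈ ball (0 : ℂ) r then (hA s h).choose.existsUnique_place.choose else Q,
    fun s hs => ?_, fun s hs P h1 h2 h3 h4 => ?_⟩
  · simp only [dif_pos hs]
    obtain ⟨hAφ, hAa⟩ := (hA s hs).choose_spec
    have h := (hA s hs).choose.existsUnique_place.choose_spec.1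
    exact ⟨h.1, h.2.1, h.2.2.1.trans hAa,
      h.2.2.2.trans ((congrFun hAφ _).trans (congrArg φ hAa))⟩
  · simp only [dif_pos hs]
    obtain ⟨hAφ, hAa⟩ := (hA s hs).choose_spec
    exact (hA s hs).choose.existsUnique_place.choose_spec.2 P
      ⟨h1, h2, h3.trans hAa.symm, by rw [h4, hAa, hAφ]⟩

omit [IsFunctionField ℂ F] in
/-- A quotient is regular, with the expected value, where its denominator does not vanish. -/
private theorem mem_and_val_of_mul_eq (P : Place ℂ F) (ht : M.t ∈ P.toValuationSubring)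
    (hy : M.y ∈ P.toValuationSubring) {f : F} {p : ℂ[X][Y]} {q : ℂ[X]}
    (hpq : f * aeval M.t q = aevalAeval M.t M.y p) (hqs : q.eval (val P M.t) ≠ 0) :
    f ∈ P.toValuationSubring ∧
      val P f = p.evalEval (val P M.t) (val P M.y) / q.eval (val P M.t) := by
  obtain ⟨hq1, hq2⟩ := val_aeval ht q
  obtain ⟨hp1, hp2⟩ := aevalAeval_mem ht hy p
  have hq0 : aeval M.t q ≠ 0 := fun e => hqs (by rw [← hq2, e, val_zero])
  obtain ⟨hi1, hi2⟩ := val_inv hq1 (by rw [hq2]; exact hqs)
  have hf : f = aevalAeval M.t M.y p * (aeval M.t q)⁻¹ := by rw [← hpq]; field_simp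
  rw [hf]
  exact ⟨mul_mem hp1 hi1, by rw [val_mul hp1 hi1, hp2, hi2, hq2]; ring⟩

omit [IsFunctionField ℂ F] in
/-- Near `σ s` a place is determined by the values of `t` and `y`. -/
private theorem exists_nbhd_of_unique {σ : ℂ → Place ℂ F} {φ : ℂ → ℂ} {r δ : ℝ} {b : ℂ}
    (huniq : ∀ s ∈ ball (0 : ℂ) r, ∀ P : Place ℂ F, M.t ∈ P.toValuationSubring →
      M.y ∈ P.toValuationSubring → val P M.t = s → val P M.y = φ s → P = σ s)
    (hroot : ∀ v ∈ ball (0 : ℂ) r, ∀ y ∈ ball b δ, M.chi.evalEval v y = 0 → y = φ v)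
    {s : ℂ} (hs : s ∈ ball (0 : ℂ) r) (hb : φ s ∈ ball b δ)
    (h2 : M.y ∈ (σ s).toValuationSubring) (h4 : val (σ s) M.y = φ s) :
    ∃ g : F, g ∈ (σ s).toValuationSubring ∧ ∃ δ' > (0 : ℝ),
      ∀ P : Place ℂ F, M.t ∈ P.toValuationSubring → g ∈ P.toValuationSubring →
        ‖val P M.t - s‖ < δ' → ‖val P g - val (σ s) g‖ < δ' → P = σ (val P M.t) := by
  rw [mem_ball] at hs hb
  refine ⟨M.y, h2, min (r - dist s 0) (δ - dist (φ s) b), lt_min (by linarith) (by linarith),
    fun P hP1 hP2 hP3 hP4 => ?_⟩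
  rw [h4] at hP4
  rw [← dist_eq_norm] at hP3 hP4
  have hball : val P M.t ∈ ball (0 : ℂ) r := by
    rw [mem_ball]
    calc dist (val P M.t) 0 ≤ dist (val P M.t) s + dist s 0 := dist_triangle _ _ _
      _ < r := by linarith [lt_of_lt_of_le hP3 (min_le_left _ _)]
  have hyball : val P M.y ∈ ball b δ := by
    rw [mem_ball]
    calc dist (val P M.y) b ≤ dist (val P M.y) (φ s) + dist (φ s) b := dist_triangle _ _ _
      _ < δ := by linarith [lt_of_lt_of_le hP4 (min_le_right _ _)]
  have hzero : M.chi.evalEval (val P M.t) (val P M.y) = 0 := by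
    rw [← (aevalAeval_mem hP1 hP2 M.chi).2, M.root, val_zero]
  exact huniq _ hball P hP1 hP2 rfl (hroot _ hball _ hyball hzero)

omit [IsCurveOver ℂ F] [IsFunctionField ℂ F] in
/-- Differentiating `χ(t, y) = 0`. -/
private theorem D_y_eq_smul_D_t (hB : aevalAeval M.t M.y (derivative M.chi) ≠ 0) :
    KaehlerDifferential.D ℂ F M.y =
      (-aevalAeval M.t M.y (dX M.chi) / aevalAeval M.t M.y (derivative M.chi)) •
        KaehlerDifferential.D ℂ F M.t := by
  have h := D_aevalAeval M.t M.y M.chi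
  rw [M.root, map_zero, eq_comm, add_comm, add_eq_zero_iff_eq_neg, ← neg_smul] at h
  rw [div_eq_inv_mul, ← smul_smul, ← h, smul_smul, inv_mul_cancel₀ hB, one_smul]

omit [IsCurveOver ℂ F] [IsFunctionField ℂ F] in
/-- The differential of a quotient, if `dy = w • dt`. -/
private theorem D_eq_smul_of_mul_eq {w : F}
    (hDy : KaehlerDifferential.D ℂ F M.y = w • KaehlerDifferential.D ℂ F M.t)
    {g : F} {p : ℂ[X][Y]} {q : ℂ[X]} (hq : q ≠ 0)
    (hpq : g * aeval M.t q = aevalAeval M.t M.y p) :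
    KaehlerDifferential.D ℂ F g = ((aevalAeval M.t M.y (dX p)
      + aevalAeval M.t M.y (derivative p) * w - g * aeval M.t (derivative q))
        / aeval M.t q) • KaehlerDifferential.D ℂ F M.t := by
  have hq0 := aeval_ne_zero_of_transcendental M.transc hq
  have h := congrArg (KaehlerDifferential.D ℂ F) hpq
  rw [Derivation.leibniz, Derivation.map_aeval, D_aevalAeval, hDy] at h
  have h' : aeval M.t q • KaehlerDifferential.D ℂ F g = (aevalAeval M.t M.y (dX p)
      + aevalAeval M.t M.y (derivative p) * w - g * aeval M.t (derivative q)) •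
        KaehlerDifferential.D ℂ F M.t := by
    rw [sub_smul, add_smul, mul_smul, mul_smul, eq_sub_iff_add_eq, add_comm]
    exact h
  rw [div_eq_inv_mul, ← smul_smul, ← h', smul_smul, inv_mul_cancel₀ hq0, one_smul]

omit [IsFunctionField ℂ F] in
/-- If `dy` is a multiple of `dt` then `dt` is not zero. -/
private theorem D_t_ne_zero {w : F}
    (hDy : KaehlerDifferential.D ℂ F M.y = w • KaehlerDifferential.D ℂ F M.t) :
    KaehlerDifferential.D ℂ F M.t ≠ 0 := by
  intro h
  have hall : ∀ g : F, KaehlerDifferential.D ℂ F g = 0 := fun g => by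
    obtain ⟨p, q, hq, hpq⟩ := M.gen g
    rw [D_eq_smul_of_mul_eq hDy hq hpq, h, smul_zero]
  have htop : (⊤ : Submodule F (Ω[F⁄ℂ])) = ⊥ := by
    rw [← KaehlerDifferential.span_range_derivation, Submodule.span_eq_bot]
    rintro _ ⟨g, rfl⟩
    exact hall g
  exact not_subsingleton (Ω[F⁄ℂ])
    ((Submodule.subsingleton_iff F).mp (subsingleton_of_bot_eq_top htop.symm))

omit [IsFunctionField ℂ F] in
/-- The value of `dy / dt` at a simple point is the slope of the arc. -/
private theorem mem_and_val_slope (P : Place ℂ F) (h1 : M.t ∈ P.toValuationSubring)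
    (h2 : M.y ∈ P.toValuationSubring) {φ : ℂ → ℂ} {s : ℂ} (h3 : val P M.t = s)
    (h4 : val P M.y = φ s) (hne : (derivative M.chi).evalEval s (φ s) ≠ 0) {d : ℂ}
    (hd : HasDerivAt φ d s) (hroot : ∀ᶠ v in 𝓝 s, M.chi.evalEval v (φ v) = 0) :
    -aevalAeval M.t M.y (dX M.chi) / aevalAeval M.t M.y (derivative M.chi) ∈
        P.toValuationSubring ∧
      val P (-aevalAeval M.t M.y (dX M.chi) / aevalAeval M.t M.y (derivative M.chi)) = d := by
  have hχ' : (dX M.chi).evalEval s (φ s) + (derivative M.chi).evalEval s (φ s) * d = 0 :=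
    (hasDerivAt_evalEval M.chi hd).unique
        ((hasDerivAt_const s (0 : ℂ)).congr_of_eventuallyEq hroot)
  obtain ⟨b1, b2⟩ := aevalAeval_mem h1 h2 (derivative M.chi)
  obtain ⟨a1, a2⟩ := aevalAeval_mem h1 h2 (dX M.chi)
  rw [h3, h4] at a2 b2
  obtain ⟨i1, i2⟩ := val_inv b1 (by rw [b2]; exact hne)
  rw [div_eq_mul_inv]
  refine ⟨mul_mem (neg_mem a1) i1, ?_⟩
  rw [val_mul (neg_mem a1) i1, val_neg a1, a2, i2, b2]
  field_simp
  linear_combination -hχ'

omit [IsFunctionField ℂ F] in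
/-- The derivative along the arc is the value of the derivative with respect to `t`. -/
private theorem deriv_div_eq_val (P : Place ℂ F) (h1 : M.t ∈ P.toValuationSubring)
    (h2 : M.y ∈ P.toValuationSubring) {φ : ℂ → ℂ} {s : ℂ} (h3 : val P M.t = s)
    (h4 : val P M.y = φ s) {d : ℂ} (hd : HasDerivAt φ d s) {w : F}
    (hwv : w ∈ P.toValuationSubring ∧ val P w = d) {g : F} {p : ℂ[X][Y]} {q : ℂ[X]}
    (hqs : q.eval s ≠ 0) (hpq : g * aeval M.t q = aevalAeval M.t M.y p) :
    deriv (fun u => p.evalEval u (φ u) / q.eval u) s = val P ((aevalAeval M.t M.y (dX p)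
      + aevalAeval M.t M.y (derivative p) * w - g * aeval M.t (derivative q))
        / aeval M.t q) := by
  rw [((hasDerivAt_evalEval p hd).fun_div (q.hasDerivAt s) hqs).deriv]
  obtain ⟨g1, g2⟩ := mem_and_val_of_mul_eq P h1 h2 hpq (by rwa [h3])
  obtain ⟨dp1, dp2⟩ := aevalAeval_mem h1 h2 (dX p)
  obtain ⟨pp1, pp2⟩ := aevalAeval_mem h1 h2 (derivative p)
  obtain ⟨qq1, qq2⟩ := val_aeval h1 (derivative q)
  obtain ⟨q1, q2⟩ := val_aeval h1 q
  rw [h3, h4] at dp2 pp2 g2
  rw [h3] at qq2 q2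
  obtain ⟨qi1, qi2⟩ := val_inv q1 (by rw [q2]; exact hqs)
  rw [div_eq_mul_inv (aevalAeval M.t M.y (dX p) + _ - _),
    val_mul (sub_mem (add_mem dp1 (mul_mem pp1 hwv.1)) (mul_mem g1 qq1)) qi1,
    val_sub (add_mem dp1 (mul_mem pp1 hwv.1)) (mul_mem g1 qq1),
    val_add dp1 (mul_mem pp1 hwv.1), val_mul pp1 hwv.1, val_mul g1 qq1, dp2, pp2, hwv.2, g2,
    qq2, qi2, q2]
  field_simp

theorem exists_chart (Q : Place ℂ F) : ∃ C : Chart F, C.σ 0 = Q := by
  obtain ⟨M, b, htQ, hvtQ, hyQ, hvyQ, hsimple⟩ := exists_planeModel Q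
  have h0 : M.chi.evalEval 0 b = 0 := by
    have := (aevalAeval_mem htQ hyQ M.chi).2
    rw [M.root, val_zero, hvtQ, hvyQ] at this
    exact this.symm
  obtain ⟨r, hr, δ, hδ, φ, hφ0, harc⟩ := exists_arc h0 hsimple
  have hφan : ∀ s ∈ ball (0 : ℂ) r, AnalyticAt ℂ φ s := fun s hs => (harc s hs).2.2.2.1
  have hroot : ∀ s ∈ ball (0 : ℂ) r, ∀ᶠ v in 𝓝 s, M.chi.evalEval v (φ v) = 0 := fun s hs => by
    filter_upwards [isOpen_ball.mem_nhds hs] with v hv using (harc v hv).2.1
  have hA : ∀ s ∈ ball (0 : ℂ) r, ∃ A : Arc M, A.φ = φ ∧ A.a = s := fun s hs =>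
    ⟨⟨φ, s, hroot s hs, (harc s hs).2.2.1, hφan s hs⟩, rfl, rfl⟩
  obtain ⟨σ, hσ, huniq⟩ := exists_places_along Q hA
  have hσ0 : σ 0 = Q :=
    (huniq 0 (mem_ball_self hr) Q htQ hyQ hvtQ (by rw [hvyQ, hφ0])).symm
  have hrepr : ∀ (f : F) (p : ℂ[X][Y]) (q : ℂ[X]), f * aeval M.t q = aevalAeval M.t M.y p →
      ∀ s ∈ ball (0 : ℂ) r, q.eval s ≠ 0 → val (σ s) f = p.evalEval s (φ s) / q.eval s := by
    intro f p q hpq s hs hqs
    obtain ⟨h1, h2, h3, h4⟩ := hσ s hs
    have := (mem_and_val_of_mul_eq (σ s) h1 h2 hpq (by rwa [h3])).2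
    rwa [h3, h4] at this
  have hev : ∀ (f : F) (p : ℂ[X][Y]) (q : ℂ[X]), q ≠ 0 → f * aeval M.t q = aevalAeval M.t M.y p →
      ∀ z ∈ ball (0 : ℂ) r,
        ∀ᶠ s in 𝓝[≠] z, val (σ s) f = p.evalEval s (φ s) / q.eval s := by
    intro f p q hq hpq z hz
    filter_upwards [eventually_eval_ne_zero hq z,
      nhdsWithin_le_nhds (isOpen_ball.mem_nhds hz)] with s hs hsb
    exact hrepr f p q hpq s hsb hs
  have hmero : ∀ f : F, MeromorphicOn (fun s => val (σ s) f) (ball 0 r) := by
    intro f z hz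
    obtain ⟨p, q, hq, hpq⟩ := M.gen f
    exact ((analyticAt_evalEval p (hφan z hz)).meromorphicAt.div
      (analyticAt_polynomial_eval q z).meromorphicAt).congr
      (Filter.EventuallyEq.symm (hev f p q hq hpq z hz))
  have horder : ∀ f : F, f ≠ 0 → ∀ s ∈ ball (0 : ℂ) r,
      meromorphicOrderAt (fun z => val (σ z) f) s = ((σ s).ord f : ℤ) := by
    intro f hf s hs
    obtain ⟨p, q, hq, hpq⟩ := M.gen f
    rw [meromorphicOrderAt_congr (hev f p q hq hpq s hs)]
    obtain ⟨A, rfl, rfl⟩ := hA s hs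
    obtain ⟨h1, h2, h3, h4⟩ := hσ A.a hs
    exact A.meromorphicOrderAt_div_eq_ord _ h1 h2 h3 h4 hf hq hpq
  have hnbhd : ∀ s ∈ ball (0 : ℂ) r, ∃ g : F, g ∈ (σ s).toValuationSubring ∧ ∃ δ' > (0 : ℝ),
      ∀ P : Place ℂ F, M.t ∈ P.toValuationSubring → g ∈ P.toValuationSubring →
        ‖val P M.t - s‖ < δ' → ‖val P g - val (σ s) g‖ < δ' → P = σ (val P M.t) := fun s hs =>
    exists_nbhd_of_unique huniq (fun v hv => (harc v hv).2.2.2.2) hs (harc s hs).1
      (hσ s hs).2.1 (hσ s hs).2.2.2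
  -- differentials
  have hB : aevalAeval M.t M.y (derivative M.chi) ≠ 0 := fun e => by
    have h := (aevalAeval_mem htQ hyQ (derivative M.chi)).2
    rw [e, val_zero, hvtQ, hvyQ] at h
    exact hsimple h.symm
  have hDy := D_y_eq_smul_D_t hB
  have hderiv : ∀ g c : F, KaehlerDifferential.D ℂ F g = c • KaehlerDifferential.D ℂ F M.t →
      ∀ z ∈ ball (0 : ℂ) r,
        ∀ᶠ s in 𝓝[≠] z, deriv (fun u => val (σ u) g) s = val (σ s) c := by
    intro g c hgc z hz
    obtain ⟨p, q, hq, hpq⟩ := M.gen g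
    have hc := smul_left_injective F (D_t_ne_zero hDy)
      (hgc.symm.trans (D_eq_smul_of_mul_eq hDy hq hpq))
    filter_upwards [eventually_eval_ne_zero hq z,
      nhdsWithin_le_nhds (isOpen_ball.mem_nhds hz)] with s hs hsb
    obtain ⟨h1, h2, h3, h4⟩ := hσ s hsb
    have hnear : (fun u => val (σ u) g) =ᶠ[𝓝 s] fun u => p.evalEval u (φ u) / q.eval u := by
      filter_upwards [(analyticAt_polynomial_eval q s).continuousAt.eventually_ne hs,
        isOpen_ball.mem_nhds hsb] with u hu1 hu2 using hrepr g p q hpq u hu2 hu1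
    have hd := (hφan s hsb).differentiableAt.hasDerivAt
    rw [hnear.deriv_eq, hc]
    exact deriv_div_eq_val (σ s) h1 h2 h3 h4 hd
      (mem_and_val_slope (σ s) h1 h2 h3 h4 (harc s hsb).2.2.1 hd (hroot s hsb)) hs hpq
  exact ⟨⟨M.t, σ, r, hr, fun s hs => ⟨(hσ s hs).1, (hσ s hs).2.2.1⟩, hmero, horder, hnbhd,
    D_t_ne_zero hDy, hderiv⟩, hσ0⟩

/-- A chosen chart centred at a place. -/
def chartAtPlace (Q : Place ℂ F) : Chart F := (exists_chart Q).choose

theorem chartAtPlace_center (Q : Place ℂ F) : (chartAtPlace Q).σ 0 = Q :=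
  (exists_chart Q).choose_spec

end FLTAgent.Jacobian
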