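import Fermat.Agent.Jacobian.ResidueSum

/-!
# The local normal form `z ↦ z ^ e`

An analytic function with a zero of order `e` is `s ↦ s ^ e` in suitable coordinates
(`exists_normalForm`). The sum `rootSum` over the `e`-th roots is meromorphic, with the expected
residue (`rootSum_meromorphic`).
-/

set_option autoImplicit false

noncomputable section

open Filter Topology Metric Real Complex Function

namespace FLTAgent.Jacobian

/-- An analytic function with a zero of order `e ≥ 1` is `s ↦ s ^ e` in suitable coordinates. -/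
theorem exists_normalForm {f : ℂ → ℂ} {e : ℕ} (he : e ≠ 0) (hf : AnalyticAt ℂ f 0)
    (hord : analyticOrderAt f 0 = e) :
    ∃ ψ : ℂ → ℂ, AnalyticAt ℂ ψ 0 ∧ ψ 0 = 0 ∧ deriv ψ 0 ≠ 0 ∧ ∀ᶠ s in 𝓝 0, f (ψ s) = s ^ e := by
  obtain ⟨g, hg, hg0, heq⟩ := hf.analyticOrderAt_eq_natCast.mp hord
  simp only [sub_zero, smul_eq_mul] at heq
  set c : ℂ := g 0 ^ ((e : ℂ)⁻¹) with hc
  have hce : c ^ e = g 0 := Complex.cpow_nat_inv_pow _ he
  have hc0 : c ≠ 0 := fun h => hg0 (by rw [← hce, h, zero_pow he])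
  set φ : ℂ → ℂ := fun z => z * (c * (g z / g 0) ^ ((e : ℂ)⁻¹)) with hφ
  have hroot : AnalyticAt ℂ (fun z => c * (g z / g 0) ^ ((e : ℂ)⁻¹)) 0 := by
    refine analyticAt_const.mul ((hg.div analyticAt_const hg0).cpow analyticAt_const ?_)
    show g 0 / g 0 ∈ slitPlane
    rw [div_self hg0]
    exact one_mem_slitPlane
  have hφan : AnalyticAt ℂ φ 0 := analyticAt_id.mul hroot
  have hφd : HasDerivAt φ c 0 := by
    have := (hasDerivAt_id (0 : ℂ)).mul hroot.differentiableAt.hasDerivAt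
    simpa [φ, div_self hg0, id, Pi.mul_def] using this
  have hφ' : deriv φ 0 ≠ 0 := by rw [hφd.deriv]; exact hc0
  have hφe : ∀ᶠ z in 𝓝 0, φ z ^ e = f z := by
    filter_upwards [heq] with z hz
    simp only [φ]
    rw [hz, mul_pow, mul_pow, Complex.cpow_nat_inv_pow (g z / g 0) he, hce]
    field_simp
  set ψ := hφan.hasStrictDerivAt.localInverse φ (deriv φ 0) 0 hφ' with hψdef
  have hφ0 : φ 0 = 0 := by simp [φ]
  have hψ : AnalyticAt ℂ ψ 0 := by
    have := hφan.analyticAt_localInverse hφ'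
    rwa [hφ0] at this
  have hψ0 : ψ 0 = 0 := by
    have := HasStrictFDerivAt.localInverse_apply_image
      (hφan.hasStrictDerivAt.hasStrictFDerivAt_equiv hφ')
    rw [hψdef]
    conv_lhs => arg 6; rw [← hφ0]
    exact this
  have hright : ∀ᶠ s in 𝓝 0, φ (ψ s) = s := by
    have := HasStrictDerivAt.eventually_right_inverse hφan.hasStrictDerivAt hφ'
    rwa [hφ0] at this
  refine ⟨ψ, hψ, hψ0, ?_, ?_⟩
  · intro hd
    have hcomp : HasDerivAt (fun s => φ (ψ s)) (deriv φ 0 * deriv ψ 0) 0 :=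
      HasDerivAt.comp (h₂ := φ) 0 (by rw [hψ0]; exact hφan.differentiableAt.hasDerivAt)
        hψ.differentiableAt.hasDerivAt
    rw [hd, mul_zero] at hcomp
    exact one_ne_zero ((hcomp.congr_of_eventuallyEq
      (hright.mono fun s hs => hs.symm)).unique (hasDerivAt_id 0)).symm
  · have ht : Tendsto ψ (𝓝 0) (𝓝 0) := by
      simpa [hψ0] using hψ.continuousAt.tendsto
    filter_upwards [hright, ht.eventually hφe] with s hs hs'
    rw [← hs', hs]

/-- The primitive `e`-th root of unity `exp (2πi/e)`. -/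
def rootOne (e : ℕ) : ℂ := exp (2 * π * I / e)

theorem isPrimitiveRoot_rootOne {e : ℕ} (he : e ≠ 0) : IsPrimitiveRoot (rootOne e) e :=
  Complex.isPrimitiveRoot_exp e he

/-- Sum of `h` over all `e`-th roots of `δ`. -/
def rootSum (h : ℂ → ℂ) (e : ℕ) (δ : ℂ) : ℂ :=
  ∑ i ∈ Finset.range e, h (rootOne e ^ i * δ ^ ((e : ℂ)⁻¹))

theorem rootSum_eq {h : ℂ → ℂ} {e : ℕ} (he : e ≠ 0) {s δ : ℂ} (hs : s ^ e = δ) :
    rootSum h e δ = ∑ i ∈ Finset.range e, h (rootOne e ^ i * s) := by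
  have h1 := (isPrimitiveRoot_rootOne he).nthRoots_eq hs
  have h2 := (isPrimitiveRoot_rootOne he).nthRoots_eq (Complex.cpow_nat_inv_pow δ he)
  have hm := congrArg (fun M => (Multiset.map h M).sum) (h2.symm.trans h1)
  simp only [Multiset.map_map] at hm
  simpa [rootSum, Finset.sum_eq_multiset_sum, Finset.range_val] using hm

theorem rootOne_pow_pow {e : ℕ} (he : e ≠ 0) (i : ℕ) : (rootOne e ^ i) ^ e = 1 := by
  rw [← pow_mul, mul_comm, pow_mul, (isPrimitiveRoot_rootOne he).pow_eq_one, one_pow]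

theorem rootOne_ne_zero (e : ℕ) : rootOne e ≠ 0 := exp_ne_zero _

theorem differentiableAt_rootSum {h : ℂ → ℂ} {e : ℕ} (he : e ≠ 0) {δ₀ : ℂ} (hδ₀ : δ₀ ≠ 0)
    (hh : ∀ s : ℂ, s ^ e = δ₀ → DifferentiableAt ℂ h s) :
    DifferentiableAt ℂ (rootSum h e) δ₀ := by
  set s₀ := δ₀ ^ ((e : ℂ)⁻¹)
  have hs₀ : s₀ ^ e = δ₀ := Complex.cpow_nat_inv_pow δ₀ he
  set br : ℂ → ℂ := fun δ => s₀ * (δ / δ₀) ^ ((e : ℂ)⁻¹) with hbr
  have hbrd : DifferentiableAt ℂ br δ₀ :=
    (differentiableAt_const s₀).mul (DifferentiableAt.cpow (differentiableAt_id.div_const δ₀)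
      (differentiableAt_const _) (by simp only [div_self hδ₀]; exact one_mem_slitPlane))
  have hbre : ∀ δ, br δ ^ e = δ := fun δ => by
    rw [hbr, mul_pow, hs₀, Complex.cpow_nat_inv_pow _ he]; field_simp
  rw [show rootSum h e = fun δ => ∑ i ∈ Finset.range e, h (rootOne e ^ i * br δ) from
    funext fun δ => rootSum_eq he (hbre δ)]
  refine DifferentiableAt.fun_sum fun i _ => ?_
  refine DifferentiableAt.fun_comp' δ₀ (hh _ ?_) ((differentiableAt_const _).mul hbrd)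
  rw [mul_pow, rootOne_pow_pow he, one_mul, hbre]

theorem norm_root_lt {e : ℕ} {s δ : ℂ} {ρ : ℝ} (hρ : 0 ≤ ρ) (hs : s ^ e = δ)
    (hδ : ‖δ‖ < ρ ^ e) : ‖s‖ < ρ := by
  subst hs
  rw [norm_pow] at hδ
  exact lt_of_pow_lt_pow_left₀ e hρ hδ

theorem sum_rootOne_pow {e : ℕ} (he : e ≠ 0) (k : ℕ) :
    ∑ i ∈ Finset.range e, ((rootOne e ^ i)⁻¹) ^ k = if e ∣ k then (e : ℂ) else 0 := by
  have hz := (isPrimitiveRoot_rootOne he).inv
  have hrw : ∀ i : ℕ, ((rootOne e ^ i)⁻¹) ^ k = (((rootOne e)⁻¹) ^ k) ^ i := fun i => by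
    rw [← inv_pow, ← pow_mul, ← pow_mul, mul_comm]
  simp only [hrw]
  split_ifs with hk
  · rw [(hz.pow_eq_one_iff_dvd k).mpr hk]; simp
  · have h1 : ((rootOne e)⁻¹) ^ k ≠ 1 := fun h => hk ((hz.pow_eq_one_iff_dvd k).mp h)
    rw [geom_sum_eq h1, ← pow_mul, mul_comm k e, pow_mul, hz.pow_eq_one, one_pow, sub_self,
      zero_div]

theorem rootSum_inv_pow {e : ℕ} (he : e ≠ 0) (k : ℕ) (δ : ℂ) :
    rootSum (fun s => (s⁻¹) ^ k) e δ = if e ∣ k then (e : ℂ) * (δ⁻¹) ^ (k / e) else 0 := by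
  have hs₀ : (δ ^ ((e : ℂ)⁻¹)) ^ e = δ := Complex.cpow_nat_inv_pow δ he
  simp only [rootSum, mul_inv, mul_pow, ← Finset.sum_mul, sum_rootOne_pow he k]
  split_ifs with hk
  · obtain ⟨j, rfl⟩ := hk
    rw [Nat.mul_div_cancel_left j (Nat.pos_of_ne_zero he), pow_mul, inv_pow, hs₀]
  · rw [zero_mul]

theorem resAt_const_mul_inv_sub_pow (a w : ℂ) (k : ℕ) :
    resAt (fun s => a * ((s - w)⁻¹) ^ (k + 1)) w = if k = 0 then a else 0 := by
  have hm : MeromorphicAt (fun s => ((s - w)⁻¹) ^ (k + 1)) w :=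
    ((MeromorphicAt.id w).sub (MeromorphicAt.const w w)).inv.pow _
  rw [resAt_const_mul a hm, resAt_inv_sub_pow]
  split_ifs <;> simp

/-- The root sum of a meromorphic function is meromorphic, with the expected residue. -/
theorem rootSum_meromorphic {h : ℂ → ℂ} {e : ℕ} (he : e ≠ 0) (hh : MeromorphicAt h 0) :
    MeromorphicAt (rootSum h e) 0 ∧
      resAt (rootSum h e) 0 = resAt (fun s => h s * ((e : ℂ) * s ^ (e - 1))) 0 := by
  obtain ⟨N, c, g, hg, heq⟩ := exists_principalPart hh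
  obtain ⟨ρ, hρ, hρ'⟩ := Metric.eventually_nhds_iff.mp
    ((eventually_nhdsWithin_iff.mp heq).and hg.eventually_analyticAt)
  set M := rootSum g e with hM
  have hρe : (0 : ℝ) < ρ ^ e := pow_pos hρ e
  obtain ⟨B, hB⟩ := (isCompact_closedBall (0 : ℂ) (ρ / 2)).exists_bound_of_continuousOn (f := g)
    (fun s hs => (hρ' (lt_of_le_of_lt (mem_closedBall.mp hs)
        (half_lt_self hρ))).2.continuousAt.continuousWithinAt)
  have hρ2 : (0 : ℝ) < (ρ / 2) ^ e := pow_pos (half_pos hρ) e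
  have hMd : DifferentiableOn ℂ M (ball 0 ((ρ / 2) ^ e) \ {0}) := fun δ hδ => by
    refine (differentiableAt_rootSum he (fun h0 => hδ.2 h0) fun s hs => ?_).differentiableWithinAt
    refine (hρ' ?_).2.differentiableAt
    rw [dist_zero_right]
    exact (norm_root_lt (half_pos hρ).le hs (mem_ball_zero_iff.mp hδ.1)).trans (half_lt_self hρ)
  have hMb : BddAbove (norm ∘ M '' (ball 0 ((ρ / 2) ^ e) \ {0})) := by
    refine ⟨(e : ℝ) * B, ?_⟩
    rintro _ ⟨δ, hδ, rfl⟩
    refine (norm_sum_le _ _).trans ((Finset.sum_le_card_nsmul _ _ B fun i _ => ?_).trans ?_)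
    · refine hB _ ?_
      rw [mem_closedBall_zero_iff, norm_mul,
        Complex.norm_eq_one_of_pow_eq_one (rootOne_pow_pow he i) he,
        one_mul]
      exact (norm_root_lt (half_pos hρ).le (Complex.cpow_nat_inv_pow δ he)
        (mem_ball_zero_iff.mp hδ.1)).le
    · simp
  set M' := update M 0 (limUnder (𝓝[≠] (0 : ℂ)) M)
  have hM' : AnalyticAt ℂ M' 0 :=
    (Complex.differentiableOn_update_limUnder_of_bddAbove (ball_mem_nhds _ hρ2) hMd hMb).analyticAt
      (ball_mem_nhds _ hρ2)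
  have hMM' : M =ᶠ[𝓝[≠] 0] M' := by
    filter_upwards [self_mem_nhdsWithin] with δ hδ
    simp [M', update_of_ne (Set.mem_compl_singleton_iff.mp hδ)]
  set T : ℕ → ℂ → ℂ := fun k δ => rootSum (fun s => c k * (s⁻¹) ^ (k + 1)) e δ with hT
  have hT' : ∀ k δ, T k δ = c k * (if e ∣ k + 1 then (e : ℂ) * (δ⁻¹) ^ ((k + 1) / e) else 0) :=
    fun k δ => by rw [← rootSum_inv_pow he (k + 1) δ]; simp [T, rootSum, Finset.mul_sum]
  have hTm : ∀ k, MeromorphicAt (T k) 0 := fun k => by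
    rw [show T k = _ from funext (hT' k)]
    refine (MeromorphicAt.const _ 0).mul ?_
    split_ifs
    · exact (MeromorphicAt.const _ 0).mul ((MeromorphicAt.id 0).inv.pow _)
    · exact MeromorphicAt.const _ 0
  have hdec : rootSum h e =ᶠ[𝓝[≠] 0] fun δ => M' δ + ∑ k ∈ Finset.range N, T k δ := by
    filter_upwards [self_mem_nhdsWithin, nhdsWithin_le_nhds (ball_mem_nhds (0 : ℂ) hρe), hMM']
      with δ hδ hδρ hδM
    have hpt : ∀ i ∈ Finset.range e, h (rootOne e ^ i * δ ^ ((e : ℂ)⁻¹))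
        = g (rootOne e ^ i * δ ^ ((e : ℂ)⁻¹))
          + polarPart 0 c N (rootOne e ^ i * δ ^ ((e : ℂ)⁻¹)) := fun i _ => by
      refine (hρ' ?_).1 ?_
      · rw [dist_zero_right, norm_mul, Complex.norm_eq_one_of_pow_eq_one (rootOne_pow_pow he i) he,
          one_mul]
        exact norm_root_lt hρ.le (Complex.cpow_nat_inv_pow δ he) (mem_ball_zero_iff.mp hδρ)
      · refine mul_ne_zero (pow_ne_zero _ (rootOne_ne_zero e)) fun h0 => hδ ?_
        rw [Set.mem_singleton_iff, ← Complex.cpow_nat_inv_pow δ he, h0, zero_pow he]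
    show rootSum h e δ = _
    rw [← hδM]
    simp only [rootSum, hM, hT]
    rw [Finset.sum_congr rfl hpt, Finset.sum_add_distrib]
    simp only [polarPart, sub_zero]
    rw [Finset.sum_comm]
  have hSm : MeromorphicAt (fun δ => ∑ k ∈ Finset.range N, T k δ) 0 :=
    MeromorphicAt.fun_sum fun k _ => hTm k
  refine ⟨(hM'.meromorphicAt.add hSm).congr hdec.symm, ?_⟩
  have hem : AnalyticAt ℂ (fun s => (e : ℂ) * s ^ (e - 1)) 0 :=
    analyticAt_const.mul (analyticAt_id.pow _)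
  set U : ℕ → ℂ → ℂ := fun k s => c k * (s⁻¹) ^ (k + 1) * ((e : ℂ) * s ^ (e - 1))
  have hUm : ∀ k, MeromorphicAt (U k) 0 := fun k =>
    ((MeromorphicAt.const _ 0).mul ((MeromorphicAt.id 0).inv.pow _)).mul hem.meromorphicAt
  have hdecR : (fun s => h s * ((e : ℂ) * s ^ (e - 1))) =ᶠ[𝓝[≠] 0]
      fun s => g s * ((e : ℂ) * s ^ (e - 1)) + ∑ k ∈ Finset.range N, U k s := by
    filter_upwards [heq] with s hs
    simp [hs, polarPart, U, add_mul, Finset.sum_mul]
  have hgem : AnalyticAt ℂ (fun s => g s * ((e : ℂ) * s ^ (e - 1))) 0 := hg.mul hem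
  rw [resAt_congr hdec, resAt_add hM'.meromorphicAt hSm, resAt_of_analyticAt hM', resAt_congr hdecR,
    resAt_add hgem.meromorphicAt (MeromorphicAt.fun_sum fun k _ => hUm k),
    resAt_of_analyticAt hgem, resAt_sum _ fun k _ => hTm k, resAt_sum _ fun k _ => hUm k]
  congr 1
  refine Finset.sum_congr rfl fun k _ => ?_
  have hrhs : resAt (U k) 0 = if k + 1 = e then c k * (e : ℂ) else 0 := by
    rcases lt_or_ge k (e - 1) with hlt | hge
    · rw [if_neg (by omega)]
      have : U k =ᶠ[𝓝[≠] 0] fun s => c k * (e : ℂ) * s ^ (e - 1 - (k + 1)) := by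
        filter_upwards [self_mem_nhdsWithin] with s hs
        obtain ⟨d, hd⟩ : ∃ d, e - 1 = (k + 1) + d := ⟨e - 1 - (k + 1), by omega⟩
        have hs0 : s ≠ 0 := hs
        simp only [U, hd, Nat.add_sub_cancel_left, pow_add, inv_pow]
        field_simp
      rw [resAt_congr this]
      exact resAt_of_analyticAt (analyticAt_const.mul (analyticAt_id.pow _))
    · obtain ⟨d, rfl⟩ : ∃ d, k = (e - 1) + d := ⟨k - (e - 1), by omega⟩
      have : U (e - 1 + d) =ᶠ[𝓝[≠] 0] fun s => c (e - 1 + d) * (e : ℂ) * ((s - 0)⁻¹) ^ (d + 1) := by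
        filter_upwards [self_mem_nhdsWithin] with s hs
        have hs0 : s ≠ 0 := hs
        simp only [U, sub_zero, pow_add, inv_pow, pow_one]
        field_simp
      rw [resAt_congr this, resAt_const_mul_inv_sub_pow]
      rcases eq_or_ne d 0 with rfl | hd
      · rw [if_pos rfl, if_pos (by omega)]
      · rw [if_neg hd, if_neg (by omega)]
  rw [hrhs, show T k = _ from funext (hT' k)]
  by_cases hk : e ∣ k + 1
  · obtain ⟨j, hj⟩ := hk
    have hj0 : j ≠ 0 := fun h => by simp [h] at hj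
    have hdiv : (k + 1) / e = j := by rw [hj, Nat.mul_div_cancel_left j (Nat.pos_of_ne_zero he)]
    simp only [if_pos (Dvd.intro j hj.symm), hdiv]
    obtain ⟨i, rfl⟩ : ∃ i, j = i + 1 := ⟨j - 1, by omega⟩
    have hi : (fun δ : ℂ => c k * ((e : ℂ) * (δ⁻¹) ^ (i + 1)))
        = fun δ => (c k * e) * ((δ - 0)⁻¹) ^ (i + 1) := by funext δ; rw [sub_zero]; ring
    rw [hi, resAt_const_mul_inv_sub_pow]
    rcases eq_or_ne i 0 with rfl | hi0
    · rw [if_pos rfl, if_pos (by simpa using hj)]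
    · rw [if_neg hi0, if_neg]
      intro h
      rw [h] at hj
      exact hi0 (by simpa using (mul_eq_left₀ he).mp hj.symm)
  · simp only [if_neg hk, mul_zero]
    rw [resAt_zero, if_neg]
    exact fun h => hk (h ▸ dvd_refl _)

end FLTAgent.Jacobian
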