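import Fermat.Agent.Jacobian.PlaceTopology
import Fermat.Agent.Jacobian.LocalPower
import Fermat.Agent.FFDifferential.Order

/-!
# Differentials in charts

Orders of differentials in a chart, the change of chart (`transition`, `diff_transition`) and
the residue `resPlace` of a differential at a place, with finiteness of the poles.
-/

set_option autoImplicit false

noncomputable section

open Filter Topology Metric AlgebraicCurve
open FLTAgent.FFBasic (IsFunctionField)

namespace FLTAgent.Jacobian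

variable {F : Type*} [Field F] [Algebra ℂ F] [IsCurveOver ℂ F] [IsFunctionField ℂ F]

theorem analyticOrderAt_eq_one_of_meromorphicOrderAt {f : ℂ → ℂ} {z : ℂ} (hf : AnalyticAt ℂ f z)
    (h : meromorphicOrderAt f z = (1 : ℤ)) : f z = 0 ∧ deriv f z ≠ 0 := by
  obtain ⟨g, hg, hg0, heq⟩ := (meromorphicOrderAt_eq_int_iff hf.meromorphicAt).mp h
  have heq' : ∀ᶠ s in 𝓝 z, f s = (s - z) * g s := by
    refine (hf.frequently_eq_iff_eventually_eq ((analyticAt_id.sub analyticAt_const).mul hg)).mp ?_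
    exact (heq.mono fun s hs => by simpa using hs).frequently
  refine ⟨by rw [heq'.self_of_nhds, sub_self, zero_mul], ?_⟩
  have hd : HasDerivAt (fun s => (s - z) * g s) (g z) z := by
    simpa using ((hasDerivAt_id z).sub_const z).fun_mul hg.differentiableAt.hasDerivAt
  rw [Filter.EventuallyEq.deriv_eq heq', hd.deriv]
  exact hg0

namespace Chart

variable (C : Chart F) {z : ℂ} (hz : z ∈ ball (0 : ℂ) C.r)

include hz

/-- `t - z` is a uniformizer at `σ z`. -/
theorem ord_t_sub : (C.σ z).ord (C.t - algebraMap ℂ F z) = 1 := by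
  have h0 : C.t - algebraMap ℂ F z ≠ 0 := fun e => C.D_t_ne (by
    rw [sub_eq_zero] at e
    rw [e, Derivation.map_algebraMap])
  have h := C.order _ h0 z hz
  have hev : (fun s => val (C.σ s) (C.t - algebraMap ℂ F z)) =ᶠ[𝓝[≠] z] fun s => s - z := by
    filter_upwards [nhdsWithin_le_nhds (isOpen_ball.mem_nhds hz)] with s hs
    rw [val_sub (C.mem_t hs) ((C.σ s).algebraMap_mem' z), val_algebraMap, C.val_t hs]
  have h1 : meromorphicOrderAt (fun s => s - z) z = (1 : ℤ) := by
    have hm : MeromorphicAt (fun s : ℂ => s - z) z :=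
      (MeromorphicAt.id z).sub (MeromorphicAt.const z z)
    rw [meromorphicOrderAt_eq_int_iff hm]
    exact ⟨fun _ => 1, analyticAt_const, one_ne_zero, Eventually.of_forall fun s => by simp⟩
  rw [meromorphicOrderAt_congr hev, h1, WithTop.coe_eq_coe] at h
  exact h.symm

theorem ordDifferential_eq (η : Ω[F⁄ℂ]) : (C.σ z).ordDifferential η = (C.σ z).ord (C.coef η) := by
  rcases eq_or_ne η 0 with rfl | hη
  · simp
  have hc : C.coef η ≠ 0 := fun h => hη (by rw [← C.coef_smul_D η, h, zero_smul])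
  have hD : KaehlerDifferential.D ℂ F (C.t - algebraMap ℂ F z) = KaehlerDifferential.D ℂ F C.t := by
    rw [map_sub, Derivation.map_algebraMap, sub_zero]
  conv_lhs => rw [← C.coef_smul_D η, ← hD]
  exact FFDifferential.ordDifferential_smul_D _ hc (C.ord_t_sub hz)

theorem coef_mem_iff (η : Ω[F⁄ℂ]) :
    C.coef η ∈ (C.σ z).toValuationSubring ↔ 0 ≤ (C.σ z).ordDifferential η := by
  rw [C.ordDifferential_eq hz η, ← not_lt, ← notMem_iff_ord_neg, not_not]

theorem analyticAt_diff {η : Ω[F⁄ℂ]} (h : 0 ≤ (C.σ z).ordDifferential η) :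
    AnalyticAt ℂ (C.diff η) z := C.analyticAt hz ((C.coef_mem_iff hz η).mpr h)

theorem diff_smul {η : Ω[F⁄ℂ]} (f : F) :
    (fun s => C.diff (f • η) s) =ᶠ[𝓝[≠] z] fun s => val (C.σ s) f * C.diff η s := by
  filter_upwards [C.eventually_mem hz f, C.eventually_mem hz (C.coef η)] with s h1 h2
  rw [diff, map_smul, smul_eq_mul, val_mul h1 h2]
  rfl

/-- The coordinate of another chart centred at the same place. -/
theorem transition (C' : Chart F) {w : ℂ} (hw : w ∈ ball (0 : ℂ) C'.r) (h : C'.σ w = C.σ z) :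
    AnalyticAt ℂ (fun s => val (C.σ s) C'.t) z ∧ val (C.σ z) C'.t = w ∧
      deriv (fun s => val (C.σ s) C'.t) z ≠ 0 ∧
      ∀ᶠ s in 𝓝 z, val (C.σ s) C'.t ∈ ball (0 : ℂ) C'.r ∧
        C.σ s = C'.σ (val (C.σ s) C'.t) := by
  have hmem : C'.t ∈ (C.σ z).toValuationSubring := h ▸ C'.mem_t hw
  have hval : val (C.σ z) C'.t = w := by rw [← h]; exact C'.val_t hw
  have han := C.analyticAt hz hmem
  have hord : (C.σ z).ord (C'.t - algebraMap ℂ F w) = 1 := by rw [← h]; exact C'.ord_t_sub hw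
  have h0 : C'.t - algebraMap ℂ F w ≠ 0 := fun e => by rw [e, Place.ord_zero] at hord; omega
  have hm := C.order _ h0 z hz
  rw [hord] at hm
  have hev : (fun s => val (C.σ s) (C'.t - algebraMap ℂ F w))
      =ᶠ[𝓝[≠] z] fun s => val (C.σ s) C'.t - w := by
    filter_upwards [C.eventually_mem hz C'.t] with s hs
    rw [val_sub hs ((C.σ s).algebraMap_mem' w), val_algebraMap]
  rw [meromorphicOrderAt_congr hev] at hm
  obtain ⟨-, hd⟩ := analyticOrderAt_eq_one_of_meromorphicOrderAt
    (f := fun s => val (C.σ s) C'.t - w) (han.sub analyticAt_const) hm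
  refine ⟨han, hval, ?_, ?_⟩
  · rwa [deriv_sub_const_fun] at hd
  · have himg : ∀ᶠ s in 𝓝 z, C.σ s ∈ C'.σ '' ball 0 C'.r :=
      (C.continuousAt hz).preimage_mem_nhds
        (h ▸ C'.image_mem_nhds hw (isOpen_ball.mem_nhds hw))
    filter_upwards [himg] with s hs
    obtain ⟨u, hu, hus⟩ := hs
    have : val (C.σ s) C'.t = u := by rw [← hus, C'.val_t hu]
    rw [this]
    exact ⟨hu, hus.symm⟩

theorem diff_transition (C' : Chart F) {w : ℂ} (hw : w ∈ ball (0 : ℂ) C'.r) (h : C'.σ w = C.σ z)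
    (η : Ω[F⁄ℂ]) :
    ∀ᶠ s in 𝓝[≠] z, C.diff η s
      = C'.diff η (val (C.σ s) C'.t) * deriv (fun u => val (C.σ u) C'.t) s := by
  obtain ⟨-, -, -, hev⟩ := C.transition hz C' hw h
  filter_upwards [eventually_nhdsWithin_of_eventually_nhds hev, C.eventually_deriv_eq C'.t hz,
    C.diff_smul hz (η := KaehlerDifferential.D ℂ F C'.t) (C'.coef η)] with s h1 h2 h3
  rw [h2, show C'.diff η (val (C.σ s) C'.t) = val (C.σ s) (C'.coef η) by rw [Chart.diff, ← h1.2],
    ← h3, C'.coef_smul_D]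

end Chart

/-- The residue of a differential at a place. -/
def resPlace (η : Ω[F⁄ℂ]) (P : Place ℂ F) : ℂ := resAt ((chartAtPlace P).diff η) 0

theorem Chart.resAt_diff_eq (C : Chart F) {z : ℂ} (hz : z ∈ ball (0 : ℂ) C.r) (η : Ω[F⁄ℂ]) :
    resAt (C.diff η) z = resPlace η (C.σ z) := by
  set C' := chartAtPlace (C.σ z)
  have h0 := mem_ball_self (x := (0 : ℂ)) C'.r_pos
  have hc : C'.σ 0 = C.σ z := chartAtPlace_center _
  obtain ⟨h1, h2, h3, -⟩ := C.transition hz C' h0 hc
  have hm : MeromorphicAt (C'.diff η) (val (C.σ z) C'.t) := by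
    rw [h2]; exact C'.meromorphicAt_diff η h0
  rw [resAt_congr (C.diff_transition hz C' h0 hc η), resAt_comp_mul_deriv h1 h3 hm, h2]
  rfl

theorem resPlace_eq_zero_of_regular {η : Ω[F⁄ℂ]} {P : Place ℂ F} (h : 0 ≤ P.ordDifferential η) :
    resPlace η P = 0 := by
  refine resAt_of_analyticAt
    ((chartAtPlace P).analyticAt_diff (mem_ball_self (chartAtPlace P).r_pos) ?_)
  rwa [chartAtPlace_center]

theorem eventually_regular_nhdsNE (η : Ω[F⁄ℂ]) (P : Place ℂ F) :
    ∀ᶠ Q in 𝓝 P, Q ≠ P → 0 ≤ Q.ordDifferential η := by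
  obtain ⟨C, rfl⟩ := exists_chart P
  have h0 := mem_ball_self (x := (0 : ℂ)) C.r_pos
  have h := eventually_nhdsWithin_iff.mp (C.eventually_mem h0 (C.coef η))
  refine (C.mem_nhds_iff h0).mpr ?_
  filter_upwards [h, isOpen_ball.mem_nhds h0] with s hs hsb hne
  exact (C.coef_mem_iff hsb η).mp (hs fun e => hne (by rw [Set.mem_singleton_iff.mp e]))

theorem finite_poles (η : Ω[F⁄ℂ]) : {P : Place ℂ F | P.ordDifferential η < 0}.Finite := by
  choose U hU hUo hUm using fun P : Place ℂ F => _root_.eventually_nhds_iff.mp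
    (eventually_regular_nhdsNE η P)
  obtain ⟨T, hT⟩ := isCompact_univ.elim_finite_subcover U hUo fun P _ =>
    Set.mem_iUnion.mpr ⟨P, hUm P⟩
  refine T.finite_toSet.subset fun P hP => ?_
  obtain ⟨Q, hQ, hPQ⟩ : ∃ Q ∈ T, P ∈ U Q := by simpa using hT (Set.mem_univ P)
  by_contra hne
  exact absurd (hU Q P hPQ fun e => hne (e ▸ hQ)) (not_le.mpr hP)

end FLTAgent.Jacobian
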