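import Fermat.Agent.Jacobian.LinEq

/-!
# Classes of differences of tuples of places

`pairClass E E'` and `pointClass P Q` are the classes in `Pic0` of `∑ E i - ∑ E' i` and `P - Q`.
`exists_pairClass_eq`: every class has the first form with `E'` a fixed tuple of at least `g`
places.
-/

set_option autoImplicit false
set_option linter.unusedSectionVars false

noncomputable section

open AlgebraicCurve
open FLTAgent.FFBasic (IsFunctionField)
open FLTAgent.FFRiemannRoch (divOf divOf_apply divOf_mul degree_divOf ell)

namespace FLTAgent.Jacobian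

variable {K F : Type*} [Field K] [Field F] [Algebra K F] [IsAlgClosed K] [IsCurveOver K F]
  [IsFunctionField K F]

theorem degree_divT' {ι : Type*} [Fintype ι] (E : ι → Place K F) :
    Divisor.degree (divT E) = Fintype.card ι := by
  simp [divT, map_sum, IsCurveOver.deg_eq_one_of_isAlgClosed]

/-- The class of `∑ (E i) - ∑ (E' i)`. -/
def pairClass {ι : Type*} [Fintype ι] (E E' : ι → Place K F) : Pic0 K F :=
  Pic0.mk ⟨divT E - divT E', by
    rw [Divisor.mem_degZero, map_sub, degree_divT', degree_divT', sub_self]⟩

/-- The class of `P - Q`. -/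
def pointClass (P Q : Place K F) : Pic0 K F := pairClass (fun _ : Unit => P) (fun _ : Unit => Q)

theorem mk_eq_mk_iff {D D' : Divisor.degZero (K := K) (F := F)} :
    Pic0.mk D = Pic0.mk D' ↔ LinEquivalent D.1 D'.1 := by
  rw [Pic0.mk, Pic0.mk, QuotientAddGroup.eq_iff_sub_mem, AddSubgroup.mem_addSubgroupOf,
    AddSubgroup.coe_sub]
  rfl

theorem pairClass_eq_iff {ι κ : Type*} [Fintype ι] [Fintype κ] {E E' : ι → Place K F}
    {G G' : κ → Place K F} :
    pairClass E E' = pairClass G G' ↔ LinEquivalent (divT E + divT G') (divT G + divT E') := by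
  rw [pairClass, pairClass, mk_eq_mk_iff, LinEquivalent, LinEquivalent]
  show divT E - divT E' - (divT G - divT G') ∈ _ ↔ _
  rw [show divT E - divT E' - (divT G - divT G') = divT E + divT G' - (divT G + divT E') by abel]

theorem pairClass_self {ι : Type*} [Fintype ι] (E : ι → Place K F) : pairClass E E = 0 := by
  rw [pairClass, ← Pic0.mk_zero]
  exact congrArg Pic0.mk (Subtype.ext (sub_self _))

theorem pairClass_eq_zero_iff {ι : Type*} [Fintype ι] {E E' : ι → Place K F} :
    pairClass E E' = 0 ↔ LinEquivalent (divT E) (divT E') := by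
  rw [← pairClass_self E', pairClass_eq_iff]
  simp [LinEquivalent]

theorem pairClass_add {ι κ : Type*} [Fintype ι] [Fintype κ] (E E' : ι → Place K F)
    (G G' : κ → Place K F) :
    pairClass E E' + pairClass G G' = pairClass (Sum.elim E G) (Sum.elim E' G') := by
  rw [pairClass, pairClass, pairClass, ← Pic0.mk_add]
  refine congrArg Pic0.mk (Subtype.ext ?_)
  show divT E - divT E' + (divT G - divT G') = divT (Sum.elim E G) - divT (Sum.elim E' G')
  rw [divT_sumElim, divT_sumElim]
  abel

theorem pairClass_eq_sum {ι : Type*} [Fintype ι] (E E' : ι → Place K F) :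
    pairClass E E' = ∑ i, pointClass (E i) (E' i) := by
  have h : ∀ i, pointClass (E i) (E' i) = Pic0.mk ⟨Finsupp.single (E i) 1 - Finsupp.single (E' i) 1,
      by simp [Divisor.mem_degZero, map_sub, IsCurveOver.deg_eq_one_of_isAlgClosed]⟩ := fun i => by
    rw [pointClass, pairClass]
    exact congrArg Pic0.mk (Subtype.ext (by simp [divT]))
  let φ : Divisor.degZero (K := K) (F := F) →+ Pic0 K F := QuotientAddGroup.mk' _
  simp only [h]
  show φ _ = ∑ i, φ _
  rw [← map_sum]
  refine congrArg φ (Subtype.ext ?_)
  simp [divT, Finset.sum_sub_distrib]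

theorem pointClass_self (P : Place K F) : pointClass P P = 0 := pairClass_self _

theorem pointClass_add (P Q R : Place K F) :
    pointClass P Q + pointClass Q R = pointClass P R := by
  rw [pointClass, pointClass, pointClass, pairClass, pairClass, pairClass, ← Pic0.mk_add]
  refine congrArg Pic0.mk (Subtype.ext ?_)
  show divT (fun _ : Unit => P) - divT (fun _ => Q) + (divT (fun _ : Unit => Q) - divT (fun _ => R))
    = divT (fun _ : Unit => P) - divT (fun _ => R)
  abel

theorem pointClass_neg (P Q : Place K F) : -pointClass P Q = pointClass Q P := by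
  rw [neg_eq_iff_add_eq_zero, pointClass_add, pointClass_self]

variable [CharZero K]

/-- Every class is `∑ (E i) - ∑ (P i)` for a fixed tuple `P` of at least `g` places. -/
theorem exists_pairClass_eq {ι : Type*} [Fintype ι] (P : ι → Place K F)
    (h : genusFF K F ≤ Fintype.card ι) (x : Pic0 K F) : ∃ E, pairClass E P = x := by
  obtain ⟨⟨D, hD⟩, rfl⟩ := Pic0.mk_surjective x
  rw [Divisor.mem_degZero] at hD
  obtain ⟨f, hf, hE⟩ := FFRiemannRoch.exists_effective_of_genus_le (D := D + divT P) (by
    rw [map_add, hD, degree_divT', zero_add]; exact_mod_cast h)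
  obtain ⟨E, hE'⟩ := exists_tuple hE IsCurveOver.deg_eq_one_of_isAlgClosed ι (by
    rw [map_add, map_add, degree_divOf, hD, degree_divT', zero_add, zero_add])
  refine ⟨E, mk_eq_mk_iff.mpr (.of_divOf hf ?_)⟩
  show divT E - divT P = divOf f + D
  rw [hE']
  abel

end FLTAgent.Jacobian
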