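import Fermat.Agent.Jacobian.PlaceEval
import Fermat.Agent.FFBasic.Degree
import Fermat.Agent.FFRiemannRoch.FunctionField

/-!
# Extending the constants: places and divisors

For `IsConstExtension K₀ K F₀ F`: each place `P` of `F₀` has an extension `extPlace P`, without
ramification (`ord_extPlace`), every other place is `IsGeneric`, and this gives the maps `mapDiv`
on divisors and `pic0Map` on classes of degree zero.
-/

set_option autoImplicit false
set_option linter.unusedSectionVars false

noncomputable section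

open AlgebraicCurve Polynomial IntermediateField
open FLTAgent.FFBasic (IsFunctionField filt mem_filt mem_filt_of_le mem_filt_iff_of_ne)
open FLTAgent.FFRiemannRoch (divOf divOf_apply)

namespace FLTAgent.Jacobian

/-- `F / K` is obtained from `F₀ / K₀` by extending the constants. -/
class IsConstExtension (K₀ K F₀ F : Type*) [Field K₀] [Field K] [Field F₀] [Field F]
    [Algebra K₀ K] [Algebra K₀ F₀] [Algebra K F] [Algebra F₀ F] [Algebra K₀ F]
    [IsScalarTower K₀ K F] [IsScalarTower K₀ F₀ F] : Prop where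
  disjoint : ∀ {n : ℕ} (u : Fin n → F₀), LinearIndependent K₀ u →
    LinearIndependent K (fun i => algebraMap F₀ F (u i))
  adjoin_eq_top : IntermediateField.adjoin K (Set.range (algebraMap F₀ F)) = ⊤

namespace ConstExt

variable {K₀ K F₀ F : Type*} [Field K₀] [Field K] [Field F₀] [Field F]
  [Algebra K₀ K] [Algebra K₀ F₀] [Algebra K F] [Algebra F₀ F] [Algebra K₀ F]
  [IsScalarTower K₀ K F] [IsScalarTower K₀ F₀ F] [IsConstExtension K₀ K F₀ F]

local notation "ι" => algebraMap F₀ F

theorem linearIndependent_map {κ : Type*} {u : κ → F₀} (hu : LinearIndependent K₀ u) :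
    LinearIndependent K (fun i => ι (u i)) := by
  rw [linearIndependent_iff']
  intro s g hg i hi
  let e := s.equivFin
  have h := IsConstExtension.disjoint (K := K) (F := F) (fun j => u (e.symm j))
    (hu.comp _ (Subtype.val_injective.comp e.symm.injective))
  have := Fintype.linearIndependent_iff.mp h (fun j => g (e.symm j)) ?_ (e ⟨i, hi⟩)
  · simpa using this
  · rw [← hg, ← s.sum_coe_sort]
    exact e.symm.sum_comp fun x : s => g x • ι (u x)

variable (K F) in
/-- Extension of constants preserves the dimension of a space of functions. -/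
theorem finrank_span_map (V : Submodule K₀ F₀) [FiniteDimensional K₀ V] :
    Module.finrank K (Submodule.span K (ι '' (V : Set F₀))) = Module.finrank K₀ V := by
  set b := Module.finBasis K₀ V
  have hind : LinearIndependent K₀ (fun i => (b i : F₀)) :=
    b.linearIndependent.map' V.subtype (Submodule.ker_subtype _)
  have hspan : Submodule.span K (ι '' (V : Set F₀)) =
      Submodule.span K (Set.range fun i => ι (b i)) := by
    refine le_antisymm (Submodule.span_le.mpr ?_) (Submodule.span_le.mpr ?_)
    · rintro _ ⟨u, hu, rfl⟩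
      rw [show u = ((⟨u, hu⟩ : V) : F₀) from rfl, ← b.sum_repr ⟨u, hu⟩,
        Submodule.coe_sum, map_sum]
      refine Submodule.sum_mem _ fun i _ => ?_
      rw [Submodule.coe_smul, Algebra.smul_def, map_mul, ← IsScalarTower.algebraMap_apply,
        IsScalarTower.algebraMap_apply K₀ K F, ← Algebra.smul_def]
      exact Submodule.smul_mem _ _ (Submodule.subset_span ⟨i, rfl⟩)
    · rintro _ ⟨i, rfl⟩
      exact Submodule.subset_span ⟨_, (b i).2, rfl⟩
  rw [hspan, finrank_span_eq_card (linearIndependent_map (K := K) (F := F) hind), Fintype.card_fin]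

variable (K F) in
theorem transcendental_map {z : F₀} (hz : Transcendental K₀ z) : Transcendental K (ι z) := by
  rw [transcendental_iff_injective, injective_iff_map_eq_zero]
  intro p hp
  rw [aeval_eq_sum_range] at hp
  have h := linearIndependent_map (K := K) (F := F)
    (FFBasic.linearIndependent_pow_of_transcendental hz)
  simp only [map_pow] at h
  ext i
  rcases Nat.lt_or_ge p.natDegree i with hi | hi
  · rw [coeff_eq_zero_of_natDegree_lt hi, coeff_zero]
  · rw [linearIndependent_iff'.mp h _ _ hp i (Finset.mem_range.mpr (by omega)), coeff_zero]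

theorem isAlgebraic_map {z : F₀} (hz : IsAlgebraic K₀ z) : IsAlgebraic K (ι z) :=
  (hz.algHom (IsScalarTower.toAlgHom K₀ F₀ F)).extendScalars (algebraMap K₀ K).injective

variable (K F) in
/-- Elements of `K₀(z)` map into `K(z)`. -/
theorem map_mem_adjoin_simple (z : F₀) (r : K₀⟮z⟯) : ι r ∈ K⟮ι z⟯ := by
  obtain ⟨p, q, hpq⟩ := (mem_adjoin_simple_iff K₀ (r : F₀)).mp r.2
  rw [hpq, map_div₀, ← aeval_algebraMap_apply, ← aeval_algebraMap_apply,
    ← aeval_map_algebraMap K, ← aeval_map_algebraMap K (ι z) q]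
  exact (mem_adjoin_simple_iff K _).mpr ⟨_, _, rfl⟩

variable (K F) in
/-- A finite basis over `K₀(z)` spans over `K(z)`. -/
theorem top_le_span_map_basis {z : F₀} {κ : Type*} [Finite κ] (b : Module.Basis κ K₀⟮z⟯ F₀) :
    ⊤ ≤ Submodule.span K⟮ι z⟯ (Set.range fun i => ι (b i)) := by
  classical
  have := Fintype.ofFinite κ
  set M : Submodule K⟮ι z⟯ F := Submodule.span K⟮ι z⟯ (Set.range fun i => ι (b i)) with hM
  have : FiniteDimensional K⟮ι z⟯ M := FiniteDimensional.span_of_finite _ (Set.finite_range _)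
  have hrange : ∀ f : F₀, ι f ∈ M := by
    intro f
    rw [← b.sum_repr f, map_sum]
    refine Submodule.sum_mem _ fun i _ => ?_
    rw [IntermediateField.smul_def, smul_eq_mul, map_mul]
    exact (Submodule.smul_mem M (⟨_, map_mem_adjoin_simple K F z (b.repr f i)⟩ : K⟮ι z⟯)
      (Submodule.subset_span ⟨i, rfl⟩) :)
  set A : Subalgebra K⟮ι z⟯ F := Algebra.adjoin K⟮ι z⟯ (Set.range ι)
  have hA : Subalgebra.toSubmodule A ≤ M := by
    rw [Algebra.adjoin_eq_span_of_subset]
    · exact Submodule.span_le.mpr (Set.range_subset_iff.mpr hrange)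
    · intro x hx
      refine Submodule.subset_span ?_
      induction hx using Submonoid.closure_induction with
      | mem x hx => exact hx
      | one => exact ⟨1, map_one _⟩
      | mul x y _ _ hx hy =>
        obtain ⟨a, rfl⟩ := hx
        obtain ⟨a', rfl⟩ := hy
        exact ⟨a * a', map_mul _ _ _⟩
  have hfg : (Subalgebra.toSubmodule A).FG :=
    Submodule.FG.of_le (Submodule.fg_span (Set.finite_range _)) hA
  have hfield : ∀ x ∈ A, x⁻¹ ∈ A := fun x hx =>
    Subalgebra.inv_mem_of_algebraic A (x := ⟨x, hx⟩)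
      (IsIntegral.of_mem_of_fg A hfg x hx).isAlgebraic
  have htop : M = ⊤ := by
    let E : IntermediateField K F :=
      (A.restrictScalars K).toIntermediateField fun x hx => hfield x hx
    have hE : IntermediateField.adjoin K (Set.range ι) ≤ E :=
      IntermediateField.adjoin_le_iff.mpr fun x hx => Algebra.subset_adjoin hx
    rw [IsConstExtension.adjoin_eq_top (K₀ := K₀)] at hE
    exact eq_top_iff.mpr fun x _ => hA (hE (IntermediateField.mem_top (x := x)))
  exact htop.ge

variable (K F) in
/-- The degree over `K₀(z)` is unchanged by the extension of constants. -/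
theorem finrank_adjoin_map [IsFunctionField K₀ F₀] {z : F₀} (hz : Transcendental K₀ z) :
    FiniteDimensional K⟮ι z⟯ F ∧
      Module.finrank K⟮ι z⟯ F = Module.finrank K₀⟮z⟯ F₀ := by
  classical
  have := IsFunctionField.finiteDimensional_adjoin hz
  set b := Module.finBasis K₀⟮z⟯ F₀
  have hz' := transcendental_map K F hz
  -- independence
  have hind : LinearIndependent K⟮ι z⟯ (fun i => ι (b i)) := by
    refine FFBasic.linearIndependent_adjoin_of_aeval _ fun p hp => ?_
    have hmon : LinearIndependent K₀ (fun q : ℕ × Fin (Module.finrank K₀⟮z⟯ F₀) =>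
        z ^ q.1 * b q.2) := by
      have hpow : LinearIndependent K₀ (fun j : ℕ =>
          (⟨z, mem_adjoin_simple_self K₀ z⟩ : K₀⟮z⟯) ^ j) := by
        refine LinearIndependent.of_comp (K₀⟮z⟯.val.toLinearMap) ?_
        simpa [Function.comp_def] using FFBasic.linearIndependent_pow_of_transcendental hz
      simpa [IntermediateField.smul_def] using linearIndependent_smul hpow b.linearIndependent
    have hK := linearIndependent_map (K := K) (F := F) hmon
    set N := (Finset.univ.sup fun i => (p i).natDegree) + 1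
    have hsum : ∑ q ∈ Finset.range N ×ˢ (Finset.univ : Finset (Fin _)),
        (p q.2).coeff q.1 • ι (z ^ q.1 * b q.2) = 0 := by
      rw [Finset.sum_product, Finset.sum_comm, ← hp]
      refine Finset.sum_congr rfl fun i _ => ?_
      rw [aeval_eq_sum_range' (n := N)
        (Nat.lt_succ_of_le (Finset.le_sup (f := fun i => (p i).natDegree)
        (Finset.mem_univ i))), Finset.sum_mul]
      exact Finset.sum_congr rfl fun j _ => by rw [map_mul, map_pow, smul_mul_assoc]
    intro i
    have hp0 : p i = 0 := by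
      ext j
      rw [coeff_zero]
      rcases Nat.lt_or_ge j N with hj | hj
      · exact linearIndependent_iff'.mp hK _ (fun q => (p q.2).coeff q.1) hsum (j, i)
          (Finset.mem_product.mpr ⟨Finset.mem_range.mpr hj, Finset.mem_univ _⟩)
      · refine coeff_eq_zero_of_natDegree_lt (lt_of_lt_of_le ?_ hj)
        exact Nat.lt_succ_of_le (Finset.le_sup (f := fun i => (p i).natDegree) (Finset.mem_univ i))
    rw [hp0, map_zero]
  let b' : Module.Basis _ K⟮ι z⟯ F := Module.Basis.mk hind (top_le_span_map_basis K F b)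
  exact ⟨Module.Finite.of_basis b', by rw [Module.finrank_eq_card_basis b', Fintype.card_fin]⟩

variable (K F) in
theorem isFunctionField_of_constExt [IsFunctionField K₀ F₀] : IsFunctionField K F := by
  obtain ⟨z, hz, -⟩ := IsFunctionField.exists_transcendental (K := K₀) (F := F₀)
  exact ⟨⟨ι z, transcendental_map K F hz, (finrank_adjoin_map K F hz).1⟩⟩

/-- Sign conditions determine the orders up to a positive factor. -/
theorem ord_eq_mul_of_map {K' F' : Type*} [Field K'] [Field F'] [Algebra K' F']
    {L E : Type*} [Field L] [Field E] [Algebra L E] (φ : E →+* F') (P : Place L E)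
    (Q : Place K' F') (h1 : ∀ u, u ∈ P.toValuationSubring → φ u ∈ Q.toValuationSubring)
    {t : E} (ht : P.ord t = 1) {u : E} (hu : u ≠ 0) :
    Q.ord (φ u) = P.ord u * Q.ord (φ t) := by
  have ht0 : t ≠ 0 := fun h => by rw [h, Place.ord_zero] at ht; omega
  set w := u / t ^ P.ord u
  have hw0 : w ≠ 0 := div_ne_zero hu (zpow_ne_zero _ ht0)
  have hw : P.ord w = 0 := by
    rw [show w = u * (t ^ P.ord u)⁻¹ from div_eq_mul_inv _ _,
      P.ord_mul hu (inv_ne_zero (zpow_ne_zero _ ht0)), P.ord_inv, P.ord_zpow, ht]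
    ring
  have hQ : Q.ord (φ w) = 0 := by
    have e1 := FFBasic.ord_nonneg_of_mem Q (h1 w (FFBasic.mem_of_ord_nonneg _ hw.ge))
    have e2 := FFBasic.ord_nonneg_of_mem Q
      (h1 w⁻¹ (FFBasic.mem_of_ord_nonneg _ (by rw [P.ord_inv, hw, neg_zero])))
    rw [map_inv₀, Q.ord_inv] at e2
    omega
  have hφt : φ t ≠ 0 := (_root_.map_ne_zero φ).mpr ht0
  have : φ u = φ w * φ t ^ P.ord u := by
    rw [← map_zpow₀, ← map_mul, div_mul_cancel₀ _ (zpow_ne_zero _ ht0)]
  rw [this, Q.ord_mul ((_root_.map_ne_zero φ).mpr hw0) (zpow_ne_zero _ hφt), hQ, Q.ord_zpow,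
    zero_add]

theorem ord_pos_of_mem_nonunits (Q : Place K F) {x : F} (hx : x ∈ Q.toValuationSubring.nonunits)
    (h0 : x ≠ 0) : 0 < Q.ord x := by
  have h1 := FFBasic.ord_nonneg_of_mem Q (FFBasic.nonunits_subset hx)
  rcases h1.lt_or_eq with h | h
  · exact h
  · refine absurd ?_ (FFBasic.not_mem_nonunits_one Q.toValuationSubring)
    have := FFBasic.mul_mem_nonunits hx
      (FFBasic.mem_of_ord_nonneg Q (f := x⁻¹) (by rw [Q.ord_inv, ← h, neg_zero]))
    rwa [mul_inv_cancel₀ h0] at this

variable (K F) in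
/-- Every place of `F₀` lies below a place of `F`. -/
theorem exists_liesOver [IsFunctionField K F] (P : Place K₀ F₀) :
    ∃ Q : Place K F, (∀ u, u ∈ P.toValuationSubring → ι u ∈ Q.toValuationSubring) ∧
      ∀ u, u ≠ 0 → 0 < P.ord u → 0 < Q.ord (ι u) := by
  classical
  set SO : Set F := ι '' {u | u ∈ P.toValuationSubring}
  set Sm : Set F := ι '' {u | u ∈ filt P 1}
  set R : Subalgebra K F := Algebra.adjoin K SO
  have hR : Subalgebra.toSubmodule R = Submodule.span K SO := by
    refine Algebra.adjoin_eq_span_of_subset _ ?_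
    intro x hx
    refine Submodule.subset_span ?_
    induction hx using Submonoid.closure_induction with
    | mem x hx => exact hx
    | one => exact ⟨1, one_mem P.toValuationSubring, map_one _⟩
    | mul x y _ _ hx hy =>
      obtain ⟨a, ha, rfl⟩ := hx
      obtain ⟨a', ha', rfl⟩ := hy
      exact ⟨a * a', mul_mem (s := P.toValuationSubring) ha ha', map_mul _ _ _⟩
  have hmR : ∀ u ∈ filt P 1, ι u ∈ R := fun u hu => Algebra.subset_adjoin
    ⟨u, FFBasic.mem_filt_zero.mp (FFBasic.filt_antitone P zero_le_one hu), rfl⟩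
  set I : Ideal R.toSubring := Ideal.span {r | (r : F) ∈ Sm}
  have hI : I ≠ ⊤ := by
    intro htop
    have h1 : ∀ r ∈ I, (r : F) ∈ Submodule.span K Sm := by
      intro r hr
      induction hr using Submodule.span_induction with
      | mem r hr => exact Submodule.subset_span hr
      | zero => exact zero_mem _
      | add a b _ _ ha hb => exact add_mem ha hb
      | smul a r _ hr =>
        have : (a : F) * (r : F) ∈ Submodule.span K SO * Submodule.span K Sm :=
          Submodule.mul_mem_mul (hR ▸ (a.2 : (a : F) ∈ R)) hr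
        rw [Submodule.span_mul_span] at this
        refine (Submodule.span_le.mpr ?_) this
        rintro _ ⟨_, ⟨x, hx, rfl⟩, _, ⟨y, hy, rfl⟩, rfl⟩
        refine Submodule.subset_span ⟨x * y, ?_, map_mul _ _ _⟩
        simpa using FFBasic.mul_mem_filt (FFBasic.mem_filt_zero.mpr hx) hy
    have hone : (1 : F) ∈ Submodule.span K Sm := h1 1 (htop ▸ Submodule.mem_top)
    obtain ⟨T, hTS, hT⟩ := Submodule.mem_span_finite_of_mem_span hone
    obtain ⟨T₀, hT₀, rfl⟩ : ∃ T₀ : Finset F₀, (∀ u ∈ T₀, u ∈ filt P 1) ∧ T₀.image ι = T := by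
      refine ⟨T.preimage ι (algebraMap F₀ F).injective.injOn, fun u hu => ?_, ?_⟩
      · obtain ⟨v, hv, hvu⟩ := hTS (Finset.mem_preimage.mp hu)
        exact (algebraMap F₀ F).injective hvu ▸ hv
      · ext x
        simp only [Finset.mem_image, Finset.mem_preimage]
        refine ⟨fun ⟨u, hu, e⟩ => e ▸ hu, fun hx => ?_⟩
        obtain ⟨v, -, rfl⟩ := hTS hx
        exact ⟨v, hx, rfl⟩
    set V : Submodule K₀ F₀ := Submodule.span K₀ (T₀ : Set F₀)
    have : FiniteDimensional K₀ V := FiniteDimensional.span_of_finite _ T₀.finite_toSet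
    have hV : V ≤ filt P 1 := Submodule.span_le.mpr hT₀
    set b := Module.finBasis K₀ V
    have hspan : Submodule.span K₀ (Set.range fun i => (b i : F₀)) = V := by
      rw [show (fun i => (b i : F₀)) = V.subtype ∘ b from rfl, Set.range_comp, ← Submodule.map_span,
        b.span_eq, Submodule.map_top, Submodule.range_subtype]
    have hind : LinearIndependent K₀ (Fin.cons (1 : F₀) (fun i => (b i : F₀))) := by
      refine linearIndependent_finCons.mpr ⟨b.linearIndependent.map' V.subtype V.ker_subtype, ?_⟩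
      rw [hspan]
      intro h
      have := (mem_filt_iff_of_ne one_ne_zero).mp (hV h)
      rw [P.ord_one] at this
      omega
    have hK := linearIndependent_map (K := K) (F := F) hind
    rw [show (fun i => ι ((Fin.cons (1 : F₀) fun i => (b i : F₀) : Fin _ → F₀) i))
      = Fin.cons (ι 1) (fun i => ι (b i)) from funext fun i => by cases i using Fin.cases <;> simp,
      linearIndependent_finCons, map_one] at hK
    refine hK.2 ((Submodule.span_le.mpr ?_) hT)
    intro x hx
    obtain ⟨u, hu, rfl⟩ := Finset.mem_image.mp hx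
    have hu' : u ∈ Submodule.span K₀ (Set.range fun i => (b i : F₀)) :=
      hspan.symm ▸ Submodule.subset_span hu
    obtain ⟨c, rfl⟩ := (Submodule.mem_span_range_iff_exists_fun K₀).mp hu'
    rw [map_sum]
    refine Submodule.sum_mem _ fun i _ => ?_
    rw [Algebra.smul_def (c i), map_mul, ← IsScalarTower.algebraMap_apply,
      IsScalarTower.algebraMap_apply K₀ K F, ← Algebra.smul_def]
    exact Submodule.smul_mem _ _ (Submodule.subset_span ⟨i, rfl⟩)
  obtain ⟨A, hRA, hIA⟩ := Ideal.image_subset_nonunits_valuationSubring I hI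
  have hm : ∀ u ∈ filt P 1, ι u ∈ A.nonunits := fun u hu =>
    hIA ⟨⟨ι u, hmR u hu⟩, Ideal.subset_span ⟨u, hu, rfl⟩, rfl⟩
  obtain ⟨t, ht0, ht⟩ := FFBasic.exists_ord_eq P 1
  have hne : A ≠ ⊤ := fun h => by
    have hti : (ι t)⁻¹ ∈ A := by rw [h]; exact ValuationSubring.mem_top _
    have := FFBasic.mul_mem_nonunits (hm t (mem_filt_of_le ht.ge)) hti
    rw [mul_inv_cancel₀ ((_root_.map_ne_zero _).mpr ht0)] at this
    exact FFBasic.not_mem_nonunits_one A this
  refine ⟨FFBasic.placeOfValuationSubring A (fun a => hRA (R.algebraMap_mem a)) hne,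
    fun u hu => hRA (Algebra.subset_adjoin ⟨u, hu, rfl⟩ : ι u ∈ R), fun u hu0 hu => ?_⟩
  exact ord_pos_of_mem_nonunits _ (hm u (mem_filt_of_le hu)) ((_root_.map_ne_zero _).mpr hu0)

section Places

variable [IsFunctionField K₀ F₀] [IsFunctionField K F] [IsAlgClosed K₀] [IsAlgClosed K]

variable (K F) in
/-- The place of `F` above a place of `F₀`. -/
def extPlace (P : Place K₀ F₀) : Place K F := (exists_liesOver K F P).choose

theorem mem_extPlace (P : Place K₀ F₀) {u : F₀} (hu : u ∈ P.toValuationSubring) :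
    ι u ∈ (extPlace K F P).toValuationSubring := (exists_liesOver K F P).choose_spec.1 u hu

theorem ord_extPlace_pos (P : Place K₀ F₀) {u : F₀} (hu : 0 < P.ord u) :
    0 < (extPlace K F P).ord (ι u) :=
  (exists_liesOver K F P).choose_spec.2 u (fun h => by rw [h, Place.ord_zero] at hu; omega) hu

theorem extPlace_injective : Function.Injective (extPlace (K₀ := K₀) (F₀ := F₀) K F) := by
  intro P P' h
  refine FFBasic.place_ext_ord fun f hf => ?_
  by_contra hneg
  rw [not_le] at hneg
  have h1 := ord_extPlace_pos (K := K) (F := F) P' (u := f⁻¹) (by rw [P'.ord_inv]; omega)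
  have h2 := FFBasic.ord_nonneg_of_mem _
    (mem_extPlace (K := K) (F := F) P (FFBasic.mem_of_ord_nonneg _ hf))
  rw [← h, map_inv₀, Place.ord_inv] at h1
  omega

theorem zeros_map {z : F₀} (hz : Transcendental K₀ z) :
    (∀ P : Place K₀ F₀, 0 < P.ord z → (extPlace K F P).ord (ι z) = P.ord z) ∧
      ∀ Q : Place K F, 0 < Q.ord (ι z) → ∃ P : Place K₀ F₀, 0 < P.ord z ∧ extPlace K F P = Q := by
  classical
  have hz' := transcendental_map K F hz
  set S₀ := (FFBasic.finite_setOf_ord_pos (K := K₀) z).toFinset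
  set S := (FFBasic.finite_setOf_ord_pos (K := K) (ι z)).toFinset
  have h₀ : ∑ P ∈ S₀, P.ord z = (Module.finrank K₀⟮z⟯ F₀ : ℤ) := by
    rw [← FFBasic.sum_ord_mul_deg_zeros hz]
    exact Finset.sum_congr rfl fun P _ => by rw [FFBasic.place_deg_eq_one]; simp
  have h₁ : ∑ Q ∈ S, Q.ord (ι z) = (Module.finrank K₀⟮z⟯ F₀ : ℤ) := by
    rw [← (finrank_adjoin_map K F hz).2, ← FFBasic.sum_ord_mul_deg_zeros hz']
    exact Finset.sum_congr rfl fun P _ => by rw [FFBasic.place_deg_eq_one]; simp
  have hsub : S₀.image (extPlace K F) ⊆ S := by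
    intro Q hQ
    obtain ⟨P, hP, rfl⟩ := Finset.mem_image.mp hQ
    simp only [S₀, Set.Finite.mem_toFinset, Set.mem_ofPred_eq] at hP
    simpa [S] using ord_extPlace_pos P hP
  have hge : ∀ P ∈ S₀, P.ord z ≤ (extPlace K F P).ord (ι z) := by
    intro P hP
    simp only [S₀, Set.Finite.mem_toFinset, Set.mem_ofPred_eq] at hP
    obtain ⟨t, -, ht⟩ := FFBasic.exists_ord_eq P 1
    rw [ord_eq_mul_of_map _ P _ (fun u hu => mem_extPlace P hu) ht
      (fun h => by rw [h, Place.ord_zero] at hP; omega)]
    have := ord_extPlace_pos (K := K) (F := F) P (u := t) (by omega)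
    nlinarith
  have hsplit := Finset.sum_sdiff (f := fun Q : Place K F => Q.ord (ι z)) hsub
  rw [Finset.sum_image (fun a _ b _ h => extPlace_injective h), h₁] at hsplit
  have hrest : 0 ≤ ∑ Q ∈ S \ S₀.image (extPlace K F), Q.ord (ι z) :=
    Finset.sum_nonneg fun Q hQ => by
      have := (Finset.mem_sdiff.mp hQ).1
      simp only [S, Set.Finite.mem_toFinset, Set.mem_ofPred_eq] at this
      omega
  have hle := Finset.sum_le_sum hge
  refine ⟨fun P hP => ?_, fun Q hQ => ?_⟩
  · exact ((Finset.sum_eq_sum_iff_of_le hge).mp (by omega) P (by simpa [S₀] using hP)).symm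
  · by_contra hne
    have hmem : Q ∈ S \ S₀.image (extPlace K F) := by
      refine Finset.mem_sdiff.mpr ⟨by simpa [S] using hQ, fun h => hne ?_⟩
      obtain ⟨P, hP, rfl⟩ := Finset.mem_image.mp h
      exact ⟨P, by simpa [S₀] using hP, rfl⟩
    have hpos : 0 < ∑ Q ∈ S \ S₀.image (extPlace K F), Q.ord (ι z) :=
      lt_of_lt_of_le hQ (Finset.single_le_sum (f := fun Q : Place K F => Q.ord (ι z))
        (fun R hR => by
          have := (Finset.mem_sdiff.mp hR).1
          simp only [S, Set.Finite.mem_toFinset, Set.mem_ofPred_eq] at this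
          omega) hmem)
    omega

/-- There is no ramification. -/
theorem ord_extPlace (P : Place K₀ F₀) (u : F₀) : (extPlace K F P).ord (ι u) = P.ord u := by
  rcases eq_or_ne u 0 with rfl | hu
  · simp
  obtain ⟨t, -, ht⟩ := FFBasic.exists_ord_eq P 1
  rw [ord_eq_mul_of_map _ P _ (fun v hv => mem_extPlace P hv) ht hu,
    (zeros_map (FFBasic.transcendental_of_ord_ne_zero P (by omega))).1 P (by omega), ht, mul_one]

variable (K₀ F₀) in
/-- A place of `F` trivial on `F₀`. -/
def IsGeneric (Q : Place K F) : Prop := ∀ u : F₀, Q.ord (ι u) = 0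

/-- A place of the extension is the extension of a place or is trivial on the smaller field. -/
theorem exists_extPlace_eq_or_isGeneric (Q : Place K F) :
    (∃ P : Place K₀ F₀, extPlace K F P = Q) ∨ IsGeneric (K := K) F₀ Q := by
  by_cases h : IsGeneric (K := K) F₀ Q
  · exact Or.inr h
  obtain ⟨u, hu⟩ := not_forall.mp h
  left
  obtain ⟨z, hz⟩ : ∃ z : F₀, 0 < Q.ord (ι z) := by
    rcases lt_or_gt_of_ne hu with h1 | h1
    · exact ⟨u⁻¹, by rw [map_inv₀, Q.ord_inv]; omega⟩
    · exact ⟨u, h1⟩
  have hzt : Transcendental K₀ z := fun ha =>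
    hz.ne' (FFBasic.ord_eq_zero_of_isAlgebraic Q (isAlgebraic_map ha))
  obtain ⟨P, -, hP⟩ := (zeros_map (K := K) (F := F) hzt).2 Q hz
  exact ⟨P, hP⟩

theorem not_isGeneric_extPlace (P : Place K₀ F₀) : ¬ IsGeneric (K := K) F₀ (extPlace K F P) :=
  fun h => by
    obtain ⟨t, -, ht⟩ := FFBasic.exists_ord_eq P 1
    have := h t
    rw [ord_extPlace, ht] at this
    omega

variable (K F) in
/-- The map on divisors. -/
def mapDiv : Divisor K₀ F₀ →+ Divisor K F := Finsupp.mapDomain.addMonoidHom (extPlace K F)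

/-- An extended divisor at an extended place. -/
theorem mapDiv_apply_extPlace (D : Divisor K₀ F₀) (P : Place K₀ F₀) :
    mapDiv K F D (extPlace K F P) = D P :=
  Finsupp.mapDomain_apply extPlace_injective D P

/-- An extended divisor vanishes at generic places. -/
theorem mapDiv_apply_of_isGeneric (D : Divisor K₀ F₀) {Q : Place K F}
    (hQ : IsGeneric (K := K) F₀ Q) : mapDiv K F D Q = 0 :=
  Finsupp.mapDomain_of_notMem_range D Q (by rintro ⟨P, rfl⟩; exact not_isGeneric_extPlace P hQ)

theorem degree_mapDiv (D : Divisor K₀ F₀) :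
    Divisor.degree (mapDiv K F D) = Divisor.degree D := by
  have : (Divisor.degree (K := K) (F := F)).comp (mapDiv (K₀ := K₀) (F₀ := F₀) K F)
      = Divisor.degree :=
    Finsupp.addHom_ext fun (P : Place K₀ F₀) n => by
      simp [mapDiv, FFBasic.place_deg_eq_one P]
      simp [FFBasic.place_deg_eq_one]
  exact DFunLike.congr_fun this D

theorem mapDiv_mem_principal {D : Divisor K₀ F₀}
    (hD : D ∈ Divisor.principal (K := K₀) (F := F₀)) :
    mapDiv K F D ∈ Divisor.principal (K := K) (F := F) := by
  obtain ⟨f, hf, hfD⟩ := hD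
  refine ⟨ι f, (_root_.map_ne_zero _).mpr hf, fun Q => ?_⟩
  rcases exists_extPlace_eq_or_isGeneric (K₀ := K₀) (F₀ := F₀) Q with ⟨P, rfl⟩ | hQ
  · rw [mapDiv_apply_extPlace, ord_extPlace, hfD]
  · rw [mapDiv_apply_of_isGeneric _ hQ, hQ f]

variable (K F) in
/-- The map on classes of degree zero. -/
def pic0Map : Pic0 K₀ F₀ →+ Pic0 K F :=
  QuotientAddGroup.map _ _
    (((mapDiv K F).comp (Divisor.degZero (K := K₀) (F := F₀)).subtype).codRestrict
      (Divisor.degZero (K := K) (F := F)) fun D => by
        rw [Divisor.mem_degZero]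
        exact (degree_mapDiv D.1).trans D.2)
    (fun _ hD => mapDiv_mem_principal hD)

theorem pic0Map_mk (D : Divisor.degZero (K := K₀) (F := F₀)) :
    pic0Map K F (Pic0.mk D)
      = Pic0.mk ⟨mapDiv K F D.1, (degree_mapDiv D.1).trans D.2⟩ := rfl

theorem val_map [IsCurveOver K₀ F₀] [IsCurveOver K F] (P : Place K₀ F₀) {u : F₀}
    (hu : u ∈ P.toValuationSubring) :
    val (extPlace K F P) (ι u) = algebraMap K₀ K (val P u) := by
  have hι : ι (algebraMap K₀ F₀ (val P u)) = algebraMap K F (algebraMap K₀ K (val P u)) := by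
    rw [← IsScalarTower.algebraMap_apply, ← IsScalarTower.algebraMap_apply]
  rcases eq_or_ne (u - algebraMap K₀ F₀ (val P u)) 0 with h | h
  · rw [sub_eq_zero] at h
    conv_lhs => rw [h]
    rw [hι, val_algebraMap]
  · have hmem : ι (u - algebraMap K₀ F₀ (val P u)) ∈ (extPlace K F P).toValuationSubring :=
      mem_extPlace P (sub_mem hu (P.algebraMap_mem' _))
    have h0 : val (extPlace K F P) (ι (u - algebraMap K₀ F₀ (val P u))) = 0 := by
      rw [val_eq_zero_iff hmem ((_root_.map_ne_zero _).mpr h), ord_extPlace]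
      exact ord_sub_val_pos hu h
    rw [map_sub, hι, val_sub (mem_extPlace P hu) (Place.algebraMap_mem' _ _), val_algebraMap,
      sub_eq_zero] at h0
    exact h0

/-- With constants independent over `K₀` there is no cancellation at an extended place. -/
theorem mem_filt_extPlace_iff [IsCurveOver K₀ F₀] [IsCurveOver K F] (P : Place K₀ F₀) {r : ℕ}
    {c : Fin r → K} (hc : LinearIndependent K₀ c) (u : Fin r → F₀) (n : ℤ) :
    ∑ i, c i • ι (u i) ∈ filt (extPlace K F P) n ↔ ∀ i, u i ∈ filt P n := by
  classical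
  have hup : ∀ {m : ℤ} {v : F₀}, v ∈ filt P m → ι v ∈ filt (extPlace K F P) m := by
    intro m v hv
    rcases mem_filt.mp hv with rfl | h
    · simp
    · exact mem_filt_of_le (by rwa [ord_extPlace])
  refine ⟨fun h => ?_, fun h => Submodule.sum_mem _ fun i _ => Submodule.smul_mem _ _ (hup (h i))⟩
  by_contra hne
  obtain ⟨i₀, hi₀⟩ := not_forall.mp hne
  have hi₀0 : u i₀ ≠ 0 := fun e => hi₀ (by rw [e]; exact zero_mem _)
  set T := Finset.univ.filter fun i => u i ≠ 0
  obtain ⟨j, hj, hjmin⟩ := T.exists_min_image (fun i => P.ord (u i)) ⟨i₀, by simp [T, hi₀0]⟩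
  set m := P.ord (u j)
  have hmn : m < n := by
    have h1 := hjmin i₀ (by simp [T, hi₀0])
    rw [mem_filt_iff_of_ne hi₀0, not_le] at hi₀
    omega
  have hall : ∀ i, u i ∈ filt P m := fun i => by
    rcases eq_or_ne (u i) 0 with e | e
    · rw [e]; exact zero_mem _
    · exact mem_filt_of_le (hjmin i (by simp [T, e]))
  obtain ⟨t, ht0, ht⟩ := FFBasic.exists_ord_eq P 1
  set w : Fin r → F₀ := fun i => u i * t ^ (-m)
  have hw : ∀ i, w i ∈ P.toValuationSubring := fun i => by
    rw [← FFBasic.mem_filt_zero]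
    simpa [w] using FFBasic.mul_mem_filt (hall i)
      (mem_filt_of_le (v := P) (n := -m) (f := t ^ (-m)) (by rw [P.ord_zpow, ht, mul_one]))
  have hmem : ∀ i, c i • ι (w i) ∈ (extPlace K F P).toValuationSubring := fun i => by
    rw [Algebra.smul_def]
    exact mul_mem (Place.algebraMap_mem' _ _) (mem_extPlace P (hw i))
  have hval : ∀ J : Finset (Fin r), val (extPlace K F P) (∑ i ∈ J, c i • ι (w i))
      = ∑ i ∈ J, c i * algebraMap K₀ K (val P (w i)) := by
    intro J
    induction J using Finset.induction_on with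
    | empty => simp
    | insert i J hi ih =>
      rw [Finset.sum_insert hi, Finset.sum_insert hi,
        val_add (hmem i) (sum_mem fun k _ => hmem k), ih, Algebra.smul_def,
        val_mul (Place.algebraMap_mem' _ _) (mem_extPlace P (hw i)), val_algebraMap,
        val_map P (hw i)]
  have hsum : ∑ i, c i • ι (w i) = (∑ i, c i • ι (u i)) * ι (t ^ (-m)) := by
    simp only [w, map_mul, Finset.sum_mul, smul_mul_assoc]
  have hpos : ∑ i, c i • ι (w i) ∈ filt (extPlace K F P) 1 := by
    rw [hsum]
    exact FFBasic.filt_antitone _ (by omega : (1 : ℤ) ≤ n + -m) (FFBasic.mul_mem_filt h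
      (mem_filt_of_le (by rw [ord_extPlace, P.ord_zpow, ht, mul_one])))
  have hzero : val (extPlace K F P) (∑ i, c i • ι (w i)) = 0 := by
    rcases eq_or_ne (∑ i, c i • ι (w i)) 0 with e | e
    · rw [e, val_zero]
    · exact (val_eq_zero_iff (sum_mem fun i _ => hmem i) e).mpr
        (by have := (mem_filt_iff_of_ne e).mp hpos; omega)
  rw [hval] at hzero
  have := Fintype.linearIndependent_iff.mp hc (fun i => val P (w i)) (by
    rw [← hzero]
    exact Finset.sum_congr rfl fun i _ => by rw [Algebra.smul_def, mul_comm]) j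
  have huj : u j ≠ 0 := (Finset.mem_filter.mp hj).2
  have hwj : w j ≠ 0 := mul_ne_zero huj (zpow_ne_zero _ ht0)
  rw [val_eq_zero_iff (hw j) hwj] at this
  simp only [w] at this
  rw [P.ord_mul huj (zpow_ne_zero _ ht0), P.ord_zpow, ht] at this
  omega

/-- A combination of functions of `F₀` bounded by `D` at the extended places comes from `L(D)`. -/
theorem mem_span_riemannRochSpace [IsCurveOver K₀ F₀] [IsCurveOver K F] {D : Divisor K₀ F₀}
    {f : F} (hf : f ∈ Submodule.span K (Set.range ι))
    (hD : ∀ P, f ∈ filt (extPlace K F P) (-D P)) :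
    f ∈ Submodule.span K (ι '' (riemannRochSpace D : Set F₀)) := by
  classical
  obtain ⟨l, hlf⟩ := Finsupp.mem_span_range_iff_exists_finsupp.mp hf
  set W : Submodule K₀ K := Submodule.span K₀ (l '' (l.support : Set F₀))
  have : FiniteDimensional K₀ W :=
    FiniteDimensional.span_of_finite _ (l.support.finite_toSet.image _)
  set b := Module.finBasis K₀ W
  set u : Fin (Module.finrank K₀ W) → F₀ :=
    fun i => ∑ w ∈ l.support.attach, b.repr ⟨l w.1, Submodule.subset_span ⟨w.1, w.2, rfl⟩⟩ i • w.1
  have hb : LinearIndependent K₀ (fun i => (b i : K)) :=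
    b.linearIndependent.map' W.subtype W.ker_subtype
  have hfu : f = ∑ i, (b i : K) • ι (u i) := by
    rw [← hlf, Finsupp.sum, ← Finset.sum_attach]
    simp only [u, map_sum, Finset.smul_sum]
    rw [Finset.sum_comm]
    refine Finset.sum_congr rfl fun w _ => ?_
    have hw : l w.1 = ∑ i, b.repr ⟨l w.1, Submodule.subset_span ⟨w.1, w.2, rfl⟩⟩ i • (b i : K) := by
      conv_lhs => rw [show l w.1 =
          ((⟨l w.1, Submodule.subset_span ⟨w.1, w.2, rfl⟩⟩ : W) : K) from rfl,
        ← b.sum_repr ⟨l w.1, Submodule.subset_span ⟨w.1, w.2, rfl⟩⟩]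
      rw [Submodule.coe_sum]
      rfl
    conv_lhs => rw [hw, Finset.sum_smul]
    refine Finset.sum_congr rfl fun i _ => ?_
    simp only [Algebra.smul_def, map_mul, ← IsScalarTower.algebraMap_apply]
    ring
  rw [hfu]
  refine Submodule.sum_mem _ fun i _ => Submodule.smul_mem _ _ (Submodule.subset_span ⟨_, ?_, rfl⟩)
  exact mem_riemannRochSpace_iff.2 fun P => mem_filt.mp
    ((mem_filt_extPlace_iff (K := K) (F := F) P hb u (-D P)).mp (hfu ▸ hD P) i)

end Places

end ConstExt

end FLTAgent.Jacobian
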