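import Fermat.Agent.Jacobian.Abel
import Fermat.Agent.Jacobian.ClassPair

/-!
# Jacobi inversion near a nonspecial divisor

At `g` places forming a nonspecial divisor (`BaseTuple`) the Abel–Jacobi map `ajMap` is
invertible near `0`. The resulting germ `theta` into `Pic0` is additive, injective at `0` and
sends Abel–Jacobi integrals to differences of points (`eventually_theta_aj`).
-/

set_option autoImplicit false

noncomputable section

open Filter Topology Metric AlgebraicCurve
open FLTAgent.FFBasic (IsFunctionField)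
open FLTAgent.FFDifferential (holomorphicDifferentials)
open FLTAgent.FFRiemannRoch (divOf divOf_apply divOf_mul degree_divOf ell h1)

namespace FLTAgent.Jacobian

variable (F : Type*) [Field F] [Algebra ℂ F] [IsCurveOver ℂ F] [IsFunctionField ℂ F]

/-- `g` distinct places forming a nonspecial divisor. -/
structure BaseTuple where
  P : Fin (genusFF ℂ F) → Place ℂ F
  inj : Function.Injective P
  ell_eq : ell ℂ F (divT P) = 1
  h1_eq : h1 ℂ F (divT P) = 0

omit [IsCurveOver ℂ F] in
theorem exists_baseTuple : Nonempty (BaseTuple F) := by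
  classical
  obtain ⟨T, hT, -, hh, hl⟩ := FFRiemannRoch.exists_nonspecial_effective (K := ℂ) (F := F) ∅
  let e : Fin (genusFF ℂ F) ≃ T := (T.equivFinOfCardEq hT).symm
  have h : divT (fun i => (e i : Place ℂ F)) = ∑ v ∈ T, Finsupp.single v 1 := by
    rw [divT, ← Finset.sum_coe_sort T]
    exact e.sum_comp fun v => Finsupp.single (v : Place ℂ F) (1 : ℤ)
  exact ⟨⟨fun i => e i, Subtype.val_injective.comp e.injective, by rw [h]; exact hl,
    by rw [h]; exact hh⟩⟩

namespace BaseTuple

variable {F} (B : BaseTuple F)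

/-- The chart at the `i`-th base place. -/
def chart (i : Fin (genusFF ℂ F)) : Chart F := chartAtPlace (B.P i)

theorem chart_center (i : Fin (genusFF ℂ F)) : (B.chart i).σ 0 = B.P i := chartAtPlace_center _

theorem zero_mem_ball (i : Fin (genusFF ℂ F)) : (0 : ℂ) ∈ ball (0 : ℂ) (B.chart i).r :=
  mem_ball_self (B.chart i).r_pos

/-- The tuple of places with local coordinates `z`. -/
def pts (z : Fin (genusFF ℂ F) → ℂ) (i : Fin (genusFF ℂ F)) : Place ℂ F := (B.chart i).σ (z i)

theorem pts_zero : B.pts 0 = B.P := funext B.chart_center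

theorem continuousAt_pts : ContinuousAt B.pts 0 :=
  continuousAt_pi.mpr fun i =>
    ((B.chart i).continuousAt (B.zero_mem_ball i)).comp_of_eq (continuous_apply i).continuousAt rfl

/-- Values of the holomorphic differentials at the base places. -/
def ev : holomorphicDifferentials ℂ F →ₗ[ℂ] (Fin (genusFF ℂ F) → ℂ) where
  toFun ω i := (B.chart i).diff ω.1 0
  map_add' ω η := funext fun i => (B.chart i).diff_add_hol ω η (B.zero_mem_ball i)
  map_smul' a ω := funext fun i => (B.chart i).diff_smul_hol a ω (B.zero_mem_ball i)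

theorem ev_injective : Function.Injective B.ev := by
  classical
  rw [injective_iff_map_eq_zero]
  intro ω hω
  by_contra h
  have hω0 : ω.1 ≠ 0 := fun e => h (Subtype.ext e)
  have hge : ∀ v, divT B.P v ≤ v.ordDifferential ω.1 := by
    intro v
    rw [divT_apply]
    rcases Finset.eq_empty_or_nonempty (Finset.univ.filter fun i => B.P i = v) with he | ⟨i, hi⟩
    · rw [he]; exact_mod_cast ω.2 v
    · have hiv : B.P i = v := (Finset.mem_filter.mp hi).2
      have hcard : (Finset.univ.filter fun i => B.P i = v).card ≤ 1 := Finset.card_le_one.mpr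
        fun a ha b hb => B.inj
          ((Finset.mem_filter.mp ha).2.trans (Finset.mem_filter.mp hb).2.symm)
      have hc : (B.chart i).coef ω.1 ≠ 0 := fun e => hω0 (by
        rw [← (B.chart i).coef_smul_D ω.1, e, zero_smul])
      have h0 := (val_eq_zero_iff ((B.chart i).coef_hol_mem ω (B.zero_mem_ball i)) hc).mp
        (congrFun hω i)
      rw [← (B.chart i).ordDifferential_eq (B.zero_mem_ball i), B.chart_center, hiv] at h0
      omega
  have hl : 0 < ell ℂ F (canonicalDivisorOf hω0 - divT B.P) :=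
    FFRiemannRoch.ell_pos_iff.mpr ⟨1, one_ne_zero, fun v => by
      have := hge v
      simp only [Finsupp.coe_zero, Pi.zero_apply, Finsupp.add_apply, Finsupp.sub_apply,
        divOf_apply, Place.ord_one, canonicalDivisorOf_apply]
      omega⟩
  rw [← FFDifferential.h1_eq_ell_canonicalDivisorOf_sub hω0, B.h1_eq] at hl
  exact lt_irrefl 0 hl

/-- `ev` as an equivalence. -/
def evEquiv : holomorphicDifferentials ℂ F ≃ₗ[ℂ] (Fin (genusFF ℂ F) → ℂ) :=
  LinearMap.linearEquivOfInjective B.ev B.ev_injective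
    (by rw [FFDifferential.finrank_holomorphicDifferentials, Module.finrank_fin_fun])

/-- The basis of holomorphic differentials dual to the base places. -/
def basis : Module.Basis (Fin (genusFF ℂ F)) ℂ (holomorphicDifferentials ℂ F) :=
  Module.Basis.ofEquivFun B.evEquiv

theorem diff_basis (i j : Fin (genusFF ℂ F)) :
    (B.chart i).diff (B.basis j).1 0 = if j = i then 1 else 0 := by
  have h : B.evEquiv (B.basis j) = Pi.single j 1 := by
    rw [basis, Module.Basis.coe_ofEquivFun, LinearEquiv.apply_symm_apply]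
  have h2 := congrFun h i
  rw [evEquiv, LinearMap.linearEquivOfInjective_apply, Pi.single_apply] at h2
  rw [← show B.ev (B.basis j) i = (B.chart i).diff (B.basis j).1 0 from rfl, h2]
  simp [eq_comm]

/-- Coordinates on the dual of the holomorphic differentials. -/
def coord : Module.Dual ℂ (holomorphicDifferentials ℂ F) ≃ₗ[ℂ] (Fin (genusFF ℂ F) → ℂ) :=
  B.basis.dualBasis.equivFun

theorem coord_apply (L : Module.Dual ℂ (holomorphicDifferentials ℂ F)) (j : Fin (genusFF ℂ F)) :
    B.coord L j = L (B.basis j) := B.basis.dualBasis_equivFun L j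

/-- The Abel–Jacobi map in coordinates. -/
def ajMap (z : Fin (genusFF ℂ F) → ℂ) : Fin (genusFF ℂ F) → ℂ :=
  B.coord (∑ i, (B.chart i).aj (z i))

theorem ajMap_apply (z : Fin (genusFF ℂ F) → ℂ) (j : Fin (genusFF ℂ F)) :
    B.ajMap z j = ∑ i, (B.chart i).aj (z i) (B.basis j) := by
  rw [ajMap, coord_apply, LinearMap.sum_apply]

theorem ajMap_zero : B.ajMap 0 = 0 := by
  simp [ajMap, Chart.aj_zero]

theorem hasStrictFDerivAt_ajMap : HasStrictFDerivAt B.ajMap
    ((ContinuousLinearEquiv.refl ℂ (Fin (genusFF ℂ F) → ℂ) :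
      (Fin (genusFF ℂ F) → ℂ) ≃L[ℂ] (Fin (genusFF ℂ F) → ℂ)) :
        (Fin (genusFF ℂ F) → ℂ) →L[ℂ] (Fin (genusFF ℂ F) → ℂ)) 0 := by
  rw [hasStrictFDerivAt_pi']
  intro j
  simp only [ajMap_apply]
  have hi : ∀ i,
      HasStrictFDerivAt (fun z : Fin (genusFF ℂ F) → ℂ => (B.chart i).aj (z i) (B.basis j))
      (((B.chart i).diff (B.basis j).1 0) •
        ContinuousLinearMap.proj (R := ℂ) (φ := fun _ : Fin (genusFF ℂ F) => ℂ) i) 0 := by
    intro i
    have h1 := ((B.chart i).analyticAt_aj_apply (B.zero_mem_ball i) (B.basis j)).hasStrictDerivAt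
    rw [((B.chart i).hasDerivAt_aj_apply (B.zero_mem_ball i) (B.basis j)).deriv] at h1
    exact h1.comp_hasStrictFDerivAt (f := fun z : Fin (genusFF ℂ F) → ℂ => z i) 0
      (hasStrictFDerivAt_apply i 0)
  refine (HasStrictFDerivAt.fun_sum (u := Finset.univ) fun i _ => hi i).congr_fderiv ?_
  refine ContinuousLinearMap.ext fun h => ?_
  simp only [sum_apply, smul_apply, B.diff_basis,
    ContinuousLinearMap.proj_apply, smul_eq_mul, ite_mul, one_mul, zero_mul,
    Finset.sum_ite_eq, Finset.mem_univ, if_true]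
  rfl

/-- Local inverse of the Abel–Jacobi map. -/
def sol : (Fin (genusFF ℂ F) → ℂ) → (Fin (genusFF ℂ F) → ℂ) :=
  B.hasStrictFDerivAt_ajMap.localInverse _ _ _

theorem eventually_sol_ajMap : ∀ᶠ z in 𝓝 0, B.sol (B.ajMap z) = z :=
  B.hasStrictFDerivAt_ajMap.eventually_left_inverse

theorem eventually_ajMap_sol : ∀ᶠ w in 𝓝 0, B.ajMap (B.sol w) = w := by
  simpa [B.ajMap_zero, sol] using B.hasStrictFDerivAt_ajMap.eventually_right_inverse

theorem sol_zero : B.sol 0 = 0 := by
  simpa [B.ajMap_zero, sol] using B.hasStrictFDerivAt_ajMap.localInverse_apply_image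

theorem tendsto_sol : Tendsto B.sol (𝓝 0) (𝓝 0) := by
  simpa [B.ajMap_zero, sol] using B.hasStrictFDerivAt_ajMap.localInverse_tendsto

omit [IsCurveOver ℂ F] in
theorem eq_of_linEquivalent {E : Fin (genusFF ℂ F) → Place ℂ F}
    (h : LinEquivalent (divT E) (divT B.P)) : divT E = divT B.P := by
  obtain ⟨f, hf, he⟩ := linEquivalent_iff.mp h
  have hfL : f ∈ riemannRochSpace (divT B.P) :=
    (FFRiemannRoch.mem_riemannRochSpace_iff_divOf hf).mpr (he ▸ divT_nonneg E)
  have h1L : (1 : F) ∈ riemannRochSpace (divT B.P) :=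
    (FFRiemannRoch.mem_riemannRochSpace_iff_divOf one_ne_zero).mpr (fun v => by
      have := divT_nonneg B.P v
      simp only [Finsupp.coe_zero, Pi.zero_apply, Finsupp.add_apply, divOf_apply,
        Place.ord_one] at this ⊢
      omega)
  obtain ⟨c, hc⟩ := (finrank_eq_one_iff_of_nonzero' (⟨1, h1L⟩ : riemannRochSpace (divT B.P))
    (fun e => one_ne_zero (congrArg Subtype.val e))).mp B.ell_eq ⟨f, hfL⟩
  have hcf : f = algebraMap ℂ F c := by
    rw [← show c • (1 : F) = f from congrArg Subtype.val hc, Algebra.smul_def, mul_one]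
  rw [he, show divOf (K := ℂ) f = 0 from Finsupp.ext fun v => by
    rw [divOf_apply, hcf, FFBasic.ord_algebraMap]; rfl, zero_add]

omit [IsCurveOver ℂ F] [IsFunctionField ℂ F] in
theorem exists_equiv_of_divT_eq {E : Fin (genusFF ℂ F) → Place ℂ F} (h : divT E = divT B.P) :
    ∃ π : Fin (genusFF ℂ F) ≃ Fin (genusFF ℂ F), ∀ i, E i = B.P (π i) := by
  classical
  have hle : ∀ v, divT B.P v ≤ 1 := fun v => by
    have hc : (Finset.univ.filter fun i => B.P i = v).card ≤ 1 := Finset.card_le_one.mpr
      fun a ha b hb => B.inj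
        ((Finset.mem_filter.mp ha).2.trans (Finset.mem_filter.mp hb).2.symm)
    rw [divT_apply]
    exact_mod_cast hc
  have hmem : ∀ i, ∃ k, B.P k = E i := fun i => by
    have hpos : 0 < divT E (E i) := by
      rw [divT_apply]
      exact_mod_cast Finset.card_pos.mpr ⟨i, by simp⟩
    rw [h, divT_apply] at hpos
    obtain ⟨k, hk⟩ := Finset.card_pos.mp (by exact_mod_cast hpos)
    exact ⟨k, (Finset.mem_filter.mp hk).2⟩
  choose π hπ using hmem
  have hπi : Function.Injective π := fun a b hab => by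
    have hE : E a = E b := by rw [← hπ a, ← hπ b, hab]
    have hcard := hle (E a)
    rw [← h, divT_apply] at hcard
    exact Finset.card_le_one.mp (by exact_mod_cast hcard) a (by simp) b (by simp [hE])
  exact ⟨Equiv.ofBijective π ⟨hπi, Finite.surjective_of_injective hπi⟩, fun i => (hπ i).symm⟩

/-- Existence of a nearby solution. -/
theorem eventually_near {α : Type*} {l : Filter α} {ι κ : Type*} [Fintype ι] [Fintype κ]
    {a : α → ι → Place ℂ F} (b : κ → Place ℂ F)
    (hcard : Fintype.card ι = genusFF ℂ F + Fintype.card κ) {a₀ : ι → Place ℂ F}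
    (ha : Tendsto a l (𝓝 a₀)) (h0 : LinEquivalent (divT a₀) (divT B.P + divT b))
    {W : Set (Fin (genusFF ℂ F) → ℂ)} (hW : W ∈ 𝓝 0) :
    ∀ᶠ x in l, ∃ z ∈ W, LinEquivalent (divT (a x)) (divT (B.pts z) + divT b) := by
  classical
  have hex : ∀ x, ∃ E : Fin (genusFF ℂ F) → Place ℂ F,
      LinEquivalent (divT (a x)) (divT E + divT b) := fun x => by
    obtain ⟨f, hf, hE⟩ := FFRiemannRoch.exists_effective_of_genus_le (K := ℂ)
      (D := divT (a x) - divT b)
      (by rw [map_sub, degree_divT, degree_divT, hcard]; push_cast; omega)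
    obtain ⟨E, hE'⟩ := exists_tuple hE IsCurveOver.deg_eq_one_of_isAlgClosed (Fin (genusFF ℂ F)) (by
      rw [map_add, map_sub, degree_divOf, degree_divT, degree_divT, hcard, Fintype.card_fin]
      push_cast
      omega)
    exact ⟨E, .of_divOf (inv_ne_zero hf) (by rw [FFRiemannRoch.divOf_inv, hE']; abel)⟩
  choose E hE using hex
  refine Filter.mem_iff_ultrafilter.mpr fun 𝒰 h𝒰 => ?_
  obtain ⟨E₁, -, hlim⟩ := isCompact_univ.ultrafilter_le_nhds (𝒰.map E) (by simp)
  rw [Ultrafilter.coe_map, ← Tendsto] at hlim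
  let e : Fin (genusFF ℂ F) ⊕ κ ≃ ι := Fintype.equivOfCardEq (by simp [hcard])
  have hmem : (a₀ ∘ e, Sum.elim E₁ b) ∈
      {p : (Fin (genusFF ℂ F) ⊕ κ → Place ℂ F) × (Fin (genusFF ℂ F) ⊕ κ → Place ℂ F) |
        LinEquivalent (divT p.1) (divT p.2)} := by
    refine (isClosed_linEquivalent _).mem_of_tendsto (b := (𝒰 : Filter α))
      (f := fun x => (a x ∘ e, Sum.elim (E x) b)) (Tendsto.prodMk_nhds ?_ ?_)
      (Eventually.of_forall fun x => ?_)
    · exact tendsto_pi_nhds.mpr fun i => (tendsto_pi_nhds.mp (ha.mono_left h𝒰)) (e i)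
    · refine tendsto_pi_nhds.mpr fun i => ?_
      cases i with
      | inl i => exact tendsto_pi_nhds.mp hlim i
      | inr i => exact tendsto_const_nhds
    · show LinEquivalent (divT (a x ∘ e)) (divT (Sum.elim (E x) b))
      rw [divT_comp_equiv, divT_sumElim]
      exact hE x
  simp only [Set.mem_ofPred_eq, divT_comp_equiv, divT_sumElim] at hmem
  have hE₁ : LinEquivalent (divT E₁) (divT B.P) := by
    have h2 : divT E₁ - divT B.P = (divT a₀ - (divT B.P + divT b))
        - (divT a₀ - (divT E₁ + divT b)) := by abel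
    rw [LinEquivalent, h2]
    exact sub_mem h0 hmem
  obtain ⟨π, hπ⟩ := B.exists_equiv_of_divT_eq (B.eq_of_linEquivalent hE₁)
  rw [nhds_pi, Filter.mem_pi'] at hW
  obtain ⟨I, V, hV, hVW⟩ := hW
  have hev : ∀ᶠ x in (𝒰 : Filter α), ∀ i, E x i ∈ (B.chart (π i)).σ '' V (π i) :=
    eventually_all.mpr fun i => (tendsto_pi_nhds.mp hlim i).eventually
      (eventually_mem_set.mpr (by
        rw [hπ i, ← B.chart_center]
        exact (B.chart (π i)).image_mem_nhds (B.zero_mem_ball _) (hV _)))
  filter_upwards [hev] with x hx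
  choose z hzV hz using hx
  refine ⟨fun k => z (π.symm k), hVW fun k _ => ?_, ?_⟩
  · have := hzV (π.symm k)
    rwa [π.apply_symm_apply] at this
  · have h2 : divT (B.pts fun k => z (π.symm k)) = divT (E x) := by
      rw [← divT_comp_equiv π]
      congr 1
      funext i
      simp only [Function.comp_apply, pts, π.symm_apply_apply, hz i]
    rw [h2]
    exact hE x

/-- The class attached to small coordinates. -/
def theta (w : Fin (genusFF ℂ F) → ℂ) : Pic0 ℂ F := pairClass (B.pts (B.sol w)) B.P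

theorem theta_zero : B.theta 0 = 0 := by
  rw [theta, B.sol_zero, B.pts_zero, pairClass_self]

/-- The solution of `a ~ z + b` is given by the Abel–Jacobi sum. -/
theorem eventually_ajMap_eq {ι κ : Type*} [Fintype ι] [Fintype κ] (C : ι → Chart F)
    (C' : κ → Chart F) (hcard : Fintype.card ι = genusFF ℂ F + Fintype.card κ)
    (h0 : divT (fun i => (C i).σ 0) = divT B.P + divT (fun k => (C' k).σ 0))
    {W : Set (Fin (genusFF ℂ F) → ℂ)} (hW : W ∈ 𝓝 0) :
    ∀ᶠ x in 𝓝 (0 : ι → ℂ), ∃ z ∈ W,
      LinEquivalent (divT fun i => (C i).σ (x i)) (divT (B.pts z) + divT fun k => (C' k).σ 0) ∧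
      B.ajMap z = B.coord (∑ i, (C i).aj (x i)) := by
  classical
  let e : ι ≃ Fin (genusFF ℂ F) ⊕ κ := Fintype.equivOfCardEq (by simp [hcard])
  let CC : ι ⊕ (Fin (genusFF ℂ F) ⊕ κ) → Chart F := Sum.elim C (Sum.elim B.chart C')
  have hloc := local_abel' CC (Sum.inl : ι → _) (fun i => Sum.inr (e i)) (by
    show divT (fun i => (C i).σ 0)
      = divT ((fun x => (Sum.elim B.chart C' x).σ 0) ∘ e)
    rw [divT_comp_equiv, h0,
      show (fun x => (Sum.elim B.chart C' x).σ 0) = Sum.elim B.P (fun k => (C' k).σ 0) from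
        funext fun x => by cases x <;> simp [B.chart_center],
      divT_sumElim])
  rw [show (0 : (ι → ℂ) × (ι → ℂ)) = ((0 : ι → ℂ), (0 : ι → ℂ)) from rfl, nhds_prod_eq,
    eventually_prod_iff] at hloc
  obtain ⟨p1, hp1, p2, hp2, hp⟩ := hloc
  let m : (Fin (genusFF ℂ F) → ℂ) → ι → ℂ := fun z i => Sum.elim z (fun _ => 0) (e i)
  have hm : Tendsto m (𝓝 0) (𝓝 0) := by
    refine tendsto_pi_nhds.mpr fun i => ?_
    simp only [m]
    rcases e i with k | k
    · exact (continuous_apply k).tendsto' 0 0 rfl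
    · exact tendsto_const_nhds
  have ha : Tendsto (fun x : ι → ℂ => fun i => (C i).σ (x i)) (𝓝 0) (𝓝 fun i => (C i).σ 0) :=
    tendsto_pi_nhds.mpr fun i => ((C i).continuousAt (mem_ball_self (C i).r_pos)).tendsto.comp
      ((continuous_apply i).tendsto (0 : ι → ℂ))
  have h0' : LinEquivalent (divT fun i => (C i).σ 0) (divT B.P + divT fun k => (C' k).σ 0) := by
    rw [LinEquivalent, h0, sub_self]; exact zero_mem _
  filter_upwards [B.eventually_near _ hcard ha h0' (inter_mem hW (hm.eventually hp2)), hp1]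
    with x ⟨z, ⟨hzW, hz2⟩, hlin⟩ hx
  refine ⟨z, hzW, hlin, ?_⟩
  have key := hp hx hz2 (by
    show LinEquivalent (divT fun i => (C i).σ (x i))
      (divT fun i => (Sum.elim B.chart C' (e i)).σ (Sum.elim z (fun _ => 0) (e i)))
    rw [show (fun i => (Sum.elim B.chart C' (e i)).σ (Sum.elim z (fun _ => 0) (e i)))
      = (Sum.elim (B.pts z) fun k => (C' k).σ 0) ∘ e from funext fun i => by
        simp only [Function.comp_apply]
        rcases e i with k | k <;> rfl,
      divT_comp_equiv, divT_sumElim]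
    exact hlin)
  simp only [CC, m, Sum.elim_inl, Sum.elim_inr] at key
  rw [key, e.sum_comp fun y => (Sum.elim B.chart C' y).aj (Sum.elim z (fun _ => 0) y),
    Fintype.sum_sum_type]
  simp [ajMap, Chart.aj_zero]

theorem eventually_theta_ajMap : ∀ᶠ z in 𝓝 0, B.theta (B.ajMap z) = pairClass (B.pts z) B.P :=
  B.eventually_sol_ajMap.mono fun z hz => by rw [theta, hz]

theorem eventually_theta_add :
    ∀ᶠ p : (Fin (genusFF ℂ F) → ℂ) × (Fin (genusFF ℂ F) → ℂ) in 𝓝 0,
      B.theta (p.1 + p.2) = B.theta p.1 + B.theta p.2 := by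
  have h := B.eventually_ajMap_eq (Sum.elim B.chart B.chart) B.chart (by simp) (by
    rw [show (fun i => (Sum.elim B.chart B.chart i).σ 0) = Sum.elim B.P B.P from
      funext fun x => by cases x <;> simp [B.chart_center], divT_sumElim]
    simp only [B.chart_center]) B.eventually_theta_ajMap
  have hs : Tendsto (fun p : (Fin (genusFF ℂ F) → ℂ) × (Fin (genusFF ℂ F) → ℂ) =>
      Sum.elim (B.sol p.1) (B.sol p.2)) (𝓝 0) (𝓝 0) := by
    refine tendsto_pi_nhds.mpr fun i => ?_
    rcases i with k | k
    · exact ((continuous_apply k).tendsto' 0 0 rfl).comp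
        (B.tendsto_sol.comp (continuous_fst.tendsto' 0 0 rfl))
    · exact ((continuous_apply k).tendsto' 0 0 rfl).comp
        (B.tendsto_sol.comp (continuous_snd.tendsto' 0 0 rfl))
  filter_upwards [hs.eventually h,
    (continuous_fst.tendsto' 0 0 rfl).eventually B.eventually_ajMap_sol,
    (continuous_snd.tendsto' 0 0 rfl).eventually B.eventually_ajMap_sol]
    with p ⟨z, hz, hlin, heq⟩ h1 h2
  have hsum : B.ajMap z = p.1 + p.2 := by
    rw [heq, Fintype.sum_sum_type, map_add]
    exact congrArg₂ (· + ·) h1 h2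
  rw [← hsum, Set.mem_ofPred_eq.mp hz, theta, theta, pairClass_add, eq_comm, pairClass_eq_iff]
  rw [show (fun i => (Sum.elim B.chart B.chart i).σ (Sum.elim (B.sol p.1) (B.sol p.2) i))
    = Sum.elim (B.pts (B.sol p.1)) (B.pts (B.sol p.2)) from
      funext fun x => by cases x <;> rfl] at hlin
  simp only [B.chart_center] at hlin
  rw [LinEquivalent] at hlin ⊢
  convert hlin using 1
  rw [divT_sumElim, divT_sumElim]
  abel

theorem eventually_theta_eq_zero : ∀ᶠ w in 𝓝 0, B.theta w = 0 → w = 0 := by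
  have hsep : ∀ᶠ z in 𝓝 (0 : Fin (genusFF ℂ F) → ℂ), ∀ i k, B.pts z i = B.P k → z i = 0 := by
    refine eventually_all.mpr fun i => eventually_all.mpr fun k => ?_
    have h0 := B.zero_mem_ball i
    rcases eq_or_ne k i with rfl | hki
    · filter_upwards [((continuous_apply k).tendsto' (0 : Fin (genusFF ℂ F) → ℂ) 0 rfl).eventually
        (isOpen_ball.mem_nhds h0)] with z hz he
      exact (B.chart k).injOn hz h0 (he.trans (B.chart_center k).symm)
    · have hne : B.pts 0 i ≠ B.P k := by
        rw [B.pts_zero]; exact fun e => hki (B.inj e).symm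
      filter_upwards [(continuousAt_pi.mp B.continuousAt_pts i).eventually_ne hne] with z hz he
      exact absurd he hz
  filter_upwards [B.eventually_ajMap_sol, B.tendsto_sol.eventually hsep] with w hw hz h
  obtain ⟨π, hπ⟩ := B.exists_equiv_of_divT_eq (B.eq_of_linEquivalent (pairClass_eq_zero_iff.mp h))
  have : B.sol w = 0 := funext fun i => hz i (π i) (hπ i)
  rw [← hw, this, B.ajMap_zero]

/-- Near the centre of a chart, `σ z - σ 0` is the class of its Abel–Jacobi integral. -/
theorem eventually_theta_aj (C : Chart F) :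
    ∀ᶠ z in 𝓝 0, B.theta (B.coord (C.aj z)) = pointClass (C.σ z) (C.σ 0) := by
  have h := B.eventually_ajMap_eq (Sum.elim B.chart fun _ : Unit => C) (fun _ : Unit => C)
    (by simp) (by
      rw [show (fun i => (Sum.elim B.chart (fun _ : Unit => C) i).σ 0)
        = Sum.elim B.P (fun _ => C.σ 0) from funext fun x => by cases x <;> simp [B.chart_center],
        divT_sumElim]) B.eventually_theta_ajMap
  have hs : Tendsto (fun z : ℂ => Sum.elim (0 : Fin (genusFF ℂ F) → ℂ) fun _ : Unit => z)
      (𝓝 0) (𝓝 0) := by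
    refine tendsto_pi_nhds.mpr fun i => ?_
    rcases i with k | k
    · exact tendsto_const_nhds
    · exact tendsto_id
  filter_upwards [hs.eventually h] with z ⟨z', hz', hlin, heq⟩
  have hsum : B.ajMap z' = B.coord (C.aj z) := by
    rw [heq, Fintype.sum_sum_type]
    simp [Chart.aj_zero]
  rw [← hsum, Set.mem_ofPred_eq.mp hz', pointClass, eq_comm, pairClass_eq_iff]
  rw [show (fun i => (Sum.elim B.chart (fun _ : Unit => C) i).σ
      (Sum.elim (0 : Fin (genusFF ℂ F) → ℂ) (fun _ : Unit => z) i))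
    = Sum.elim B.P (fun _ => C.σ z) from funext fun x => by cases x <;> simp [B.chart_center],
    divT_sumElim] at hlin
  rw [LinEquivalent] at hlin ⊢
  convert hlin using 1
  abel

end BaseTuple

end FLTAgent.Jacobian
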