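import Mathlib

/-!
# Torsion of the quotient by a lattice

For a surjection `f : V →+ A` from a real vector space, `A` is divisible
(`exists_nsmul_eq_of_surjective`); if the kernel is the `ℤ`-span of `m` independent vectors, `A`
has `n ^ m` elements killed by `n` (`natCard_torsion_of_lattice`).
-/

set_option autoImplicit false

namespace FLTAgent.Jacobian

variable {V A : Type*} [AddCommGroup V] [Module ℝ V] [AddCommGroup A]

/-- Every element is divisible. -/
theorem exists_nsmul_eq_of_surjective (f : V →+ A) (hs : Function.Surjective f) {n : ℕ}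
    (hn : n ≠ 0) (x : A) : ∃ y, n • y = x := by
  obtain ⟨v, rfl⟩ := hs x
  refine ⟨f ((n : ℝ)⁻¹ • v), ?_⟩
  rw [← map_nsmul, ← Nat.cast_smul_eq_nsmul ℝ, smul_smul,
    mul_inv_cancel₀ (Nat.cast_ne_zero.mpr hn), one_smul]

/-- The number of `n`-torsion points. -/
theorem natCard_torsion_of_lattice (f : V →+ A) (hs : Function.Surjective f) {m : ℕ}
    (b : Fin m → V) (hb : LinearIndependent ℝ b)
    (hker : ∀ v, f v = 0 ↔ v ∈ Submodule.span ℤ (Set.range b)) {n : ℕ} (hn : n ≠ 0) :
    Nat.card {x : A // n • x = 0} = n ^ m := by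
  classical
  have : NeZero n := ⟨hn⟩
  have hn' : (n : ℝ) ≠ 0 := Nat.cast_ne_zero.mpr hn
  set ψ : (Fin m → ℤ) → A := fun c => f (∑ i, ((c i : ℝ) / n) • b i) with hψ
  have hker' : ∀ c : Fin m → ℤ, ψ c = 0 ↔ ∀ i, (n : ℤ) ∣ c i := by
    intro c
    rw [hψ]
    simp only [hker, Submodule.mem_span_range_iff_exists_fun]
    constructor
    · rintro ⟨d, hd⟩ i
      have hzero : ∑ i, ((c i : ℝ) / n - d i) • b i = 0 := by
        simp only [sub_smul, Finset.sum_sub_distrib, Int.cast_smul_eq_zsmul, hd, sub_self]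
      have := Fintype.linearIndependent_iff.mp hb _ hzero i
      rw [sub_eq_zero, div_eq_iff hn'] at this
      exact ⟨d i, by rw [mul_comm]; exact_mod_cast this⟩
    · intro h
      choose d hd using h
      refine ⟨d, Finset.sum_congr rfl fun i _ => ?_⟩
      rw [hd i, Int.cast_mul, Int.cast_natCast, mul_div_cancel_left₀ _ hn',
        Int.cast_smul_eq_zsmul]
  have hsub : ∀ c d, ψ c - ψ d = ψ (c - d) := fun c d => by
    simp only [hψ, ← map_sub, ← Finset.sum_sub_distrib, ← sub_smul, Pi.sub_apply, Int.cast_sub,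
      sub_div]
  have htors : ∀ c, n • ψ c = 0 := fun c => by
    simp only [hψ, ← map_nsmul, hker, Finset.smul_sum]
    refine Submodule.sum_mem _ fun i _ => ?_
    rw [← Nat.cast_smul_eq_nsmul ℝ, smul_smul, mul_div_cancel₀ _ hn', Int.cast_smul_eq_zsmul]
    exact Submodule.smul_mem _ _ (Submodule.subset_span ⟨i, rfl⟩)
  set e : (Fin m → ZMod n) → {x : A // n • x = 0} :=
    fun c => ⟨ψ fun i => (c i).val, htors _⟩
  have hbij : Function.Bijective e := by
    constructor
    · intro c d h
      have h0 : ψ ((fun i => ((c i).val : ℤ)) - fun i => ((d i).val : ℤ)) = 0 := by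
        rw [← hsub, sub_eq_zero]
        exact congrArg Subtype.val h
      funext i
      have := (ZMod.intCast_zmod_eq_zero_iff_dvd _ n).mpr ((hker' _).mp h0 i)
      simpa [sub_eq_zero] using this
    · rintro ⟨x, hx⟩
      obtain ⟨v, rfl⟩ := hs x
      rw [← map_nsmul, hker, Submodule.mem_span_range_iff_exists_fun] at hx
      obtain ⟨c, hc⟩ := hx
      have hv : ψ c = f v := by
        simp only [hψ]
        congr 1
        calc ∑ i, ((c i : ℝ) / n) • b i = (n : ℝ)⁻¹ • ∑ i, (c i) • b i := by
              simp only [Finset.smul_sum, ← Int.cast_smul_eq_zsmul ℝ, smul_smul, div_eq_inv_mul]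
          _ = v := by
              rw [hc, ← Nat.cast_smul_eq_nsmul ℝ, smul_smul, inv_mul_cancel₀ hn', one_smul]
      refine ⟨fun i => (c i : ZMod n), Subtype.ext ?_⟩
      show ψ (fun i => ((c i : ZMod n).val : ℤ)) = f v
      rw [← hv, ← sub_eq_zero, hsub, hker']
      intro i
      rw [← ZMod.intCast_zmod_eq_zero_iff_dvd]
      simp
  rw [← Nat.card_congr (Equiv.ofBijective e hbij)]
  simp

end FLTAgent.Jacobian
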