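import Fermat.Agent.Jacobian.ChartDiff
import Fermat.Agent.FFRiemannRoch.FunctionField

/-!
# Linear equivalence is closed

For tuples of places over `ℂ` with divisors `divT E`, linear equivalence is a closed relation
(`isClosed_linEquivalent`), via the compact incidence set of tuples and sections of `L(A)`
vanishing on them.
-/

set_option autoImplicit false
set_option linter.unusedSectionVars false

noncomputable section

open Filter Topology Metric AlgebraicCurve
open FLTAgent.FFBasic (IsFunctionField)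
open FLTAgent.FFRiemannRoch (divOf divOf_apply divOf_mul degree_divOf ell)

namespace FLTAgent.Jacobian

section Algebraic

variable {K F : Type*} [Field K] [Field F] [Algebra K F]

/-- The effective divisor of a tuple of places. -/
def divT {ι : Type*} [Fintype ι] (E : ι → Place K F) : Divisor K F := ∑ i, Finsupp.single (E i) 1

open scoped Classical in
theorem divT_apply {ι : Type*} [Fintype ι] (E : ι → Place K F) (P : Place K F) :
    divT E P = ((Finset.univ.filter fun i => E i = P).card : ℤ) := by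
  rw [divT, Finsupp.finsetSum_apply, Finset.natCast_card_filter]
  exact Finset.sum_congr rfl fun i _ => by rw [Finsupp.single_apply]

theorem divT_nonneg {ι : Type*} [Fintype ι] (E : ι → Place K F) : (0 : Divisor K F) ≤ divT E := by
  classical
  intro P
  rw [divT_apply]
  simp

theorem divT_sumElim {ι κ : Type*} [Fintype ι] [Fintype κ] (E : ι → Place K F)
    (R : κ → Place K F) : divT (Sum.elim E R) = divT E + divT R := by
  simp [divT, Fintype.sum_sum_type]

theorem divT_comp_equiv {ι κ : Type*} [Fintype ι] [Fintype κ] (e : κ ≃ ι) (E : ι → Place K F) :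
    divT (E ∘ e) = divT E := e.sum_comp fun i => Finsupp.single (E i) (1 : ℤ)

theorem exists_tuple {D : Divisor K F} (hD : 0 ≤ D) (hdeg : ∀ P : Place K F, P.deg = 1)
    (κ : Type*) [Fintype κ] (h : Divisor.degree D = Fintype.card κ) :
    ∃ R : κ → Place K F, divT R = D := by
  classical
  let J := Σ P : D.support, Fin (D P.1).toNat
  have hcard : Fintype.card J = Fintype.card κ := by
    have : ((Fintype.card J : ℕ) : ℤ) = Divisor.degree D := by
      simp only [J, Fintype.card_sigma, Fintype.card_fin, Nat.cast_sum,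
        Divisor.degree, Finsupp.liftAddHom_apply, Finsupp.sum]
      rw [← Finset.sum_coe_sort D.support]
      refine Finset.sum_congr rfl fun P _ => ?_
      simp [hdeg, Int.toNat_of_nonneg (hD P.1)]
    omega
  let e : κ ≃ J := (Fintype.equivOfCardEq hcard).symm
  refine ⟨(fun x : J => (x.1.1 : Place K F)) ∘ e, ?_⟩
  rw [divT_comp_equiv e fun x : J => (x.1.1 : Place K F), divT]
  refine Finsupp.ext fun Q => ?_
  rw [Finsupp.finsetSum_apply, Fintype.sum_sigma]
  simp only [Finset.sum_const, Finset.card_univ, Fintype.card_fin, nsmul_eq_mul]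
  by_cases hQ : Q ∈ D.support
  · rw [Finset.sum_eq_single (⟨Q, hQ⟩ : D.support)
      (fun P _ hP => by rw [Finsupp.single_eq_of_ne fun h => hP (Subtype.ext h.symm), mul_zero])
      (fun h => absurd (Finset.mem_univ _) h), Finsupp.single_eq_same, mul_one,
      Int.toNat_of_nonneg (hD Q)]
  · rw [Finset.sum_eq_zero fun P _ => by
      rw [Finsupp.single_eq_of_ne (by rintro rfl; exact hQ P.2), mul_zero]]
    exact (Finsupp.notMem_support_iff.mp hQ).symm

/-- Linear equivalence. -/
def LinEquivalent (D D' : Divisor K F) : Prop := D - D' ∈ Divisor.principal (K := K) (F := F)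

theorem LinEquivalent.of_divOf [HasPrincipalDivisors K F] {D D' : Divisor K F} {f : F} (hf : f ≠ 0)
    (h : D = divOf f + D') : LinEquivalent D D' := by
  rw [LinEquivalent, h, add_sub_cancel_right]
  exact ⟨f, hf, fun v => divOf_apply f v⟩

theorem linEquivalent_iff [HasPrincipalDivisors K F] {D D' : Divisor K F} :
    LinEquivalent D D' ↔ ∃ f : F, f ≠ 0 ∧ D = divOf f + D' := by
  refine ⟨fun ⟨f, hf, h⟩ => ⟨f, hf, Finsupp.ext fun v => ?_⟩,
    fun ⟨f, hf, h⟩ => .of_divOf hf h⟩
  have := h v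
  rw [Finsupp.sub_apply] at this
  rw [Finsupp.add_apply, divOf_apply]
  omega

end Algebraic

variable {F : Type*} [Field F] [Algebra ℂ F] [IsCurveOver ℂ F] [IsFunctionField ℂ F]

theorem degree_divT {ι : Type*} [Fintype ι] (E : ι → Place ℂ F) :
    Divisor.degree (divT E) = Fintype.card ι := by
  simp [divT, map_sum, IsCurveOver.deg_eq_one_of_isAlgClosed]

/-- If a function analytic on a closed disc vanishes at given points, it is bounded by the product
of the distances to them. -/
theorem norm_le_prod_of_zeros {R : ℝ} (hR : 0 < R) {ι : Type*} [DecidableEq ι] (I : Finset ι)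
    (z : ι → ℂ) (hz : ∀ i ∈ I, z i ∈ ball (0 : ℂ) (R / 2)) {M : ℝ} {Φ : ℂ → ℂ}
    (hΦ : ∀ s ∈ closedBall (0 : ℂ) R, AnalyticAt ℂ Φ s)
    (hord : ∀ w ∈ ball (0 : ℂ) (R / 2),
      (((I.filter fun i => z i = w).card : ℕ) : ℕ∞) ≤ analyticOrderAt Φ w)
    (hM : ∀ s ∈ sphere (0 : ℂ) R, ‖Φ s‖ ≤ M) :
    ∀ s ∈ closedBall (0 : ℂ) R, ‖Φ s‖ ≤ M * (2 / R) ^ I.card * ∏ i ∈ I, ‖s - z i‖ := by
  induction I using Finset.induction_on generalizing Φ M with
  | empty =>
    intro s hs
    simp only [Finset.card_empty, pow_zero, Finset.prod_empty, mul_one]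
    refine Complex.norm_le_of_forall_mem_frontier_norm_le (U := ball 0 R) isBounded_ball ?_ ?_
      (by rwa [closure_ball _ hR.ne'])
    · refine ⟨fun s hs =>
        (hΦ s (ball_subset_closedBall hs)).differentiableAt.differentiableWithinAt,
        ?_⟩
      rw [closure_ball _ hR.ne']
      exact fun s hs => (hΦ s hs).continuousAt.continuousWithinAt
    · rwa [frontier_ball _ hR.ne']
  | insert a I ha ih =>
    have hza := hz a (Finset.mem_insert_self a I)
    have hzaR : z a ∈ closedBall (0 : ℂ) R :=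
      ball_subset_closedBall (ball_subset_ball (by linarith) hza)
    have hzero : Φ (z a) = 0 := by
      refine apply_eq_zero_of_analyticOrderAt_ne_zero fun h0 => ?_
      have := hord _ hza
      rw [h0, nonpos_iff_eq_zero, Nat.cast_eq_zero, Finset.card_eq_zero,
        Finset.filter_eq_empty_iff] at this
      exact this (Finset.mem_insert_self a I) rfl
    set q : ℂ → ℂ := dslope Φ (z a) with hq
    have hfac : ∀ s, Φ s = (s - z a) * q s := fun s => by
      have := sub_smul_dslope Φ (z a) s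
      rw [hzero, sub_zero, smul_eq_mul] at this
      exact this.symm
    have hqan : ∀ s ∈ closedBall (0 : ℂ) R, AnalyticAt ℂ q s := by
      intro s hs
      rcases eq_or_ne s (z a) with rfl | hne
      · obtain ⟨p, hp⟩ := hΦ _ hzaR
        exact ⟨_, hp.has_fpower_series_dslope_fslope⟩
      · refine ((hΦ s hs).div (analyticAt_id.sub analyticAt_const) (sub_ne_zero.mpr hne)).congr ?_
        filter_upwards [isOpen_ne.mem_nhds hne] with u hu
        show Φ u / (u - z a) = q u
        rw [hfac, mul_div_cancel_left₀ _ (sub_ne_zero.mpr hu)]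
    have hqord : ∀ w ∈ ball (0 : ℂ) (R / 2),
        (((I.filter fun i => z i = w).card : ℕ) : ℕ∞) ≤ analyticOrderAt q w := by
      intro w hw
      have hwR : w ∈ closedBall (0 : ℂ) R :=
        ball_subset_closedBall (ball_subset_ball (by linarith) hw)
      have h := hord w hw
      have hm : analyticOrderAt Φ w
          = analyticOrderAt (fun s => s - z a) w + analyticOrderAt q w := by
        rw [← analyticOrderAt_mul (f := fun s => s - z a) (g := q)
          (analyticAt_id.sub analyticAt_const) (hqan w hwR)]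
        exact analyticOrderAt_congr (Eventually.of_forall hfac)
      rw [hm, Finset.filter_insert] at h
      by_cases hwa : z a = w
      · rw [if_pos hwa, Finset.card_insert_of_notMem (by simp [ha]), hwa] at h
        rw [show analyticOrderAt (fun s => s - w) w = 1 by
          exact (analyticAt_id (𝕜 := ℂ) (z := w)).analyticOrderAt_sub_eq_one_of_deriv_ne_zero
            (by simp), Nat.cast_add, Nat.cast_one, add_comm] at h
        exact (WithTop.add_le_add_iff_left ENat.one_ne_top).mp h
      · rw [if_neg hwa] at h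
        rwa [show analyticOrderAt (fun s => s - z a) w = 0 from
          (analyticAt_id.sub analyticAt_const).analyticOrderAt_eq_zero.mpr
            (sub_ne_zero.mpr (Ne.symm hwa)), zero_add] at h
    have hqM : ∀ s ∈ sphere (0 : ℂ) R, ‖q s‖ ≤ M * (2 / R) := by
      intro s hs
      have hge : R / 2 ≤ ‖s - z a‖ := by
        have h1 := norm_sub_norm_le s (z a)
        rw [mem_sphere_zero_iff_norm] at hs
        rw [mem_ball_zero_iff] at hza
        linarith
      have h1 := hM s hs
      rw [hfac, norm_mul] at h1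
      rw [mul_div_assoc', le_div_iff₀ hR]
      nlinarith [norm_nonneg (q s)]
    intro s hs
    have := ih (fun i hi => hz i (Finset.mem_insert_of_mem hi)) hqan hqord hqM s hs
    rw [hfac, norm_mul, Finset.card_insert_of_notMem ha, Finset.prod_insert ha]
    calc ‖s - z a‖ * ‖q s‖
        ≤ ‖s - z a‖ * (M * (2 / R) * (2 / R) ^ I.card * ∏ i ∈ I, ‖s - z i‖) := by gcongr
      _ = _ := by ring

/-- `n ≤` the order of vanishing if the function is `O(|z|^n)`. -/
theorem le_analyticOrderAt_of_norm_le {Φ : ℂ → ℂ} (hΦ : AnalyticAt ℂ Φ 0) {n : ℕ} {c : ℝ}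
    (h : ∀ᶠ z in 𝓝 (0 : ℂ), ‖Φ z‖ ≤ c * ‖z‖ ^ n) : (n : ℕ∞) ≤ analyticOrderAt Φ 0 := by
  by_contra hlt
  rw [not_le] at hlt
  obtain ⟨k, hk⟩ := ENat.ne_top_iff_exists.mp (ne_top_of_lt hlt)
  rw [← hk, Nat.cast_lt] at hlt
  obtain ⟨g, hg, hg0, hgeq⟩ := hΦ.analyticOrderAt_eq_natCast.mp hk.symm
  obtain ⟨d, hd⟩ : ∃ d, n = k + (d + 1) := ⟨n - k - 1, by omega⟩
  subst hd
  have hlim : Tendsto g (𝓝[≠] 0) (𝓝 0) := by
    refine squeeze_zero_norm' (a := fun z => c * ‖z‖ ^ (d + 1)) ?_ ?_
    · filter_upwards [eventually_nhdsWithin_of_eventually_nhds h,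
        eventually_nhdsWithin_of_eventually_nhds hgeq, self_mem_nhdsWithin] with z h1 h2 h3
      rw [h2, sub_zero, smul_eq_mul, norm_mul, norm_pow, pow_add, ← mul_assoc, mul_comm c,
        mul_assoc] at h1
      exact le_of_mul_le_mul_left h1 (pow_pos (norm_pos_iff.mpr h3) k)
    · refine (Continuous.tendsto' (continuous_const.mul (continuous_norm.pow _)) _ _ ?_).mono_left
        nhdsWithin_le_nhds
      simp
  exact hg0 (tendsto_nhds_unique (hg.continuousAt.tendsto.mono_left nhdsWithin_le_nhds) hlim)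

variable (A : Divisor ℂ F)

/-- A fixed basis of `L(A)`. -/
def basisL : Module.Basis (Fin (ell ℂ F A)) ℂ (riemannRochSpace A) :=
  Module.finBasis ℂ (riemannRochSpace A)

/-- The function with the given coordinates in a basis of `L(A)`. -/
def combo (v : Fin (ell ℂ F A) → ℂ) : F :=
  (basisL A).equivFun.symm v

theorem combo_mem (v : Fin (ell ℂ F A) → ℂ) : combo A v ∈ riemannRochSpace A :=
  ((basisL A).equivFun.symm v).2

theorem combo_eq_sum (v : Fin (ell ℂ F A) → ℂ) :
    combo A v = ∑ i, algebraMap ℂ F (v i) * (basisL A i : F) := by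
  simp [combo, Module.Basis.equivFun_symm_apply, Algebra.smul_def]

theorem combo_smul (a : ℂ) (v : Fin (ell ℂ F A) → ℂ) : combo A (a • v) = a • combo A v := by
  simp [combo]

theorem combo_ne_zero {v : Fin (ell ℂ F A) → ℂ} (hv : v ≠ 0) : combo A v ≠ 0 := fun h =>
  hv ((LinearEquiv.map_eq_zero_iff _).mp (Subtype.ext h))

theorem exists_combo_eq {f : F} (hf : f ∈ riemannRochSpace A) : ∃ v, combo A v = f :=
  ⟨(basisL A).equivFun ⟨f, hf⟩, by simp [combo]⟩

/-- Pairs of a tuple of places and a function in `L(A)` vanishing on the tuple. -/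
def incidence (ι : Type*) [Fintype ι] :
    Set ((ι → Place ℂ F) × sphere (0 : Fin (ell ℂ F A) → ℂ) 1) :=
  {p | 0 ≤ divOf (K := ℂ) (combo A p.2.1) + A - divT p.1}

theorem ne_zero_of_mem_sphere' (v : sphere (0 : Fin (ell ℂ F A) → ℂ) 1) : (v.1 : _) ≠ 0 :=
  ne_of_mem_sphere v.2 one_ne_zero

theorem isClosed_incidence (ι : Type*) [Fintype ι] : IsClosed (incidence A ι) := by
  classical
  refine isClosed_iff_clusterPt.mpr fun p hp => ?_
  intro P
  set f := combo A p.2.1 with hf
  set m := (Finset.univ.filter fun i => p.1 i = P).card with hm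
  rw [Finsupp.coe_zero, Pi.zero_apply, Finsupp.sub_apply, Finsupp.add_apply, divOf_apply,
    divT_apply, sub_nonneg, ← hm]
  obtain ⟨C, rfl⟩ := exists_chart P
  have h0 := mem_ball_self (x := (0 : ℂ)) C.r_pos
  have hfne : f ≠ 0 := combo_ne_zero A (ne_zero_of_mem_sphere' A p.2)
  -- a disc on which `A` is supported only at the centre
  obtain ⟨R, hR, hRsub⟩ : ∃ R > 0, ∀ s ∈ closedBall (0 : ℂ) R,
      s ∈ ball (0 : ℂ) C.r ∧ (s ≠ 0 → A (C.σ s) = 0) := by
    have hS : ∀ᶠ s in 𝓝 (0 : ℂ), s ∈ ball (0 : ℂ) C.r ∧ (s ≠ 0 → A (C.σ s) = 0) := by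
      have hopen : (↑(A.support.erase (C.σ 0)) : Set (Place ℂ F))ᶜ ∈ 𝓝 (C.σ 0) :=
        (A.support.erase (C.σ 0)).finite_toSet.isClosed.isOpen_compl.mem_nhds (by simp)
      filter_upwards [isOpen_ball.mem_nhds h0, (C.continuousAt h0).preimage_mem_nhds hopen]
        with s hs hsA
      refine ⟨hs, fun hne => Finsupp.notMem_support_iff.mp fun hmem => hsA ?_⟩
      exact Finset.mem_erase.mpr ⟨fun h => hne (C.injOn hs h0 h), hmem⟩
    obtain ⟨ε, hε, hεS⟩ := Metric.eventually_nhds_iff.mp hS
    exact ⟨ε / 2, by linarith,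
      fun s hs => hεS (lt_of_le_of_lt (mem_closedBall.mp hs) (by linarith))⟩
  set a := A (C.σ 0) with ha
  have ht0 : C.t ≠ 0 := fun e => C.D_t_ne (by rw [e, map_zero])
  have hordt : ∀ s ∈ closedBall (0 : ℂ) R, (C.σ s).ord (C.t ^ a) = A (C.σ s) := by
    intro s hs
    obtain ⟨hs1, hs2⟩ := hRsub s hs
    rw [Place.ord_zpow]
    rcases eq_or_ne s 0 with rfl | hne
    · have h1 := C.ord_t_sub hs1
      rw [map_zero, sub_zero] at h1
      rw [h1, mul_one]
    · rw [hs2 hne, (val_ne_zero_iff (C.mem_t hs1) ht0).mp (by rw [C.val_t hs1]; exact hne),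
        mul_zero]
  have hreg : ∀ g ∈ riemannRochSpace A, ∀ s ∈ closedBall (0 : ℂ) R,
      g * C.t ^ a ∈ (C.σ s).toValuationSubring := by
    intro g hg s hs
    rcases eq_or_ne g 0 with rfl | hg0
    · simp
    refine FFBasic.mem_of_ord_nonneg _ ?_
    have := ((mem_riemannRochSpace_iff.1 hg) (C.σ s)).resolve_left hg0
    rw [(C.σ s).ord_mul hg0 (zpow_ne_zero _ ht0), hordt s hs]
    omega
  set b := basisL A
  set φ : Fin (ell ℂ F A) → ℂ → ℂ := fun j s => val (C.σ s) ((b j : F) * C.t ^ a) with hφ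
  set Φ : (Fin (ell ℂ F A) → ℂ) → ℂ → ℂ := fun v s => val (C.σ s) (combo A v * C.t ^ a) with hΦdef
  have hΦsum : ∀ v, ∀ s ∈ closedBall (0 : ℂ) R, Φ v s = ∑ j, v j * φ j s := by
    intro v s hs
    have hterm : ∀ j, algebraMap ℂ F (v j) * ((b j : F) * C.t ^ a) ∈ (C.σ s).toValuationSubring :=
      fun j => mul_mem ((C.σ s).algebraMap_mem' _) (hreg _ (b j).2 s hs)
    have hsum : ∀ J : Finset (Fin (ell ℂ F A)),
        val (C.σ s) (∑ j ∈ J, algebraMap ℂ F (v j) * ((b j : F) * C.t ^ a))
          = ∑ j ∈ J, v j * φ j s := by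
      intro J
      induction J using Finset.induction_on with
      | empty => simp
      | insert j J hj ih =>
        rw [Finset.sum_insert hj, Finset.sum_insert hj,
          val_add (hterm j) (sum_mem fun j _ => hterm j),
          ih, val_mul ((C.σ s).algebraMap_mem' _) (hreg _ (b j).2 s hs), val_algebraMap]
    simp only [Φ, combo_eq_sum, Finset.sum_mul, mul_assoc]
    exact hsum Finset.univ
  have hΦan : ∀ v, ∀ s ∈ closedBall (0 : ℂ) R, AnalyticAt ℂ (Φ v) s := fun v s hs =>
    C.analyticAt (hRsub s hs).1 (hreg _ (combo_mem A v) s hs)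
  have hΦord : ∀ v, v ≠ 0 → ∀ s ∈ closedBall (0 : ℂ) R, ∃ n : ℕ, analyticOrderAt (Φ v) s = n ∧
      (n : ℤ) = (C.σ s).ord (combo A v) + A (C.σ s) := by
    intro v hv s hs
    have hne : combo A v * C.t ^ a ≠ 0 := mul_ne_zero (combo_ne_zero A hv) (zpow_ne_zero _ ht0)
    have h1 := C.order _ hne s (hRsub s hs).1
    change meromorphicOrderAt (Φ v) s = _ at h1
    rw [(hΦan v s hs).meromorphicOrderAt_eq,
      (C.σ s).ord_mul (combo_ne_zero A hv) (zpow_ne_zero _ ht0), hordt s hs] at h1
    cases h : analyticOrderAt (Φ v) s with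
    | top =>
      rw [h] at h1
      exact absurd h1 (by rw [ENat.map_top]; exact WithTop.top_ne_coe)
    | coe n => simp [h] at h1; exact ⟨n, rfl, by exact_mod_cast h1⟩
  -- bound on the circle
  obtain ⟨B, hB⟩ : ∃ B : ℝ, ∀ v, ∀ s ∈ sphere (0 : ℂ) R, ‖Φ v s‖ ≤ ‖v‖ * B := by
    have hφc : ∀ j, ∃ B : ℝ, ∀ s ∈ sphere (0 : ℂ) R, ‖φ j s‖ ≤ B := fun j =>
      (isCompact_sphere (0 : ℂ) R).exists_bound_of_continuousOn fun s hs =>
        (C.analyticAt (hRsub s (sphere_subset_closedBall hs)).1
          (hreg _ (b j).2 s (sphere_subset_closedBall hs))).continuousAt.continuousWithinAt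
    choose B hB using hφc
    refine ⟨∑ j, B j, fun v s hs => ?_⟩
    rw [hΦsum v s (sphere_subset_closedBall hs), Finset.mul_sum]
    refine (norm_sum_le _ _).trans (Finset.sum_le_sum fun j _ => ?_)
    rw [norm_mul]
    exact mul_le_mul (norm_le_pi_norm v j) (hB j s hs) (norm_nonneg _) (norm_nonneg _)
  set I := Finset.univ.filter fun i => p.1 i = C.σ 0 with hI
  set z : (ι → Place ℂ F) → ι → ℂ := fun E i => val (E i) C.t with hz
  set c := B * (2 / R) ^ I.card
  -- the bound on nearby points of the incidence set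
  have hbound : ∀ᶠ q in 𝓝 p ⊓ 𝓟 (incidence A ι), ∀ s ∈ closedBall (0 : ℂ) R,
      ‖Φ q.2.1 s‖ ≤ c * ∏ i ∈ I, ‖s - z q.1 i‖ := by
    have hI' : ∀ᶠ q in 𝓝 p, ∀ i ∈ I, q.1 i ∈ C.σ '' ball 0 (R / 2) := by
      refine (Filter.eventually_all_finset I).mpr fun i hi => ?_
      have hcont : ContinuousAt
          (fun q : (ι → Place ℂ F) × sphere (0 : Fin (ell ℂ F A) → ℂ) 1 => q.1 i) p :=
        ((continuous_apply i).comp continuous_fst).continuousAt
      exact hcont.preimage_mem_nhds
        ((Finset.mem_filter.mp hi).2.symm ▸ C.image_mem_nhds h0 (ball_mem_nhds 0 (by linarith)))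
    filter_upwards [hI'.filter_mono inf_le_left,
      (eventually_mem_set.mpr (mem_principal_self _)).filter_mono inf_le_right] with q hq hqS
    have hzq : ∀ i ∈ I, z q.1 i ∈ ball (0 : ℂ) (R / 2) ∧ C.σ (z q.1 i) = q.1 i := by
      intro i hi
      obtain ⟨u, hu, huq⟩ := hq i hi
      have : z q.1 i = u := by
        rw [hz]
        show val (q.1 i) C.t = u
        rw [← huq, C.val_t (hRsub u (ball_subset_closedBall (ball_subset_ball (by linarith) hu))).1]
      rw [this]
      exact ⟨hu, huq⟩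
    intro s hs
    have hnorm : ‖q.2.1‖ = 1 := mem_sphere_zero_iff_norm.mp q.2.2
    refine norm_le_prod_of_zeros hR I (z q.1) (fun i hi => (hzq i hi).1) (hΦan _) ?_
      (fun u hu => (hB _ u hu).trans_eq (by rw [hnorm, one_mul])) s hs
    intro w hw
    have hwR : w ∈ closedBall (0 : ℂ) R :=
      ball_subset_closedBall (ball_subset_ball (by linarith) hw)
    obtain ⟨n, hn, hn'⟩ := hΦord _ (ne_zero_of_mem_sphere' A q.2) w hwR
    rw [hn, Nat.cast_le]
    have h2 := hqS (C.σ w)
    simp only [Finsupp.coe_zero, Pi.zero_apply, Finsupp.sub_apply, Finsupp.add_apply, divOf_apply,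
      divT_apply] at h2
    have h3 : (I.filter fun i => z q.1 i = w).card
        ≤ (Finset.univ.filter fun i => q.1 i = C.σ w).card := by
      refine Finset.card_le_card fun i hi => ?_
      obtain ⟨hiI, hiw⟩ := Finset.mem_filter.mp hi
      exact Finset.mem_filter.mpr ⟨Finset.mem_univ _, by rw [← hiw]; exact (hzq i hiI).2.symm⟩
    omega
  have : (𝓝 p ⊓ 𝓟 (incidence A ι)).NeBot := hp
  have hfinal : ∀ s ∈ closedBall (0 : ℂ) R, ‖Φ p.2.1 s‖ ≤ c * ‖s‖ ^ I.card := by
    intro s hs
    have hl1 : Tendsto (fun q : (ι → Place ℂ F) × sphere (0 : Fin (ell ℂ F A) → ℂ) 1 =>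
        ‖Φ q.2.1 s‖) (𝓝 p) (𝓝 ‖Φ p.2.1 s‖) := by
      simp only [hΦsum _ s hs]
      exact (continuous_norm.comp (continuous_finsetSum _ fun j _ =>
        ((continuous_apply j).comp (continuous_subtype_val.comp continuous_snd)).mul
          continuous_const)).tendsto p
    have hl2 : Tendsto (fun q : (ι → Place ℂ F) × sphere (0 : Fin (ell ℂ F A) → ℂ) 1 =>
        c * ∏ i ∈ I, ‖s - z q.1 i‖) (𝓝 p) (𝓝 (c * ‖s‖ ^ I.card)) := by
      rw [← Finset.prod_const]
      refine (tendsto_finsetProd I fun i hi => ?_).const_mul c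
      have hpi : p.1 i = C.σ 0 := (Finset.mem_filter.mp hi).2
      have hv : ContinuousAt (fun Q : Place ℂ F => val Q C.t) (p.1 i) :=
        continuousAt_val (by rw [hpi]; exact C.mem_t h0)
      have hzi : Tendsto (fun q : (ι → Place ℂ F) × sphere (0 : Fin (ell ℂ F A) → ℂ) 1 =>
          z q.1 i) (𝓝 p) (𝓝 0) := by
        have := hv.tendsto.comp (((continuous_apply i).comp continuous_fst).tendsto p)
        rwa [hpi, C.val_t h0] at this
      simpa using (tendsto_const_nhds.sub hzi).norm
    exact le_of_tendsto_of_tendsto (hl1.mono_left inf_le_left) (hl2.mono_left inf_le_left)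
      (hbound.mono fun q hq => hq s hs)
  obtain ⟨n, hn, hn'⟩ := hΦord _ (ne_zero_of_mem_sphere' A p.2) 0 (mem_closedBall_self hR.le)
  have := le_analyticOrderAt_of_norm_le (hΦan _ 0 (mem_closedBall_self hR.le))
    (Filter.Eventually.mono (p := fun s => s ∈ closedBall (0 : ℂ) R)
      (closedBall_mem_nhds (0 : ℂ) hR) hfinal)
  rw [hn, Nat.cast_le] at this
  rw [← hf] at hn'
  rw [← ha] at hn'
  omega

/-- Linear equivalence of tuples is witnessed by two functions with a common residual divisor. -/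
theorem linEquivalent_divT_iff {ι κ : Type*} [Fintype ι] [Fintype κ] (O : Place ℂ F)
    (hκ : Fintype.card κ = genusFF ℂ F) (E E' : ι → Place ℂ F) :
    let A := Finsupp.single O ((Fintype.card ι : ℤ) + Fintype.card κ)
    LinEquivalent (divT E) (divT E') ↔ ∃ (R : κ → Place ℂ F)
      (v w : sphere (0 : Fin (ell ℂ F A) → ℂ) 1),
      (Sum.elim E R, v) ∈ incidence A (ι ⊕ κ) ∧ (Sum.elim E' R, w) ∈ incidence A (ι ⊕ κ) := by
  intro A
  have hdegA : Divisor.degree A = (Fintype.card ι : ℤ) + Fintype.card κ := by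
    simp [A, IsCurveOver.deg_eq_one_of_isAlgClosed]
  have hsphere : ∀ f ∈ riemannRochSpace A, f ≠ 0 → ∃ (v : sphere (0 : Fin (ell ℂ F A) → ℂ) 1)
      (a : ℂ), a ≠ 0 ∧ combo A v.1 = a • f := by
    intro f hf hf0
    obtain ⟨v, hv⟩ := exists_combo_eq A hf
    have hv0 : v ≠ 0 := fun e => hf0 (by rw [← hv, e, combo, map_zero]; rfl)
    refine ⟨⟨(‖v‖ : ℂ)⁻¹ • v, ?_⟩, (‖v‖ : ℂ)⁻¹, by simpa using hv0, by rw [combo_smul, hv]⟩
    simp [norm_smul, inv_mul_cancel₀ (norm_ne_zero_iff.mpr hv0)]
  have hdivsmul : ∀ (a : ℂ) (f : F), a ≠ 0 → f ≠ 0 → divOf (K := ℂ) (a • f) = divOf f := by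
    intro a f ha hf
    refine Finsupp.ext fun P => ?_
    rw [divOf_apply, divOf_apply, Algebra.smul_def,
      P.ord_mul (by simpa using ha) hf, FFBasic.ord_algebraMap, zero_add]
  have hexact : ∀ (E : ι → Place ℂ F) (R : κ → Place ℂ F)
      (v : sphere (0 : Fin (ell ℂ F A) → ℂ) 1),
      (Sum.elim E R, v) ∈ incidence A (ι ⊕ κ) → divOf (combo A v.1) + A = divT E + divT R := by
    intro E R v h
    have h1 : divT (Sum.elim E R) ≤ divOf (combo A v.1) + A := sub_nonneg.mp h
    have h2 := FFRiemannRoch.eq_of_le_of_degree_le h1 (by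
      rw [map_add, degree_divOf, hdegA, degree_divT, Fintype.card_sum]
      push_cast
      omega)
    rw [← h2, divT_sumElim]
  constructor
  · intro h
    obtain ⟨h', hh'0, hh'⟩ := linEquivalent_iff.mp h
    have hl : 0 < ell ℂ F (A - divT E) := by
      have := FFRiemannRoch.ell_ge (A - divT E)
      rw [map_sub, hdegA, degree_divT, hκ] at this
      omega
    obtain ⟨f, hf, hf0⟩ := FFRiemannRoch.exists_ne_zero_of_ell_pos hl
    have heff : 0 ≤ divOf f + (A - divT E) :=
      (FFRiemannRoch.mem_riemannRochSpace_iff_divOf hf0).mp hf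
    obtain ⟨R, hR⟩ := exists_tuple heff IsCurveOver.deg_eq_one_of_isAlgClosed κ (by
      rw [map_add, map_sub, degree_divOf, hdegA, degree_divT]; omega)
    have hfA : f ∈ riemannRochSpace A := by
      rw [FFRiemannRoch.mem_riemannRochSpace_iff_divOf hf0]
      exact heff.trans (add_le_add le_rfl (sub_le_self A (divT_nonneg E)))
    set g := f / h' with hg
    have hg0 : g ≠ 0 := div_ne_zero hf0 hh'0
    have hdg : divOf (K := ℂ) g + A = divT E' + divT R := by
      rw [hg, div_eq_mul_inv, divOf_mul hf0 (inv_ne_zero hh'0), FFRiemannRoch.divOf_inv, hR, hh']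
      abel
    have hgA : g ∈ riemannRochSpace A := by
      rw [FFRiemannRoch.mem_riemannRochSpace_iff_divOf hg0, hdg]
      exact add_nonneg (divT_nonneg _) (divT_nonneg _)
    obtain ⟨v, a, ha, hv⟩ := hsphere f hfA hf0
    obtain ⟨w, a', ha', hw⟩ := hsphere g hgA hg0
    refine ⟨R, v, w, ?_, ?_⟩
    · show 0 ≤ divOf (combo A v.1) + A - divT (Sum.elim E R)
      rw [hv, hdivsmul a f ha hf0, divT_sumElim, hR, sub_nonneg]
      exact le_of_eq (by abel)
    · show 0 ≤ divOf (combo A w.1) + A - divT (Sum.elim E' R)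
      rw [hw, hdivsmul a' g ha' hg0, divT_sumElim, hdg, sub_self]
  · rintro ⟨R, v, w, hv, hw⟩
    have hv' := hexact E R v hv
    have hw' := hexact E' R w hw
    have hf0 := combo_ne_zero A (ne_zero_of_mem_sphere' A v)
    have hg0 := combo_ne_zero A (ne_zero_of_mem_sphere' A w)
    refine LinEquivalent.of_divOf (f := combo A v.1 / combo A w.1) (div_ne_zero hf0 hg0) ?_
    rw [div_eq_mul_inv, divOf_mul hf0 (inv_ne_zero hg0), FFRiemannRoch.divOf_inv]
    have e1 : divOf (combo A v.1) = divT E + divT R - A := eq_sub_of_add_eq hv'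
    have e2 : divOf (combo A w.1) = divT E' + divT R - A := eq_sub_of_add_eq hw'
    rw [e1, e2]
    abel

/-- Linear equivalence of effective divisors is closed. -/
theorem isClosed_linEquivalent (ι : Type*) [Fintype ι] :
    IsClosed {p : (ι → Place ℂ F) × (ι → Place ℂ F) | LinEquivalent (divT p.1) (divT p.2)} := by
  obtain ⟨O⟩ := FFBasic.nonempty_place (K := ℂ) (F := F)
  set κ := Fin (genusFF ℂ F)
  set A := Finsupp.single O ((Fintype.card ι : ℤ) + Fintype.card κ)
  set S := sphere (0 : Fin (ell ℂ F A) → ℂ) 1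
  set W : Set (((ι → Place ℂ F) × (ι → Place ℂ F)) × ((κ → Place ℂ F) × S × S)) :=
    {q | (Sum.elim q.1.1 q.2.1, q.2.2.1) ∈ incidence A (ι ⊕ κ) ∧
      (Sum.elim q.1.2 q.2.1, q.2.2.2) ∈ incidence A (ι ⊕ κ)} with hW
  have hWc : IsClosed W := by
    refine IsClosed.inter ((isClosed_incidence A _).preimage ?_)
      ((isClosed_incidence A _).preimage ?_)
    · refine Continuous.prodMk (continuous_pi fun i => ?_) (by fun_prop)
      cases i <;> simp only [Sum.elim_inl, Sum.elim_inr] <;> fun_prop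
    · refine Continuous.prodMk (continuous_pi fun i => ?_) (by fun_prop)
      cases i <;> simp only [Sum.elim_inl, Sum.elim_inr] <;> fun_prop
  have : {p : (ι → Place ℂ F) × (ι → Place ℂ F) | LinEquivalent (divT p.1) (divT p.2)}
      = Prod.fst '' W := by
    ext p
    refine (linEquivalent_divT_iff (κ := κ) O (Fintype.card_fin _) p.1 p.2).trans ?_
    constructor
    · rintro ⟨R, v, w, h1, h2⟩
      exact ⟨(p, R, v, w), ⟨h1, h2⟩, rfl⟩
    · rintro ⟨⟨p', R, v, w⟩, ⟨h1, h2⟩, rfl⟩
      exact ⟨R, v, w, h1, h2⟩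
  rw [this]
  exact (hWc.isCompact.image continuous_fst).isClosed

end FLTAgent.Jacobian
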