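import Fermat.Agent.FFBasic.Basic
import Fermat.Agent.FFDifferential.Expansion
import Fermat.Agent.FFRiemannRoch.Local

/-!
# Evaluation at places

The value `val P f` of a function at a place over an algebraically closed field, its extension
`valHat P f` to the projective line, their algebraic rules, and injectivity of
`P ↦ valHat P` (`valHat_injective`).
-/

set_option autoImplicit false

noncomputable section

open AlgebraicCurve IsLocalRing
open FLTAgent.FFRiemannRoch (ord_nonneg_iff)

namespace FLTAgent.Jacobian

variable {K F : Type*} [Field K] [Field F] [Algebra K F]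

variable [IsAlgClosed K] [IsCurveOver K F]

open scoped Classical in
/-- The value of `f` at the place `P` (`0` at poles). -/
def val (P : Place K F) (f : F) : K :=
  if h : f ∈ P.toValuationSubring then FFDifferential.resEval P ⟨f, h⟩ else 0

open scoped Classical in
/-- The value of `f` at the place `P`, in the projective line. -/
def valHat (P : Place K F) (f : F) : OnePoint K :=
  if f ∈ P.toValuationSubring then OnePoint.some (val P f) else OnePoint.infty

theorem val_of_mem {P : Place K F} {f : F} (h : f ∈ P.toValuationSubring) :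
    val P f = FFDifferential.resEval P ⟨f, h⟩ := dif_pos h

theorem val_of_notMem {P : Place K F} {f : F} (h : f ∉ P.toValuationSubring) : val P f = 0 :=
  dif_neg h

theorem valHat_of_mem {P : Place K F} {f : F} (h : f ∈ P.toValuationSubring) :
    valHat P f = OnePoint.some (val P f) := if_pos h

theorem valHat_of_notMem {P : Place K F} {f : F} (h : f ∉ P.toValuationSubring) :
    valHat P f = OnePoint.infty := if_neg h

theorem valHat_eq_infty_iff {P : Place K F} {f : F} :
    valHat P f = OnePoint.infty ↔ f ∉ P.toValuationSubring := by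
  by_cases h : f ∈ P.toValuationSubring
  · simp [valHat_of_mem h, h]
  · simp [valHat_of_notMem h, h]

theorem valHat_eq_coe_iff {P : Place K F} {f : F} {c : K} :
    valHat P f = OnePoint.some c ↔ f ∈ P.toValuationSubring ∧ val P f = c := by
  by_cases h : f ∈ P.toValuationSubring
  · simp [valHat_of_mem h, h]
  · simp [valHat_of_notMem h, h]

@[simp] theorem val_algebraMap (P : Place K F) (c : K) : val P (algebraMap K F c) = c := by
  rw [val_of_mem (P.algebraMap_mem' c)]
  exact FFDifferential.resEval_algebraMap P c

@[simp] theorem val_zero (P : Place K F) : val P (0 : F) = 0 := by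
  simpa using val_algebraMap P (0 : K)

/-- The value of `1` at a place is `1`. -/
@[simp] theorem val_one (P : Place K F) : val P (1 : F) = 1 := by
  simpa using val_algebraMap P (1 : K)

theorem val_add {P : Place K F} {f g : F} (hf : f ∈ P.toValuationSubring)
    (hg : g ∈ P.toValuationSubring) : val P (f + g) = val P f + val P g := by
  rw [val_of_mem hf, val_of_mem hg, val_of_mem (add_mem hf hg), ← map_add]
  rfl

/-- The value at a place is multiplicative. -/
theorem val_mul {P : Place K F} {f g : F} (hf : f ∈ P.toValuationSubring)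
    (hg : g ∈ P.toValuationSubring) : val P (f * g) = val P f * val P g := by
  rw [val_of_mem hf, val_of_mem hg, val_of_mem (mul_mem hf hg), ← map_mul]
  rfl

theorem val_neg {P : Place K F} {f : F} (hf : f ∈ P.toValuationSubring) :
    val P (-f) = -val P f := by
  rw [val_of_mem hf, val_of_mem (neg_mem hf), ← map_neg]
  rfl

theorem val_sub {P : Place K F} {f g : F} (hf : f ∈ P.toValuationSubring)
    (hg : g ∈ P.toValuationSubring) : val P (f - g) = val P f - val P g := by
  rw [sub_eq_add_neg, val_add hf (neg_mem hg), val_neg hg, sub_eq_add_neg]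

theorem val_eq_zero_iff {P : Place K F} {f : F} (hf : f ∈ P.toValuationSubring) (h0 : f ≠ 0) :
    val P f = 0 ↔ 0 < P.ord f := by
  rw [val_of_mem hf, FFDifferential.resEval_eq_zero_iff, mem_maximalIdeal, mem_nonunits_iff,
    ← P.adicValuation_coe_eq_one_iff]
  have h1 := P.adicValuation_le_one_of_mem hf
  rw [P.adicValuation_eq_exp_neg_ord h0, ← WithZero.exp_zero, WithZero.exp_le_exp] at h1
  rw [P.adicValuation_eq_exp_neg_ord h0, ← WithZero.exp_zero, WithZero.exp_inj]
  omega

theorem val_ne_zero_iff {P : Place K F} {f : F} (hf : f ∈ P.toValuationSubring) (h0 : f ≠ 0) :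
    val P f ≠ 0 ↔ P.ord f = 0 := by
  have := (ord_nonneg_iff P h0).mpr hf
  rw [Ne, val_eq_zero_iff hf h0]
  omega

omit [IsAlgClosed K] [IsCurveOver K F] in
theorem notMem_iff_ord_neg {P : Place K F} {f : F} :
    f ∉ P.toValuationSubring ↔ P.ord f < 0 := by
  rcases eq_or_ne f 0 with rfl | h0
  · simp
  · rw [← ord_nonneg_iff P h0, not_le]

theorem ord_sub_val_pos {P : Place K F} {f : F} (hf : f ∈ P.toValuationSubring)
    (hne : f - algebraMap K F (val P f) ≠ 0) : 0 < P.ord (f - algebraMap K F (val P f)) := by
  rw [← val_eq_zero_iff (sub_mem hf (P.algebraMap_mem' _)) hne,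
    val_sub hf (P.algebraMap_mem' _), val_algebraMap, sub_self]

theorem val_inv {P : Place K F} {f : F} (hf : f ∈ P.toValuationSubring) (h : val P f ≠ 0) :
    f⁻¹ ∈ P.toValuationSubring ∧ val P f⁻¹ = (val P f)⁻¹ := by
  have h0 : f ≠ 0 := fun e => h (by rw [e, val_zero])
  have hord := (val_ne_zero_iff hf h0).mp h
  have hi : f⁻¹ ∈ P.toValuationSubring := FFBasic.mem_of_ord_nonneg _ (by rw [P.ord_inv, hord]; rfl)
  refine ⟨hi, eq_inv_of_mul_eq_one_left ?_⟩
  rw [← val_mul hi hf, inv_mul_cancel₀ h0, val_one]

theorem val_pow {P : Place K F} {f : F} (hf : f ∈ P.toValuationSubring) (n : ℕ) :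
    val P (f ^ n) = val P f ^ n := by
  induction n with
  | zero => simp
  | succ n ih => rw [pow_succ, pow_succ, val_mul (pow_mem hf n) hf, ih]

/-- Evaluation at `P` commutes with polynomials in a function regular at `P`. -/
theorem val_aeval {P : Place K F} {f : F} (hf : f ∈ P.toValuationSubring) (p : Polynomial K) :
    Polynomial.aeval f p ∈ P.toValuationSubring ∧
      val P (Polynomial.aeval f p) = p.eval (val P f) := by
  induction p using Polynomial.induction_on with
  | C a => simp [P.algebraMap_mem' a]
  | add p q hp hq => simp [add_mem hp.1 hq.1, val_add hp.1 hq.1, hp.2, hq.2]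
  | monomial n a _ =>
    have h := mul_mem (P.algebraMap_mem' a) (pow_mem hf (n + 1))
    simp only [map_mul, Polynomial.aeval_C, map_pow, Polynomial.aeval_X, Polynomial.eval_mul,
      Polynomial.eval_C, Polynomial.eval_pow, Polynomial.eval_X]
    refine ⟨h, ?_⟩
    rw [val_mul (P.algebraMap_mem' a) (pow_mem hf _), val_algebraMap, val_pow hf]

theorem valHat_injective : Function.Injective (valHat (K := K) (F := F)) := by
  intro P Q h
  refine Place.ext (SetLike.ext fun f => ?_)
  rw [← not_iff_not, ← valHat_eq_infty_iff, ← valHat_eq_infty_iff, h]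

end FLTAgent.Jacobian
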