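import Fermat.Agent.Jacobian.Chart
import Mathlib.Topology.Compactification.OnePoint.Basic

/-!
# The topology on the places over `ℂ`

The topology induced by the values in the Riemann sphere makes the places a compact Hausdorff
space in which charts are local homeomorphisms. Also defines the coefficient `coef` and the
expression `diff` of a differential in a chart, and proves a connectedness criterion
(`preconnectedSpace_place`).
-/

set_option autoImplicit false
set_option linter.unusedSectionVars false

noncomputable section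

open Filter Topology Metric AlgebraicCurve
open FLTAgent.FFBasic (IsFunctionField)
open scoped OnePoint

namespace FLTAgent.Jacobian

variable {F : Type*} [Field F] [Algebra ℂ F] [IsCurveOver ℂ F] [IsFunctionField ℂ F]

/-- Inversion on the Riemann sphere. -/
def invHat : OnePoint ℂ → OnePoint ℂ
  | none => OnePoint.some 0
  | Option.some x => if x = 0 then OnePoint.infty else OnePoint.some x⁻¹

theorem invHat_infty : invHat OnePoint.infty = OnePoint.some 0 := rfl

theorem invHat_coe (x : ℂ) :
    invHat (OnePoint.some x) = if x = 0 then OnePoint.infty else OnePoint.some x⁻¹ := rfl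

theorem tendsto_coe_cobounded {α : Type*} {l : Filter α} {f : α → ℂ}
    (h : Tendsto f l (Bornology.cobounded ℂ)) :
    Tendsto (fun a => (OnePoint.some (f a) : OnePoint ℂ)) l (𝓝 OnePoint.infty) := by
  refine (OnePoint.tendsto_coe_infty (X := ℂ)).comp ?_
  rw [Filter.coclosedCompact_eq_cocompact, ← Metric.cobounded_eq_cocompact]
  exact h

theorem continuous_invHat : Continuous invHat := by
  rw [continuous_iff_continuousAt]
  intro p
  induction p using OnePoint.rec with
  | infty =>
    rw [OnePoint.continuousAt_infty']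
    have h : Tendsto (fun x : ℂ => (OnePoint.some x⁻¹ : OnePoint ℂ)) (Bornology.cobounded ℂ)
        (𝓝 (OnePoint.some 0)) :=
      (OnePoint.continuous_coe.tendsto _).comp tendsto_inv₀_cobounded
    rw [Filter.coclosedCompact_eq_cocompact, ← Metric.cobounded_eq_cocompact, invHat_infty]
    refine h.congr' ?_
    filter_upwards [Bornology.eventually_ne_cobounded (0 : ℂ)] with x hx
    simp [invHat_coe, hx]
  | coe x =>
    rw [OnePoint.continuousAt_coe]
    rcases eq_or_ne x 0 with rfl | hx
    · rw [continuousAt_iff_punctured_nhds, Function.comp_apply, invHat_coe, if_pos rfl]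
      refine (tendsto_coe_cobounded tendsto_inv₀_nhdsNE_zero).congr' ?_
      filter_upwards [self_mem_nhdsWithin] with y hy
      simp [invHat_coe, Set.mem_compl_singleton_iff.mp hy]
    · refine ((OnePoint.continuous_coe.continuousAt).comp (continuousAt_inv₀ hx)).congr ?_
      filter_upwards [isOpen_ne.mem_nhds hx] with y hy
      simp [invHat_coe, hy]

/-- Graph condition for a binary operation, allowing infinite arguments. -/
def opSet (op : ℂ → ℂ → ℂ) : Set (OnePoint ℂ × OnePoint ℂ × OnePoint ℂ) :=
  {p | ∀ x y : ℂ, p.1 = OnePoint.some x → p.2.1 = OnePoint.some y → p.2.2 = OnePoint.some (op x y)}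

theorem isClosed_opSet {op : ℂ → ℂ → ℂ} (hop : Continuous fun p : ℂ × ℂ => op p.1 p.2) :
    IsClosed (opSet op) := by
  rw [← isOpen_compl_iff]
  set e : ℂ × ℂ × OnePoint ℂ → OnePoint ℂ × OnePoint ℂ × OnePoint ℂ :=
    Prod.map OnePoint.some (Prod.map OnePoint.some id)
  have he : IsOpenEmbedding e :=
    OnePoint.isOpenEmbedding_coe.prodMap (OnePoint.isOpenEmbedding_coe.prodMap .id)
  have hU : IsOpen {p : ℂ × ℂ × OnePoint ℂ | p.2.2 ≠ OnePoint.some (op p.1 p.2.1)} :=
    isOpen_ne_fun (continuous_snd.comp continuous_snd)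
      (OnePoint.continuous_coe.comp
          (hop.comp (continuous_fst.prodMk (continuous_fst.comp continuous_snd))))
  convert he.isOpenMap _ hU using 1
  ext ⟨a, b, c⟩
  simp only [opSet, Set.mem_compl_iff, Set.mem_ofPred_eq, not_forall, Set.mem_image, Prod.exists, e,
    Prod.map_apply, id_eq, Prod.mk.injEq]
  constructor
  · rintro ⟨x, y, rfl, rfl, h⟩; exact ⟨x, y, c, h, rfl, rfl, rfl⟩
  · rintro ⟨x, y, z, h, rfl, rfl, rfl⟩; exact ⟨x, y, rfl, rfl, h⟩

/-- The topology making all evaluation maps to the Riemann sphere continuous. -/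
scoped instance placeTopology : TopologicalSpace (Place ℂ F) :=
  .induced (valHat (K := ℂ) (F := F)) inferInstance

theorem isEmbedding_valHat : IsEmbedding (valHat (K := ℂ) (F := F)) :=
  ⟨⟨rfl⟩, valHat_injective⟩

theorem continuous_valHat (f : F) : Continuous fun P : Place ℂ F => valHat P f :=
  (continuous_apply (A := fun _ : F => OnePoint ℂ) f).comp isEmbedding_valHat.continuous

theorem continuous_place_iff {X : Type*} [TopologicalSpace X] {g : X → Place ℂ F} {x : X} :
    ContinuousAt g x ↔ ∀ f : F, ContinuousAt (fun a => valHat (g a) f) x := by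
  rw [ContinuousAt, isEmbedding_valHat.tendsto_nhds_iff, tendsto_pi_nhds]
  rfl

instance t2Space_place : T2Space (Place ℂ F) := isEmbedding_valHat.t2Space

theorem range_valHat : Set.range (valHat (K := ℂ) (F := F)) = {φ : F → OnePoint ℂ |
    (∀ c : ℂ, φ (algebraMap ℂ F c) = OnePoint.some c) ∧
    (∀ f g : F, (φ f, φ g, φ (f + g)) ∈ opSet (· + ·)) ∧
    (∀ f g : F, (φ f, φ g, φ (f * g)) ∈ opSet (· * ·)) ∧
    (∀ f : F, f ≠ 0 → φ f⁻¹ = invHat (φ f))} := by
  ext φ
  constructor
  · rintro ⟨P, rfl⟩
    refine ⟨fun c => by rw [valHat_of_mem (P.algebraMap_mem' c), val_algebraMap], ?_, ?_, ?_⟩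
    · intro f g x y hx hy
      simp only [valHat_eq_coe_iff] at hx hy ⊢
      exact ⟨add_mem hx.1 hy.1, by rw [val_add hx.1 hy.1, hx.2, hy.2]⟩
    · intro f g x y hx hy
      simp only [valHat_eq_coe_iff] at hx hy ⊢
      exact ⟨mul_mem hx.1 hy.1, by rw [val_mul hx.1 hy.1, hx.2, hy.2]⟩
    · intro f hf
      by_cases hm : f ∈ P.toValuationSubring
      · rw [valHat_of_mem hm, invHat_coe]
        split_ifs with h
        · rw [valHat_eq_infty_iff, notMem_iff_ord_neg, P.ord_inv]
          have := (val_eq_zero_iff hm hf).mp h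
          omega
        · obtain ⟨h1, h2⟩ := val_inv hm h
          rw [valHat_of_mem h1, h2]
      · rw [valHat_of_notMem hm, invHat_infty, valHat_eq_coe_iff]
        have h := notMem_iff_ord_neg.mp hm
        have h1 : f⁻¹ ∈ P.toValuationSubring :=
          FFBasic.mem_of_ord_nonneg _ (by rw [P.ord_inv]; omega)
        exact ⟨h1, (val_eq_zero_iff h1 (inv_ne_zero hf)).mpr (by rw [P.ord_inv]; omega)⟩
  · rintro ⟨hc, hadd, hmul, hinv⟩
    have hfin : ∀ f : F, φ f ≠ OnePoint.infty → ∃ x, φ f = OnePoint.some x :=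
      fun f hf => ⟨_, (OnePoint.ne_infty_iff_exists.mp hf).choose_spec.symm⟩
    let A : ValuationSubring F :=
      { carrier := {f | φ f ≠ OnePoint.infty}
        mul_mem' := fun {f g} hf hg => by
          obtain ⟨x, hx⟩ := hfin f hf
          obtain ⟨y, hy⟩ := hfin g hg
          show φ (f * g) ≠ OnePoint.infty
          rw [show φ (f * g) = OnePoint.some (x * y) from hmul f g x y hx hy]
          exact OnePoint.coe_ne_infty _
        one_mem' := by
          show φ 1 ≠ OnePoint.infty
          rw [← map_one (algebraMap ℂ F), hc]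
          exact OnePoint.coe_ne_infty _
        add_mem' := fun {f g} hf hg => by
          obtain ⟨x, hx⟩ := hfin f hf
          obtain ⟨y, hy⟩ := hfin g hg
          show φ (f + g) ≠ OnePoint.infty
          rw [show φ (f + g) = OnePoint.some (x + y) from hadd f g x y hx hy]
          exact OnePoint.coe_ne_infty _
        zero_mem' := by
          show φ 0 ≠ OnePoint.infty
          rw [← map_zero (algebraMap ℂ F), hc]
          exact OnePoint.coe_ne_infty _
        neg_mem' := fun {f} hf => by
          obtain ⟨x, hx⟩ := hfin f hf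
          show φ (-f) ≠ OnePoint.infty
          rw [show -f = algebraMap ℂ F (-1) * f by simp,
            show φ (algebraMap ℂ F (-1) * f) = OnePoint.some (-1 * x) from
              hmul _ f (-1) x (hc _) hx]
          exact OnePoint.coe_ne_infty _
        mem_or_inv_mem' := fun f => by
          show φ f ≠ OnePoint.infty ∨ φ f⁻¹ ≠ OnePoint.infty
          refine or_iff_not_imp_left.mpr fun h => ?_
          rw [not_not] at h
          rcases eq_or_ne f 0 with rfl | hf
          · rw [← map_zero (algebraMap ℂ F), hc] at h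
            exact absurd h (OnePoint.coe_ne_infty _)
          · rw [hinv f hf, h, invHat_infty]
            exact OnePoint.coe_ne_infty _ }
    have hmemA : ∀ f, f ∈ A ↔ φ f ≠ OnePoint.infty := fun f => Iff.rfl
    have hK : ∀ c : ℂ, algebraMap ℂ F c ∈ A := fun c => by
      rw [hmemA, hc]; exact OnePoint.coe_ne_infty _
    have hne : A ≠ ⊤ := fun e => by
      obtain ⟨t, ht, -⟩ := IsFunctionField.exists_transcendental (K := ℂ) (F := F)
      obtain ⟨x, hx⟩ := hfin t ((hmemA t).mp (e ▸ ValuationSubring.mem_top t))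
      have h0 : t - algebraMap ℂ F x ≠ 0 := fun h => ht (by
        rw [sub_eq_zero] at h; rw [h]; exact isAlgebraic_algebraMap _)
      have h1 := hadd t (algebraMap ℂ F (-x)) x (-x) hx (hc _)
      simp only [map_neg, ← sub_eq_add_neg, sub_self] at h1
      have h2 := (hmemA (t - algebraMap ℂ F x)⁻¹).mp (e ▸ ValuationSubring.mem_top _)
      rw [hinv _ h0, h1, invHat_coe, if_pos rfl] at h2
      exact h2 rfl
    refine ⟨FFBasic.placeOfValuationSubring A hK hne, funext fun f => ?_⟩
    set P := FFBasic.placeOfValuationSubring A hK hne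
    by_cases hf : f ∈ P.toValuationSubring
    · obtain ⟨x, hx⟩ := hfin f ((hmemA f).mp hf)
      rw [valHat_of_mem hf, hx]
      congr 1
      by_contra hne'
      have h1 := hadd f (algebraMap ℂ F (-x)) x (-x) hx (hc _)
      simp only [map_neg, ← sub_eq_add_neg, sub_self] at h1
      have hm := sub_mem hf (P.algebraMap_mem' x)
      have h0 : f - algebraMap ℂ F x ≠ 0 := fun h => hne' (by
        rw [sub_eq_zero] at h; rw [h, val_algebraMap])
      have h2 := (hmemA _).mp (val_inv hm (by
        rw [val_sub hf (P.algebraMap_mem' x), val_algebraMap]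
        exact sub_ne_zero.mpr hne')).1
      rw [hinv _ h0, h1, invHat_coe, if_pos rfl] at h2
      exact h2 rfl
    · rw [valHat_of_notMem hf]
      exact (not_not.mp (mt (hmemA f).mpr hf)).symm

instance compactSpace_place : CompactSpace (Place ℂ F) := by
  rw [← isCompact_univ_iff, isEmbedding_valHat.isCompact_iff, Set.image_univ, range_valHat]
  refine IsClosed.isCompact ?_
  simp only [Set.ofPred_and, Set.ofPred_forall]
  refine ((isClosed_iInter fun c => isClosed_eq (continuous_apply _) continuous_const).inter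
    ((isClosed_iInter fun f => isClosed_iInter fun g => ?_).inter
      ((isClosed_iInter fun f => isClosed_iInter fun g => ?_).inter
        (isClosed_iInter fun f => isClosed_iInter fun _ =>
          isClosed_eq (continuous_apply _) (continuous_invHat.comp (continuous_apply _))))))
  · exact (isClosed_opSet continuous_add).preimage
      ((continuous_apply f).prodMk ((continuous_apply g).prodMk (continuous_apply (f + g))))
  · exact (isClosed_opSet continuous_mul).preimage
      ((continuous_apply f).prodMk ((continuous_apply g).prodMk (continuous_apply (f * g))))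

theorem isOpen_setOf_mem (f : F) : IsOpen {P : Place ℂ F | f ∈ P.toValuationSubring} := by
  have : {P : Place ℂ F | f ∈ P.toValuationSubring}
      = (fun P => valHat P f) ⁻¹' {OnePoint.infty}ᶜ := by
    ext P; simp [valHat_eq_infty_iff]
  rw [this]
  exact isOpen_compl_singleton.preimage (continuous_valHat f)

theorem continuousAt_val {f : F} {P : Place ℂ F} (h : f ∈ P.toValuationSubring) :
    ContinuousAt (fun Q : Place ℂ F => val Q f) P := by
  rw [ContinuousAt, OnePoint.isOpenEmbedding_coe.isEmbedding.tendsto_nhds_iff]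
  have h1 : Tendsto (fun Q : Place ℂ F => valHat Q f) (𝓝 P) (𝓝 (valHat P f)) :=
    (continuous_valHat f).tendsto P
  rw [valHat_of_mem h] at h1
  refine h1.congr' ?_
  filter_upwards [(isOpen_setOf_mem f).mem_nhds h] with Q hQ
  exact valHat_of_mem hQ

namespace Chart

variable (C : Chart F)

theorem mem_t {s : ℂ} (hs : s ∈ ball (0 : ℂ) C.r) : C.t ∈ (C.σ s).toValuationSubring :=
  (C.t_mem s hs).1

theorem val_t {s : ℂ} (hs : s ∈ ball (0 : ℂ) C.r) : val (C.σ s) C.t = s := (C.t_mem s hs).2

theorem injOn : Set.InjOn C.σ (ball 0 C.r) := fun a ha b hb h => by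
  rw [← C.val_t ha, ← C.val_t hb, h]

theorem eventually_mem {z : ℂ} (hz : z ∈ ball (0 : ℂ) C.r) (f : F) :
    ∀ᶠ s in 𝓝[≠] z, f ∈ (C.σ s).toValuationSubring := by
  rcases eq_or_ne f 0 with rfl | hf
  · exact Eventually.of_forall fun s => zero_mem _
  filter_upwards [(C.mero f z hz).eventually_analyticAt,
    nhdsWithin_le_nhds (isOpen_ball.mem_nhds hz)] with s hs hsb
  have h := hs.meromorphicOrderAt_nonneg
  rw [C.order f hf s hsb] at h
  exact FFBasic.mem_of_ord_nonneg _ (by exact_mod_cast h)

theorem tendsto_val {z : ℂ} (hz : z ∈ ball (0 : ℂ) C.r) {f : F}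
    (hf : f ∈ (C.σ z).toValuationSubring) :
    Tendsto (fun s => val (C.σ s) f) (𝓝[≠] z) (𝓝 (val (C.σ z) f)) := by
  set c := val (C.σ z) f
  have h0 : Tendsto (fun s => val (C.σ s) (f - algebraMap ℂ F c)) (𝓝[≠] z) (𝓝 0) := by
    rcases eq_or_ne (f - algebraMap ℂ F c) 0 with h | h
    · simp only [h, val_zero]; exact tendsto_const_nhds
    · refine tendsto_zero_of_meromorphicOrderAt_pos ?_
      rw [C.order _ h z hz]
      exact_mod_cast ord_sub_val_pos hf h
  have h1 := h0.add_const c
  rw [zero_add] at h1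
  refine h1.congr' ?_
  filter_upwards [C.eventually_mem hz f] with s hs
  rw [val_sub hs ((C.σ s).algebraMap_mem' c), val_algebraMap, sub_add_cancel]

/-- A function regular at `σ z` is analytic at `z` in the chart. -/
theorem analyticAt {z : ℂ} (hz : z ∈ ball (0 : ℂ) C.r) {f : F}
    (hf : f ∈ (C.σ z).toValuationSubring) : AnalyticAt ℂ (fun s => val (C.σ s) f) z :=
  (C.mero f z hz).analyticAt
    (continuousAt_iff_punctured_nhds.mpr (C.tendsto_val hz hf))

theorem continuousAt {z : ℂ} (hz : z ∈ ball (0 : ℂ) C.r) : ContinuousAt C.σ z := by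
  rw [continuous_place_iff]
  intro f
  rw [continuousAt_iff_punctured_nhds]
  by_cases hf : f ∈ (C.σ z).toValuationSubring
  · rw [valHat_of_mem hf]
    refine ((OnePoint.continuous_coe.tendsto _).comp (C.tendsto_val hz hf)).congr' ?_
    filter_upwards [C.eventually_mem hz f] with s hs
    exact (valHat_of_mem hs).symm
  · rw [valHat_of_notMem hf]
    have hf0 : f ≠ 0 := fun e => hf (e ▸ zero_mem _)
    refine (tendsto_coe_cobounded (tendsto_cobounded_of_meromorphicOrderAt_neg ?_)).congr' ?_
      (f₁ := fun s => OnePoint.some (val (C.σ s) f))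
    · rw [C.order f hf0 z hz]
      exact_mod_cast notMem_iff_ord_neg.mp hf
    · filter_upwards [C.eventually_mem hz f] with s hs
      exact (valHat_of_mem hs).symm

theorem image_mem_nhds {z : ℂ} (hz : z ∈ ball (0 : ℂ) C.r) {V : Set ℂ} (hV : V ∈ 𝓝 z) :
    C.σ '' V ∈ 𝓝 (C.σ z) := by
  obtain ⟨g, hg, δ, hδ, huniq⟩ := C.nbhd z hz
  obtain ⟨ε, hε, hεV⟩ := Metric.mem_nhds_iff.mp hV
  have h1 := (continuousAt_val (C.mem_t hz)).eventually
    (ball_mem_nhds (val (C.σ z) C.t) (lt_min hε hδ))
  have h2 := (continuousAt_val hg).eventually (ball_mem_nhds (val (C.σ z) g) hδ)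
  filter_upwards [h1, h2, (isOpen_setOf_mem C.t).mem_nhds (C.mem_t hz),
    (isOpen_setOf_mem g).mem_nhds hg] with P hP1 hP2 hP3 hP4
  simp only [C.val_t hz] at hP1
  refine ⟨val P C.t, hεV (mem_ball.mpr (lt_of_lt_of_le hP1 (min_le_left _ _))),
    (huniq P hP3 hP4 ?_ (by rw [← dist_eq_norm]; exact mem_ball.mp hP2)).symm⟩
  rw [← dist_eq_norm]
  exact lt_of_lt_of_le hP1 (min_le_right _ _)

theorem mem_nhds_iff {z : ℂ} (hz : z ∈ ball (0 : ℂ) C.r) {U : Set (Place ℂ F)} :
    U ∈ 𝓝 (C.σ z) ↔ C.σ ⁻¹' U ∈ 𝓝 z :=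
  ⟨fun h => (C.continuousAt hz).preimage_mem_nhds h,
    fun h => mem_of_superset (C.image_mem_nhds hz h) (Set.image_preimage_subset _ _)⟩

/-- Every differential is a multiple of `dt`. -/
theorem exists_coef (η : Ω[F⁄ℂ]) : ∃ c : F, c • KaehlerDifferential.D ℂ F C.t = η :=
  (finrank_eq_one_iff_of_nonzero' _ C.D_t_ne).mp IsCurveOver.finrank_kaehler η

/-- `η = coef η • dt`. -/
def coef : Ω[F⁄ℂ] →ₗ[F] F where
  toFun η := (C.exists_coef η).choose
  map_add' a b := smul_left_injective F C.D_t_ne (by
    simp only [add_smul, (C.exists_coef _).choose_spec])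
  map_smul' f a := smul_left_injective F C.D_t_ne (by
    simp only [RingHom.id_apply, smul_eq_mul, mul_smul, (C.exists_coef _).choose_spec])

theorem coef_smul_D (η : Ω[F⁄ℂ]) : C.coef η • KaehlerDifferential.D ℂ F C.t = η :=
  (C.exists_coef η).choose_spec

/-- The differential `η` in the chart. -/
def diff (η : Ω[F⁄ℂ]) (s : ℂ) : ℂ := val (C.σ s) (C.coef η)

theorem eventually_deriv_eq (g : F) {z : ℂ} (hz : z ∈ ball (0 : ℂ) C.r) :
    ∀ᶠ s in 𝓝[≠] z, deriv (fun w => val (C.σ w) g) s = C.diff (KaehlerDifferential.D ℂ F g) s :=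
  C.deriv_eq g _ (C.coef_smul_D _).symm z hz

theorem meromorphicAt_diff (η : Ω[F⁄ℂ]) {z : ℂ} (hz : z ∈ ball (0 : ℂ) C.r) :
    MeromorphicAt (C.diff η) z := C.mero _ z hz

end Chart

/-- The places form a preconnected space if every place has a function with its only pole
there. -/
theorem preconnectedSpace_place [Nonempty (Place ℂ F)] (hex : ∀ P : Place ℂ F, ∃ f : F,
    P.ord f < 0 ∧ ∀ Q : Place ℂ F, Q ≠ P → 0 ≤ Q.ord f) : PreconnectedSpace (Place ℂ F) := by
  rw [preconnectedSpace_iff_clopen]
  intro U hU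
  by_contra hcon
  rw [not_or] at hcon
  obtain ⟨P, hP⟩ := Set.nonempty_iff_ne_empty.mpr hcon.1
  obtain ⟨f, hfP, hfQ⟩ := hex P
  have hf : Transcendental ℂ f := FFBasic.transcendental_of_ord_ne_zero P hfP.ne
  have hreg : ∀ Q ∈ Uᶜ, f ∈ Q.toValuationSubring := fun Q hQ =>
    FFBasic.mem_of_ord_nonneg _ (hfQ Q fun e => hQ (e ▸ hP))
  obtain ⟨Q, hQU, hQmax⟩ := (hU.compl.isClosed.isCompact).exists_isMaxOn
    (Set.nonempty_compl.mpr hcon.2)
    (fun Q hQ =>
      (continuous_norm.continuousAt.comp (continuousAt_val (hreg Q hQ))).continuousWithinAt)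
  obtain ⟨C, hC⟩ := exists_chart Q
  have h0 := mem_ball_self (x := (0 : ℂ)) C.r_pos
  have hnear : C.σ ⁻¹' Uᶜ ∈ 𝓝 (0 : ℂ) :=
    (C.continuousAt h0).preimage_mem_nhds (hC.symm ▸ hU.compl.isOpen.mem_nhds hQU)
  have han : ∀ᶠ s in 𝓝 (0 : ℂ), DifferentiableAt ℂ (fun z => val (C.σ z) f) s := by
    filter_upwards [hnear, isOpen_ball.mem_nhds h0] with s hs hsb
    exact (C.analyticAt hsb (hreg _ hs)).differentiableAt
  have hmax : IsLocalMax (norm ∘ fun z => val (C.σ z) f) 0 := by
    filter_upwards [hnear] with s hs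
    simp only [Function.comp_apply, hC]
    exact hQmax hs
  have hconst := Complex.eventually_eq_of_isLocalMax_norm han hmax
  set c := val (C.σ 0) f
  have hne : f - algebraMap ℂ F c ≠ 0 := fun e => hf (by
    rw [sub_eq_zero] at e; rw [e]; exact isAlgebraic_algebraMap _)
  have hord := C.order _ hne 0 h0
  have htop : meromorphicOrderAt (fun z => val (C.σ z) (f - algebraMap ℂ F c)) 0 = ⊤ := by
    rw [meromorphicOrderAt_eq_top_iff]
    filter_upwards [eventually_nhdsWithin_of_eventually_nhds hconst,
      nhdsWithin_le_nhds hnear] with s hs hsU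
    rw [val_sub (hreg _ hsU) ((C.σ s).algebraMap_mem' c), val_algebraMap, hs, sub_self]
  rw [htop] at hord
  exact WithTop.top_ne_coe hord

end FLTAgent.Jacobian
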