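import Fermat.Agent.Jacobian.PlaceEval
import Fermat.Agent.FFBasic.Approximation
import Fermat.Agent.FFBasic.Degree
import Mathlib.Algebra.Polynomial.Bivariate

/-!
# Plane models nonsingular at a given place

`exists_planeModel`: every place `Q` lies at a simple point of some `PlaneModel`
`F = K(t, y)`, `χ(t, y) = 0`, with `t` a uniformizer at `Q`.
-/

set_option autoImplicit false

noncomputable section

open AlgebraicCurve Polynomial IntermediateField
open FLTAgent.FFBasic (IsFunctionField)
open scoped Polynomial.Bivariate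

namespace FLTAgent.Jacobian

/-- `F = K(t, y)` with the relation `χ(t, y) = 0`, `χ` irreducible in the second variable. -/
structure PlaneModel (K F : Type*) [Field K] [Field F] [Algebra K F] where
  t : F
  y : F
  chi : K[X][Y]
  transc : Transcendental K t
  root : aevalAeval t y chi = 0
  gen : ∀ f : F, ∃ p : K[X][Y], ∃ q : K[X], q ≠ 0 ∧ f * aeval t q = aevalAeval t y p
  ker : ∀ p : K[X][Y], aevalAeval t y p = 0 → ∃ q : K[X], q ≠ 0 ∧ chi ∣ Polynomial.C q * p

variable {K F : Type*} [Field K] [Field F] [Algebra K F]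

theorem aevalAeval_C' (t y : F) (q : K[X]) :
    aevalAeval t y (Polynomial.C q) = aeval t q := by
  simp

theorem aevalAeval_Y' (t y : F) : aevalAeval t y (Polynomial.X : K[X][Y]) = y := by simp

theorem aevalAeval_monomial (t y : F) (n : ℕ) (c : K[X]) :
    aevalAeval t y (Polynomial.monomial n c) = aeval t c * y ^ n := by
  rw [← Polynomial.C_mul_X_pow_eq_monomial, map_mul, map_pow, aevalAeval_C', aevalAeval_Y']

theorem aevalAeval_map_C (t y : F) (u : K[X]) :
    aevalAeval t y (u.map Polynomial.C) = aeval y u := by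
  induction u using Polynomial.induction_on' with
  | add p q hp hq => simp only [Polynomial.map_add, map_add, hp, hq]
  | monomial n c =>
    rw [Polynomial.map_monomial, aevalAeval_monomial, aeval_C, aeval_monomial]

theorem exists_eq_mapC_add (p : K[X][Y]) :
    ∃ p₁ : K[X][Y],
      p = (p.map (evalRingHom (0 : K))).map Polynomial.C + Polynomial.C Polynomial.X * p₁ := by
  obtain ⟨p₁, hp₁⟩ : Polynomial.C Polynomial.X ∣
      p - (p.map (evalRingHom (0 : K))).map Polynomial.C := by
    rw [C_dvd_iff_dvd_coeff]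
    intro i
    simp [X_dvd_iff, coeff_zero_eq_eval_zero]
  exact ⟨p₁, by rw [← hp₁, add_sub_cancel]⟩

theorem exists_eq_CX_mul {p : K[X][Y]} (h : p.map (evalRingHom (0 : K)) = 0) :
    ∃ p₁ : K[X][Y], p = Polynomial.C Polynomial.X * p₁ := by
  obtain ⟨p₁, hp₁⟩ := exists_eq_mapC_add p
  exact ⟨p₁, by rw [hp₁, h, Polynomial.map_zero, zero_add]⟩

theorem exists_eq_C_pow_mul {p : K[X][Y]} (hp : p ≠ 0) :
    ∃ (k : ℕ) (p₁ : K[X][Y]), p = Polynomial.C (Polynomial.X ^ k) * p₁ ∧
      p₁.map (evalRingHom (0 : K)) ≠ 0 := by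
  induction hN : p.leadingCoeff.natDegree using Nat.strong_induction_on generalizing p with
  | _ N ih =>
    by_cases h : p.map (evalRingHom (0 : K)) = 0
    · obtain ⟨p₁, hp₁⟩ := exists_eq_CX_mul h
      have hp₁0 : p₁ ≠ 0 := fun e => hp (by rw [hp₁, e, mul_zero])
      have hlt : p₁.leadingCoeff.natDegree < N := by
        rw [← hN, hp₁, leadingCoeff_mul, leadingCoeff_C,
          natDegree_mul X_ne_zero (leadingCoeff_ne_zero.mpr hp₁0), natDegree_X]
        omega
      obtain ⟨k, p₂, h2, h3⟩ := ih _ hlt hp₁0 rfl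
      refine ⟨k + 1, p₂, ?_, h3⟩
      rw [hp₁, h2, pow_succ', Polynomial.C_mul, mul_assoc]
    · exact ⟨0, p, by simp, h⟩

theorem aeval_ne_zero_of_transcendental {t : F} (ht : Transcendental K t) {q : K[X]} (hq : q ≠ 0) :
    aeval t q ≠ 0 := fun h => ht ⟨q, hq, h⟩

variable [IsAlgClosed K] [IsCurveOver K F]

theorem aevalAeval_mem {P : Place K F} {t y : F} (ht : t ∈ P.toValuationSubring)
    (hy : y ∈ P.toValuationSubring) (p : K[X][Y]) :
    aevalAeval t y p ∈ P.toValuationSubring ∧
      val P (aevalAeval t y p) = p.evalEval (val P t) (val P y) := by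
  induction p using Polynomial.induction_on' with
  | add p q hp hq =>
    rw [map_add]
    exact ⟨add_mem hp.1 hq.1, by rw [val_add hp.1 hq.1, hp.2, hq.2, evalEval_add]⟩
  | monomial n c =>
    rw [aevalAeval_monomial]
    have h1 := val_aeval ht c
    refine ⟨mul_mem h1.1 (pow_mem hy n), ?_⟩
    rw [val_mul h1.1 (pow_mem hy n), h1.2, val_pow hy]
    simp [evalEval, ← Polynomial.C_mul_X_pow_eq_monomial]

omit [IsAlgClosed K] [IsCurveOver K F] in
theorem ord_mul_ge {P : Place K F} {a b : F} (h : a * b ≠ 0) (hb : b ∈ P.toValuationSubring) :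
    P.ord a ≤ P.ord (a * b) := by
  have hb0 := right_ne_zero_of_mul h
  rw [P.ord_mul (left_ne_zero_of_mul h) hb0]
  have := (FFRiemannRoch.ord_nonneg_iff P hb0).mpr hb
  omega

/-- `ord_P (u(y))` is the multiplicity of the root `y(P)`, when `y - y(P)` is a uniformizer. -/
theorem ord_aeval_eq_rootMultiplicity {P : Place K F} {y : F} {c : K}
    (hy : y ∈ P.toValuationSubring) (hc : val P y = c)
    (h1 : P.ord (y - algebraMap K F c) = 1) {u : K[X]} (hu : u ≠ 0) :
    aeval y u ≠ 0 ∧ P.ord (aeval y u) = u.rootMultiplicity c := by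
  obtain ⟨g, hg, hgc⟩ := exists_eq_pow_rootMultiplicity_mul_and_not_dvd u hu c
  rw [dvd_iff_isRoot, IsRoot] at hgc
  have hgm := val_aeval hy g
  have hg0 : aeval y g ≠ 0 := fun e => hgc (by rw [← hc, ← hgm.2, e, val_zero])
  have hordg : P.ord (aeval y g) = 0 :=
    (val_ne_zero_iff hgm.1 hg0).mp (by rw [hgm.2, hc]; exact hgc)
  have hyc : y - algebraMap K F c ≠ 0 := fun e => by rw [e, P.ord_zero] at h1; omega
  rw [hg, map_mul, map_pow, map_sub, aeval_X, aeval_C]
  refine ⟨mul_ne_zero (pow_ne_zero _ hyc) hg0, ?_⟩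
  rw [P.ord_mul (pow_ne_zero _ hyc) hg0, FFBasic.ord_pow, h1, hordg]
  conv_rhs => rw [← hg]
  ring

omit [IsAlgClosed K] [IsCurveOver K F] in
theorem sum_rootMultiplicity_le {ι : Type*} (S : Finset ι) (c : ι → K) (hc : Set.InjOn c S)
    (u : K[X]) : ∑ i ∈ S, u.rootMultiplicity (c i) ≤ u.natDegree := by
  classical
  refine le_trans ?_ u.card_roots'
  simp_rw [← count_roots]
  rw [← Finset.sum_image (f := fun a => Multiset.count a u.roots) hc,
    ← Multiset.toFinset_sum_count_eq u.roots]
  refine le_of_le_of_eq (Finset.sum_le_sum_of_subset (f := fun a => Multiset.count a u.roots)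
    (Finset.subset_union_left (s₂ := u.roots.toFinset))) ?_
  exact (Finset.sum_subset Finset.subset_union_right fun a _ ha => Multiset.count_eq_zero.mpr
    fun h => ha (Multiset.mem_toFinset.mpr h)).symm

section Model

variable {t y : F}

omit [IsAlgClosed K] [IsCurveOver K F] in
/-- A relation with nonzero reduction at `t = 0` is divisible by a power of `t` only. -/
private theorem root_of_root_C_pow_mul (ht : Transcendental K t) {k : ℕ} {p : K[X][Y]}
    (h : aevalAeval t y (Polynomial.C (Polynomial.X ^ k) * p) = 0) : aevalAeval t y p = 0 := by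
  rw [map_mul, aevalAeval_C'] at h
  exact (mul_eq_zero.mp h).resolve_left
    (aeval_ne_zero_of_transcendental ht (pow_ne_zero _ X_ne_zero))

/-- At a zero of `t` where `y - c` is a uniformizer, the reduction of a relation has `c` as a root
of multiplicity at least the order of `t`. -/
private theorem ord_le_rootMultiplicity {P : Place K F} {c : K} (hPt : 0 < P.ord t)
    (hym : y ∈ P.toValuationSubring) (hyc : val P y = c)
    (h1 : P.ord (y - algebraMap K F c) = 1) {p : K[X][Y]} (hp : aevalAeval t y p = 0)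
    (hu : p.map (evalRingHom (0 : K)) ≠ 0) :
    P.ord t ≤ (p.map (evalRingHom (0 : K))).rootMultiplicity c := by
  obtain ⟨p₁, hp₁⟩ := exists_eq_mapC_add p
  obtain ⟨hne, hord⟩ := ord_aeval_eq_rootMultiplicity hym hyc h1 hu
  have htm : t ∈ P.toValuationSubring := FFBasic.mem_of_ord_nonneg _ hPt.le
  rw [hp₁, map_add, map_mul, aevalAeval_map_C, aevalAeval_C', aeval_X,
    add_eq_zero_iff_eq_neg] at hp
  rw [← hord, hp, ← mul_neg]
  refine ord_mul_ge ?_ (neg_mem (aevalAeval_mem htm hym p₁).1)
  rw [mul_neg, ← hp]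
  exact hne

omit [IsAlgClosed K] [IsCurveOver K F] in
/-- If the reductions of the relations have degree at least `n`, there is no relation of degree
less than `n`. -/
private theorem eq_zero_of_natDegree_lt (ht : Transcendental K t) {n : ℕ}
    (hlow : ∀ p : K[X][Y], aevalAeval t y p = 0 → p.map (evalRingHom (0 : K)) ≠ 0 →
      n ≤ (p.map (evalRingHom (0 : K))).natDegree)
    {p : K[X][Y]} (hdeg : p.natDegree < n) (hp : aevalAeval t y p = 0) : p = 0 := by
  by_contra hp0
  obtain ⟨k, p₁, hp₁, hu⟩ := exists_eq_C_pow_mul hp0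
  have h1 := hlow p₁ (root_of_root_C_pow_mul ht (hp₁ ▸ hp)) hu
  have h3 : (p₁.map (evalRingHom (0 : K))).natDegree ≤ p.natDegree := by
    refine natDegree_map_le.trans ?_
    rw [hp₁, natDegree_C_mul (pow_ne_zero _ X_ne_zero)]
  omega

omit [IsAlgClosed K] [IsCurveOver K F] in
/-- Without relations of degree less than `n`, the powers of `y` below `n` are independent over
`K(t)`. -/
private theorem linearIndependent_pow {n : ℕ}
    (hindep : ∀ p : K[X][Y], p.natDegree < n → aevalAeval t y p = 0 → p = 0) :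
    LinearIndependent K⟮t⟯ fun j : Fin n => y ^ (j : ℕ) := by
  classical
  refine FFBasic.linearIndependent_adjoin_of_aeval _ fun p hp i => ?_
  set P : K[X][Y] := ∑ j : Fin n, Polynomial.monomial (j : ℕ) (p j) with hPdef
  have hev : aevalAeval t y P = 0 := by
    rw [hPdef, map_sum]
    simpa only [aevalAeval_monomial] using hp
  have hdeg : P.natDegree < n := by
    refine lt_of_le_of_lt (natDegree_sum_le_of_forall_le _ _ (n := n - 1) fun j _ => ?_)
      (by have := i.isLt; omega)
    exact (natDegree_monomial_le _).trans (by omega)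
  have hzero := hindep P hdeg hev
  have hcoef : P.coeff (i : ℕ) = p i := by
    rw [hPdef, finsetSum_coeff, Finset.sum_eq_single i
      (fun j _ hj => coeff_monomial_of_ne _ fun h => hj (Fin.ext h).symm)
      (fun h => absurd (Finset.mem_univ i) h), coeff_monomial_same]
  rw [hzero, coeff_zero] at hcoef
  rw [← hcoef, map_zero]

omit [IsAlgClosed K] [IsCurveOver K F] in
/-- When the powers of `y` below the degree form a basis over `K(t)`, every element is a polynomial
of smaller degree in `y` over a denominator in `t`. -/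
private theorem exists_mul_aeval_eq {n : ℕ} (hn : Module.finrank K⟮t⟯ F = n) (hnpos : 0 < n)
    (hli : LinearIndependent K⟮t⟯ fun j : Fin n => y ^ (j : ℕ)) (f : F) :
    ∃ p : K[X][Y], ∃ q : K[X], q ≠ 0 ∧ p.natDegree < n ∧
      f * aeval t q = aevalAeval t y p := by
  classical
  have : Nonempty (Fin n) := ⟨⟨0, hnpos⟩⟩
  let B := basisOfLinearIndependentOfCardEqFinrank hli (by rw [Fintype.card_fin, hn])
  have hrep : ∀ a : K⟮t⟯, ∃ r s : K[X], s ≠ 0 ∧ (a : F) * aeval t s = aeval t r := fun a => by
    obtain ⟨r, s, hrs⟩ := (mem_adjoin_simple_iff K (a : F)).mp a.2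
    by_cases hs : aeval t s = 0
    · exact ⟨0, 1, one_ne_zero, by simp [hrs, hs]⟩
    · exact ⟨r, s, fun e => hs (by rw [e, map_zero]), by rw [hrs]; field_simp⟩
  choose r s hs0 hrs using fun j : Fin n => hrep (B.repr f j)
  refine ⟨∑ j : Fin n, Polynomial.monomial (j : ℕ) (r j * ∏ i ∈ Finset.univ.erase j, s i),
    ∏ i, s i, Finset.prod_ne_zero_iff.mpr fun i _ => hs0 i, ?_, ?_⟩
  · refine lt_of_le_of_lt (natDegree_sum_le_of_forall_le _ _ (n := n - 1) fun j _ => ?_)
      (by omega)
    exact (natDegree_monomial_le _).trans (by omega)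
  · conv_lhs => rw [← B.sum_repr f, Finset.sum_mul]
    rw [map_sum]
    refine Finset.sum_congr rfl fun j _ => ?_
    rw [aevalAeval_monomial, ← Finset.mul_prod_erase _ _ (Finset.mem_univ j), map_mul, map_mul,
      ← hrs j]
    simp only [B, coe_basisOfLinearIndependentOfCardEqFinrank, IntermediateField.smul_def,
      smul_eq_mul]
    ring

omit [IsAlgClosed K] [IsCurveOver K F] in
/-- A relation of degree `n` in `y` with nonzero reduction at `t = 0`. -/
private theorem exists_relation (ht : Transcendental K t) {n : ℕ} {p₀ : K[X][Y]} {q₀ : K[X]}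
    (hq₀ : q₀ ≠ 0) (hdeg₀ : p₀.natDegree < n) (hp₀ : y ^ n * aeval t q₀ = aevalAeval t y p₀) :
    ∃ χ : K[X][Y], aevalAeval t y χ = 0 ∧ χ.natDegree = n ∧
      χ.map (evalRingHom (0 : K)) ≠ 0 := by
  set χ₀ : K[X][Y] := Polynomial.monomial n q₀ - p₀ with hχ₀
  have hcn : χ₀.coeff n = q₀ := by
    simp [hχ₀, coeff_eq_zero_of_natDegree_lt hdeg₀]
  have hχ₀0 : χ₀ ≠ 0 := fun e => hq₀ (by rw [← hcn, e, coeff_zero])
  have hχ₀deg : χ₀.natDegree = n := by
    refine le_antisymm ((natDegree_sub_le _ _).trans ?_)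
      (le_natDegree_of_ne_zero (by rw [hcn]; exact hq₀))
    exact max_le (natDegree_monomial_le _) hdeg₀.le
  have hχ₀root : aevalAeval t y χ₀ = 0 := by
    rw [hχ₀, map_sub, aevalAeval_monomial, ← hp₀, mul_comm, sub_self]
  obtain ⟨k, χ, hχ, hχu⟩ := exists_eq_C_pow_mul hχ₀0
  refine ⟨χ, root_of_root_C_pow_mul ht (hχ ▸ hχ₀root), ?_, hχu⟩
  rw [← hχ₀deg, hχ, natDegree_C_mul (pow_ne_zero _ X_ne_zero)]

omit [IsAlgClosed K] [IsCurveOver K F] in
/-- A relation of least degree divides every relation up to a factor in `t`. -/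
private theorem exists_C_mul_dvd {n : ℕ} (hnpos : 0 < n)
    (hindep : ∀ p : K[X][Y], p.natDegree < n → aevalAeval t y p = 0 → p = 0) {χ : K[X][Y]}
    (hχroot : aevalAeval t y χ = 0) (hχdeg : χ.natDegree = n) (p : K[X][Y]) :
    aevalAeval t y p = 0 → ∃ q : K[X], q ≠ 0 ∧ χ ∣ Polynomial.C q * p := by
  have hχ0 : χ ≠ 0 := fun e => hnpos.ne' (by rw [← hχdeg, e, natDegree_zero])
  induction hd : p.natDegree using Nat.strong_induction_on generalizing p with
  | _ d ih =>
    intro hp
    rcases lt_or_ge d n with hlt | hge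
    · refine ⟨1, one_ne_zero, ?_⟩
      rw [hindep p (hd ▸ hlt) hp, mul_zero]
      exact dvd_zero χ
    · have hp0 : p ≠ 0 := fun e => by rw [e, natDegree_zero] at hd; omega
      set p' : K[X][Y] := Polynomial.C χ.leadingCoeff * p
        - Polynomial.C p.leadingCoeff * Polynomial.X ^ (d - n) * χ with hp'
      have hle : p'.natDegree ≤ d := by
        refine (natDegree_sub_le _ _).trans (max_le ((natDegree_C_mul_le _ _).trans hd.le) ?_)
        refine natDegree_mul_le.trans ?_
        have := natDegree_C_mul_le p.leadingCoeff (Polynomial.X ^ (d - n) : K[X][Y])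
        rw [natDegree_X_pow] at this
        omega
      have hcd : p'.coeff d = 0 := by
        rw [hp', coeff_sub, coeff_C_mul, mul_assoc, coeff_C_mul, coeff_X_pow_mul',
          if_pos (Nat.sub_le d n), Nat.sub_sub_self hge]
        rw [leadingCoeff, leadingCoeff, hd, hχdeg]
        ring
      have hlt' : p'.natDegree < d := by
        rcases hle.lt_or_eq with h | h
        · exact h
        · rcases eq_or_ne p' 0 with e | e
          · rw [e, natDegree_zero]; omega
          · exact absurd hcd (by rw [← h]; exact leadingCoeff_ne_zero.mpr e)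
      have hev' : aevalAeval t y p' = 0 := by
        rw [hp', map_sub, map_mul, map_mul, hp, hχroot, mul_zero, mul_zero, sub_self]
      obtain ⟨q, hq, hdvd⟩ := ih _ hlt' p' rfl hev'
      refine ⟨q * χ.leadingCoeff, mul_ne_zero hq (leadingCoeff_ne_zero.mpr hχ0), ?_⟩
      have := hdvd.add (dvd_mul_left χ
        (Polynomial.C q * (Polynomial.C p.leadingCoeff * Polynomial.X ^ (d - n))))
      refine (Eq.subst (motive := fun z => χ ∣ z) ?_ this)
      rw [hp', Polynomial.C_mul]
      ring

omit [IsAlgClosed K] in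
/-- A simple root of the reduction is a point where the derivative in `y` does not vanish. -/
private theorem evalEval_derivative_ne_zero [CharZero K] {χ : K[X][Y]} {b : K}
    (hχu : χ.map (evalRingHom (0 : K)) ≠ 0)
    (h1 : (χ.map (evalRingHom (0 : K))).rootMultiplicity b = 1) :
    (derivative χ).evalEval 0 b ≠ 0 := by
  set u := χ.map (evalRingHom (0 : K)) with hu
  have hroot : u.IsRoot b := (rootMultiplicity_pos hχu).mp (by omega)
  have hd0 : (derivative u).rootMultiplicity b = 0 := by
    rw [derivative_rootMultiplicity_of_root hroot, h1]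
  intro hzero
  have hdu : (derivative u).eval b = 0 := by
    rw [hu, derivative_map, map_evalRingHom_eval]
    exact hzero
  have hne : derivative u ≠ 0 := fun e => by
    rw [derivative_eq_zero] at e
    rw [IsRoot, eq_C_of_natDegree_eq_zero e, eval_C] at hroot
    exact hχu (by rw [eq_C_of_natDegree_eq_zero e, hroot, map_zero])
  exact absurd ((rootMultiplicity_pos hne).mpr hdu) (by omega)

end Model

variable [CharZero K] [IsFunctionField K F]

omit [IsFunctionField K F] in
/-- There is a `y` which at each of finitely many places differs by a uniformizer from a constant,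
these constants being distinct. -/
private theorem exists_separating_function (S : Finset (Place K F)) :
    ∃ (y : F) (c : Place K F → K), Set.InjOn c S ∧ ∀ P ∈ S,
      P.ord (y - algebraMap K F (c P)) = 1 ∧ y ∈ P.toValuationSubring ∧ val P y = c P := by
  classical
  let c : Place K F → K := fun P => if h : P ∈ S then ((S.equivFin ⟨P, h⟩ : ℕ) : K) else 0
  have hc : Set.InjOn c S := fun P hP R hR h => by
    simp only [c, dif_pos (Finset.mem_coe.mp hP), dif_pos (Finset.mem_coe.mp hR),
      Nat.cast_inj] at h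
    exact congrArg Subtype.val (S.equivFin.injective (Fin.ext h))
  choose π hπ0 hπ using fun P : Place K F => FFBasic.exists_ord_eq P 1
  obtain ⟨y, hy⟩ := FFBasic.exists_approx S (fun P => algebraMap K F (c P) + π P) (fun _ => 2)
  refine ⟨y, c, hc, fun P hP => ?_⟩
  have h := FFBasic.ord_add_eq_left P (hπ0 P)
    (g := y - (algebraMap K F (c P) + π P))
    (FFBasic.filt_antitone P (by rw [hπ P]; norm_num) (hy P hP))
  rw [show π P + (y - (algebraMap K F (c P) + π P)) = y - algebraMap K F (c P) by ring,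
    hπ P] at h
  have hm : y - algebraMap K F (c P) ∈ P.toValuationSubring :=
    FFBasic.mem_of_ord_nonneg _ (by rw [h.2]; norm_num)
  have hym : y ∈ P.toValuationSubring := by
    simpa using add_mem hm (P.algebraMap_mem' (c P))
  refine ⟨h.2, hym, ?_⟩
  have h0 := (val_eq_zero_iff hm h.1).mpr (by rw [h.2]; norm_num)
  rwa [val_sub hym (P.algebraMap_mem' _), val_algebraMap, sub_eq_zero] at h0

/-- Every place lies at a simple point of some plane model, with `t` as uniformizer. -/
theorem exists_planeModel (Q : Place K F) :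
    ∃ (M : PlaneModel K F) (b : K), M.t ∈ Q.toValuationSubring ∧ val Q M.t = 0 ∧
      M.y ∈ Q.toValuationSubring ∧ val Q M.y = b ∧
      (derivative M.chi).evalEval 0 b ≠ 0 := by
  classical
  obtain ⟨t, ht0, htQ⟩ := FFBasic.exists_ord_eq Q 1
  have ht : Transcendental K t := FFBasic.transcendental_of_ord_ne_zero Q (by omega)
  set S := (FFBasic.finite_setOf_ord_pos (K := K) t).toFinset with hS
  have hmemS : ∀ P : Place K F, P ∈ S ↔ 0 < P.ord t := fun P => by simp [hS]
  set n := Module.finrank K⟮t⟯ F with hn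
  have hfd : FiniteDimensional K⟮t⟯ F := IsFunctionField.finiteDimensional_adjoin ht
  have hsum : ∑ P ∈ S, P.ord t = (n : ℤ) := by
    rw [hn, ← FFBasic.sum_ord_mul_deg_zeros (K := K) ht]
    refine Finset.sum_congr rfl fun P _ => ?_
    rw [IsCurveOver.deg_eq_one_of_isAlgClosed P, Nat.cast_one, mul_one]
  have hnpos : 0 < n := Module.finrank_pos
  obtain ⟨y, c, hc, hyP⟩ := exists_separating_function S
  have key : ∀ p : K[X][Y], aevalAeval t y p = 0 → p.map (evalRingHom (0 : K)) ≠ 0 →
      ∀ P ∈ S, P.ord t ≤ (p.map (evalRingHom (0 : K))).rootMultiplicity (c P) :=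
    fun p hp hu P hP => ord_le_rootMultiplicity ((hmemS P).mp hP) (hyP P hP).2.1 (hyP P hP).2.2
      (hyP P hP).1 hp hu
  have hlow : ∀ p : K[X][Y], aevalAeval t y p = 0 → p.map (evalRingHom (0 : K)) ≠ 0 →
      n ≤ (p.map (evalRingHom (0 : K))).natDegree := fun p hp hu => by
    have h1 := Finset.sum_le_sum (key p hp hu)
    have h2 := sum_rootMultiplicity_le S c hc (p.map (evalRingHom (0 : K)))
    rw [hsum, ← Nat.cast_sum] at h1
    omega
  have hindep : ∀ p : K[X][Y], p.natDegree < n → aevalAeval t y p = 0 → p = 0 :=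
    fun _ => eq_zero_of_natDegree_lt ht hlow
  have hgen := exists_mul_aeval_eq hn.symm hnpos (linearIndependent_pow hindep)
  obtain ⟨p₀, q₀, hq₀, hdeg₀, hp₀⟩ := hgen (y ^ n)
  obtain ⟨χ, hχroot, hχdeg, hχu⟩ := exists_relation ht hq₀ hdeg₀ hp₀
  refine ⟨⟨t, y, χ, ht, hχroot, fun f => ?_, exists_C_mul_dvd hnpos hindep hχroot hχdeg⟩,
    c Q, ?_⟩
  · obtain ⟨p, q, hq, _, h⟩ := hgen f
    exact ⟨p, q, hq, h⟩
  have hQS : Q ∈ S := (hmemS Q).mpr (by omega)
  obtain ⟨h1, hym, hyc⟩ := hyP Q hQS
  have htm : t ∈ Q.toValuationSubring := FFBasic.mem_of_ord_nonneg _ (by omega)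
  refine ⟨htm, (val_eq_zero_iff htm ht0).mpr (by omega), hym, hyc,
    evalEval_derivative_ne_zero hχu ?_⟩
  set u := χ.map (evalRingHom (0 : K))
  have hge := key χ hχroot hχu
  have hle : ((∑ P ∈ S, u.rootMultiplicity (c P) : ℕ) : ℤ) ≤ n := by
    exact_mod_cast (sum_rootMultiplicity_le S c hc u).trans (natDegree_map_le.trans hχdeg.le)
  push_cast at hle
  have hmult : ((u.rootMultiplicity (c Q) : ℕ) : ℤ) = Q.ord t := by
    refine le_antisymm ?_ (hge Q hQS)
    by_contra hlt
    push Not at hlt
    have := Finset.sum_lt_sum (g := fun P => ((u.rootMultiplicity (c P) : ℕ) : ℤ)) hge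
      ⟨Q, hQS, hlt⟩
    omega
  rw [htQ] at hmult
  exact_mod_cast hmult

end FLTAgent.Jacobian
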