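import Mathlib

/-!
# Residues of functions of one complex variable

`resAt h w` is defined by small circle integrals. It is linear on meromorphic functions,
kills derivatives (`resAt_deriv`) and satisfies the weighted argument principle
(`resAt_mul_logDeriv`).
-/

set_option autoImplicit false

noncomputable section

open Filter Topology Metric Real Complex Function

namespace FLTAgent.Jacobian

/-- `2πi`. -/
def twoPiI : ℂ := 2 * π * I

theorem twoPiI_ne_zero : twoPiI ≠ 0 := by
  simp [twoPiI, Real.pi_ne_zero, I_ne_zero]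

/-- The residue of `h` at `w`: the limit of small circle integrals divided by `2πi`. -/
def resAt (h : ℂ → ℂ) (w : ℂ) : ℂ :=
  limUnder (𝓝[>] (0 : ℝ)) fun r => twoPiI⁻¹ * ∮ s in C(w, r), h s

theorem resAt_eq_of_eventually {h : ℂ → ℂ} {w c : ℂ}
    (H : ∀ᶠ r in 𝓝[>] (0 : ℝ), (∮ s in C(w, r), h s) = twoPiI * c) : resAt h w = c := by
  refine Tendsto.limUnder_eq (tendsto_const_nhds.congr' ?_)
  filter_upwards [H] with r hr
  rw [hr, inv_mul_cancel_left₀ twoPiI_ne_zero]

theorem eventually_sphere_mem {w : ℂ} {p : ℂ → Prop} (H : ∀ᶠ s in 𝓝[≠] w, p s) :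
    ∀ᶠ r in 𝓝[>] (0 : ℝ), ∀ s ∈ sphere w r, p s := by
  rw [eventually_nhdsWithin_iff, Metric.eventually_nhds_iff] at H
  obtain ⟨ε, hε, H⟩ := H
  filter_upwards [Ioo_mem_nhdsGT hε] with r hr s hs
  have hs' : dist s w = r := hs
  exact H (hs' ▸ hr.2) (dist_ne_zero.mp (hs'.symm ▸ hr.1.ne'))

theorem resAt_congr {h₁ h₂ : ℂ → ℂ} {w : ℂ} (H : h₁ =ᶠ[𝓝[≠] w] h₂) :
    resAt h₁ w = resAt h₂ w := by
  have : ∀ᶠ r in 𝓝[>] (0 : ℝ),
      twoPiI⁻¹ * (∮ s in C(w, r), h₁ s) = twoPiI⁻¹ * ∮ s in C(w, r), h₂ s := by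
    filter_upwards [eventually_sphere_mem H, self_mem_nhdsWithin] with r hr hr0
    rw [circleIntegral.integral_congr (le_of_lt hr0) hr]
  simp only [resAt, limUnder, map_congr this]

/-- An analytic function splits off its value at the center. -/
theorem exists_eq_add_sub_mul {G : ℂ → ℂ} {w : ℂ} (hG : AnalyticAt ℂ G w) :
    ∃ G₁ : ℂ → ℂ, AnalyticAt ℂ G₁ w ∧ ∀ s, G s = G w + (s - w) * G₁ s := by
  obtain ⟨p, hp⟩ := hG
  refine ⟨dslope G w, ⟨_, hp.has_fpower_series_dslope_fslope⟩, fun s => ?_⟩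
  have := sub_smul_dslope G w s
  rw [smul_eq_mul] at this
  rw [this]; ring

/-- A finite principal part at `w`. -/
def polarPart (w : ℂ) (c : ℕ → ℂ) (N : ℕ) (s : ℂ) : ℂ :=
  ∑ k ∈ Finset.range N, c k * ((s - w)⁻¹) ^ (k + 1)

theorem exists_principalPart {h : ℂ → ℂ} {w : ℂ} (hh : MeromorphicAt h w) :
    ∃ (N : ℕ) (c : ℕ → ℂ) (g : ℂ → ℂ), AnalyticAt ℂ g w ∧
      ∀ᶠ s in 𝓝[≠] w, h s = g s + polarPart w c N s := by
  obtain ⟨n, hn⟩ := hh
  have main : ∀ (n : ℕ) (G : ℂ → ℂ), AnalyticAt ℂ G w →
      ∃ (c : ℕ → ℂ) (g : ℂ → ℂ), AnalyticAt ℂ g w ∧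
        ∀ s, s ≠ w → G s * ((s - w)⁻¹) ^ n = g s + polarPart w c n s := by
    intro n
    induction n with
    | zero => exact fun G hG => ⟨0, G, hG, fun s _ => by simp [polarPart]⟩
    | succ n ih =>
      intro G hG
      obtain ⟨G₁, hG₁, hG₁eq⟩ := exists_eq_add_sub_mul hG
      obtain ⟨c, g, hg, hgeq⟩ := ih G₁ hG₁
      refine ⟨update c n (G w), g, hg, fun s hs => ?_⟩
      have h0 : s - w ≠ 0 := sub_ne_zero.mpr hs
      have hsum : polarPart w (update c n (G w)) (n + 1) s
          = polarPart w c n s + G w * ((s - w)⁻¹) ^ (n + 1) := by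
        rw [polarPart, Finset.sum_range_succ, update_self]
        congr 1
        refine Finset.sum_congr rfl fun k hk => ?_
        rw [update_of_ne (Finset.mem_range.mp hk).ne]
      rw [hsum, hG₁eq s, add_mul, ← add_assoc, ← hgeq s hs, pow_succ]
      field_simp
      ring
  obtain ⟨c, g, hg, hgeq⟩ := main n _ hn
  refine ⟨n, c, g, hg, ?_⟩
  filter_upwards [self_mem_nhdsWithin] with s hs
  have h0 : (s - w) ^ n ≠ 0 := pow_ne_zero _ (sub_ne_zero.mpr hs)
  rw [← hgeq s hs, smul_eq_mul, inv_pow]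
  field_simp

theorem continuousOn_polarPart (w : ℂ) (c : ℕ → ℂ) (N : ℕ) :
    ContinuousOn (polarPart w c N) {w}ᶜ := by
  unfold polarPart
  refine continuousOn_finsetSum _ fun k _ => continuousOn_const.mul ?_
  refine ((continuousOn_id.sub continuousOn_const).inv₀ fun s hs => ?_).pow _
  exact sub_ne_zero.mpr hs

theorem analyticAt_polarPart {w s : ℂ} (hs : s ≠ w) (c : ℕ → ℂ) (N : ℕ) :
    AnalyticAt ℂ (polarPart w c N) s := by
  unfold polarPart
  refine Finset.analyticAt_fun_sum _ fun k _ => ?_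
  refine analyticAt_const.mul ?_
  exact ((analyticAt_id.sub analyticAt_const).inv (sub_ne_zero.mpr hs)).pow _

theorem circleIntegral_inv_sub_pow {v w : ℂ} {R : ℝ} (hw : w ∈ ball v R) (k : ℕ) :
    (∮ s in C(v, R), ((s - w)⁻¹) ^ (k + 1)) = if k = 0 then twoPiI else 0 := by
  split_ifs with hk
  · subst hk
    simpa [twoPiI] using circleIntegral.integral_sub_inv_of_mem_ball hw
  · have := circleIntegral.integral_sub_zpow_of_ne (n := -((k : ℤ) + 1)) (by omega) v w R
    rw [← this]
    congr 1
    funext s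
    rw [inv_pow, zpow_neg, ← Int.natCast_one, ← Int.natCast_add, zpow_natCast]

theorem circleIntegral_polarPart {v w : ℂ} {R : ℝ} (hw : w ∈ ball v R) (c : ℕ → ℂ) (N : ℕ) :
    (∮ s in C(v, R), polarPart w c N s) = twoPiI * (if 0 < N then c 0 else 0) := by
  have hR : 0 < R := pos_of_mem_ball hw
  have hne : ∀ s ∈ sphere v R, s - w ≠ 0 := fun s hs h => by
    rw [sub_eq_zero] at h
    subst h
    rw [mem_sphere] at hs
    rw [mem_ball, hs] at hw
    exact lt_irrefl _ hw
  have hint : ∀ k ∈ Finset.range N,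
      CircleIntegrable (fun s => c k * ((s - w)⁻¹) ^ (k + 1)) v R := fun k _ =>
    ContinuousOn.circleIntegrable hR.le
      (continuousOn_const.mul (((continuousOn_id.sub continuousOn_const).inv₀ hne).pow _))
  unfold polarPart
  rw [circleIntegral.integral_fun_sum hint]
  simp only [circleIntegral.integral_const_mul, circleIntegral_inv_sub_pow hw, mul_ite, mul_zero,
    Finset.sum_ite_eq', Finset.mem_range]
  split_ifs <;> ring

theorem resAt_eq_of_principalPart {h g : ℂ → ℂ} {w : ℂ} {c : ℕ → ℂ} {N : ℕ}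
    (hg : AnalyticAt ℂ g w) (H : ∀ᶠ s in 𝓝[≠] w, h s = g s + polarPart w c N s) :
    resAt h w = if 0 < N then c 0 else 0 := by
  refine resAt_eq_of_eventually ?_
  obtain ⟨ε, hε, hgd⟩ := Metric.eventually_nhds_iff.mp hg.eventually_analyticAt
  filter_upwards [eventually_sphere_mem H, Ioo_mem_nhdsGT hε] with r hr hr'
  have hsub : closedBall w r ⊆ ball w ε := closedBall_subset_ball hr'.2
  have hgc : ContinuousOn g (closedBall w r) :=
    fun s hs => (hgd (mem_ball.mp (hsub hs))).continuousAt.continuousWithinAt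
  rw [circleIntegral.integral_congr hr'.1.le hr,
    circleIntegral.integral_add
      ((hgc.mono sphere_subset_closedBall).circleIntegrable hr'.1.le)
      (((continuousOn_polarPart w c N).mono fun s hs =>
        ne_of_mem_sphere hs hr'.1.ne').circleIntegrable
        hr'.1.le),
    circleIntegral_polarPart (mem_ball_self hr'.1),
    Complex.circleIntegral_eq_zero_of_differentiable_on_off_countable hr'.1.le
      Set.countable_empty hgc
      (fun s hs => (hgd (mem_ball.mp (hsub (ball_subset_closedBall hs.1)))).differentiableAt),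
    zero_add]

theorem resAt_of_analyticAt {h : ℂ → ℂ} {w : ℂ} (hh : AnalyticAt ℂ h w) : resAt h w = 0 := by
  rw [resAt_eq_of_principalPart (c := 0) (N := 0) hh (by simp [polarPart])]
  simp

theorem eventually_circleIntegral_eq_resAt {h : ℂ → ℂ} {w : ℂ} (hh : MeromorphicAt h w) :
    ∀ᶠ r in 𝓝[>] (0 : ℝ), (∮ s in C(w, r), h s) = twoPiI * resAt h w := by
  obtain ⟨N, c, g, hg, H⟩ := exists_principalPart hh
  rw [resAt_eq_of_principalPart hg H]
  obtain ⟨ε, hε, hgd⟩ := Metric.eventually_nhds_iff.mp hg.eventually_analyticAt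
  filter_upwards [eventually_sphere_mem H, Ioo_mem_nhdsGT hε] with r hr hr'
  have hsub : closedBall w r ⊆ ball w ε := closedBall_subset_ball hr'.2
  have hgc : ContinuousOn g (closedBall w r) :=
    fun s hs => (hgd (mem_ball.mp (hsub hs))).continuousAt.continuousWithinAt
  rw [circleIntegral.integral_congr hr'.1.le hr,
    circleIntegral.integral_add
      ((hgc.mono sphere_subset_closedBall).circleIntegrable hr'.1.le)
      (((continuousOn_polarPart w c N).mono fun s hs =>
        ne_of_mem_sphere hs hr'.1.ne').circleIntegrable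
        hr'.1.le),
    circleIntegral_polarPart (mem_ball_self hr'.1),
    Complex.circleIntegral_eq_zero_of_differentiable_on_off_countable hr'.1.le
      Set.countable_empty hgc
      (fun s hs => (hgd (mem_ball.mp (hsub (ball_subset_closedBall hs.1)))).differentiableAt),
    zero_add]

theorem resAt_add {h₁ h₂ : ℂ → ℂ} {w : ℂ} (H₁ : MeromorphicAt h₁ w) (H₂ : MeromorphicAt h₂ w) :
    resAt (fun s => h₁ s + h₂ s) w = resAt h₁ w + resAt h₂ w := by
  refine resAt_eq_of_eventually ?_
  filter_upwards [eventually_circleIntegral_eq_resAt H₁, eventually_circleIntegral_eq_resAt H₂,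
    eventually_sphere_mem H₁.eventually_analyticAt, eventually_sphere_mem H₂.eventually_analyticAt,
    self_mem_nhdsWithin] with r h₁ h₂ c₁ c₂ hr
  rw [circleIntegral.integral_add
    (ContinuousOn.circleIntegrable (le_of_lt hr)
      fun s hs => (c₁ s hs).continuousAt.continuousWithinAt)
    (ContinuousOn.circleIntegrable (le_of_lt hr)
      fun s hs => (c₂ s hs).continuousAt.continuousWithinAt), h₁, h₂, mul_add]

theorem resAt_const_mul {h : ℂ → ℂ} {w : ℂ} (a : ℂ) (H : MeromorphicAt h w) :
    resAt (fun s => a * h s) w = a * resAt h w := by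
  refine resAt_eq_of_eventually ?_
  filter_upwards [eventually_circleIntegral_eq_resAt H] with r hr
  rw [circleIntegral.integral_const_mul, hr, mul_left_comm]

theorem resAt_zero (w : ℂ) : resAt (fun _ => 0) w = 0 :=
  resAt_of_analyticAt analyticAt_const

theorem resAt_sum {ι : Type*} (S : Finset ι) {h : ι → ℂ → ℂ} {w : ℂ}
    (H : ∀ i ∈ S, MeromorphicAt (h i) w) :
    resAt (fun s => ∑ i ∈ S, h i s) w = ∑ i ∈ S, resAt (h i) w := by
  classical
  induction S using Finset.induction_on with
  | empty => simp [resAt_zero]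
  | insert a S ha ih =>
    simp only [Finset.sum_insert ha]
    rw [resAt_add (H a (Finset.mem_insert_self a S))
      (MeromorphicAt.fun_sum fun i hi => H i (Finset.mem_insert_of_mem hi)),
      ih fun i hi => H i (Finset.mem_insert_of_mem hi)]

/-- The residue of a derivative vanishes. -/
theorem resAt_deriv {Φ : ℂ → ℂ} {w : ℂ} (H : MeromorphicAt Φ w) : resAt (deriv Φ) w = 0 := by
  refine resAt_eq_of_eventually ?_
  filter_upwards [eventually_sphere_mem H.eventually_analyticAt, self_mem_nhdsWithin] with r hr hr0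
  rw [mul_zero]
  exact circleIntegral.integral_eq_zero_of_hasDerivWithinAt (le_of_lt hr0)
    fun s hs => (hr s hs).differentiableAt.hasDerivAt.hasDerivWithinAt

theorem resAt_div_sub {G : ℂ → ℂ} {w : ℂ} (hG : AnalyticAt ℂ G w) :
    resAt (fun s => G s * (s - w)⁻¹) w = G w := by
  obtain ⟨G₁, hG₁, hG₁eq⟩ := exists_eq_add_sub_mul hG
  rw [resAt_eq_of_principalPart (c := fun _ => G w) (N := 1) hG₁]
  · simp
  · filter_upwards [self_mem_nhdsWithin] with s hs
    have h0 : s - w ≠ 0 := sub_ne_zero.mpr hs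
    simp only [polarPart, Finset.sum_range_one, zero_add, pow_one]
    rw [hG₁eq s]
    field_simp
    ring

/-- Weighted argument principle at one point. -/
theorem resAt_mul_logDeriv {G h : ℂ → ℂ} {w : ℂ} {n : ℤ} (hG : AnalyticAt ℂ G w)
    (hh : MeromorphicAt h w) (hn : meromorphicOrderAt h w = n) :
    resAt (fun s => G s * logDeriv h s) w = n * G w := by
  obtain ⟨g, hg, hg0, heq⟩ := (meromorphicOrderAt_eq_int_iff hh).mp hn
  have hloc : (fun s => G s * logDeriv h s)
      =ᶠ[𝓝[≠] w] fun s => G s * (n : ℂ) * (s - w)⁻¹ + G s * logDeriv g s := by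
    filter_upwards [logDeriv_congr_nhdsNE heq, self_mem_nhdsWithin,
      eventually_nhdsWithin_of_eventually_nhds hg.eventually_analyticAt,
      eventually_nhdsWithin_of_eventually_nhds (hg.continuousAt.eventually_ne hg0)]
      with s hs hsw hgs hgs0
    have h0 : s - w ≠ 0 := sub_ne_zero.mpr hsw
    have hs' : logDeriv h s = logDeriv (fun z => (z - w) ^ n * g z) s := by simpa using hs
    have hzp : DifferentiableAt ℂ (fun z => (z - w) ^ n) s :=
      DifferentiableAt.zpow (by fun_prop) (Or.inl h0)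
    have hld : logDeriv (fun z => (z - w) ^ n) s = (n : ℂ) * (s - w)⁻¹ := by
      rw [logDeriv_fun_zpow (by fun_prop) n, logDeriv_apply, deriv_sub_const_fun]
      simp [div_eq_mul_inv]
    rw [hs', logDeriv_mul (f := fun z => (z - w) ^ n) (g := g) s (zpow_ne_zero n h0) hgs0 hzp
      hgs.differentiableAt, hld]
    ring
  have h1 : MeromorphicAt (fun s => G s * (n : ℂ) * (s - w)⁻¹) w :=
    (hG.meromorphicAt.mul (MeromorphicAt.const _ w)).mul
      ((MeromorphicAt.id w).sub (MeromorphicAt.const w w)).inv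
  have h2 : AnalyticAt ℂ (fun s => G s * logDeriv g s) w := hG.mul (hg.deriv.div hg hg0)
  rw [resAt_congr hloc, resAt_add h1 h2.meromorphicAt, resAt_of_analyticAt h2, add_zero,
    resAt_div_sub (G := fun s => G s * (n : ℂ)) (hG.mul analyticAt_const)]
  ring

end FLTAgent.Jacobian
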