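import Fermat.Agent.Jacobian.Residue

/-!
# Residue formulas in the plane

A circle integral is the sum of the residues inside (`circleIntegral_eq_sum_resAt`), the change
of variable formula (`resAt_comp_mul_deriv`) and the residue at infinity (`resAt_infty_eq`).
-/

set_option autoImplicit false

noncomputable section

open Filter Topology Metric Real Complex Function

namespace FLTAgent.Jacobian

/-- A circle integral equals the sum of the residues inside. -/
theorem circleIntegral_eq_sum_resAt {v : ℂ} {R : ℝ} (hR : 0 < R) (S : Finset ℂ)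
    {h : ℂ → ℂ} (hS : (↑S : Set ℂ) ⊆ ball v R)
    (han : ∀ s ∈ closedBall v R, s ∉ S → AnalyticAt ℂ h s)
    (hmer : ∀ w ∈ S, MeromorphicAt h w) :
    (∮ s in C(v, R), h s) = twoPiI * ∑ w ∈ S, resAt h w := by
  classical
  induction S using Finset.induction_on generalizing h with
  | empty =>
    rw [Finset.sum_empty, mul_zero]
    exact Complex.circleIntegral_eq_zero_of_differentiable_on_off_countable hR.le
      Set.countable_empty
      (fun s hs => (han s hs (Finset.notMem_empty s)).continuousAt.continuousWithinAt)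
      (fun s hs => (han s (ball_subset_closedBall hs.1) (Finset.notMem_empty s)).differentiableAt)
  | insert w S hw ih =>
    obtain ⟨N, c, g, hg, heq⟩ := exists_principalPart (hmer w (Finset.mem_insert_self w S))
    have hwball : w ∈ ball v R := hS (Finset.mem_insert_self w S)
    set h' : ℂ → ℂ := update (fun s => h s - polarPart w c N s) w (g w) with hh'
    have hat : AnalyticAt ℂ h' w := by
      refine hg.congr ?_
      rw [eventually_nhdsWithin_iff] at heq
      filter_upwards [heq] with s hs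
      rcases eq_or_ne s w with rfl | hne
      · simp [h']
      · simp [h', update_of_ne hne, hs hne]
    have hoff : ∀ s, s ≠ w → h' =ᶠ[𝓝 s] fun z => h z - polarPart w c N z := fun s hs => by
      filter_upwards [isOpen_ne.mem_nhds hs] with z hz
      simp [h', update_of_ne hz]
    have hres : resAt h' w = 0 := resAt_of_analyticAt hat
    have hresS : ∀ z ∈ S, resAt h' z = resAt h z := by
      intro z hz
      have hzw : z ≠ w := fun e => hw (e ▸ hz)
      rw [resAt_congr ((hoff z hzw).filter_mono nhdsWithin_le_nhds)]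
      have hp := analyticAt_polarPart hzw c N
      have hsub : (fun s => h s - polarPart w c N s)
          = fun s => h s + (-1 : ℂ) * polarPart w c N s := by funext s; ring
      have hp' : AnalyticAt ℂ (fun s => (-1 : ℂ) * polarPart w c N s) z := analyticAt_const.mul hp
      rw [hsub, resAt_add (hmer z (Finset.mem_insert_of_mem hz)) hp'.meromorphicAt,
        resAt_of_analyticAt hp', add_zero]
    have han' : ∀ s ∈ closedBall v R, s ∉ S → AnalyticAt ℂ h' s := by
      intro s hs hsS
      rcases eq_or_ne s w with rfl | hne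
      · exact hat
      · exact ((han s hs (by simp [hne, hsS])).sub (analyticAt_polarPart hne c N)).congr
          (hoff s hne).symm
    have hmer' : ∀ z ∈ S, MeromorphicAt h' z := fun z hz => by
      have hzw : z ≠ w := fun e => hw (e ▸ hz)
      exact ((hmer z (Finset.mem_insert_of_mem hz)).sub
        (analyticAt_polarPart hzw c N).meromorphicAt).congr
        ((hoff z hzw).filter_mono nhdsWithin_le_nhds).symm
    have hI := ih (fun z hz => hS (Finset.mem_insert_of_mem hz)) han' hmer'
    have hsphere : ∀ s ∈ sphere v R, s ≠ w := fun s hs h => by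
      subst h
      rw [mem_sphere] at hs
      rw [mem_ball, hs] at hwball
      exact lt_irrefl _ hwball
    have hcont : ContinuousOn h' (sphere v R) := fun s hs =>
      (han' s (sphere_subset_closedBall hs) fun hsS => by
        have hb := hS (Finset.mem_insert_of_mem hsS)
        rw [mem_sphere] at hs
        rw [mem_ball, hs] at hb
        exact lt_irrefl _ hb).continuousAt.continuousWithinAt
    have hsum : Set.EqOn h (fun s => h' s + polarPart w c N s) (sphere v R) := fun s hs => by
      simp [h', update_of_ne (hsphere s hs)]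
    rw [circleIntegral.integral_congr hR.le hsum,
      circleIntegral.integral_add (hcont.circleIntegrable hR.le)
        (((continuousOn_polarPart w c N).mono fun s hs => hsphere s hs).circleIntegrable hR.le),
      hI, circleIntegral_polarPart hwball, Finset.sum_insert hw,
      resAt_eq_of_principalPart hg heq, Finset.sum_congr rfl hresS]
    ring

theorem resAt_inv_sub_pow (w : ℂ) (k : ℕ) :
    resAt (fun s => ((s - w)⁻¹) ^ (k + 1)) w = if k = 0 then 1 else 0 := by
  refine resAt_eq_of_eventually ?_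
  filter_upwards [self_mem_nhdsWithin] with r hr
  rw [circleIntegral_inv_sub_pow (mem_ball_self hr)]
  split_ifs <;> simp

theorem tendsto_nhdsNE_of_deriv_ne_zero {ψ : ℂ → ℂ} {z : ℂ} (hψ : AnalyticAt ℂ ψ z)
    (hd : deriv ψ z ≠ 0) : Tendsto ψ (𝓝[≠] z) (𝓝[≠] ψ z) :=
  hψ.differentiableAt.hasDerivAt.tendsto_nhdsNE hd

theorem meromorphicOrderAt_sub_of_deriv_ne_zero {ψ : ℂ → ℂ} {z : ℂ} (hψ : AnalyticAt ℂ ψ z)
    (hd : deriv ψ z ≠ 0) : meromorphicOrderAt (fun s => ψ s - ψ z) z = (1 : ℤ) := by
  have han : AnalyticAt ℂ (fun s => ψ s - ψ z) z := hψ.sub analyticAt_const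
  rw [han.meromorphicOrderAt_eq, hψ.analyticOrderAt_sub_eq_one_of_deriv_ne_zero hd]
  rfl

/-- Change of variable for residues. -/
theorem resAt_comp_mul_deriv {ψ h : ℂ → ℂ} {z : ℂ} (hψ : AnalyticAt ℂ ψ z)
    (hd : deriv ψ z ≠ 0) (hh : MeromorphicAt h (ψ z)) :
    resAt (fun s => h (ψ s) * deriv ψ s) z = resAt h (ψ z) := by
  obtain ⟨N, c, g, hg, heq⟩ := exists_principalPart hh
  rw [resAt_eq_of_principalPart hg heq]
  have hpull : ∀ᶠ s in 𝓝[≠] z, h (ψ s) * deriv ψ s
      = g (ψ s) * deriv ψ s
        + ∑ k ∈ Finset.range N, c k * (((ψ s - ψ z)⁻¹) ^ (k + 1) * deriv ψ s) := by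
    filter_upwards [(tendsto_nhdsNE_of_deriv_ne_zero hψ hd).eventually heq] with s hs
    rw [hs, polarPart, add_mul, Finset.sum_mul]
    congr 1
    exact Finset.sum_congr rfl fun k _ => by ring
  have hT : ∀ k : ℕ, MeromorphicAt (fun s => ((ψ s - ψ z)⁻¹) ^ (k + 1) * deriv ψ s) z :=
    fun k => (((hψ.sub analyticAt_const).meromorphicAt.inv).pow _).mul hψ.deriv.meromorphicAt
  have hTc : ∀ k : ℕ, MeromorphicAt (fun s => c k * (((ψ s - ψ z)⁻¹) ^ (k + 1) * deriv ψ s)) z :=
    fun k => (MeromorphicAt.const _ z).mul (hT k)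
  have h0 : AnalyticAt ℂ (fun s => g (ψ s) * deriv ψ s) z := (hg.fun_comp hψ).mul hψ.deriv
  rw [resAt_congr hpull, resAt_add h0.meromorphicAt (MeromorphicAt.fun_sum fun k _ => hTc k),
    resAt_of_analyticAt h0, zero_add, resAt_sum _ fun k _ => hTc k]
  have hk : ∀ k : ℕ, resAt (fun s => ((ψ s - ψ z)⁻¹) ^ (k + 1) * deriv ψ s) z
      = if k = 0 then 1 else 0 := by
    intro k
    split_ifs with hk
    · subst hk
      have hloc : (fun s => ((ψ s - ψ z)⁻¹) ^ (0 + 1) * deriv ψ s)
          =ᶠ[𝓝[≠] z] fun s => (1 : ℂ) * logDeriv (fun u => ψ u - ψ z) s := by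
        refine Eventually.of_forall fun s => ?_
        simp only [logDeriv_apply, deriv_sub_const_fun]
        simp only [zero_add, pow_one, one_mul]
        ring
      have hm : MeromorphicAt (fun u => ψ u - ψ z) z := (hψ.sub analyticAt_const).meromorphicAt
      rw [resAt_congr hloc, resAt_mul_logDeriv (G := fun _ => (1 : ℂ)) analyticAt_const hm
        (meromorphicOrderAt_sub_of_deriv_ne_zero hψ hd)]
      simp
    · set Φ : ℂ → ℂ := fun s => -((k : ℂ)⁻¹) * ((ψ s - ψ z)⁻¹) ^ k with hΦ
      have hΦm : MeromorphicAt Φ z :=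
        (MeromorphicAt.const _ z).mul (((hψ.sub analyticAt_const).meromorphicAt.inv).pow _)
      rw [← resAt_deriv hΦm]
      refine resAt_congr ?_
      filter_upwards [(tendsto_nhdsNE_of_deriv_ne_zero hψ hd).eventually self_mem_nhdsWithin,
        eventually_nhdsWithin_of_eventually_nhds hψ.eventually_analyticAt] with s hs hsa
      have hne : ψ s - ψ z ≠ 0 := sub_ne_zero.mpr hs
      have hder : HasDerivAt Φ (((ψ s - ψ z)⁻¹) ^ (k + 1) * deriv ψ s) s := by
        have h1 :=
          (((hsa.differentiableAt.hasDerivAt.sub_const (ψ z)).fun_inv hne).fun_pow k).const_mul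
          (-((k : ℂ)⁻¹))
        refine h1.congr_deriv ?_
        obtain ⟨j, rfl⟩ : ∃ j, k = j + 1 := ⟨k - 1, by omega⟩
        have hj : ((j + 1 : ℕ) : ℂ) ≠ 0 := Nat.cast_ne_zero.mpr (Nat.succ_ne_zero j)
        rw [Nat.add_sub_cancel]
        field_simp
        simp only [pow_succ]
        field_simp
      exact hder.deriv.symm
  rw [Finset.sum_congr rfl fun k _ => (resAt_const_mul (c k) (hT k)).trans (by rw [hk k])]
  simp

/-- Substitution `s ↦ 1/s` in a circle integral. -/
theorem circleIntegral_comp_inv (h : ℂ → ℂ) (r : ℝ) :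
    (∮ b in C(0, r), -(h b⁻¹) / b ^ 2) = -∮ a in C(0, r⁻¹), h a := by
  rcases eq_or_ne r 0 with rfl | hr
  · simp
  set F : ℝ → ℂ := fun θ => deriv (circleMap 0 r⁻¹) θ • h (circleMap 0 r⁻¹ θ) with hF
  have hper : ∀ θ : ℝ, circleMap 0 r⁻¹ (2 * π - θ) = circleMap 0 r⁻¹ (-θ) := fun θ => by
    rw [sub_eq_neg_add]; exact periodic_circleMap 0 r⁻¹ (-θ)
  have hpt : ∀ θ : ℝ, deriv (circleMap 0 r) θ • (-(h (circleMap 0 r θ)⁻¹) / (circleMap 0 r θ) ^ 2)
      = -F (2 * π - θ) := by
    intro θ
    simp only [hF, deriv_circleMap, hper, ← circleMap_zero_inv, smul_eq_mul]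
    have hne : circleMap 0 r θ ≠ 0 := circleMap_ne_center hr
    field_simp
  have hcomp : (∫ θ in (0 : ℝ)..2 * π, F (2 * π - θ)) = ∫ θ in (0 : ℝ)..2 * π, F θ := by
    rw [intervalIntegral.integral_comp_sub_left]; simp
  show (∫ θ in (0 : ℝ)..2 * π,
      deriv (circleMap 0 r) θ • (-(h (circleMap 0 r θ)⁻¹) / (circleMap 0 r θ) ^ 2))
    = -∫ θ in (0 : ℝ)..2 * π, F θ
  simp only [hpt, intervalIntegral.integral_neg, hcomp]

/-- Residue at infinity. -/
theorem resAt_infty_eq {h : ℂ → ℂ} (S : Finset ℂ) (han : ∀ s ∉ S, AnalyticAt ℂ h s)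
    (hmer : ∀ w ∈ S, MeromorphicAt h w) :
    resAt (fun b => -(h b⁻¹) / b ^ 2) 0 = -∑ w ∈ S, resAt h w := by
  refine resAt_eq_of_eventually ?_
  have hbig : ∀ᶠ r in 𝓝[>] (0 : ℝ), ∀ w ∈ S, ‖w‖ < r⁻¹ :=
    (Filter.eventually_all_finset S).mpr fun w _ => tendsto_inv_nhdsGT_zero.eventually_gt_atTop ‖w‖
  filter_upwards [hbig, self_mem_nhdsWithin] with r hS hr
  have hr' : (0 : ℝ) < r := hr
  rw [circleIntegral_comp_inv, circleIntegral_eq_sum_resAt (inv_pos.mpr hr') S
    (fun w hw => mem_ball_zero_iff.mpr (hS w (Finset.mem_coe.mp hw)))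
    (fun s _ hs => han s hs) hmer]
  ring

end FLTAgent.Jacobian
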