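import Fermat.Agent.Jacobian.JacobiInversion
import Fermat.Agent.Jacobian.LatticeTorsion

/-!
# The Jacobian over `ℂ` as a complex torus

`exists_uniformization`: `Pic0` is the quotient of the dual of the holomorphic differentials by
a full lattice of rank `2 g`. Hence it is divisible (`exists_nsmul_eq_complex`) and has
`n ^ (2 g)` classes killed by `n` (`natCard_torsion_complex`).
-/

set_option autoImplicit false

noncomputable section

open Filter Topology Metric AlgebraicCurve
open FLTAgent.FFBasic (IsFunctionField)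
open FLTAgent.FFDifferential (holomorphicDifferentials)

namespace FLTAgent.Jacobian

/-- A germ of homomorphism extends to a homomorphism. -/
theorem exists_addMonoidHom_of_germ {V A : Type*} [NormedAddCommGroup V] [NormedSpace ℝ V]
    [AddCommGroup A] (θ : V → A) (h0 : θ 0 = 0) {δ : ℝ} (hδ : 0 < δ)
    (hadd : ∀ v w, ‖v‖ < δ → ‖w‖ < δ → θ (v + w) = θ v + θ w) :
    ∃ f : V →+ A, ∀ v, ‖v‖ < δ → f v = θ v := by
  have hnat : ∀ (k : ℕ) (v : V), (k : ℝ) * ‖v‖ < δ → θ (k • v) = k • θ v := by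
    intro k
    induction k with
    | zero => intro v _; simp [h0]
    | succ k ih =>
      intro v hv
      rw [Nat.cast_succ, add_mul, one_mul] at hv
      have hk : (k : ℝ) * ‖v‖ < δ := by linarith [norm_nonneg v]
      have hv' : ‖v‖ < δ := by
        have : (0 : ℝ) ≤ (k : ℝ) * ‖v‖ := by positivity
        linarith
      have hkv : ‖k • v‖ < δ := lt_of_le_of_lt norm_nsmul_le hk
      rw [succ_nsmul, succ_nsmul, hadd _ _ hkv hv', ih v hk]
  have hsmall : ∀ (n : ℕ) (v : V), ‖v‖ < n * δ → ‖(n : ℝ)⁻¹ • v‖ < δ := fun n v hv => by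
    have hn : (0 : ℝ) < n := by
      by_contra h
      nlinarith [norm_nonneg v]
    rwa [norm_smul, norm_inv, RCLike.norm_natCast, inv_mul_lt_iff₀ hn]
  have hwd : ∀ (n m : ℕ) (v : V), ‖v‖ < n * δ → ‖v‖ < m * δ →
      n • θ ((n : ℝ)⁻¹ • v) = m • θ ((m : ℝ)⁻¹ • v) := by
    intro n m v hn hm
    have hn0 : (n : ℝ) ≠ 0 := fun h => by nlinarith [norm_nonneg v]
    have hm0 : (m : ℝ) ≠ 0 := fun h => by nlinarith [norm_nonneg v]
    set u := ((n : ℝ) * m)⁻¹ • v with hu
    have e1 : (n : ℝ)⁻¹ • v = m • u := by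
      rw [hu, ← Nat.cast_smul_eq_nsmul ℝ, smul_smul]; congr 1; field_simp
    have e2 : (m : ℝ)⁻¹ • v = n • u := by
      rw [hu, ← Nat.cast_smul_eq_nsmul ℝ, smul_smul]; congr 1; field_simp
    have hmu : (m : ℝ) * ‖u‖ < δ := by
      have := hsmall n v hn
      rwa [e1, ← Nat.cast_smul_eq_nsmul ℝ, norm_smul, RCLike.norm_natCast] at this
    have hnu : (n : ℝ) * ‖u‖ < δ := by
      have := hsmall m v hm
      rwa [e2, ← Nat.cast_smul_eq_nsmul ℝ, norm_smul, RCLike.norm_natCast] at this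
    rw [e1, e2, hnat m u hmu, hnat n u hnu, smul_smul, smul_smul, mul_comm]
  set N : V → ℕ := fun v => ⌊‖v‖ / δ⌋₊ + 1
  have hN : ∀ v, ‖v‖ < N v * δ := fun v => by
    rw [← div_lt_iff₀ hδ]
    simpa [N] using Nat.lt_floor_add_one (‖v‖ / δ)
  refine ⟨AddMonoidHom.mk' (fun v => N v • θ ((N v : ℝ)⁻¹ • v)) fun v w => ?_, fun v hv => ?_⟩
  · set n := N v + N w + N (v + w)
    have hn : ∀ {x : V}, N x ≤ n → ‖x‖ < n * δ := fun {x} hx =>
      (hN x).trans_le (mul_le_mul_of_nonneg_right (Nat.cast_le.mpr hx) hδ.le)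
    have h1 : ‖v‖ < n * δ := hn (by omega)
    have h2 : ‖w‖ < n * δ := hn (by omega)
    rw [hwd _ n _ (hN v) h1, hwd _ n _ (hN w) h2, hwd _ n _ (hN (v + w)) (hn (by omega)),
      smul_add ((n : ℝ)⁻¹), hadd _ _ (hsmall n v h1) (hsmall n w h2), nsmul_add]
  · show N v • θ _ = θ v
    rw [hwd _ 1 v (hN v) (by simpa using hv), Nat.cast_one, inv_one, one_smul, one_smul]

variable {F : Type*} [Field F] [Algebra ℂ F] [IsCurveOver ℂ F] [IsFunctionField ℂ F]

namespace BaseTuple

variable (B : BaseTuple F)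

theorem exists_exp : ∃ f : (Fin (genusFF ℂ F) → ℂ) →+ Pic0 ℂ F,
    (∀ᶠ w in 𝓝 0, f w = B.theta w) ∧
    (∀ᶠ w in 𝓝 0, f w = 0 → w = 0) ∧
    ∀ C : Chart F, ∀ᶠ z in 𝓝 0, f (B.coord (C.aj z)) = pointClass (C.σ z) (C.σ 0) := by
  obtain ⟨δ, hδ, hadd⟩ := Metric.eventually_nhds_iff.mp B.eventually_theta_add
  obtain ⟨f, hf⟩ := exists_addMonoidHom_of_germ B.theta B.theta_zero hδ fun v w hv hw => by
    refine @hadd (v, w) ?_
    rw [dist_zero_right, Prod.norm_def]
    exact max_lt hv hw
  have hev : ∀ᶠ w in 𝓝 0, f w = B.theta w := by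
    filter_upwards [ball_mem_nhds (0 : Fin (genusFF ℂ F) → ℂ) hδ] with w hw
    exact hf w (mem_ball_zero_iff.mp hw)
  refine ⟨f, hev, ?_, fun C => ?_⟩
  · filter_upwards [hev, B.eventually_theta_eq_zero] with w h1 h2 h3
    exact h2 (h1 ▸ h3)
  · have hc : Tendsto (fun z => B.coord (C.aj z)) (𝓝 0) (𝓝 0) := by
      refine tendsto_pi_nhds.mpr fun j => ?_
      simp only [coord_apply]
      have := (C.analyticAt_aj_apply (mem_ball_self C.r_pos) (B.basis j)).continuousAt.tendsto
      simpa [C.aj_zero] using this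
    filter_upwards [hc.eventually hev, B.eventually_theta_aj C] with z h1 h2
    rw [h1, h2]

end BaseTuple

theorem exists_compact_surjective (B : BaseTuple F) (f : (Fin (genusFF ℂ F) → ℂ) →+ Pic0 ℂ F)
    (hf : ∀ C : Chart F, ∀ᶠ z in 𝓝 0, f (B.coord (C.aj z)) = pointClass (C.σ z) (C.σ 0)) :
    ∃ K : Set (Fin (genusFF ℂ F) → ℂ), IsCompact K ∧ f '' K = Set.univ := by
  classical
  have : Nonempty (Place ℂ F) := FFBasic.nonempty_place
  have : PreconnectedSpace (Place ℂ F) := preconnectedSpace_place fun P => by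
    obtain ⟨h, -, hP, hQ⟩ := FFRiemannRoch.exists_pole_only_at P
      (Nat.le_succ (2 * genusFF ℂ F))
    exact ⟨h, by rw [hP]; push_cast; omega, hQ⟩
  set r : Place ℂ F → Place ℂ F → Prop := fun P Q => pointClass P Q ∈ f.range
  have hρ : ∀ Q : Place ℂ F, ∃ ρ : ℝ, 0 < ρ ∧ closedBall (0 : ℂ) ρ ⊆ ball 0 (chartAtPlace Q).r ∧
      ∀ z ∈ closedBall (0 : ℂ) ρ, f (B.coord ((chartAtPlace Q).aj z))
        = pointClass ((chartAtPlace Q).σ z) Q := fun Q => by
    obtain ⟨ε, hε, h⟩ := Metric.eventually_nhds_iff.mp ((hf (chartAtPlace Q)).and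
      (isOpen_ball.mem_nhds (mem_ball_self (chartAtPlace Q).r_pos)))
    refine ⟨ε / 2, by linarith, fun z hz => ?_, fun z hz => ?_⟩
    · exact (h (lt_of_le_of_lt (mem_closedBall.mp hz) (by linarith))).2
    · rw [(h (lt_of_le_of_lt (mem_closedBall.mp hz) (by linarith))).1, chartAtPlace_center]
  choose ρ hρ0 hρr hρf using hρ
  set U : Place ℂ F → Set (Place ℂ F) := fun Q => (chartAtPlace Q).σ '' ball 0 (ρ Q)
  have hUo : ∀ Q, U Q ∈ 𝓝 Q := fun Q => by
    have := (chartAtPlace Q).image_mem_nhds (mem_ball_self (chartAtPlace Q).r_pos)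
      (ball_mem_nhds (0 : ℂ) (hρ0 Q))
    rwa [chartAtPlace_center] at this
  -- every class of a difference of two points is in the image
  have hconn : ∀ P Q : Place ℂ F, r P Q := by
    intro P Q
    have hnear : ∀ P' : Place ℂ F, ∀ R ∈ U P', r R P' := fun P' R hR => by
      obtain ⟨z, hz, rfl⟩ := hR
      exact ⟨_, hρf P' z (ball_subset_closedBall hz)⟩
    have hclopen : IsClopen {R | r R Q} := by
      constructor
      · rw [← isOpen_compl_iff, isOpen_iff_mem_nhds]
        intro P' hP'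
        filter_upwards [hUo P'] with R hR hRQ
        refine hP' ?_
        show pointClass P' Q ∈ f.range
        rw [← pointClass_add P' R Q, ← pointClass_neg R P']
        exact add_mem (neg_mem (hnear P' R hR)) hRQ
      · rw [isOpen_iff_mem_nhds]
        intro P' hP'
        filter_upwards [hUo P'] with R hR
        show pointClass R Q ∈ f.range
        rw [← pointClass_add R P' Q]
        exact add_mem (hnear P' R hR) hP'
    have : Q ∈ {R | r R Q} := by
      show pointClass Q Q ∈ f.range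
      rw [pointClass_self]
      exact zero_mem _
    have huniv := hclopen.eq_univ ⟨Q, this⟩
    exact (huniv ▸ Set.mem_univ P : P ∈ {R | r R Q})
  choose v hv using hconn
  obtain ⟨t, ht⟩ := isCompact_univ.elim_nhds_subcover U (fun Q _ => hUo Q)
  set Ki : Fin (genusFF ℂ F) → Set (Fin (genusFF ℂ F) → ℂ) := fun i =>
    ⋃ Q ∈ t, (fun z => v Q (B.P i) + B.coord ((chartAtPlace Q).aj z)) '' closedBall 0 (ρ Q)
  have hKi : ∀ i, IsCompact (Ki i) := fun i => t.finite_toSet.isCompact_biUnion fun Q _ =>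
    (isCompact_closedBall 0 (ρ Q)).image_of_continuousOn (continuousOn_const.add
      (continuousOn_pi.mpr fun j => by
        simp only [BaseTuple.coord_apply]
        exact fun (z : ℂ) hz => ((chartAtPlace Q).analyticAt_aj_apply (hρr Q hz)
          (B.basis j)).continuousAt.continuousWithinAt))
  refine ⟨(fun w : Fin (genusFF ℂ F) → Fin (genusFF ℂ F) → ℂ => ∑ i, w i) '' Set.univ.pi Ki,
    (isCompact_univ_pi hKi).image (continuous_finsetSum _ fun i _ => continuous_apply i), ?_⟩
  refine Set.eq_univ_of_forall fun x => ?_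
  obtain ⟨E, rfl⟩ := exists_pairClass_eq B.P (Fintype.card_fin _).ge x
  have hE : ∀ i, ∃ w ∈ Ki i, f w = pointClass (E i) (B.P i) := fun i => by
    obtain ⟨Q, hQ, hEQ⟩ := Set.mem_iUnion₂.mp (ht.2 (Set.mem_univ (E i)))
    obtain ⟨z, hz, hzE⟩ := hEQ
    refine ⟨v Q (B.P i) + B.coord ((chartAtPlace Q).aj z),
      Set.mem_iUnion₂.mpr ⟨Q, hQ, z, ball_subset_closedBall hz, rfl⟩, ?_⟩
    rw [map_add, hρf Q z (ball_subset_closedBall hz), hv, hzE, add_comm, pointClass_add]
  choose w hwK hw using hE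
  exact ⟨_, ⟨w, fun i _ => hwK i, rfl⟩,
    (map_sum f w _).trans ((pairClass_eq_sum E B.P).trans
      (Finset.sum_congr rfl fun i _ => (hw i).symm)).symm⟩

/-- A group of periods with compact quotient is a full lattice. -/
theorem exists_lattice_basis {V A : Type*} [NormedAddCommGroup V] [NormedSpace ℝ V]
    [FiniteDimensional ℝ V] [AddCommGroup A] (f : V →+ A) (h0 : ∀ᶠ v in 𝓝 0, f v = 0 → v = 0)
    {K : Set V} (hK : IsCompact K) (hKf : f '' K = Set.univ) :
    ∃ b : Fin (Module.finrank ℝ V) → V, LinearIndependent ℝ b ∧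
      ∀ v, f v = 0 ↔ v ∈ Submodule.span ℤ (Set.range b) := by
  set L : Submodule ℤ V := AddSubgroup.toIntSubmodule f.ker
  have hL : ∀ v, v ∈ L ↔ f v = 0 := fun v => Iff.rfl
  have : DiscreteTopology L := by
    refine discreteTopology_of_isOpen_singleton_zero ?_
    obtain ⟨δ, hδ, hball⟩ := Metric.eventually_nhds_iff.mp h0
    convert (isOpen_ball (x := (0 : V)) (ε := δ)).preimage continuous_subtype_val using 1
    ext x
    constructor
    · rintro rfl; simpa using hδ
    · intro hx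
      exact Subtype.ext (hball hx ((hL _).mp x.2))
  have hspan : Submodule.span ℝ (L : Set V) = ⊤ := by
    by_contra hne
    obtain ⟨φ, hφ0, hφ⟩ := Submodule.exists_le_ker_of_lt_top _ (lt_top_iff_ne_top.mpr hne)
    obtain ⟨B, hB⟩ := hK.exists_bound_of_continuousOn
      φ.continuous_of_finiteDimensional.continuousOn
    obtain ⟨u, hu⟩ : ∃ u, φ u ≠ 0 := by
      by_contra! h
      exact hφ0 (LinearMap.ext fun x => by simp [h x])
    have hb : ∀ v, ‖φ v‖ ≤ B := fun v => by
      obtain ⟨k, hk, hkv⟩ : f v ∈ f '' K := hKf ▸ Set.mem_univ _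
      have : φ (v - k) = 0 := hφ (Submodule.subset_span ((hL _).mpr (by
        rw [map_sub, hkv, sub_self])))
      rw [map_sub, sub_eq_zero] at this
      rw [this]
      exact hB k hk
    have := hb (((|B| + 1) / φ u) • u)
    rw [map_smul, smul_eq_mul, div_mul_cancel₀ _ hu, Real.norm_eq_abs] at this
    have := le_abs_self (|B| + 1)
    have := le_abs_self B
    linarith
  have : IsZLattice ℝ L := ⟨hspan⟩
  let b := (Module.finBasis ℤ L).reindex (finCongr (ZLattice.rank ℝ L))
  refine ⟨fun i => (b i : V), ?_, fun v => ?_⟩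
  · have := (b.ofZLatticeBasis ℝ L).linearIndependent
    simpa [funext (b.ofZLatticeBasis_apply ℝ L)] using this
  · rw [← hL, show Set.range (fun i => (b i : V)) = L.subtype '' Set.range b by
      rw [← Set.range_comp]; rfl, ← Submodule.map_span, b.span_eq, Submodule.map_top,
      Submodule.range_subtype]

variable (F) in
/-- **Uniformization of the Jacobian.** -/
theorem exists_uniformization :
    ∃ (f : Module.Dual ℂ (holomorphicDifferentials ℂ F) →+ Pic0 ℂ F)
      (b : Fin (2 * genusFF ℂ F) → Module.Dual ℂ (holomorphicDifferentials ℂ F)),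
      Function.Surjective f ∧ LinearIndependent ℝ b ∧
      (∀ v, f v = 0 ↔ v ∈ Submodule.span ℤ (Set.range b)) ∧
      ∀ C : Chart F, ∀ᶠ z in 𝓝 0, f (C.aj z) = pointClass (C.σ z) (C.σ 0) := by
  obtain ⟨B⟩ := exists_baseTuple F
  obtain ⟨f, -, hinj, hloc⟩ := B.exists_exp
  obtain ⟨K, hK, hKf⟩ := exists_compact_surjective B f hloc
  obtain ⟨b, hb, hker⟩ := exists_lattice_basis f hinj hK hKf
  have hg : Module.finrank ℝ (Fin (genusFF ℂ F) → ℂ) = 2 * genusFF ℂ F := by
    rw [finrank_real_of_complex, Module.finrank_fin_fun]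
  set c : Module.Dual ℂ (holomorphicDifferentials ℂ F) ≃ₗ[ℝ] (Fin (genusFF ℂ F) → ℂ) :=
    B.coord.restrictScalars ℝ with hc
  refine ⟨f.comp c.toLinearMap.toAddMonoidHom, fun i => c.symm (b (finCongr hg.symm i)), ?_, ?_, ?_,
    fun C => hloc C⟩
  · intro x
    obtain ⟨v, -, rfl⟩ : x ∈ f '' K := hKf ▸ Set.mem_univ x
    exact ⟨c.symm v, congrArg f (c.apply_symm_apply v)⟩
  · exact (hb.comp _ (finCongr hg.symm).injective).map' c.symm.toLinearMap c.symm.ker
  · intro v
    show f (c v) = 0 ↔ _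
    rw [hker, show Set.range (fun i => c.symm (b (finCongr hg.symm i)))
      = (c.symm.toLinearMap.restrictScalars ℤ) '' Set.range b by
        rw [← Set.range_comp]
        exact (finCongr hg.symm).surjective.range_comp (fun i => c.symm (b i)),
      ← Submodule.map_span, Submodule.mem_map]
    constructor
    · exact fun h => ⟨c v, h, c.symm_apply_apply v⟩
    · rintro ⟨y, hy, rfl⟩
      simpa using hy

/-- Over `ℂ` the class group of degree zero is divisible. -/
theorem exists_nsmul_eq_complex {n : ℕ} (hn : n ≠ 0) (x : Pic0 ℂ F) : ∃ y, n • y = x := by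
  obtain ⟨f, -, hs, -, -, -⟩ := exists_uniformization F
  exact exists_nsmul_eq_of_surjective f hs hn x

/-- Over `ℂ` there are `n ^ (2 g)` classes killed by `n`. -/
theorem natCard_torsion_complex {n : ℕ} (hn : n ≠ 0) :
    Nat.card {x : Pic0 ℂ F // n • x = 0} = n ^ (2 * genusFF ℂ F) := by
  obtain ⟨f, b, hs, hb, hker, -⟩ := exists_uniformization F
  exact natCard_torsion_of_lattice f hs b hb hker hn

end FLTAgent.Jacobian
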